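import Mathlib
import Fermat.Agent.Gateway.GoodRed.HurwitzGenus
import Fermat.Agent.Gateway.GoodRed.TLineHurwitz

/-!
# P-S48 layer (c), (R8): the genus does not drop under reduction (Hurwitz route)

Everything is stated for abstract function fields, so that it applies verbatim to the residue
field `kap = k(x̄, ē_i)` of the generic setting of `Red1` and to `F = L(x, e_i)`.

* `hurwitz_level4`, `hurwitz_level9` : for a function field `E` over an algebraically closed
  field `k` (`2 ≠ 0` resp. `3 ≠ 0` in `k`) containing `j` and a transcendental `t` with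
  `j Q(t) = P(t)` for the level-four (resp. level-nine) polynomials `P, Q`, with `E / k(j)`
  finite separable:
  `[E : k(j)] - 6 #{poles of j} ≤ 6 (2 g(E) - 2)`.
  (Hurwitz inequality for `E / k(t)`: the poles of `t` and the zeros of `t - a`, `a` a cusp value,
  are poles of `j`; `[E : k(j)] = 6 [E : k(t)]` resp. `12 [E : k(t)]`.)
* `hurwitz_of_x4k_mem`, `hurwitz_of_y9k_mem` : the same for an intermediate field
  `kap` of `k((q))` containing the Hauptmodul `x₄` resp. `y₉` (e.g. `Fk k M ≤ kap`).
* `genusFF_le_of_hurwitz` : the comparison.  If in characteristic zero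
  `6 (2 g(F) - 2) = [F : L(x)] - 6 #{poles of x}` (genus formula of a group without elliptic
  elements), `[F : L(x)] ≤ [kap : k(x̄)]` (full residue degree) and
  `#{poles of x̄} ≤ #{poles of x}` (reduction of cusp embeddings), then `g(F) ≤ g(kap)`.
* `genusFF_le_level4`, `genusFF_le_level9` : the two combined.
-/

set_option autoImplicit false
set_option linter.unusedSectionVars false
set_option linter.style.haveILetI false

noncomputable section

namespace Fermat.Agent.S48x.Red1.GenusLE1

open Polynomial AlgebraicCurve IntermediateField Module ModularCurve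
open Fermat.Agent.Gateway.GoodRed Fermat.Agent.Gateway.GoodRed.HurwitzIneq
open Fermat.Agent.Gateway.GoodRed.TLineHurwitz Fermat.Agent.Gateway.GoodRed.UpperBoundT

/-! ### The Hurwitz inequality over the `t`-line, levels four and nine -/

section Level4

variable {k : Type} [Field k] [IsAlgClosed k] (h2 : (2 : k) ≠ 0)
  {E : Type*} [Field E] [Algebra k E] (jE t : E) (htr : Transcendental k t)
  (hrel : jE * aeval t (TLine4.JQ k) = aeval t (TLine4.JP k))

include h2 hrel in
/-- the poles of `t` and the zeros of `t`, `t - 16` are poles of `j`. -/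
theorem poles_level4 (v : Place k E)
    (hv : v.ord t < 0 ∨ 0 < v.ord (t - algebraMap k E 0) ∨ 0 < v.ord (t - algebraMap k E 16)) :
    v.ord jE < 0 := by
  have h16 : (16 : k) ≠ 0 := TLine4.ne_zero_16 h2
  have h256 : (256 : k) ≠ 0 := TLine4.ne_zero_256 h2
  rcases hv with hv | hv | hv
  · exact ord_neg_of_ord_neg v hrel TLine4.natDegree_JQ_lt TLine4.JQ_ne_zero hv
  · refine ord_neg_of_root v hrel ?_ ?_ hv
    · simp [TLine4.JQ]
    · simp only [TLine4.JP, eval_pow, eval_add, eval_mul, eval_X, eval_ofNat]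
      have : (0 : k) ^ 2 + 224 * 0 + 256 = 256 := by norm_num
      rw [this]
      exact pow_ne_zero _ h256
  · refine ord_neg_of_root v hrel ?_ ?_ hv
    · simp [TLine4.JQ]
    · simp only [TLine4.JP, eval_pow, eval_add, eval_mul, eval_X, eval_ofNat]
      have : (16 : k) ^ 2 + 224 * 16 + 256 = 16 * 256 := by norm_num
      rw [this]
      exact pow_ne_zero _ (mul_ne_zero h16 h256)

include h2 htr hrel in
/-- `[E : k(j)] = 6 [E : k(t)]` at level four. -/
theorem finrank_level4 [FiniteDimensional k⟮jE⟯ E] [Algebra.IsSeparable k⟮jE⟯ E] :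
    finrank k⟮jE⟯ E = 6 * finrank k⟮t⟯ E := by
  have h4 : ((4 : ℕ) : k) ≠ 0 := by
    have : ((4 : ℕ) : k) = 2 * 2 := by norm_num
    rw [this]
    exact mul_ne_zero h2 h2
  obtain ⟨ζ, hζ⟩ := Fermat.Agent.S28.Tower.exists_primitiveRoot_unit (k := k) 4 h4
  have hζ' : IsPrimitiveRoot ζ (4 * 1) := by simpa using hζ
  letI := tAlgebra t htr
  haveI := isScalarTower_tAlgebra t htr
  have hj : jE * algebraMap (RatFunc k) E (algebraMap k[X] (RatFunc k) (TLine4.JQ k)) =
      algebraMap (RatFunc k) E (algebraMap k[X] (RatFunc k) (TLine4.JP k)) := by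
    show jE * tHom t htr _ = tHom t htr _
    rw [tHom_algebraMap, tHom_algebraMap]
    exact hrel
  have h := TLine4.finrank_adjoin_eq4 h2 1 ζ hζ' jE hj
  rw [finrank_tAlgebra t htr] at h
  exact h

include h2 htr hrel in
/-- **Hurwitz at level four**: `[E : k(j)] - 6 #{poles of j} ≤ 6 (2 g(E) - 2)`. -/
theorem hurwitz_level4 [FiniteDimensional k⟮jE⟯ E] [Algebra.IsSeparable k⟮jE⟯ E] :
    (finrank k⟮jE⟯ E : ℤ) - 6 * (Nat.card {v : Place k E // v.ord jE < 0} : ℤ) ≤
      6 * (2 * (genusFF k E : ℤ) - 2) := by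
  classical
  haveI := finiteDimensional_adjoin_t t htr hrel TLine4.JQ_ne_zero
  haveI := isSeparable_adjoin_t t htr hrel TLine4.JQ_ne_zero
  have h16 : (16 : k) ≠ 0 := TLine4.ne_zero_16 h2
  have hH := two_genusFF_sub_two_ge_of_card htr ({0, 16} : Finset k) jE
    (fun v hv => poles_level4 h2 jE t hrel v (by
      rcases hv with hv | ⟨a, ha, hv⟩
      · exact Or.inl hv
      · rw [Finset.mem_insert, Finset.mem_singleton] at ha
        rcases ha with rfl | rfl
        · exact Or.inr (Or.inl hv)
        · exact Or.inr (Or.inr hv))) le_rfl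
  rw [Finset.card_pair h16.symm] at hH
  have hdeg := finrank_level4 h2 jE t htr hrel
  push_cast at hH
  rw [hdeg]
  push_cast
  linarith

end Level4

section Level9

variable {k : Type} [Field k] [IsAlgClosed k] (h3 : (3 : k) ≠ 0)
  {E : Type*} [Field E] [Algebra k E] (jE t : E) (htr : Transcendental k t)
  (hrel : jE * aeval t (TLine9.JQ k) = aeval t (TLine9.JP k))

include h3 hrel in
/-- the poles of `t` and the zeros of `t - 3`, `t - 3ω`, `t - 3ω²` are poles of `j`. -/
theorem poles_level9 {w : k} (hw : w ^ 2 + w + 1 = 0) (v : Place k E)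
    (hv : v.ord t < 0 ∨ 0 < v.ord (t - algebraMap k E 3) ∨
      0 < v.ord (t - algebraMap k E (3 * w)) ∨ 0 < v.ord (t - algebraMap k E (3 * w ^ 2))) :
    v.ord jE < 0 := by
  have hw2 := TLine9.w_sq_root hw
  rcases hv with hv | hv | hv | hv
  · exact ord_neg_of_ord_neg v hrel TLine9.natDegree_JQ_lt TLine9.JQ_ne_zero hv
  · exact ord_neg_of_root v hrel eval_JQ9_three (eval_JP9_three h3) hv
  · exact ord_neg_of_root v hrel (eval_JQ9_omega hw) (eval_JP9_omega h3 hw) hv
  · exact ord_neg_of_root v hrel (eval_JQ9_omega hw2) (eval_JP9_omega h3 hw2) hv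

include h3 htr hrel in
/-- `[E : k(j)] = 12 [E : k(t)]` at level nine. -/
theorem finrank_level9 [FiniteDimensional k⟮jE⟯ E] [Algebra.IsSeparable k⟮jE⟯ E] :
    finrank k⟮jE⟯ E = 12 * finrank k⟮t⟯ E := by
  have h9 : ((9 : ℕ) : k) ≠ 0 := by
    have : ((9 : ℕ) : k) = 3 * 3 := by norm_num
    rw [this]
    exact mul_ne_zero h3 h3
  obtain ⟨w, hw⟩ := UpperBound9.exists_omega (k := k)
  obtain ⟨ζ, hζ⟩ := Fermat.Agent.S28.Tower.exists_primitiveRoot_unit (k := k) 9 h9
  have hζ' : IsPrimitiveRoot ζ (9 * 1) := by simpa using hζ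
  letI := tAlgebra t htr
  haveI := isScalarTower_tAlgebra t htr
  have hj : jE * algebraMap (RatFunc k) E (algebraMap k[X] (RatFunc k) (TLine9.JQ k)) =
      algebraMap (RatFunc k) E (algebraMap k[X] (RatFunc k) (TLine9.JP k)) := by
    show jE * tHom t htr _ = tHom t htr _
    rw [tHom_algebraMap, tHom_algebraMap]
    exact hrel
  have h := TLine9.finrank_adjoin_eq9 h3 hw 1 ζ hζ' jE hj
  rw [finrank_tAlgebra t htr] at h
  exact h

include h3 htr hrel in
/-- **Hurwitz at level nine**: `[E : k(j)] - 6 #{poles of j} ≤ 6 (2 g(E) - 2)`. -/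
theorem hurwitz_level9 [FiniteDimensional k⟮jE⟯ E] [Algebra.IsSeparable k⟮jE⟯ E] :
    (finrank k⟮jE⟯ E : ℤ) - 6 * (Nat.card {v : Place k E // v.ord jE < 0} : ℤ) ≤
      6 * (2 * (genusFF k E : ℤ) - 2) := by
  classical
  haveI := finiteDimensional_adjoin_t t htr hrel TLine9.JQ_ne_zero
  haveI := isSeparable_adjoin_t t htr hrel TLine9.JQ_ne_zero
  obtain ⟨w, hw⟩ := UpperBound9.exists_omega (k := k)
  have hcard : ({3, 3 * w, 3 * w ^ 2} : Finset k).card = 3 := by
    rw [Finset.card_insert_of_notMem, Finset.card_pair (TLine9.three_w_sq_ne_three_w h3 hw).symm]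
    rw [Finset.mem_insert, Finset.mem_singleton]
    rintro (h | h)
    · exact TLine9.three_w_ne_three h3 hw h.symm
    · exact TLine9.three_w_sq_ne_three h3 hw h.symm
  have hH := two_genusFF_sub_two_ge_of_card htr ({3, 3 * w, 3 * w ^ 2} : Finset k) jE
    (fun v hv => poles_level9 h3 jE t hrel hw v (by
      rcases hv with hv | ⟨a, ha, hv⟩
      · exact Or.inl hv
      · rw [Finset.mem_insert, Finset.mem_insert, Finset.mem_singleton] at ha
        rcases ha with rfl | rfl | rfl
        · exact Or.inr (Or.inl hv)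
        · exact Or.inr (Or.inr (Or.inl hv))
        · exact Or.inr (Or.inr (Or.inr hv)))) le_rfl
  rw [hcard] at hH
  have hdeg := finrank_level9 h3 jE t htr hrel
  push_cast at hH
  rw [hdeg]
  push_cast
  linarith

end Level9

/-! ### Intermediate fields of `k((q))` containing a Hauptmodul -/

section Series

variable {k : Type} [Field k] [IsAlgClosed k] (kap : IntermediateField k (LaurentSeries k))
  (xbar : kap) (hx : (xbar : LaurentSeries k) = jqModC k)

include hx in
/-- **Hurwitz for a field of Laurent series containing `x₄`.** -/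
theorem hurwitz_of_x4k_mem (h2 : (2 : k) ≠ 0) (ht : TLine4.x4k k ∈ kap)
    [FiniteDimensional k⟮xbar⟯ kap] [Algebra.IsSeparable k⟮xbar⟯ kap] :
    (finrank k⟮xbar⟯ kap : ℤ) - 6 * (Nat.card {v : Place k kap // v.ord xbar < 0} : ℤ) ≤
      6 * (2 * (genusFF k kap : ℤ) - 2) := by
  set t : kap := ⟨TLine4.x4k k, ht⟩ with htdef
  have htr : Transcendental k t := transcendental_of_coe t UpperBound4.transcendental_x4k rfl
  have hrel : xbar * aeval t (TLine4.JQ k) = aeval t (TLine4.JP k) := by
    apply rel_of_coe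
    rw [hx]
    exact TLine4.rel_inf
  exact hurwitz_level4 h2 xbar t htr hrel

include hx in
/-- **Hurwitz for a field of Laurent series containing `y₉`.** -/
theorem hurwitz_of_y9k_mem (h3 : (3 : k) ≠ 0) (ht : TLine9.y9k k ∈ kap)
    [FiniteDimensional k⟮xbar⟯ kap] [Algebra.IsSeparable k⟮xbar⟯ kap] :
    (finrank k⟮xbar⟯ kap : ℤ) - 6 * (Nat.card {v : Place k kap // v.ord xbar < 0} : ℤ) ≤
      6 * (2 * (genusFF k kap : ℤ) - 2) := by
  set t : kap := ⟨TLine9.y9k k, ht⟩ with htdef
  have htr : Transcendental k t := transcendental_of_coe t UpperBound9.transcendental_y9k rfl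
  have hrel : xbar * aeval t (TLine9.JQ k) = aeval t (TLine9.JP k) := by
    apply rel_of_coe
    rw [hx]
    exact TLine9.rel_inf
  exact hurwitz_level9 h3 xbar t htr hrel

end Series

/-! ### The comparison -/

section Compare

variable {L F : Type*} [Field L] [Field F] [Algebra L F]
  {k kap : Type*} [Field k] [Field kap] [Algebra k kap] (x : F) (xbar : kap)

/-- **The genus does not drop**: from the genus formula `12 (g - 1) = μ - 6 ν_∞` of the generic
fibre, the full residue degree, the bound on the cusps of the special fibre and the Hurwitz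
inequality of the special fibre. -/
theorem genusFF_le_of_hurwitz
    (hgen : 6 * (2 * (genusFF L F : ℤ) - 2) =
      (finrank L⟮x⟯ F : ℤ) - 6 * (Nat.card {v : Place L F // v.ord x < 0} : ℤ))
    (hfull : finrank L⟮x⟯ F ≤ finrank k⟮xbar⟯ kap)
    (hpoles : Nat.card {v : Place k kap // v.ord xbar < 0} ≤
      Nat.card {v : Place L F // v.ord x < 0})
    (hhur : (finrank k⟮xbar⟯ kap : ℤ) - 6 * (Nat.card {v : Place k kap // v.ord xbar < 0} : ℤ) ≤
      6 * (2 * (genusFF k kap : ℤ) - 2)) :
    genusFF L F ≤ genusFF k kap := by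
  have h1 : (finrank L⟮x⟯ F : ℤ) ≤ finrank k⟮xbar⟯ kap := by exact_mod_cast hfull
  have h2 : (Nat.card {v : Place k kap // v.ord xbar < 0} : ℤ) ≤
      Nat.card {v : Place L F // v.ord x < 0} := by exact_mod_cast hpoles
  have h3 : (genusFF L F : ℤ) ≤ genusFF k kap := by linarith
  exact_mod_cast h3

end Compare

section Combined

variable {L F : Type*} [Field L] [Field F] [Algebra L F]
  {k : Type} [Field k] [IsAlgClosed k] {kap : Type*} [Field kap] [Algebra k kap]
  (x : F) (xbar tbar : kap) (htr : Transcendental k tbar)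

include htr in
/-- **(R8) at a level divisible by four.** -/
theorem genusFF_le_level4 (h2 : (2 : k) ≠ 0)
    (hrel : xbar * aeval tbar (TLine4.JQ k) = aeval tbar (TLine4.JP k))
    [FiniteDimensional k⟮xbar⟯ kap] [Algebra.IsSeparable k⟮xbar⟯ kap]
    (hgen : 6 * (2 * (genusFF L F : ℤ) - 2) =
      (finrank L⟮x⟯ F : ℤ) - 6 * (Nat.card {v : Place L F // v.ord x < 0} : ℤ))
    (hfull : finrank L⟮x⟯ F ≤ finrank k⟮xbar⟯ kap)
    (hpoles : Nat.card {v : Place k kap // v.ord xbar < 0} ≤
      Nat.card {v : Place L F // v.ord x < 0}) :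
    genusFF L F ≤ genusFF k kap :=
  genusFF_le_of_hurwitz x xbar hgen hfull hpoles (hurwitz_level4 h2 xbar tbar htr hrel)

include htr in
/-- **(R8) at a level divisible by nine.** -/
theorem genusFF_le_level9 (h3 : (3 : k) ≠ 0)
    (hrel : xbar * aeval tbar (TLine9.JQ k) = aeval tbar (TLine9.JP k))
    [FiniteDimensional k⟮xbar⟯ kap] [Algebra.IsSeparable k⟮xbar⟯ kap]
    (hgen : 6 * (2 * (genusFF L F : ℤ) - 2) =
      (finrank L⟮x⟯ F : ℤ) - 6 * (Nat.card {v : Place L F // v.ord x < 0} : ℤ))
    (hfull : finrank L⟮x⟯ F ≤ finrank k⟮xbar⟯ kap)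
    (hpoles : Nat.card {v : Place k kap // v.ord xbar < 0} ≤
      Nat.card {v : Place L F // v.ord x < 0}) :
    genusFF L F ≤ genusFF k kap :=
  genusFF_le_of_hurwitz x xbar hgen hfull hpoles (hurwitz_level9 h3 xbar tbar htr hrel)

end Combined

end Fermat.Agent.S48x.Red1.GenusLE1
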