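import Mathlib

/-!
# P-S48, layer (c): `SL₂(ℤ/M)` is the normal closure of a transvection

* `normalClosure_upperU_one : Subgroup.normalClosure {upperU M 1} = ⊤` in `SL(2, ZMod M)`;
* `borel M` (upper triangular matrices) normalises `⟨upperU M 1⟩` (`borel_conj_mem_zpowers`).

These are the group-theoretic inputs of `Red1/DecompGroup.smul_eq_of_decomposition`.
-/

set_option autoImplicit false

open Matrix MatrixGroups

namespace Fermat.Agent.S48x.Red1

variable (M : ℕ)

/-- the upper unipotent matrix `(1 x; 0 1)`. -/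
def upperU (x : ZMod M) : SL(2, ZMod M) :=
  ⟨!![1, x; 0, 1], by simp [Matrix.det_fin_two_of]⟩

/-- the lower unipotent matrix `(1 0; x 1)`. -/
def lowerL (x : ZMod M) : SL(2, ZMod M) :=
  ⟨!![1, 0; x, 1], by simp [Matrix.det_fin_two_of]⟩

/-- the Weyl element `(0 -1; 1 0)`. -/
def weylS : SL(2, ZMod M) :=
  ⟨!![0, -1; 1, 0], by simp [Matrix.det_fin_two_of]⟩

variable {M}

theorem sl2_ext {g h : SL(2, ZMod M)} (h00 : g 0 0 = h 0 0) (h01 : g 0 1 = h 0 1)
    (h10 : g 1 0 = h 1 0) (h11 : g 1 1 = h 1 1) : g = h := by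
  apply Subtype.ext
  ext i j
  fin_cases i <;> fin_cases j <;> assumption

@[simp] theorem upperU_apply00 (x : ZMod M) : upperU M x 0 0 = 1 := rfl
@[simp] theorem upperU_apply01 (x : ZMod M) : upperU M x 0 1 = x := rfl
@[simp] theorem upperU_apply10 (x : ZMod M) : upperU M x 1 0 = 0 := rfl
@[simp] theorem upperU_apply11 (x : ZMod M) : upperU M x 1 1 = 1 := rfl
@[simp] theorem lowerL_apply00 (x : ZMod M) : lowerL M x 0 0 = 1 := rfl
@[simp] theorem lowerL_apply01 (x : ZMod M) : lowerL M x 0 1 = 0 := rfl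
@[simp] theorem lowerL_apply10 (x : ZMod M) : lowerL M x 1 0 = x := rfl
@[simp] theorem lowerL_apply11 (x : ZMod M) : lowerL M x 1 1 = 1 := rfl
@[simp] theorem weylS_apply00 : weylS M 0 0 = 0 := rfl
@[simp] theorem weylS_apply01 : weylS M 0 1 = -1 := rfl
@[simp] theorem weylS_apply10 : weylS M 1 0 = 1 := rfl
@[simp] theorem weylS_apply11 : weylS M 1 1 = 0 := rfl

theorem sl2_mul_apply (g h : SL(2, ZMod M)) (i j : Fin 2) :
    (g * h) i j = g i 0 * h 0 j + g i 1 * h 1 j := by
  rw [Matrix.SpecialLinearGroup.coe_mul, Matrix.mul_apply, Fin.sum_univ_two]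

theorem sl2_det (g : SL(2, ZMod M)) : g 0 0 * g 1 1 - g 0 1 * g 1 0 = 1 := by
  have := g.det_coe
  rwa [Matrix.det_fin_two] at this

theorem upperU_add (x y : ZMod M) : upperU M (x + y) = upperU M x * upperU M y := by
  apply sl2_ext <;> simp [sl2_mul_apply]
  ring

theorem upperU_zero : upperU M 0 = 1 := by
  apply sl2_ext <;> simp

theorem upperU_natCast (n : ℕ) : upperU M (n : ZMod M) = upperU M 1 ^ n := by
  induction n with
  | zero => simp [upperU_zero]
  | succ n ih => rw [Nat.cast_succ, upperU_add, ih, pow_succ]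

theorem upperU_mem_zpowers [NeZero M] (x : ZMod M) :
    upperU M x ∈ Subgroup.zpowers (upperU M 1) := by
  refine ⟨((x.val : ℕ) : ℤ), ?_⟩
  show upperU M 1 ^ ((x.val : ℕ) : ℤ) = upperU M x
  rw [zpow_natCast, ← upperU_natCast, ZMod.natCast_zmod_val]

theorem lowerL_eq_conj (x : ZMod M) :
    lowerL M x = weylS M * upperU M (-x) * (weylS M)⁻¹ := by
  rw [eq_mul_inv_iff_mul_eq]
  apply sl2_ext <;> simp [sl2_mul_apply]

theorem upperU_mem_normalClosure [NeZero M] (x : ZMod M) :
    upperU M x ∈ Subgroup.normalClosure {upperU M 1} := by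
  have h1 : Subgroup.zpowers (upperU M 1) ≤ Subgroup.normalClosure {upperU M 1} := by
    rw [Subgroup.zpowers_le]
    exact Subgroup.subset_normalClosure (Set.mem_singleton _)
  exact h1 (upperU_mem_zpowers x)

theorem lowerL_mem_normalClosure [NeZero M] (x : ZMod M) :
    lowerL M x ∈ Subgroup.normalClosure {upperU M 1} := by
  rw [lowerL_eq_conj]
  exact Subgroup.normalClosure_normal.conj_mem _ (upperU_mem_normalClosure _) _

/-- a matrix with invertible lower left entry is a product `U L U`. -/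
theorem eq_upper_lower_upper (g : SL(2, ZMod M)) (c' : ZMod M) (hc : g 1 0 * c' = 1) :
    g = upperU M ((g 0 0 - 1) * c') * lowerL M (g 1 0) * upperU M ((g 1 1 - 1) * c') := by
  have hdet := sl2_det g
  have hc' : c' * g 1 0 = 1 := by rw [mul_comm]; exact hc
  apply sl2_ext
  · simp only [sl2_mul_apply, upperU_apply00, upperU_apply01, upperU_apply10, upperU_apply11,
      lowerL_apply00, lowerL_apply01, lowerL_apply10, lowerL_apply11]
    linear_combination (-(g 0 0 - 1)) * hc'
  · simp only [sl2_mul_apply, upperU_apply00, upperU_apply01, upperU_apply10, upperU_apply11,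
      lowerL_apply00, lowerL_apply01, lowerL_apply10, lowerL_apply11]
    linear_combination (-(g 0 1) - (g 0 0 - 1) * (g 1 1 - 1) * c') * hc' - c' * hdet
  · simp [sl2_mul_apply]
  · simp only [sl2_mul_apply, upperU_apply00, upperU_apply01, upperU_apply10, upperU_apply11,
      lowerL_apply00, lowerL_apply01, lowerL_apply10, lowerL_apply11]
    linear_combination (-(g 1 1 - 1)) * hc

/-- **stable range one for `ℤ/M`**: a unimodular column `(a, c)` can be moved to one with
invertible second entry. -/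
theorem exists_unit_add_mul [NeZero M] (a b c d : ZMod M) (h : a * d - b * c = 1) :
    ∃ t c' : ZMod M, (c + t * a) * c' = 1 := by
  obtain ⟨n, hnM, hna, A, hbez0⟩ : ∃ n : ℕ, n ∣ M ∧ n ∣ a.val ∧
      ∃ A : ℤ, ((n : ℕ) : ZMod M) = a * (A : ZMod M) := by
    refine ⟨Nat.gcd a.val M, Nat.gcd_dvd_right _ _, Nat.gcd_dvd_left _ _, Nat.gcdA a.val M, ?_⟩
    have h3 := congrArg (Int.cast : ℤ → ZMod M) (Nat.gcd_eq_gcd_ab a.val M)
    push_cast at h3
    rw [ZMod.natCast_zmod_val, ZMod.natCast_self, zero_mul, add_zero] at h3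
    exact h3
  have hn0 : NeZero n := ⟨fun h0 => NeZero.ne M (by rw [h0] at hnM; exact zero_dvd_iff.mp hnM)⟩
  set φ := ZMod.castHom hnM (ZMod n) with hφ
  have ha : φ a = 0 := by
    rw [← ZMod.natCast_zmod_val a, map_natCast, ZMod.natCast_eq_zero_iff]
    exact hna
  have hc : IsUnit (φ c) := by
    have h1 := congrArg φ h
    rw [map_sub, map_mul, map_mul, ha, zero_mul, zero_sub, map_one] at h1
    refine IsUnit.of_mul_eq_one (-φ b) ?_
    rw [← h1]; ring
  obtain ⟨w, hw⟩ := ZMod.unitsMap_surjective hnM hc.unit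
  have hwc : φ ((w : ZMod M) - c) = 0 := by
    rw [map_sub, sub_eq_zero]
    have h2 := congrArg Units.val hw
    rw [ZMod.unitsMap_val, IsUnit.unit_spec] at h2
    rw [hφ, ZMod.castHom_apply]
    exact h2
  obtain ⟨k, hk⟩ : ∃ k : ZMod M, (w : ZMod M) - c = k * ((n : ℕ) : ZMod M) := by
    have h2 : φ ((w : ZMod M) - c) = 0 := hwc
    rw [← ZMod.natCast_zmod_val ((w : ZMod M) - c), map_natCast, ZMod.natCast_eq_zero_iff] at h2
    obtain ⟨k, hk⟩ := h2
    refine ⟨(k : ZMod M), ?_⟩
    rw [← ZMod.natCast_zmod_val ((w : ZMod M) - c), hk]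
    push_cast
    ring
  refine ⟨k * (A : ZMod M), ((w⁻¹ : (ZMod M)ˣ) : ZMod M), ?_⟩
  have h4 : c + k * (A : ZMod M) * a = (w : ZMod M) := by
    rw [mul_assoc, mul_comm _ a, ← hbez0, ← hk]
    ring
  rw [h4]
  exact w.mul_inv

/-- **`SL₂(ℤ/M)` is the normal closure of the transvection `(1 1; 0 1)`.** -/
theorem normalClosure_upperU_one [NeZero M] :
    Subgroup.normalClosure {upperU M 1} = ⊤ := by
  rw [eq_top_iff]
  intro g _
  obtain ⟨t, c', htc⟩ := exists_unit_add_mul (g 0 0) (g 0 1) (g 1 0) (g 1 1) (sl2_det g)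
  set N := Subgroup.normalClosure {upperU M 1} with hN
  -- `lowerL t * g` has invertible lower left entry
  have h10 : (lowerL M t * g) 1 0 = g 1 0 + t * g 0 0 := by
    simp [sl2_mul_apply]; ring
  have h1 : lowerL M t * g ∈ N := by
    rw [eq_upper_lower_upper (lowerL M t * g) c' (by rw [h10]; exact htc)]
    exact N.mul_mem (N.mul_mem (upperU_mem_normalClosure _) (lowerL_mem_normalClosure _))
      (upperU_mem_normalClosure _)
  have h2 : g = (lowerL M t)⁻¹ * (lowerL M t * g) := by group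
  rw [h2]
  exact N.mul_mem (N.inv_mem (lowerL_mem_normalClosure t)) h1

/-- the Borel subgroup of upper triangular matrices. -/
def borel (M : ℕ) : Subgroup SL(2, ZMod M) where
  carrier := {g | g 1 0 = 0}
  one_mem' := by simp
  mul_mem' := by
    intro g h hg hh
    simp only [Set.mem_ofPred_eq] at hg hh ⊢
    rw [sl2_mul_apply, hg, hh]
    ring
  inv_mem' := by
    intro g hg
    simp only [Set.mem_ofPred_eq] at hg ⊢
    rw [Matrix.SpecialLinearGroup.SL2_inv_expl]
    simp [hg]

theorem mem_borel_iff {g : SL(2, ZMod M)} : g ∈ borel M ↔ g 1 0 = 0 := Iff.rfl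

theorem upperU_mem_borel (x : ZMod M) : upperU M x ∈ borel M := rfl

/-- the Borel subgroup normalises the unipotent subgroup:
`b (1 1; 0 1) b⁻¹ = (1 a²; 0 1)` for `b = (a *; 0 a⁻¹)`. -/
theorem borel_conj_upperU {b : SL(2, ZMod M)} (hb : b ∈ borel M) :
    b * upperU M 1 * b⁻¹ = upperU M (b 0 0 ^ 2) := by
  rw [mul_inv_eq_iff_eq_mul]
  have h10 : b 1 0 = 0 := hb
  have hdet := sl2_det b
  rw [h10, mul_zero, sub_zero] at hdet
  apply sl2_ext
  · simp [sl2_mul_apply, h10]
  · simp only [sl2_mul_apply, upperU_apply00, upperU_apply01, upperU_apply10, upperU_apply11]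
    linear_combination (-(b 0 0)) * hdet
  · simp [sl2_mul_apply, h10]
  · simp [sl2_mul_apply, h10]

theorem borel_conj_mem_zpowers [NeZero M] {b : SL(2, ZMod M)} (hb : b ∈ borel M) :
    b * upperU M 1 * b⁻¹ ∈ Subgroup.zpowers (upperU M 1) := by
  rw [borel_conj_upperU hb]
  exact upperU_mem_zpowers _

end Fermat.Agent.S48x.Red1
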