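/-
P-S48, layer (c), (R6)-facing corollary of the full-level rigidity (RIG) (helper68).

`Red1/DecompGroup.card_le_finrank` / `exists_injective_hom` need

  `hfaith : ∀ g : G, (∀ r : R, g • r - r ∈ P) → g = 1`

for a group `G` acting on a ring `R` with a prime `P` (the kernel of the reduction).  Here this is
derived from (RIG) over the RESIDUE field (`Model/RigidityFinal`, helper43), in an abstract shape:

* `red : R →+* LaurentSeries k` any ring hom killing `P` (the coefficientwise reduction);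
* `mat : G → Matrix (Fin 2) (Fin 2) (ZMod M)` with `mat g * mat g⁻¹ = 1 = mat g⁻¹ * mat g`
  (`G → GL₂(ℤ/M)`, `G → SL₂(ℤ/M)`, a quotient of such a group, ...);
* `rA v w v' w' : R`, the integral ratio elements, with
  `red (rA v w v' w') = ratio M ζ v w v' w'` (`ζ` the REDUCED root of unity) and
  `g • rA v w v' w' = rA (v g) (w g) (v' g) (w' g)`,  both only required for
  `v, w ≠ 0`, `v', w' ≠ 0`, `v' ≠ ± w'` (where the ratio is a genuine modular function).

Conclusion: an element acting trivially on `R ⧸ P` has `mat g = ± 1`; hence `hfaith` as soon as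
`mat g = ± 1 → g = 1` (`G = SL₂(ℤ/M)/± 1` or a group embedded in it).
-/
import Mathlib
import Fermat.Agent.S48x.Model.RigidityFinal

set_option autoImplicit false
set_option linter.unusedSectionVars false

noncomputable section

namespace Fermat.Agent.S48x.Red1.FaithfulRig

open Fermat.Agent.S48x.Model Fermat.Agent.S48x.Model.Rigidity

variable {M : ℕ} [NeZero M] {k : Type*} [Field k] {ζ : k}

/-- the ratio with a degenerate denominator pair `v' = ± w'` is `0` (division by zero). -/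
theorem ratio_eq_zero_of_not_good (hζM : ζ ^ M = 1) (v w : Vec M) {v' w' : Vec M}
    (h : v' = w' ∨ v' = -w') : ratio M ζ v w v' w' = 0 := by
  unfold ratio
  rcases h with rfl | rfl
  · rw [sub_self, div_zero]
  · rw [Identities.eSeries_neg hζM, sub_self, div_zero]

/-- `FixesRatios` only needs to be checked on denominators `v', w'` with `v' ≠ ± w'`. -/
theorem fixesRatios_of_good (hζM : ζ ^ M = 1) {g : Matrix (Fin 2) (Fin 2) (ZMod M)}
    (H : ∀ v w v' w' : Vec M, v ≠ 0 → w ≠ 0 → Good v' w' →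
      ratio M ζ (vecAct g v) (vecAct g w) (vecAct g v') (vecAct g w') = ratio M ζ v w v' w') :
    FixesRatios ζ g := by
  intro v w v' w' hv hw hv' hw'
  by_cases h : v' = w' ∨ v' = -w'
  · rw [ratio_eq_zero_of_not_good hζM v w h]
    refine ratio_eq_zero_of_not_good hζM _ _ ?_
    rcases h with rfl | rfl
    · exact Or.inl rfl
    · exact Or.inr (vecAct_neg g w')
  · rw [not_or] at h
    exact H v w v' w' hv hw ⟨hv', hw', h.1, h.2⟩

section Abstract

variable {G R : Type*} [Group G] [CommRing R] [MulSemiringAction G R]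

/-- **(R6) faithfulness, matrix form.**  If `g` acts trivially modulo `P`, the reduction `red`
kills `P`, and `G` permutes the integral ratio elements `rA` through `mat`, then `mat g = ± 1`. -/
theorem mat_eq_one_or_neg_one (hζ : IsPrimitiveRoot ζ M) (hM : 5 ≤ M)
    (P : Ideal R) (red : R →+* LaurentSeries k) (hP : ∀ r ∈ P, red r = 0)
    (mat : G → Matrix (Fin 2) (Fin 2) (ZMod M))
    (rA : Vec M → Vec M → Vec M → Vec M → R)
    (hred : ∀ v w v' w' : Vec M, v ≠ 0 → w ≠ 0 → Good v' w' →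
      red (rA v w v' w') = ratio M ζ v w v' w')
    (hact : ∀ (g : G) (v w v' w' : Vec M), v ≠ 0 → w ≠ 0 → Good v' w' →
      g • rA v w v' w' =
        rA (vecAct (mat g) v) (vecAct (mat g) w) (vecAct (mat g) v') (vecAct (mat g) w'))
    (g : G) (h : Matrix (Fin 2) (Fin 2) (ZMod M)) (hgh : mat g * h = 1) (hhg : h * mat g = 1)
    (hg : ∀ r : R, g • r - r ∈ P) : mat g = 1 ∨ mat g = -1 := by
  refine eq_one_or_neg_one_of_fixesRatios' hζ hM hgh hhg
    (fixesRatios_of_good hζ.pow_eq_one fun v w v' w' hv hw hvw' => ?_)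
  have hne : ∀ u : Vec M, u ≠ 0 → vecAct (mat g) u ≠ 0 := fun u hu h0 =>
    hu (vecAct_injective hgh (h0.trans (vecAct_zero _).symm))
  have h1 := hP _ (hg (rA v w v' w'))
  rw [map_sub, sub_eq_zero, hact g v w v' w' hv hw hvw',
    hred _ _ _ _ (hne v hv) (hne w hw) (good_vecAct hgh hvw'), hred v w v' w' hv hw hvw'] at h1
  exact h1

/-- **(R6) faithfulness in the `hfaith` shape of `Red1/DecompGroup.card_le_finrank`**: `mat` a
monoid hom to `GL₂(ℤ/M)` whose fibre over `{± 1}` is trivial. -/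
theorem hfaith_GL (hζ : IsPrimitiveRoot ζ M) (hM : 5 ≤ M)
    (P : Ideal R) (red : R →+* LaurentSeries k) (hP : ∀ r ∈ P, red r = 0)
    (mat : G →* GL (Fin 2) (ZMod M))
    (hinj : ∀ g : G, mat g = 1 ∨ mat g = -1 → g = 1)
    (rA : Vec M → Vec M → Vec M → Vec M → R)
    (hred : ∀ v w v' w' : Vec M, v ≠ 0 → w ≠ 0 → Good v' w' →
      red (rA v w v' w') = ratio M ζ v w v' w')
    (hact : ∀ (g : G) (v w v' w' : Vec M), v ≠ 0 → w ≠ 0 → Good v' w' →
      g • rA v w v' w' =
        rA (vecAct (mat g : Matrix (Fin 2) (Fin 2) (ZMod M)) v)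
          (vecAct (mat g : Matrix (Fin 2) (Fin 2) (ZMod M)) w)
          (vecAct (mat g : Matrix (Fin 2) (Fin 2) (ZMod M)) v')
          (vecAct (mat g : Matrix (Fin 2) (Fin 2) (ZMod M)) w')) :
    ∀ g : G, (∀ r : R, g • r - r ∈ P) → g = 1 := by
  intro g hg
  refine hinj g ?_
  have hgh : ((mat g : GL (Fin 2) (ZMod M)) : Matrix (Fin 2) (Fin 2) (ZMod M)) *
      (((mat g)⁻¹ : GL (Fin 2) (ZMod M)) : Matrix (Fin 2) (Fin 2) (ZMod M)) = 1 := by
    rw [← Units.val_mul, mul_inv_cancel, Units.val_one]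
  have hhg : (((mat g)⁻¹ : GL (Fin 2) (ZMod M)) : Matrix (Fin 2) (Fin 2) (ZMod M)) *
      ((mat g : GL (Fin 2) (ZMod M)) : Matrix (Fin 2) (Fin 2) (ZMod M)) = 1 := by
    rw [← Units.val_mul, inv_mul_cancel, Units.val_one]
  rcases mat_eq_one_or_neg_one hζ hM P red hP
    (fun g => ((mat g : GL (Fin 2) (ZMod M)) : Matrix (Fin 2) (Fin 2) (ZMod M))) rA hred hact g _
    hgh hhg hg with h1 | h1
  · exact Or.inl (Units.ext h1)
  · exact Or.inr (Units.ext (by rw [h1]; simp))

/-- The same with `mat` a monoid hom to `SL₂(ℤ/M)`. -/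
theorem hfaith_SL (hζ : IsPrimitiveRoot ζ M) (hM : 5 ≤ M)
    (P : Ideal R) (red : R →+* LaurentSeries k) (hP : ∀ r ∈ P, red r = 0)
    (mat : G →* Matrix.SpecialLinearGroup (Fin 2) (ZMod M))
    (hinj : ∀ g : G, mat g = 1 ∨ mat g = -1 → g = 1)
    (rA : Vec M → Vec M → Vec M → Vec M → R)
    (hred : ∀ v w v' w' : Vec M, v ≠ 0 → w ≠ 0 → Good v' w' →
      red (rA v w v' w') = ratio M ζ v w v' w')
    (hact : ∀ (g : G) (v w v' w' : Vec M), v ≠ 0 → w ≠ 0 → Good v' w' →
      g • rA v w v' w' =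
        rA (vecAct (mat g : Matrix (Fin 2) (Fin 2) (ZMod M)) v)
          (vecAct (mat g : Matrix (Fin 2) (Fin 2) (ZMod M)) w)
          (vecAct (mat g : Matrix (Fin 2) (Fin 2) (ZMod M)) v')
          (vecAct (mat g : Matrix (Fin 2) (Fin 2) (ZMod M)) w')) :
    ∀ g : G, (∀ r : R, g • r - r ∈ P) → g = 1 := by
  intro g hg
  refine hinj g ?_
  have hgh : ((mat g : Matrix.SpecialLinearGroup (Fin 2) (ZMod M)) :
      Matrix (Fin 2) (Fin 2) (ZMod M)) *
      (((mat g)⁻¹ : Matrix.SpecialLinearGroup (Fin 2) (ZMod M)) :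
        Matrix (Fin 2) (Fin 2) (ZMod M)) = 1 := by
    rw [← Matrix.SpecialLinearGroup.coe_mul, mul_inv_cancel, Matrix.SpecialLinearGroup.coe_one]
  have hhg : (((mat g)⁻¹ : Matrix.SpecialLinearGroup (Fin 2) (ZMod M)) :
      Matrix (Fin 2) (Fin 2) (ZMod M)) *
      ((mat g : Matrix.SpecialLinearGroup (Fin 2) (ZMod M)) :
        Matrix (Fin 2) (Fin 2) (ZMod M)) = 1 := by
    rw [← Matrix.SpecialLinearGroup.coe_mul, inv_mul_cancel, Matrix.SpecialLinearGroup.coe_one]
  rcases mat_eq_one_or_neg_one hζ hM P red hP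
    (fun g => ((mat g : Matrix.SpecialLinearGroup (Fin 2) (ZMod M)) :
      Matrix (Fin 2) (Fin 2) (ZMod M))) rA hred hact g _ hgh hhg hg with h1 | h1
  · exact Or.inl (Subtype.ext h1)
  · exact Or.inr (Subtype.ext (by rw [h1]; simp))

end Abstract

end Fermat.Agent.S48x.Red1.FaithfulRig
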