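import Mathlib
import Fermat.Agent.Gateway.GoodRed.GaussAbstract

/-!
# P-S48, layer (c): the generic setting ("integrally generated field")

`L` a field with a valuation subring `A`, `π : A →+* k`.  An *integral generating datum*
`D : IntGen A ι` consists of a base coordinate `D.ξ : LaurentSeries A` (negative order, unit leading
coefficient; in the applications the expansion of `j`) and a family `D.e : ι → LaurentSeries A` of
`A`-integral Laurent series.  It generates

* `D.F : IntermediateField L (LaurentSeries L)`, the field `L(x, e_i)`, `x = embA ξ`;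
* `D.κ π : IntermediateField k (LaurentSeries k)`, the field `k(x̄, ē_i)` of the reductions.

`D.Full π` is the Igusa-type hypothesis: `F / L(x)` is finite and `[F : L(x)] ≤ [κ : k(x̄)]`.
All of layer (c) of P-S48 (design note `S48-DESIGN-Red1`) is written over this setting.
-/

set_option autoImplicit false

noncomputable section

namespace Fermat.Agent.S48x.Red1

open IntermediateField Fermat.Agent.Gateway.Red Fermat.Agent.Gateway.GoodRed

variable {L : Type*} [Field L] (A : ValuationSubring L) {k : Type*} [Field k] (π : A →+* k)

/-- An integral generating datum: a base coordinate and a family of `A`-integral Laurent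
series. -/
structure IntGen (ι : Type*) where
  /-- the base coordinate (expansion of `j`). -/
  ξ : LaurentSeries A
  hord : ξ.order < 0
  hlc : IsUnit ξ.leadingCoeff
  /-- the generators. -/
  e : ι → LaurentSeries A

namespace IntGen

variable {A} {ι : Type*} (D : IntGen A ι)

/-- the base coordinate as a Laurent series over `L`. -/
def x : LaurentSeries L := embA A D.ξ

/-- the generators as Laurent series over `L`. -/
def eL (i : ι) : LaurentSeries L := embA A (D.e i)

/-- the reduced base coordinate. -/
def xbar : LaurentSeries k := redA A π D.ξ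

/-- the reduced generators. -/
def ebar (i : ι) : LaurentSeries k := redA A π (D.e i)

/-- the field `L(x, e_i)`. -/
def F : IntermediateField L (LaurentSeries L) :=
  IntermediateField.adjoin L (insert D.x (Set.range D.eL))

/-- the field `k(x̄, ē_i)`. -/
def κ : IntermediateField k (LaurentSeries k) :=
  IntermediateField.adjoin k (insert (D.xbar π) (Set.range (D.ebar π)))

theorem x_mem : D.x ∈ D.F :=
  IntermediateField.subset_adjoin L _ (Set.mem_insert _ _)

theorem eL_mem (i : ι) : D.eL i ∈ D.F :=
  IntermediateField.subset_adjoin L _ (Set.mem_insert_of_mem _ (Set.mem_range_self i))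

theorem xbar_mem : D.xbar π ∈ D.κ π :=
  IntermediateField.subset_adjoin k _ (Set.mem_insert _ _)

theorem ebar_mem (i : ι) : D.ebar π i ∈ D.κ π :=
  IntermediateField.subset_adjoin k _ (Set.mem_insert_of_mem _ (Set.mem_range_self i))

/-- `x` as an element of `F`. -/
def xF : D.F := ⟨D.x, D.x_mem⟩

/-- `e_i` as an element of `F`. -/
def eF (i : ι) : D.F := ⟨D.eL i, D.eL_mem i⟩

/-- `x̄` as an element of `κ`. -/
def xκ : D.κ π := ⟨D.xbar π, D.xbar_mem π⟩

/-- `ē_i` as an element of `κ`. -/
def eκ (i : ι) : D.κ π := ⟨D.ebar π i, D.ebar_mem π i⟩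

@[simp] theorem coe_xF : ((D.xF : D.F) : LaurentSeries L) = embA A D.ξ := rfl
@[simp] theorem coe_eF (i : ι) : ((D.eF i : D.F) : LaurentSeries L) = embA A (D.e i) := rfl
@[simp] theorem coe_xκ : ((D.xκ π : D.κ π) : LaurentSeries k) = redA A π D.ξ := rfl
@[simp] theorem coe_eκ (i : ι) : ((D.eκ π i : D.κ π) : LaurentSeries k) = redA A π (D.e i) := rfl

/-- **Igusa-type hypothesis**: `F / L(x)` is finite and the residue degree is full. -/
def Full : Prop :=
  FiniteDimensional L⟮D.xF⟯ D.F ∧
    Module.finrank L⟮D.xF⟯ D.F ≤ Module.finrank k⟮D.xκ π⟯ (D.κ π)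

/-- the generic form of (Hnorm): every nonzero element of `F` is a constant times an element of
the Gauss ring with nonzero reduction. -/
def Normalisable : Prop :=
  ∀ f : D.F, f ≠ 0 → ∃ c : L, c ≠ 0 ∧ ∃ h : HahnSeries.C c * (f : LaurentSeries L) ∈ gaussRing A π,
    gaussRed A π ⟨_, h⟩ ≠ 0

end IntGen

end Fermat.Agent.S48x.Red1
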