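import Mathlib
import Fermat.Agent.S48x.Red1.Setting
import Fermat.Agent.Gateway.GoodRed.GaussRing
import Fermat.Agent.Gateway.GoodRed.ConjFamily.Units
import Fermat.Agent.S48x.Model.Series
import Fermat.Agent.S48x.Model.SeriesLemmas

/-!
# P-S48, layer (c), first slice of (R9): the `IntGen` data of the model

The fields `Model.fullField M ζ` (function field of `X(M)`) and `Model.gamma1FieldC M ζ` (function
field of `X₁(M)`) of `Model/Series.lean` are *integrally generated* in the sense of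
`Red1/Setting.lean` at every valuation subring `A` of `L` whose residue characteristic does not
divide `M`:

* `eR M ζ v : LaurentSeries B` : the Weber–Tate series `e_v` over any commutative ring `B` in which
  the `1 - ζ^b` (`b ≠ 0`) are units; `coeffMap_eR` : every ring homomorphism to a field maps it to
  `Model.eSeries`;
* `isUnit_eA_sub` : for `v, w ≠ 0`, `v ≠ ± w` the difference `e_v - e_w` is a unit of `A((z))`;
* `ratioA`, `ratio1A` : the ratio generators as `A`-integral Laurent series;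
* `fullIntGen`, `gamma1IntGen` : the data `IntGen A _`, with
  `fullIntGen_F : F = Model.fullField M ζ`, `fullIntGen_κ : κ = Model.fullField M (π ζ)`, and the
  same for `gamma1FieldC`.
-/

set_option autoImplicit false
set_option linter.unusedSectionVars false

noncomputable section

namespace Fermat.Agent.S48x.Red1.ModelInt

open ModularCurve Fermat.Agent.Gateway.Red Fermat.Agent.Gateway.GoodRed Fermat.Agent.S48x.Model
open Fermat.Agent.Gateway.GoodRed.GaussRing

/-! ### The series over a commutative ring -/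

section Generic

variable {B : Type*} [CommRing B] (M : ℕ) [NeZero M]

/-- the constant term `ζ^b / (1 - ζ^b)²` over a commutative ring (`0` if `1 - ζ^b` is not a
unit). -/
def c0R (ζ : B) (b : ZMod M) : B := ζ ^ b.val * Ring.inverse (1 - ζ ^ b.val) ^ 2

/-- `Model.eCoeff` over a commutative ring. -/
def eCoeffR (ζ : B) (v : Vec M) (m : ℕ) : B :=
  if m = 0 then (if v.1 = 0 then c0R M ζ v.2 else 0)
  else ∑ x ∈ m.divisorsAntidiagonal,
    (x.1 : B) * ((if ((x.2 : ℕ) : ZMod M) = v.1 then ζ ^ (v.2.val * x.1) else 0) +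
      (if ((x.2 : ℕ) : ZMod M) = -v.1 then ζ ^ ((-v.2).val * x.1) else 0))

/-- `Model.eSeries` over a commutative ring. -/
def eR (ζ : B) (v : Vec M) : LaurentSeries B :=
  HahnSeries.ofPowerSeries ℤ B (PowerSeries.mk (eCoeffR M ζ v))

/-- `Model.e1Coeff` over a commutative ring. -/
def e1CoeffR (ζ : B) (b : ZMod M) (n : ℕ) : B :=
  if n = 0 then c0R M ζ b
  else ∑ x ∈ n.divisorsAntidiagonal, (x.1 : B) * (ζ ^ (b.val * x.1) + ζ ^ ((-b).val * x.1))

/-- `Model.e1Series` over a commutative ring. -/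
def e1R (ζ : B) (b : ZMod M) : LaurentSeries B :=
  HahnSeries.ofPowerSeries ℤ B (PowerSeries.mk (e1CoeffR M ζ b))

/-- the hypothesis "all `1 - ζ^b`, `b ≠ 0`, are units". -/
def UnitHyp (ζ : B) : Prop := ∀ b : ZMod M, b ≠ 0 → IsUnit (1 - ζ ^ b.val)

variable {M}

theorem map_c0R {K : Type*} [Field K] (φ : B →+* K) {ζ : B} (hu : UnitHyp M ζ) (b : ZMod M) :
    φ (c0R M ζ b) = φ ζ ^ b.val / (1 - φ ζ ^ b.val) ^ 2 := by
  unfold c0R
  by_cases hb : b = 0
  · subst hb
    simp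
  · obtain ⟨u, hu'⟩ := hu b hb
    rw [← hu', Ring.inverse_unit, map_mul, map_pow, map_pow, map_units_inv, div_eq_mul_inv,
      inv_pow, hu', map_sub, map_one, map_pow]

theorem map_eCoeffR {K : Type*} [Field K] (φ : B →+* K) {ζ : B} (hu : UnitHyp M ζ) (v : Vec M)
    (m : ℕ) : φ (eCoeffR M ζ v m) = eCoeff M (φ ζ) v m := by
  unfold eCoeffR eCoeff
  split_ifs with h1 h2
  · exact map_c0R φ hu v.2
  · exact map_zero φ
  · rw [map_sum]
    refine Finset.sum_congr rfl fun x _ => ?_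
    rw [map_mul, map_add, map_natCast]
    congr 2
    · split_ifs <;> simp
    · split_ifs <;> simp

theorem map_e1CoeffR {K : Type*} [Field K] (φ : B →+* K) {ζ : B} (hu : UnitHyp M ζ) (b : ZMod M)
    (n : ℕ) : φ (e1CoeffR M ζ b n) = e1Coeff M (φ ζ) b n := by
  unfold e1CoeffR e1Coeff
  split_ifs with h1
  · exact map_c0R φ hu b
  · rw [map_sum]
    refine Finset.sum_congr rfl fun x _ => ?_
    simp

theorem coeffMap_eR {K : Type*} [Field K] (φ : B →+* K) {ζ : B} (hu : UnitHyp M ζ) (v : Vec M) :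
    coeffMap φ (eR M ζ v) = eSeries M (φ ζ) v := by
  rw [eR, coeffMap_ofPowerSeries, eSeries]
  congr 1
  ext m
  rw [PowerSeries.coeff_map, ePow, PowerSeries.coeff_mk, PowerSeries.coeff_mk, map_eCoeffR φ hu]

theorem coeffMap_e1R {K : Type*} [Field K] (φ : B →+* K) {ζ : B} (hu : UnitHyp M ζ)
    (b : ZMod M) : coeffMap φ (e1R M ζ b) = e1Series M (φ ζ) b := by
  rw [e1R, coeffMap_ofPowerSeries, e1Series]
  congr 1
  ext m
  rw [PowerSeries.coeff_map, e1Pow, PowerSeries.coeff_mk, PowerSeries.coeff_mk,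
    map_e1CoeffR φ hu]

theorem eR_coeff_natCast (ζ : B) (v : Vec M) (m : ℕ) :
    (eR M ζ v).coeff (m : ℤ) = eCoeffR M ζ v m := by
  rw [eR, HahnSeries.ofPowerSeries_apply_coeff, PowerSeries.coeff_mk]

theorem eR_coeff_of_neg (ζ : B) (v : Vec M) {n : ℤ} (hn : n < 0) : (eR M ζ v).coeff n = 0 :=
  ofPowerSeries_coeff_of_neg _ hn

theorem e1R_coeff_natCast (ζ : B) (b : ZMod M) (m : ℕ) :
    (e1R M ζ b).coeff (m : ℤ) = e1CoeffR M ζ b m := by
  rw [e1R, HahnSeries.ofPowerSeries_apply_coeff, PowerSeries.coeff_mk]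

theorem e1R_coeff_of_neg (ζ : B) (b : ZMod M) {n : ℤ} (hn : n < 0) : (e1R M ζ b).coeff n = 0 :=
  ofPowerSeries_coeff_of_neg _ hn

end Generic

/-! ### Roots of unity in a valuation subring of residue characteristic prime to `M` -/

section Val

variable {L : Type*} [Field L] (A : ValuationSubring L) {k : Type*} [Field k] (π : A →+* k)
variable {M : ℕ} [NeZero M]

/-- roots of unity are integral. -/
theorem mem_of_pow_eq_one {ζ : L} (h : ζ ^ M = 1) : ζ ∈ A := by
  rcases A.mem_or_inv_mem ζ with h1 | h1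
  · exact h1
  · have hM : M = (M - 1) + 1 := (Nat.succ_pred_eq_of_pos (NeZero.pos M)).symm
    have hζ0 : ζ ≠ 0 := by
      rintro rfl
      rw [zero_pow (NeZero.ne M)] at h
      exact zero_ne_one h
    have : ζ = ζ⁻¹ ^ (M - 1) := by
      rw [inv_pow]
      refine eq_inv_of_mul_eq_one_left ?_
      rw [← pow_succ', ← hM, h]
    rw [this]
    exact pow_mem h1 _

theorem isUnit_natCast_of_pi_ne_zero (hπ : Function.Surjective π) (hMk : ((M : ℕ) : k) ≠ 0) :
    IsUnit ((M : ℕ) : A) := by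
  rw [← pi_ne_zero_iff_isUnit hπ, map_natCast]
  exact hMk

theorem unitHyp_of_isUnit_natCast {ζ : A} (hζ : IsPrimitiveRoot ζ M)
    (hM : IsUnit ((M : ℕ) : A)) : UnitHyp M ζ := by
  intro b hb
  have hζu : IsUnit ζ := IsUnit.of_pow_eq_one hζ.pow_eq_one (NeZero.ne M)
  have hval0 : b.val ≠ 0 := fun h => hb ((ZMod.val_eq_zero b).mp h)
  have hvalM : b.val < M := ZMod.val_lt b
  have h1 : (hζu.unit ^ b.val) ^ M = 1 := by
    apply Units.ext
    rw [Units.val_pow_eq_pow_val, Units.val_pow_eq_pow_val, IsUnit.unit_spec, Units.val_one,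
      ← pow_mul, mul_comm, pow_mul, hζ.pow_eq_one, one_pow]
  have h2 : hζu.unit ^ b.val ≠ 1 := by
    intro h
    have h3 := congrArg Units.val h
    rw [Units.val_pow_eq_pow_val, IsUnit.unit_spec, Units.val_one] at h3
    exact hζ.pow_ne_one_of_pos_of_lt hval0 hvalM h3
  have := ConjFamily.isUnit_one_sub_of_pow_eq_one hM (hζu.unit ^ b.val) h1 h2
  rwa [Units.val_pow_eq_pow_val, IsUnit.unit_spec] at this

theorem unitHyp (hπ : Function.Surjective π) {ζ : A} (hζ : IsPrimitiveRoot ζ M)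
    (hMk : ((M : ℕ) : k) ≠ 0) : UnitHyp M ζ :=
  unitHyp_of_isUnit_natCast A hζ (isUnit_natCast_of_pi_ne_zero A π hπ hMk)

/-- the reduction of a primitive `M`-th root of unity is primitive when `M ≠ 0` in `k`. -/
theorem isPrimitiveRoot_pi (hπ : Function.Surjective π) {ζ : A} (hζ : IsPrimitiveRoot ζ M)
    (hMk : ((M : ℕ) : k) ≠ 0) : IsPrimitiveRoot (π ζ) M := by
  refine IsPrimitiveRoot.mk_of_lt (π ζ) (NeZero.pos M) ?_ ?_
  · rw [← map_pow, hζ.pow_eq_one, map_one]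
  · intro l hl hlM h
    have hu := unitHyp A π hπ hζ hMk (l : ZMod M) (by
      intro h0
      rw [ZMod.natCast_eq_zero_iff] at h0
      exact absurd (Nat.le_of_dvd hl h0) (not_le.mpr hlM))
    rw [ZMod.val_natCast_of_lt hlM] at hu
    have := pi_ne_zero_of_isUnit (π := π) hu
    rw [map_sub, map_one, map_pow, h, sub_self] at this
    exact this rfl

theorem isPrimitiveRoot_coe {ζ : A} (hζ : IsPrimitiveRoot ζ M) :
    IsPrimitiveRoot ((ζ : A) : L) M :=
  hζ.map_of_injective (f := A.subtype) Subtype.coe_injective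

theorem isPrimitiveRoot_of_coe {ζ : A} (hζ : IsPrimitiveRoot ((ζ : A) : L) M) :
    IsPrimitiveRoot ζ M :=
  IsPrimitiveRoot.of_map_of_injective (f := A.subtype) hζ Subtype.coe_injective

end Val

/-! ### Integral forms of the series, unit differences, integral ratios -/

section Units

variable {L : Type*} [Field L] {A : ValuationSubring L} {k : Type*} [Field k] {π : A →+* k}
variable {M : ℕ} [NeZero M]

theorem embA_eR {ζ : A} (hu : UnitHyp M ζ) (v : Vec M) :
    embA A (eR M ζ v) = eSeries M ((ζ : A) : L) v :=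
  coeffMap_eR A.subtype hu v

theorem redA_eR {ζ : A} (hu : UnitHyp M ζ) (v : Vec M) :
    redA A π (eR M ζ v) = eSeries M (π ζ) v :=
  coeffMap_eR π hu v

theorem embA_e1R {ζ : A} (hu : UnitHyp M ζ) (b : ZMod M) :
    embA A (e1R M ζ b) = e1Series M ((ζ : A) : L) b :=
  coeffMap_e1R A.subtype hu b

theorem redA_e1R {ζ : A} (hu : UnitHyp M ζ) (b : ZMod M) :
    redA A π (e1R M ζ b) = e1Series M (π ζ) b :=
  coeffMap_e1R π hu b

/-- `e_(-v) = e_v` over `A`. -/
theorem eR_neg {ζ : A} (hζ : IsPrimitiveRoot ζ M) (hu : UnitHyp M ζ) (v : Vec M) :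
    eR M ζ (-v) = eR M ζ v := by
  apply embA_injective A
  rw [embA_eR hu, embA_eR hu]
  exact Identities.eSeries_neg (isPrimitiveRoot_coe A hζ).pow_eq_one v

theorem e1R_neg {ζ : A} (hζ : IsPrimitiveRoot ζ M) (hu : UnitHyp M ζ) (b : ZMod M) :
    e1R M ζ (-b) = e1R M ζ b := by
  apply embA_injective A
  rw [embA_e1R hu, embA_e1R hu]
  exact Identities.e1Series_neg (isPrimitiveRoot_coe A hζ).pow_eq_one b

/-- **unit lowest coefficient** of `e_v - e_w`, `v, w ≠ 0`, `v ≠ ± w`. -/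
theorem isUnit_leadingCoeff_eR_sub (hπ : Function.Surjective π) {ζ : A}
    (hζ : IsPrimitiveRoot ζ M) (hMk : ((M : ℕ) : k) ≠ 0) {v w : Vec M} (hv : v ≠ 0) (hw : w ≠ 0)
    (hne : v ≠ w) (hne' : v ≠ -w) : IsUnit (eR M ζ v - eR M ζ w).leadingCoeff := by
  have hu := unitHyp A π hπ hζ hMk
  obtain ⟨hlow, -⟩ := SL.eCoeff_lowest (isPrimitiveRoot_coe A hζ) hv hw hne hne'
  obtain ⟨-, hnek⟩ := SL.eCoeff_lowest (isPrimitiveRoot_pi A π hπ hζ hMk) hv hw hne hne'
  set n : ℕ := min (AC.absv v.1) (AC.absv w.1) with hn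
  have hzero : ∀ (u : Vec M) (m : ℕ), eCoeff M ((ζ : A) : L) u m = 0 → eCoeffR M ζ u m = 0 := by
    intro u m h
    have h1 : ((eCoeffR M ζ u m : A) : L) = eCoeff M ((ζ : A) : L) u m :=
      map_eCoeffR A.subtype hu u m
    rw [h] at h1
    exact_mod_cast h1
  have hlt : ∀ m : ℤ, m < (n : ℤ) → (eR M ζ v - eR M ζ w).coeff m = 0 := by
    intro m hm
    rw [HahnSeries.coeff_sub]
    rcases lt_or_ge m 0 with h0 | h0
    · rw [eR_coeff_of_neg ζ v h0, eR_coeff_of_neg ζ w h0, sub_zero]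
    · lift m to ℕ using h0
      have hm' : m < n := by exact_mod_cast hm
      rw [eR_coeff_natCast, eR_coeff_natCast, hzero v m (hlow m hm').1,
        hzero w m (hlow m hm').2, sub_zero]
  have hcoeff : IsUnit ((eR M ζ v - eR M ζ w).coeff (n : ℤ)) := by
    rw [← pi_ne_zero_iff_isUnit hπ, HahnSeries.coeff_sub, eR_coeff_natCast, eR_coeff_natCast,
      map_sub, map_eCoeffR π hu, map_eCoeffR π hu]
    exact sub_ne_zero.mpr hnek
  rw [(ConjFamily.order_eq_of_coeff hcoeff.ne_zero hlt).2]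
  exact hcoeff

theorem isUnit_eR_sub (hπ : Function.Surjective π) {ζ : A}
    (hζ : IsPrimitiveRoot ζ M) (hMk : ((M : ℕ) : k) ≠ 0) {v w : Vec M} (hv : v ≠ 0) (hw : w ≠ 0)
    (hne : v ≠ w) (hne' : v ≠ -w) : IsUnit (eR M ζ v - eR M ζ w) :=
  isUnit_of_isUnit_leadingCoeff A (isUnit_leadingCoeff_eR_sub hπ hζ hMk hv hw hne hne')

/-- **unit lowest coefficient** of `e1_b - e1_c`, `b, c ≠ 0`, `b ≠ ± c`. -/
theorem isUnit_leadingCoeff_e1R_sub (hπ : Function.Surjective π) {ζ : A}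
    (hζ : IsPrimitiveRoot ζ M) (hMk : ((M : ℕ) : k) ≠ 0) {b c : ZMod M} (hb : b ≠ 0) (hc : c ≠ 0)
    (hne : b ≠ c) (hne' : b ≠ -c) : IsUnit (e1R M ζ b - e1R M ζ c).leadingCoeff := by
  have hu := unitHyp A π hπ hζ hMk
  have hnek := SL.e1Coeff_zero_ne (isPrimitiveRoot_pi A π hπ hζ hMk) hb hc hne hne'
  have hlt : ∀ m : ℤ, m < ((0 : ℕ) : ℤ) → (e1R M ζ b - e1R M ζ c).coeff m = 0 := by
    intro m hm
    have h0 : m < 0 := by exact_mod_cast hm
    rw [HahnSeries.coeff_sub, e1R_coeff_of_neg ζ b h0, e1R_coeff_of_neg ζ c h0, sub_zero]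
  have hcoeff : IsUnit ((e1R M ζ b - e1R M ζ c).coeff ((0 : ℕ) : ℤ)) := by
    rw [← pi_ne_zero_iff_isUnit hπ, HahnSeries.coeff_sub, e1R_coeff_natCast, e1R_coeff_natCast,
      map_sub, map_e1CoeffR π hu, map_e1CoeffR π hu]
    exact sub_ne_zero.mpr hnek
  rw [(ConjFamily.order_eq_of_coeff hcoeff.ne_zero hlt).2]
  exact hcoeff

theorem isUnit_e1R_sub (hπ : Function.Surjective π) {ζ : A}
    (hζ : IsPrimitiveRoot ζ M) (hMk : ((M : ℕ) : k) ≠ 0) {b c : ZMod M} (hb : b ≠ 0) (hc : c ≠ 0)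
    (hne : b ≠ c) (hne' : b ≠ -c) : IsUnit (e1R M ζ b - e1R M ζ c) :=
  isUnit_of_isUnit_leadingCoeff A (isUnit_leadingCoeff_e1R_sub hπ hζ hMk hb hc hne hne')

/-- a difference `e_v - e_w` with `v, w ≠ 0` is a unit of `A((z))` or zero. -/
theorem isUnit_or_eq_zero_eR_sub (hπ : Function.Surjective π) {ζ : A}
    (hζ : IsPrimitiveRoot ζ M) (hMk : ((M : ℕ) : k) ≠ 0) {v w : Vec M} (hv : v ≠ 0)
    (hw : w ≠ 0) : IsUnit (eR M ζ v - eR M ζ w) ∨ eR M ζ v - eR M ζ w = 0 := by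
  by_cases hne : v = w
  · right; rw [hne, sub_self]
  by_cases hne' : v = -w
  · right; rw [hne', eR_neg hζ (unitHyp A π hπ hζ hMk), sub_self]
  · exact Or.inl (isUnit_eR_sub hπ hζ hMk hv hw hne hne')

theorem isUnit_or_eq_zero_e1R_sub (hπ : Function.Surjective π) {ζ : A}
    (hζ : IsPrimitiveRoot ζ M) (hMk : ((M : ℕ) : k) ≠ 0) {b c : ZMod M} (hb : b ≠ 0)
    (hc : c ≠ 0) : IsUnit (e1R M ζ b - e1R M ζ c) ∨ e1R M ζ b - e1R M ζ c = 0 := by
  by_cases hne : b = c
  · right; rw [hne, sub_self]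
  by_cases hne' : b = -c
  · right; rw [hne', e1R_neg hζ (unitHyp A π hπ hζ hMk), sub_self]
  · exact Or.inl (isUnit_e1R_sub hπ hζ hMk hb hc hne hne')

/-- ring homomorphisms to a field commute with `Ring.inverse` on units and on zero. -/
theorem map_ringInverse {S K : Type*} [CommRing S] [Field K] (φ : S →+* K) {x : S}
    (hx : IsUnit x ∨ x = 0) : φ (Ring.inverse x) = (φ x)⁻¹ := by
  rcases hx with hx | rfl
  · obtain ⟨u, rfl⟩ := hx
    rw [Ring.inverse_unit, map_units_inv]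
  · rw [Ring.inverse_zero, map_zero, inv_zero]

/-- the ratio generator `(e_v - e_w)/(e_v' - e_w')` as a Laurent series over `A`. -/
def ratioA (M : ℕ) [NeZero M] (ζ : A) (v w v' w' : Vec M) : LaurentSeries A :=
  (eR M ζ v - eR M ζ w) * Ring.inverse (eR M ζ v' - eR M ζ w')

/-- the ratio generator `(e1_b - e1_c)/(e1_b' - e1_c')` as a Laurent series over `A`. -/
def ratio1A (M : ℕ) [NeZero M] (ζ : A) (b c b' c' : ZMod M) : LaurentSeries A :=
  (e1R M ζ b - e1R M ζ c) * Ring.inverse (e1R M ζ b' - e1R M ζ c')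

theorem embA_ratioA (hπ : Function.Surjective π) {ζ : A} (hζ : IsPrimitiveRoot ζ M)
    (hMk : ((M : ℕ) : k) ≠ 0) (v w : Vec M) {v' w' : Vec M} (hv' : v' ≠ 0) (hw' : w' ≠ 0) :
    embA A (ratioA M ζ v w v' w') = ratio M ((ζ : A) : L) v w v' w' := by
  have hu := unitHyp A π hπ hζ hMk
  rw [ratioA, map_mul, map_ringInverse _ (isUnit_or_eq_zero_eR_sub hπ hζ hMk hv' hw'), map_sub,
    map_sub, embA_eR hu, embA_eR hu, embA_eR hu, embA_eR hu, ratio, div_eq_mul_inv]

theorem redA_ratioA (hπ : Function.Surjective π) {ζ : A} (hζ : IsPrimitiveRoot ζ M)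
    (hMk : ((M : ℕ) : k) ≠ 0) (v w : Vec M) {v' w' : Vec M} (hv' : v' ≠ 0) (hw' : w' ≠ 0) :
    redA A π (ratioA M ζ v w v' w') = ratio M (π ζ) v w v' w' := by
  have hu := unitHyp A π hπ hζ hMk
  rw [ratioA, map_mul, map_ringInverse _ (isUnit_or_eq_zero_eR_sub hπ hζ hMk hv' hw'), map_sub,
    map_sub, redA_eR hu, redA_eR hu, redA_eR hu, redA_eR hu, ratio, div_eq_mul_inv]

theorem embA_ratio1A (hπ : Function.Surjective π) {ζ : A} (hζ : IsPrimitiveRoot ζ M)
    (hMk : ((M : ℕ) : k) ≠ 0) (b c : ZMod M) {b' c' : ZMod M} (hb' : b' ≠ 0) (hc' : c' ≠ 0) :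
    embA A (ratio1A M ζ b c b' c') = ratio1 M ((ζ : A) : L) b c b' c' := by
  have hu := unitHyp A π hπ hζ hMk
  rw [ratio1A, map_mul, map_ringInverse _ (isUnit_or_eq_zero_e1R_sub hπ hζ hMk hb' hc'),
    map_sub, map_sub, embA_e1R hu, embA_e1R hu, embA_e1R hu, embA_e1R hu, ratio1, div_eq_mul_inv]

theorem redA_ratio1A (hπ : Function.Surjective π) {ζ : A} (hζ : IsPrimitiveRoot ζ M)
    (hMk : ((M : ℕ) : k) ≠ 0) (b c : ZMod M) {b' c' : ZMod M} (hb' : b' ≠ 0) (hc' : c' ≠ 0) :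
    redA A π (ratio1A M ζ b c b' c') = ratio1 M (π ζ) b c b' c' := by
  have hu := unitHyp A π hπ hζ hMk
  rw [ratio1A, map_mul, map_ringInverse _ (isUnit_or_eq_zero_e1R_sub hπ hζ hMk hb' hc'),
    map_sub, map_sub, redA_e1R hu, redA_e1R hu, redA_e1R hu, redA_e1R hu, ratio1, div_eq_mul_inv]

end Units

/-! ### The `IntGen` data -/

section Data

variable {L : Type*} [Field L] (A : ValuationSubring L) {k : Type*} [Field k] (π : A →+* k)
variable (M : ℕ) [NeZero M]

theorem neZero_of_mem_divisors {d : ℕ} (hd : d ∈ M.divisors) : NeZero d :=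
  ⟨fun h => by rw [h] at hd; simp at hd⟩

/-- `j(u^n)` over `A`. -/
def jA (n : ℕ) [NeZero n] : LaurentSeries A := qExpand A n (jqModC A)

theorem embA_jA (n : ℕ) [NeZero n] : embA A (jA A n) = qExpand L n (jqModC L) := by
  rw [jA, embA, coeffMap_qExpand, coeffMap_jqModC]

theorem redA_jA (n : ℕ) [NeZero n] : redA A π (jA A n) = qExpand k n (jqModC k) := by
  rw [jA, redA, coeffMap_qExpand, coeffMap_jqModC]

theorem order_jA (n : ℕ) [NeZero n] : (jA A n).order = -(n : ℤ) := by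
  rw [jA, Fermat.Agent.S28.qExpand_order, Fermat.Agent.S28.jqModC_order, mul_neg, mul_one]

theorem order_jA_neg (n : ℕ) [NeZero n] : (jA A n).order < 0 := by
  rw [order_jA, neg_lt_zero]
  exact_mod_cast NeZero.pos n

theorem leadingCoeff_jA (n : ℕ) [NeZero n] : (jA A n).leadingCoeff = 1 := by
  rw [HahnSeries.leadingCoeff_eq, order_jA, jA]
  have h := qExpand_coeff_mul (R := A) n (jqModC A) (-1)
  rw [mul_neg, mul_one] at h
  rw [h, coeff_jqModC_neg_one]

/-- index set of the ratio generators of the full field: quadruples of nonzero vectors. -/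
abbrev Quad : Type :=
  {q : Vec M × Vec M × Vec M × Vec M // q.1 ≠ 0 ∧ q.2.1 ≠ 0 ∧ q.2.2.1 ≠ 0 ∧ q.2.2.2 ≠ 0}

/-- index set of the ratio generators of the `Γ₁`-field: quadruples of nonzero residues. -/
abbrev Quad1 : Type :=
  {q : ZMod M × ZMod M × ZMod M × ZMod M // q.1 ≠ 0 ∧ q.2.1 ≠ 0 ∧ q.2.2.1 ≠ 0 ∧ q.2.2.2 ≠ 0}

/-- index set of the generators of `Model.fullField`. -/
abbrev FullIdx : Type := (M.divisors : Type) ⊕ Quad M

/-- index set of the generators of `Model.gamma1FieldC`. -/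
abbrev G1Idx : Type := (M.divisors : Type) ⊕ Quad1 M

instance finite_fullIdx : Finite (FullIdx M) := inferInstance

instance finite_g1Idx : Finite (G1Idx M) := inferInstance

/-- the generators of `Model.fullField` over `A`. -/
def fullE (ζ : A) : FullIdx M → LaurentSeries A :=
  Sum.elim
    (fun d => haveI := neZero_of_mem_divisors M d.2; jA A (d.1 * M))
    (fun q => ratioA M ζ q.1.1 q.1.2.1 q.1.2.2.1 q.1.2.2.2)

/-- the generators of `Model.gamma1FieldC` over `A`. -/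
def g1E (ζ : A) : G1Idx M → LaurentSeries A :=
  Sum.elim
    (fun d => haveI := neZero_of_mem_divisors M d.2; jA A d.1)
    (fun q => ratio1A M ζ q.1.1 q.1.2.1 q.1.2.2.1 q.1.2.2.2)

/-- **the integral generating datum of the function field of `X(M)`** (variable `z = q^(1/M)`,
base coordinate `j(z^M)`). -/
def fullIntGen (ζ : A) : IntGen A (FullIdx M) where
  ξ := jA A M
  hord := order_jA_neg A M
  hlc := by rw [leadingCoeff_jA]; exact isUnit_one
  e := fullE A M ζ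

/-- **the integral generating datum of the function field of `X₁(M)`** (variable `q`, base
coordinate `j(q)`). -/
def gamma1IntGen (ζ : A) : IntGen A (G1Idx M) where
  ξ := jA A 1
  hord := order_jA_neg A 1
  hlc := by rw [leadingCoeff_jA]; exact isUnit_one
  e := g1E A M ζ

variable {A M}

@[simp] theorem fullIntGen_x (ζ : A) : (fullIntGen A M ζ).x = qExpand L M (jqModC L) :=
  embA_jA A M

@[simp] theorem fullIntGen_xbar (ζ : A) : (fullIntGen A M ζ).xbar π = qExpand k M (jqModC k) :=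
  redA_jA A π M

@[simp] theorem gamma1IntGen_x (ζ : A) : (gamma1IntGen A M ζ).x = jqModC L := by
  show embA A (jA A 1) = _
  rw [embA_jA, qExpand_one_apply]

@[simp] theorem gamma1IntGen_xbar (ζ : A) : (gamma1IntGen A M ζ).xbar π = jqModC k := by
  show redA A π (jA A 1) = _
  rw [redA_jA, qExpand_one_apply]

theorem fullIntGen_eL_inl (ζ : A) (d : (M.divisors : Type)) :
    (fullIntGen A M ζ).eL (Sum.inl d) =
      haveI := neZero_of_mem_divisors M d.2; qExpand L (d.1 * M) (jqModC L) := by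
  have := neZero_of_mem_divisors M d.2
  exact embA_jA A (d.1 * M)

theorem fullIntGen_ebar_inl (ζ : A) (d : (M.divisors : Type)) :
    (fullIntGen A M ζ).ebar π (Sum.inl d) =
      haveI := neZero_of_mem_divisors M d.2; qExpand k (d.1 * M) (jqModC k) := by
  have := neZero_of_mem_divisors M d.2
  exact redA_jA A π (d.1 * M)

theorem gamma1IntGen_eL_inl (ζ : A) (d : (M.divisors : Type)) :
    (gamma1IntGen A M ζ).eL (Sum.inl d) =
      haveI := neZero_of_mem_divisors M d.2; qExpand L d.1 (jqModC L) := by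
  have := neZero_of_mem_divisors M d.2
  exact embA_jA A d.1

theorem gamma1IntGen_ebar_inl (ζ : A) (d : (M.divisors : Type)) :
    (gamma1IntGen A M ζ).ebar π (Sum.inl d) =
      haveI := neZero_of_mem_divisors M d.2; qExpand k d.1 (jqModC k) := by
  have := neZero_of_mem_divisors M d.2
  exact redA_jA A π d.1

variable {π}

theorem fullIntGen_eL_inr (hπ : Function.Surjective π) {ζ : A} (hζ : IsPrimitiveRoot ζ M)
    (hMk : ((M : ℕ) : k) ≠ 0) (q : Quad M) :
    (fullIntGen A M ζ).eL (Sum.inr q) =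
      ratio M ((ζ : A) : L) q.1.1 q.1.2.1 q.1.2.2.1 q.1.2.2.2 :=
  embA_ratioA hπ hζ hMk _ _ q.2.2.2.1 q.2.2.2.2

theorem fullIntGen_ebar_inr (hπ : Function.Surjective π) {ζ : A} (hζ : IsPrimitiveRoot ζ M)
    (hMk : ((M : ℕ) : k) ≠ 0) (q : Quad M) :
    (fullIntGen A M ζ).ebar π (Sum.inr q) =
      ratio M (π ζ) q.1.1 q.1.2.1 q.1.2.2.1 q.1.2.2.2 :=
  redA_ratioA hπ hζ hMk _ _ q.2.2.2.1 q.2.2.2.2

theorem gamma1IntGen_eL_inr (hπ : Function.Surjective π) {ζ : A} (hζ : IsPrimitiveRoot ζ M)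
    (hMk : ((M : ℕ) : k) ≠ 0) (q : Quad1 M) :
    (gamma1IntGen A M ζ).eL (Sum.inr q) =
      ratio1 M ((ζ : A) : L) q.1.1 q.1.2.1 q.1.2.2.1 q.1.2.2.2 :=
  embA_ratio1A hπ hζ hMk _ _ q.2.2.2.1 q.2.2.2.2

theorem gamma1IntGen_ebar_inr (hπ : Function.Surjective π) {ζ : A} (hζ : IsPrimitiveRoot ζ M)
    (hMk : ((M : ℕ) : k) ≠ 0) (q : Quad1 M) :
    (gamma1IntGen A M ζ).ebar π (Sum.inr q) =
      ratio1 M (π ζ) q.1.1 q.1.2.1 q.1.2.2.1 q.1.2.2.2 :=
  redA_ratio1A hπ hζ hMk _ _ q.2.2.2.1 q.2.2.2.2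

/-- the generating set of the datum is the generating set of the model, over `L`. -/
theorem fullIntGen_gens (hπ : Function.Surjective π) {ζ : A} (hζ : IsPrimitiveRoot ζ M)
    (hMk : ((M : ℕ) : k) ≠ 0) :
    insert (fullIntGen A M ζ).x (Set.range (fullIntGen A M ζ).eL) =
      fullGens M ((ζ : A) : L) := by
  ext y
  constructor
  · rintro (rfl | ⟨i, rfl⟩)
    · refine Or.inl ⟨1, inferInstance, one_dvd M, ?_⟩
      rw [fullIntGen_x]
      exact qExpand_congr (one_mul M).symm _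
    · rcases i with d | q
      · exact Or.inl ⟨d.1, neZero_of_mem_divisors M d.2, Nat.dvd_of_mem_divisors d.2,
          fullIntGen_eL_inl ζ d⟩
      · exact Or.inr ⟨q.1.1, q.1.2.1, q.1.2.2.1, q.1.2.2.2, q.2.1, q.2.2.1, q.2.2.2.1,
          q.2.2.2.2, fullIntGen_eL_inr hπ hζ hMk q⟩
  · rintro (⟨d, hd0, hd, rfl⟩ | ⟨v, w, v', w', hv, hw, hv', hw', rfl⟩)
    · exact Set.mem_insert_of_mem _
        ⟨Sum.inl ⟨d, Nat.mem_divisors.mpr ⟨hd, NeZero.ne M⟩⟩, fullIntGen_eL_inl ζ _⟩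
    · exact Set.mem_insert_of_mem _
        ⟨Sum.inr ⟨(v, w, v', w'), hv, hw, hv', hw'⟩, fullIntGen_eL_inr hπ hζ hMk _⟩

/-- the generating set of the reduced datum is the generating set of the model, over `k`. -/
theorem fullIntGen_gens_bar (hπ : Function.Surjective π) {ζ : A} (hζ : IsPrimitiveRoot ζ M)
    (hMk : ((M : ℕ) : k) ≠ 0) :
    insert ((fullIntGen A M ζ).xbar π) (Set.range ((fullIntGen A M ζ).ebar π)) =
      fullGens M (π ζ) := by
  ext y
  constructor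
  · rintro (rfl | ⟨i, rfl⟩)
    · refine Or.inl ⟨1, inferInstance, one_dvd M, ?_⟩
      rw [fullIntGen_xbar]
      exact qExpand_congr (one_mul M).symm _
    · rcases i with d | q
      · exact Or.inl ⟨d.1, neZero_of_mem_divisors M d.2, Nat.dvd_of_mem_divisors d.2,
          fullIntGen_ebar_inl π ζ d⟩
      · exact Or.inr ⟨q.1.1, q.1.2.1, q.1.2.2.1, q.1.2.2.2, q.2.1, q.2.2.1, q.2.2.2.1,
          q.2.2.2.2, fullIntGen_ebar_inr hπ hζ hMk q⟩
  · rintro (⟨d, hd0, hd, rfl⟩ | ⟨v, w, v', w', hv, hw, hv', hw', rfl⟩)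
    · exact Set.mem_insert_of_mem _
        ⟨Sum.inl ⟨d, Nat.mem_divisors.mpr ⟨hd, NeZero.ne M⟩⟩, fullIntGen_ebar_inl π ζ _⟩
    · exact Set.mem_insert_of_mem _
        ⟨Sum.inr ⟨(v, w, v', w'), hv, hw, hv', hw'⟩, fullIntGen_ebar_inr hπ hζ hMk _⟩

/-- **the field of the datum is the function field of `X(M)` over `L`.** -/
theorem fullIntGen_F (hπ : Function.Surjective π) {ζ : A} (hζ : IsPrimitiveRoot ζ M)
    (hMk : ((M : ℕ) : k) ≠ 0) : (fullIntGen A M ζ).F = fullField M ((ζ : A) : L) := by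
  rw [IntGen.F, fullIntGen_gens hπ hζ hMk, fullField]

/-- **the residue field of the datum is the function field of `X(M)` over `k`.** -/
theorem fullIntGen_κ (hπ : Function.Surjective π) {ζ : A} (hζ : IsPrimitiveRoot ζ M)
    (hMk : ((M : ℕ) : k) ≠ 0) : (fullIntGen A M ζ).κ π = fullField M (π ζ) := by
  rw [IntGen.κ, fullIntGen_gens_bar hπ hζ hMk, fullField]

theorem gamma1IntGen_gens (hπ : Function.Surjective π) {ζ : A} (hζ : IsPrimitiveRoot ζ M)
    (hMk : ((M : ℕ) : k) ≠ 0) :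
    insert (gamma1IntGen A M ζ).x (Set.range (gamma1IntGen A M ζ).eL) =
      gamma1Gens M ((ζ : A) : L) := by
  ext y
  constructor
  · rintro (rfl | ⟨i, rfl⟩)
    · refine Or.inl ⟨1, inferInstance, one_dvd M, ?_⟩
      rw [gamma1IntGen_x, qExpand_one_apply]
    · rcases i with d | q
      · exact Or.inl ⟨d.1, neZero_of_mem_divisors M d.2, Nat.dvd_of_mem_divisors d.2,
          gamma1IntGen_eL_inl ζ d⟩
      · exact Or.inr ⟨q.1.1, q.1.2.1, q.1.2.2.1, q.1.2.2.2, q.2.1, q.2.2.1, q.2.2.2.1,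
          q.2.2.2.2, gamma1IntGen_eL_inr hπ hζ hMk q⟩
  · rintro (⟨d, hd0, hd, rfl⟩ | ⟨b, c, b', c', hb, hc, hb', hc', rfl⟩)
    · exact Set.mem_insert_of_mem _
        ⟨Sum.inl ⟨d, Nat.mem_divisors.mpr ⟨hd, NeZero.ne M⟩⟩, gamma1IntGen_eL_inl ζ _⟩
    · exact Set.mem_insert_of_mem _
        ⟨Sum.inr ⟨(b, c, b', c'), hb, hc, hb', hc'⟩, gamma1IntGen_eL_inr hπ hζ hMk _⟩

theorem gamma1IntGen_gens_bar (hπ : Function.Surjective π) {ζ : A} (hζ : IsPrimitiveRoot ζ M)
    (hMk : ((M : ℕ) : k) ≠ 0) :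
    insert ((gamma1IntGen A M ζ).xbar π) (Set.range ((gamma1IntGen A M ζ).ebar π)) =
      gamma1Gens M (π ζ) := by
  ext y
  constructor
  · rintro (rfl | ⟨i, rfl⟩)
    · refine Or.inl ⟨1, inferInstance, one_dvd M, ?_⟩
      rw [gamma1IntGen_xbar, qExpand_one_apply]
    · rcases i with d | q
      · exact Or.inl ⟨d.1, neZero_of_mem_divisors M d.2, Nat.dvd_of_mem_divisors d.2,
          gamma1IntGen_ebar_inl π ζ d⟩
      · exact Or.inr ⟨q.1.1, q.1.2.1, q.1.2.2.1, q.1.2.2.2, q.2.1, q.2.2.1, q.2.2.2.1,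
          q.2.2.2.2, gamma1IntGen_ebar_inr hπ hζ hMk q⟩
  · rintro (⟨d, hd0, hd, rfl⟩ | ⟨b, c, b', c', hb, hc, hb', hc', rfl⟩)
    · exact Set.mem_insert_of_mem _
        ⟨Sum.inl ⟨d, Nat.mem_divisors.mpr ⟨hd, NeZero.ne M⟩⟩, gamma1IntGen_ebar_inl π ζ _⟩
    · exact Set.mem_insert_of_mem _
        ⟨Sum.inr ⟨(b, c, b', c'), hb, hc, hb', hc'⟩, gamma1IntGen_ebar_inr hπ hζ hMk _⟩

/-- **the field of the datum is the function field of `X₁(M)` over `L`.** -/
theorem gamma1IntGen_F (hπ : Function.Surjective π) {ζ : A} (hζ : IsPrimitiveRoot ζ M)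
    (hMk : ((M : ℕ) : k) ≠ 0) : (gamma1IntGen A M ζ).F = gamma1FieldC M ((ζ : A) : L) := by
  rw [IntGen.F, gamma1IntGen_gens hπ hζ hMk, gamma1FieldC]

/-- **the residue field of the datum is the function field of `X₁(M)` over `k`.** -/
theorem gamma1IntGen_κ (hπ : Function.Surjective π) {ζ : A} (hζ : IsPrimitiveRoot ζ M)
    (hMk : ((M : ℕ) : k) ≠ 0) : (gamma1IntGen A M ζ).κ π = gamma1FieldC M (π ζ) := by
  rw [IntGen.κ, gamma1IntGen_gens_bar hπ hζ hMk, gamma1FieldC]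

end Data

end Fermat.Agent.S48x.Red1.ModelInt
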