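import Mathlib
import Fermat.Agent.S48x.Red1.ModelIntGen
import Fermat.Agent.S48x.Model.Rigidity

/-!
# P-S48, layer (c), (R9): the ratio-only `IntGen` datum of the full-level model

The Igusa argument (`Red1/IgusaFull`) needs a generating family that is *permuted* by the level
group.  The `j(z^(dM))` of `fullIntGen` are not, so we provide the datum generated by the ratios
alone:

* `QuadIdx M` : quadruples `(v, w, v', w')` with `v, w ≠ 0` and `Good v' w'` (`v', w' ≠ 0`,
  `v' ≠ ± w'`);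
* `ratioIntGen A M ζ : IntGen A (QuadIdx M)`, `ξ = j(z^M)`, `e q = ratioA M ζ v w v' w'`;
* `perm : SL(2, ZMod M) → QuadIdx M → QuadIdx M`, right multiplication on all four vectors
  (`permMat` for any matrix with a right inverse), `perm_one`, `perm_mul`;
* `ratioIntGen_eL`, `ratioIntGen_ebar` : the generators over `L` and over `k` are `Model.ratio`;
* `ratioIntGen_F_le`, `ratioIntGen_κ_le` : `F ≤ fullField M ζ`, `κ ≤ fullField M (π ζ)`;
* `ratioIntGen_F` : `F = L(j(z^M), all ratios with nonzero indices)`.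
-/

set_option autoImplicit false
set_option linter.unusedSectionVars false

noncomputable section

namespace Fermat.Agent.S48x.Red1.ModelInt

open ModularCurve Fermat.Agent.Gateway.Red Fermat.Agent.Gateway.GoodRed Fermat.Agent.S48x.Model
open Fermat.Agent.S48x.Model.Rigidity
open scoped MatrixGroups

section Index

variable (M : ℕ) [NeZero M]

/-- index set of the ratio generators with good denominators. -/
abbrev QuadIdx : Type :=
  {q : Vec M × Vec M × Vec M × Vec M // q.1 ≠ 0 ∧ q.2.1 ≠ 0 ∧ Good q.2.2.1 q.2.2.2}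

instance finite_quadIdx : Finite (QuadIdx M) := inferInstance

variable {M}

/-- a good quadruple as an element of `Quad M`. -/
def QuadIdx.toQuad (q : QuadIdx M) : Quad M :=
  ⟨q.1, q.2.1, q.2.2.1, q.2.2.2.1, q.2.2.2.2.1⟩

@[simp] theorem QuadIdx.toQuad_val (q : QuadIdx M) : (q.toQuad : Quad M).1 = q.1 := rfl

/-- right multiplication of a good quadruple by a matrix with a right inverse. -/
def permMat (g h : Matrix (Fin 2) (Fin 2) (ZMod M)) (hgh : g * h = 1) (q : QuadIdx M) :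
    QuadIdx M :=
  ⟨(vecAct g q.1.1, vecAct g q.1.2.1, vecAct g q.1.2.2.1, vecAct g q.1.2.2.2),
    fun h0 => q.2.1 (vecAct_injective hgh (h0.trans (vecAct_zero _).symm)),
    fun h0 => q.2.2.1 (vecAct_injective hgh (h0.trans (vecAct_zero _).symm)),
    good_vecAct hgh q.2.2.2⟩

@[simp] theorem permMat_val (g h : Matrix (Fin 2) (Fin 2) (ZMod M)) (hgh : g * h = 1)
    (q : QuadIdx M) : (permMat g h hgh q).1 =
      (vecAct g q.1.1, vecAct g q.1.2.1, vecAct g q.1.2.2.1, vecAct g q.1.2.2.2) := rfl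

theorem sl_mul_inv (g : SL(2, ZMod M)) :
    (g : Matrix (Fin 2) (Fin 2) (ZMod M)) * ((g⁻¹ : SL(2, ZMod M)) :
      Matrix (Fin 2) (Fin 2) (ZMod M)) = 1 := by
  rw [← Matrix.SpecialLinearGroup.coe_mul, mul_inv_cancel, Matrix.SpecialLinearGroup.coe_one]

/-- **the permutation of the ratio generators by `SL₂(ℤ/M)`**: right multiplication of all four
vectors. -/
def perm (g : SL(2, ZMod M)) (q : QuadIdx M) : QuadIdx M :=
  permMat (g : Matrix (Fin 2) (Fin 2) (ZMod M)) ((g⁻¹ : SL(2, ZMod M)) :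
    Matrix (Fin 2) (Fin 2) (ZMod M)) (sl_mul_inv g) q

@[simp] theorem perm_val (g : SL(2, ZMod M)) (q : QuadIdx M) : (perm g q).1 =
    (vecAct (g : Matrix (Fin 2) (Fin 2) (ZMod M)) q.1.1,
      vecAct (g : Matrix (Fin 2) (Fin 2) (ZMod M)) q.1.2.1,
      vecAct (g : Matrix (Fin 2) (Fin 2) (ZMod M)) q.1.2.2.1,
      vecAct (g : Matrix (Fin 2) (Fin 2) (ZMod M)) q.1.2.2.2) := rfl

theorem perm_one (q : QuadIdx M) : perm (1 : SL(2, ZMod M)) q = q := by
  apply Subtype.ext
  rw [perm_val, Matrix.SpecialLinearGroup.coe_one, vecAct_one, vecAct_one, vecAct_one, vecAct_one]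

/-- `perm` is a right action. -/
theorem perm_mul (g h : SL(2, ZMod M)) (q : QuadIdx M) : perm (g * h) q = perm h (perm g q) := by
  apply Subtype.ext
  rw [perm_val, perm_val, perm_val, Matrix.SpecialLinearGroup.coe_mul, vecAct_mul, vecAct_mul,
    vecAct_mul, vecAct_mul]

theorem perm_inv_perm (g : SL(2, ZMod M)) (q : QuadIdx M) : perm g⁻¹ (perm g q) = q := by
  rw [← perm_mul, mul_inv_cancel, perm_one]

theorem perm_perm_inv (g : SL(2, ZMod M)) (q : QuadIdx M) : perm g (perm g⁻¹ q) = q := by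
  rw [← perm_mul, inv_mul_cancel, perm_one]

/-- `perm g` as a permutation of the index set. -/
def permEquiv (g : SL(2, ZMod M)) : QuadIdx M ≃ QuadIdx M where
  toFun := perm g
  invFun := perm g⁻¹
  left_inv := perm_inv_perm g
  right_inv := perm_perm_inv g

end Index

section Field

variable {R : Type*} [Field R] {M : ℕ} [NeZero M]

/-- a ratio with a bad denominator vanishes. -/
theorem ratio_eq_zero_of_not_good' {ζ : R} (hζ : ζ ^ M = 1) (v w : Vec M) {v' w' : Vec M}
    (hv' : v' ≠ 0) (hw' : w' ≠ 0) (h : ¬ Good v' w') : ratio M ζ v w v' w' = 0 := by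
  have h1 : v' = w' ∨ v' = -w' := by
    by_contra hcon
    push Not at hcon
    exact h ⟨hv', hw', hcon.1, hcon.2⟩
  have h2 : eSeries M ζ v' - eSeries M ζ w' = 0 := by
    rcases h1 with rfl | rfl
    · rw [sub_self]
    · rw [Identities.eSeries_neg hζ, sub_self]
  rw [ratio, h2, div_zero]

end Field

section Data

variable {L : Type*} [Field L] (A : ValuationSubring L) {k : Type*} [Field k] (π : A →+* k)
variable (M : ℕ) [NeZero M]

/-- **the ratio-only integral generating datum of the function field of `X(M)`** (variable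
`z = q^(1/M)`, base coordinate `j(z^M)`). -/
def ratioIntGen (ζ : A) : IntGen A (QuadIdx M) where
  ξ := jA A M
  hord := order_jA_neg A M
  hlc := by rw [leadingCoeff_jA]; exact isUnit_one
  e := fun q => ratioA M ζ q.1.1 q.1.2.1 q.1.2.2.1 q.1.2.2.2

variable {A M}

@[simp] theorem ratioIntGen_ξ (ζ : A) : (ratioIntGen A M ζ).ξ = jA A M := rfl

@[simp] theorem ratioIntGen_e (ζ : A) (q : QuadIdx M) :
    (ratioIntGen A M ζ).e q = ratioA M ζ q.1.1 q.1.2.1 q.1.2.2.1 q.1.2.2.2 := rfl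

/-- the generators of `ratioIntGen` are generators of `fullIntGen`. -/
theorem ratioIntGen_e_eq_fullIntGen_e (ζ : A) (q : QuadIdx M) :
    (ratioIntGen A M ζ).e q = (fullIntGen A M ζ).e (Sum.inr q.toQuad) := rfl

@[simp] theorem ratioIntGen_x (ζ : A) : (ratioIntGen A M ζ).x = qExpand L M (jqModC L) :=
  embA_jA A M

@[simp] theorem ratioIntGen_xbar (ζ : A) :
    (ratioIntGen A M ζ).xbar π = qExpand k M (jqModC k) :=
  redA_jA A π M

variable {π}

theorem ratioIntGen_eL (hπ : Function.Surjective π) {ζ : A} (hζ : IsPrimitiveRoot ζ M)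
    (hMk : ((M : ℕ) : k) ≠ 0) (q : QuadIdx M) :
    (ratioIntGen A M ζ).eL q = ratio M ((ζ : A) : L) q.1.1 q.1.2.1 q.1.2.2.1 q.1.2.2.2 :=
  embA_ratioA hπ hζ hMk _ _ q.2.2.2.1 q.2.2.2.2.1

theorem ratioIntGen_ebar (hπ : Function.Surjective π) {ζ : A} (hζ : IsPrimitiveRoot ζ M)
    (hMk : ((M : ℕ) : k) ≠ 0) (q : QuadIdx M) :
    (ratioIntGen A M ζ).ebar π q = ratio M (π ζ) q.1.1 q.1.2.1 q.1.2.2.1 q.1.2.2.2 :=
  redA_ratioA hπ hζ hMk _ _ q.2.2.2.1 q.2.2.2.2.1

theorem ratioIntGen_coe_eF (hπ : Function.Surjective π) {ζ : A} (hζ : IsPrimitiveRoot ζ M)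
    (hMk : ((M : ℕ) : k) ≠ 0) (q : QuadIdx M) :
    (((ratioIntGen A M ζ).eF q : (ratioIntGen A M ζ).F) : LaurentSeries L) =
      ratio M ((ζ : A) : L) q.1.1 q.1.2.1 q.1.2.2.1 q.1.2.2.2 :=
  ratioIntGen_eL hπ hζ hMk q

theorem ratioIntGen_coe_eκ (hπ : Function.Surjective π) {ζ : A} (hζ : IsPrimitiveRoot ζ M)
    (hMk : ((M : ℕ) : k) ≠ 0) (q : QuadIdx M) :
    (((ratioIntGen A M ζ).eκ π q : (ratioIntGen A M ζ).κ π) : LaurentSeries k) =
      ratio M (π ζ) q.1.1 q.1.2.1 q.1.2.2.1 q.1.2.2.2 :=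
  ratioIntGen_ebar hπ hζ hMk q

/-- the generators after `perm`. -/
theorem ratioIntGen_eL_perm (hπ : Function.Surjective π) {ζ : A} (hζ : IsPrimitiveRoot ζ M)
    (hMk : ((M : ℕ) : k) ≠ 0) (g : SL(2, ZMod M)) (q : QuadIdx M) :
    (ratioIntGen A M ζ).eL (perm g q) = ratio M ((ζ : A) : L)
      (vecAct (g : Matrix (Fin 2) (Fin 2) (ZMod M)) q.1.1)
      (vecAct (g : Matrix (Fin 2) (Fin 2) (ZMod M)) q.1.2.1)
      (vecAct (g : Matrix (Fin 2) (Fin 2) (ZMod M)) q.1.2.2.1)
      (vecAct (g : Matrix (Fin 2) (Fin 2) (ZMod M)) q.1.2.2.2) :=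
  ratioIntGen_eL hπ hζ hMk (perm g q)

theorem ratioIntGen_ebar_perm (hπ : Function.Surjective π) {ζ : A} (hζ : IsPrimitiveRoot ζ M)
    (hMk : ((M : ℕ) : k) ≠ 0) (g : SL(2, ZMod M)) (q : QuadIdx M) :
    (ratioIntGen A M ζ).ebar π (perm g q) = ratio M (π ζ)
      (vecAct (g : Matrix (Fin 2) (Fin 2) (ZMod M)) q.1.1)
      (vecAct (g : Matrix (Fin 2) (Fin 2) (ZMod M)) q.1.2.1)
      (vecAct (g : Matrix (Fin 2) (Fin 2) (ZMod M)) q.1.2.2.1)
      (vecAct (g : Matrix (Fin 2) (Fin 2) (ZMod M)) q.1.2.2.2) :=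
  ratioIntGen_ebar hπ hζ hMk (perm g q)

/-- the field of the ratio datum is contained in the function field of `X(M)`, over `L`. -/
theorem ratioIntGen_F_le (hπ : Function.Surjective π) {ζ : A} (hζ : IsPrimitiveRoot ζ M)
    (hMk : ((M : ℕ) : k) ≠ 0) : (ratioIntGen A M ζ).F ≤ fullField M ((ζ : A) : L) := by
  rw [IntGen.F, IntermediateField.adjoin_le_iff]
  rintro y (rfl | ⟨q, rfl⟩)
  · rw [ratioIntGen_x]
    have h := jqd_mem_fullField (M := M) ((ζ : A) : L) (one_dvd M)
    rwa [qExpand_congr (one_mul M)] at h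
  · rw [ratioIntGen_eL hπ hζ hMk]
    exact ratio_mem_fullField _ q.2.1 q.2.2.1 q.2.2.2.1 q.2.2.2.2.1

/-- the residue field of the ratio datum is contained in the function field of `X(M)` over
`k`. -/
theorem ratioIntGen_κ_le (hπ : Function.Surjective π) {ζ : A} (hζ : IsPrimitiveRoot ζ M)
    (hMk : ((M : ℕ) : k) ≠ 0) : (ratioIntGen A M ζ).κ π ≤ fullField M (π ζ) := by
  rw [IntGen.κ, IntermediateField.adjoin_le_iff]
  rintro y (rfl | ⟨q, rfl⟩)
  · rw [ratioIntGen_xbar]
    have h := jqd_mem_fullField (M := M) (π ζ) (one_dvd M)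
    rwa [qExpand_congr (one_mul M)] at h
  · rw [ratioIntGen_ebar hπ hζ hMk]
    exact ratio_mem_fullField _ q.2.1 q.2.2.1 q.2.2.2.1 q.2.2.2.2.1

/-- the generating set of the full field without the `j(z^(dM))`, `d > 1`. -/
def ratioGens (M : ℕ) [NeZero M] {R : Type*} [Field R] (ζ : R) : Set (LaurentSeries R) :=
  insert (qExpand R M (jqModC R))
    {x | ∃ v w v' w' : Vec M, v ≠ 0 ∧ w ≠ 0 ∧ v' ≠ 0 ∧ w' ≠ 0 ∧ x = ratio M ζ v w v' w'}

/-- **the field of the ratio datum is `L(j(z^M), all ratios)`.** -/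
theorem ratioIntGen_F (hπ : Function.Surjective π) {ζ : A} (hζ : IsPrimitiveRoot ζ M)
    (hMk : ((M : ℕ) : k) ≠ 0) :
    (ratioIntGen A M ζ).F = IntermediateField.adjoin L (ratioGens M ((ζ : A) : L)) := by
  apply le_antisymm
  · rw [IntGen.F, IntermediateField.adjoin_le_iff]
    rintro y (rfl | ⟨q, rfl⟩)
    · rw [ratioIntGen_x]
      exact IntermediateField.subset_adjoin L _ (Set.mem_insert _ _)
    · rw [ratioIntGen_eL hπ hζ hMk]
      exact IntermediateField.subset_adjoin L _ (Set.mem_insert_of_mem _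
        ⟨_, _, _, _, q.2.1, q.2.2.1, q.2.2.2.1, q.2.2.2.2.1, rfl⟩)
  · rw [IntermediateField.adjoin_le_iff]
    rintro y (rfl | ⟨v, w, v', w', hv, hw, hv', hw', rfl⟩)
    · rw [← ratioIntGen_x (A := A) (M := M) ζ]
      exact (ratioIntGen A M ζ).x_mem
    · by_cases hg : Good v' w'
      · have := (ratioIntGen A M ζ).eL_mem ⟨(v, w, v', w'), hv, hw, hg⟩
        rwa [ratioIntGen_eL hπ hζ hMk] at this
      · rw [ratio_eq_zero_of_not_good' (isPrimitiveRoot_coe A hζ).pow_eq_one v w hv' hw' hg]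
        exact zero_mem _

/-- **the residue field of the ratio datum is `k(j(z^M), all ratios)`.** -/
theorem ratioIntGen_κ (hπ : Function.Surjective π) {ζ : A} (hζ : IsPrimitiveRoot ζ M)
    (hMk : ((M : ℕ) : k) ≠ 0) :
    (ratioIntGen A M ζ).κ π = IntermediateField.adjoin k (ratioGens M (π ζ)) := by
  apply le_antisymm
  · rw [IntGen.κ, IntermediateField.adjoin_le_iff]
    rintro y (rfl | ⟨q, rfl⟩)
    · rw [ratioIntGen_xbar]
      exact IntermediateField.subset_adjoin k _ (Set.mem_insert _ _)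
    · rw [ratioIntGen_ebar hπ hζ hMk]
      exact IntermediateField.subset_adjoin k _ (Set.mem_insert_of_mem _
        ⟨_, _, _, _, q.2.1, q.2.2.1, q.2.2.2.1, q.2.2.2.2.1, rfl⟩)
  · rw [IntermediateField.adjoin_le_iff]
    rintro y (rfl | ⟨v, w, v', w', hv, hw, hv', hw', rfl⟩)
    · rw [← ratioIntGen_xbar (A := A) (M := M) π ζ]
      exact (ratioIntGen A M ζ).xbar_mem π
    · by_cases hg : Good v' w'
      · have := (ratioIntGen A M ζ).ebar_mem π ⟨(v, w, v', w'), hv, hw, hg⟩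
        rwa [ratioIntGen_ebar hπ hζ hMk] at this
      · rw [ratio_eq_zero_of_not_good'
          (isPrimitiveRoot_pi A π hπ hζ hMk).pow_eq_one v w hv' hw' hg]
        exact zero_mem _

/-- `ratioGens ⊆ fullGens`. -/
theorem ratioGens_subset_fullGens {R : Type*} [Field R] (ζ : R) :
    ratioGens M ζ ⊆ fullGens M ζ := by
  rintro y (rfl | h)
  · exact Or.inl ⟨1, inferInstance, one_dvd M, qExpand_congr (one_mul M).symm _⟩
  · exact Or.inr h

end Data

end Fermat.Agent.S48x.Red1.ModelInt
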