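/-
P-S48, layer (c), (R6)/(R9): the `dist` field of `IntGen.FullLevelData` for the ratio datum
`ModelInt.ratioIntGen A M ζ` (indexed by the GOOD quadruples `QuadIdx M`), with the index function
`perm g⁻¹` (the `ActsOnRatios` convention) or `perm g` (helper15).

Everything happens on the residue side: `ebar π (perm g q) = ratio M (π ζ) (v g) (w g) (v' g) (w' g)`
(`ModelRatioGen.ratioIntGen_ebar_perm`), so an element of `SL₂(ℤ/M)` whose index permutation fixes
the reductions of all the generators fixes all the ratios over the residue field, hence is `± 1`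
by (RIG) (`Model/RigidityFinal` through `Red1/FaithfulRig.fixesRatios_of_good`: quadruples with a
bad denominator need not be checked).  No hypothesis on the action is needed except that `-1` acts
trivially.
-/
import Mathlib
import Fermat.Agent.S48x.Red1.FaithfulRig
import Fermat.Agent.S48x.Red1.ModelRatioGen

set_option autoImplicit false
set_option linter.unusedSectionVars false

noncomputable section

namespace Fermat.Agent.S48x.Red1.DistRatioIdx

open Fermat.Agent.S48x.Model Fermat.Agent.S48x.Model.Rigidity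
open Fermat.Agent.Gateway.Red Fermat.Agent.Gateway.GoodRed
open Fermat.Agent.S48x.Red1.ModelInt
open scoped MatrixGroups

variable {L : Type*} [Field L] {A : ValuationSubring L} {k : Type*} [Field k] {π : A →+* k}
variable {M : ℕ} [NeZero M]

/-- **rigidity on the index set, residue side**: an element of `SL₂(ℤ/M)` whose permutation of the
good quadruples fixes the reductions of all the ratio generators is `± 1`. -/
theorem eq_one_or_neg_one_of_ebar_perm (hM : 5 ≤ M) (hπ : Function.Surjective π) {ζ : A}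
    (hζ : IsPrimitiveRoot ζ M) (hMk : ((M : ℕ) : k) ≠ 0) (g : SL(2, ZMod M))
    (hg : ∀ i : QuadIdx M,
      (ratioIntGen A M ζ).ebar π (perm g i) = (ratioIntGen A M ζ).ebar π i) :
    g = 1 ∨ g = -1 := by
  have hζk : IsPrimitiveRoot (π ζ) M := isPrimitiveRoot_pi A π hπ hζ hMk
  refine SL_eq_one_or_neg_one_of_fixesRatios' hζk hM g
    (FaithfulRig.fixesRatios_of_good hζk.pow_eq_one fun v w v' w' hv hw hvw' => ?_)
  have h := hg ⟨(v, w, v', w'), hv, hw, hvw'⟩
  rw [ratioIntGen_ebar_perm hπ hζ hMk, ratioIntGen_ebar hπ hζ hMk] at h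
  exact h

/-- the same for the index function `perm g⁻¹` (the `ActsOnRatios` convention
`act g (R(v, ..)) = R(v g⁻¹, ..)`). -/
theorem eq_one_or_neg_one_of_ebar_perm_inv (hM : 5 ≤ M) (hπ : Function.Surjective π) {ζ : A}
    (hζ : IsPrimitiveRoot ζ M) (hMk : ((M : ℕ) : k) ≠ 0) (g : SL(2, ZMod M))
    (hg : ∀ i : QuadIdx M,
      (ratioIntGen A M ζ).ebar π (perm g⁻¹ i) = (ratioIntGen A M ζ).ebar π i) :
    g = 1 ∨ g = -1 := by
  rcases eq_one_or_neg_one_of_ebar_perm hM hπ hζ hMk g⁻¹ hg with h | h
  · exact Or.inl (inv_eq_one.mp h)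
  · refine Or.inr ?_
    have h1 : (-1 : SL(2, ZMod M)) * (-1) = 1 := by rw [neg_mul_neg, one_mul]
    have h2 : g = (-1 : SL(2, ZMod M))⁻¹ := by rw [← h, inv_inv]
    rw [h2]
    exact inv_eq_of_mul_eq_one_right h1

/-- **the `dist` field of `IntGen.FullLevelData π (ratioIntGen A M ζ) SL(2, ZMod M)`** for the
index function `perm g⁻¹`, for ANY monoid hom `act` from `SL₂(ℤ/M)` killing `-1`. -/
theorem dist_perm_inv (hM : 5 ≤ M) (hπ : Function.Surjective π) {ζ : A}
    (hζ : IsPrimitiveRoot ζ M) (hMk : ((M : ℕ) : k) ≠ 0)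
    {H : Type*} [Monoid H] (act : SL(2, ZMod M) →* H) (hneg : act (-1) = 1) :
    ∀ g : SL(2, ZMod M),
      (∀ i : QuadIdx M,
        (ratioIntGen A M ζ).ebar π (perm g⁻¹ i) = (ratioIntGen A M ζ).ebar π i) →
      act g = 1 := by
  intro g hg
  rcases eq_one_or_neg_one_of_ebar_perm_inv hM hπ hζ hMk g hg with h | h
  · rw [h, map_one]
  · rw [h, hneg]

/-- the `dist` field for the index function `perm g`. -/
theorem dist_perm (hM : 5 ≤ M) (hπ : Function.Surjective π) {ζ : A}
    (hζ : IsPrimitiveRoot ζ M) (hMk : ((M : ℕ) : k) ≠ 0)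
    {H : Type*} [Monoid H] (act : SL(2, ZMod M) →* H) (hneg : act (-1) = 1) :
    ∀ g : SL(2, ZMod M),
      (∀ i : QuadIdx M,
        (ratioIntGen A M ζ).ebar π (perm g i) = (ratioIntGen A M ζ).ebar π i) →
      act g = 1 := by
  intro g hg
  rcases eq_one_or_neg_one_of_ebar_perm hM hπ hζ hMk g hg with h | h
  · rw [h, map_one]
  · rw [h, hneg]

end Fermat.Agent.S48x.Red1.DistRatioIdx
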