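import Mathlib

/-!
# P-S48, layer (c): instance shortcuts for towers of intermediate fields of `K((z))`

Typeclass inference of `Algebra K ↥F`, `Module K ↥F`, `IsScalarTower K K ↥F`, `Algebra K ↥S`, … for
`F : IntermediateField K (LaurentSeries K)` and `S : IntermediateField K F` takes seconds per
query (or times out) because the search wanders through the `HahnSeries` / `HahnModule` scalar
actions. The scoped instances below are *the terms default inference finds*, at high priority.

Usage: `open scoped Fermat.Agent.S48x.Red1.Shortcuts`.
-/

set_option autoImplicit false

noncomputable section

namespace Fermat.Agent.S48x.Red1.Shortcuts

variable {K : Type*} [Field K]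

scoped instance (priority := 10000) algebraF (F : IntermediateField K (LaurentSeries K)) :
    Algebra K F := SubalgebraClass.toAlgebra F

scoped instance (priority := 10000) moduleF (F : IntermediateField K (LaurentSeries K)) :
    Module K F := Algebra.toModule

scoped instance (priority := 10000) mulActionF (F : IntermediateField K (LaurentSeries K)) :
    MulAction K F := Algebra.toModule.toMulAction

scoped instance (priority := 10000) isScalarTowerF (F : IntermediateField K (LaurentSeries K)) :
    IsScalarTower K K F := IsScalarTower.left K

scoped instance (priority := 10000) algebraS (F : IntermediateField K (LaurentSeries K))
    (S : IntermediateField K F) : Algebra K S := S.algebra'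

scoped instance (priority := 10000) moduleS (F : IntermediateField K (LaurentSeries K))
    (S : IntermediateField K F) : Module K S := S.module'

scoped instance (priority := 10000) isScalarTowerS (F : IntermediateField K (LaurentSeries K))
    (S : IntermediateField K F) : IsScalarTower K S F := IntermediateField.isScalarTower_mid' S

end Fermat.Agent.S48x.Red1.Shortcuts
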