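/-
P-S48, layer (c), (R6)/(R9): the hypothesis (hB) of `IntGen.full_of_decomposition`
(`Red1/IgusaFull.lean`) for a datum over the base coordinate `x = j(z^N)` whose field contains
the `z ↦ z^N` image of the `Γ₀(N)`-field, from

* `Red1/BorelBridge.gaussRed_apply_qExpand_eq_zero_iff` (the landed Igusa theorem for `Γ₀(N)`), and
* (M-c): every `B`-invariant element of `D.F` is `y(z^N)` with `y` in the `Γ₀(N)`-field.

(helper68)
-/
import Mathlib
import Fermat.Agent.S48x.Red1.BorelBridge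
import Fermat.Agent.S48x.Red1.Setting
import Fermat.Agent.S48x.Red1.Shortcuts

set_option autoImplicit false
set_option linter.unusedSectionVars false

noncomputable section

namespace Fermat.Agent.S48x.Red1.BorelHB

open ModularCurve Fermat.Agent.Gateway.Red Fermat.Agent.Gateway.GoodRed
open scoped Fermat.Agent.S48x.Red1.Shortcuts

variable {L : Type} [Field L] [Algebra ℚ L] [IsAlgClosed L] (A : ValuationSubring L)
  {k : Type} [Field k] (π : A →+* k) (N : ℕ)
  [IsAlgClosed k] (ℓ : ℕ) [Fact ℓ.Prime] [CharP k ℓ] [NeZero N]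
  (hπ : Function.Surjective π) (hℓN : ¬ ℓ ∣ N)

include hπ hℓN in
/-- **(hB), single automorphism form**: `σ` an `L`-automorphism of `F ⊇ {y(z^N)}` fixing
`j(z^N)`; for `f = y(z^N)` Gauss-integral, `σ f` is Gauss-integral and has zero reduction iff `f`
does. -/
theorem gaussRed_algEquiv_eq_zero_iff (F : IntermediateField L (LaurentSeries L))
    (hF : ∀ y : ConjFamily.Fk L N, qExpand L N (y : LaurentSeries L) ∈ F)
    (σ : F ≃ₐ[L] F)
    (hσx : σ ⟨qExpand L N (jqModC L), hF (ConjFamily.jFk L N)⟩ =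
      ⟨qExpand L N (jqModC L), hF (ConjFamily.jFk L N)⟩)
    (f : F) (y : ConjFamily.Fk L N) (hfy : (f : LaurentSeries L) = qExpand L N (y : LaurentSeries L))
    (h1 : (f : LaurentSeries L) ∈ gaussRing A π) :
    ∃ h2 : ((σ f : F) : LaurentSeries L) ∈ gaussRing A π,
      (gaussRed A π ⟨_, h2⟩ = 0 ↔ gaussRed A π ⟨_, h1⟩ = 0) := by
  let g : F →+* LaurentSeries L := (algebraMap F (LaurentSeries L)).comp (σ : F →+* F)
  have hg : ∀ x : F, g x = ((σ x : F) : LaurentSeries L) := fun x => rfl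
  have hgC : ∀ c : L, g (algebraMap L F c) = HahnSeries.C c := fun c => by
    rw [hg, AlgEquiv.commutes]
    have h : ((algebraMap L F c : F) : LaurentSeries L) = algebraMap L (LaurentSeries L) c := rfl
    rw [h, algebraMap_laurentSeries_eq_single]
    rfl
  have hgx : g ⟨qExpand L N (jqModC L), hF (ConjFamily.jFk L N)⟩ = qExpand L N (jqModC L) := by
    rw [hg, hσx]
  have hy : qExpand L N (y : LaurentSeries L) ∈ gaussRing A π := hfy ▸ h1
  obtain ⟨h, hiff⟩ := gaussRed_apply_qExpand_eq_zero_iff A π N ℓ hπ hℓN F hF g hgC hgx y hy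
  have hfe : f = ⟨qExpand L N (y : LaurentSeries L), hF y⟩ := Subtype.ext hfy
  subst hfe
  exact ⟨h, hiff⟩

include hπ hℓN in
/-- **(hB)** in the coercion shape of `IntGen.full_of_decomposition`. -/
theorem hB_of_borel {ι : Type*} (D : IntGen A ι) (hx : D.x = qExpand L N (jqModC L))
    (hF : ∀ y : ConjFamily.Fk L N, qExpand L N (y : LaurentSeries L) ∈ D.F)
    {G : Type*} [Group G] (act : G →* (D.F ≃ₐ[L] D.F)) (act_x : ∀ g, act g D.xF = D.xF)
    (B : Subgroup G)
    (hMc : ∀ f : D.F, (∀ b ∈ B, act b f = f) →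
      ∃ y : ConjFamily.Fk L N, (f : LaurentSeries L) = qExpand L N (y : LaurentSeries L)) :
    ∀ f : D.F, (∀ g, act g f ∈ Ov A π D.F) → (∀ b ∈ B, act b f = f) →
      ∀ (g : G) (h1 : f ∈ Ov A π D.F) (h2 : act g f ∈ Ov A π D.F),
        (redV A π D.F ⟨_, h2⟩ = 0 ↔ redV A π D.F ⟨_, h1⟩ = 0) := by
  intro f _ hfB g h1 h2
  obtain ⟨y, hy⟩ := hMc f hfB
  have hxF : D.xF = ⟨qExpand L N (jqModC L), hF (ConjFamily.jFk L N)⟩ := Subtype.ext hx
  obtain ⟨h, hiff⟩ := gaussRed_algEquiv_eq_zero_iff A π N ℓ hπ hℓN D.F hF (act g)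
    (by rw [← hxF]; exact act_x g) f y hy ((mem_Ov_iff A π D.F).mp h1)
  rw [redV_apply, redV_apply]
  exact hiff

end Fermat.Agent.S48x.Red1.BorelHB
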