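/-
P-S48, layer (c), (R9): the fields `hB` and `dist` of `IntGen.FullLevelData`
(`Red1/IgusaLevel.lean`) for the ratio datum `ModelInt.ratioIntGen A M ζ`, `G₀ = SL(2, ZMod M)`,
`perm = ModelInt.perm` (helper68).

* `dist_ratioIntGen` : from (RIG) over the residue field (`Model/RigidityFinal`) and
  `act (-1) = 1`;
* `hB_fullLevel` : from `Red1/BorelBridge` (the landed Igusa theorem for `Γ₀(N)`) and (M-c): every
  `B`-invariant element of `F'` is `y(z^N)` with `y` in the `Γ₀(N)`-field.
-/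
import Mathlib
import Fermat.Agent.S48x.Red1.BorelHB
import Fermat.Agent.S48x.Red1.FaithfulRig
import Fermat.Agent.S48x.Red1.ModelRatioGen

set_option autoImplicit false
set_option linter.unusedSectionVars false

noncomputable section

namespace Fermat.Agent.S48x.Red1.FullLevelInputs

open ModularCurve Fermat.Agent.Gateway.Red Fermat.Agent.Gateway.GoodRed
open Fermat.Agent.S48x.Model Fermat.Agent.S48x.Model.Rigidity
open Fermat.Agent.S48x.Red1.ModelInt
open scoped MatrixGroups

section Dist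

variable {L : Type*} [Field L] {A : ValuationSubring L} {k : Type*} [Field k] {π : A →+* k}
variable {M : ℕ} [NeZero M]

/-- an element of `SL(2, ZMod M)` fixing the reductions of all the ratio generators (with good
denominators) is `± 1`. -/
theorem eq_one_or_neg_one_of_ebar_perm (hM : 5 ≤ M) (hπ : Function.Surjective π) {ζ : A}
    (hζ : IsPrimitiveRoot ζ M) (hMk : ((M : ℕ) : k) ≠ 0) (g : SL(2, ZMod M))
    (hg : ∀ i : QuadIdx M,
      (ratioIntGen A M ζ).ebar π (perm g i) = (ratioIntGen A M ζ).ebar π i) :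
    g = 1 ∨ g = -1 := by
  have hζk : IsPrimitiveRoot (π ζ) M := isPrimitiveRoot_pi A π hπ hζ hMk
  refine SL_eq_one_or_neg_one_of_fixesRatios' hζk hM g
    (FaithfulRig.fixesRatios_of_good hζk.pow_eq_one fun v w v' w' hv hw hvw' => ?_)
  have h := hg ⟨(v, w, v', w'), hv, hw, hvw'⟩
  rw [ratioIntGen_ebar_perm hπ hζ hMk, ratioIntGen_ebar hπ hζ hMk] at h
  exact h

/-- **the field `dist` of `FullLevelData`** for the ratio datum: any monoid hom `act` from
`SL(2, ZMod M)` killing `-1`. -/
theorem dist_ratioIntGen (hM : 5 ≤ M) (hπ : Function.Surjective π) {ζ : A}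
    (hζ : IsPrimitiveRoot ζ M) (hMk : ((M : ℕ) : k) ≠ 0)
    {H : Type*} [Monoid H] (act : SL(2, ZMod M) →* H) (hneg : act (-1) = 1) :
    ∀ g : SL(2, ZMod M),
      (∀ i : QuadIdx M, (ratioIntGen A M ζ).ebar π (perm g i) = (ratioIntGen A M ζ).ebar π i) →
      act g = 1 := by
  intro g hg
  rcases eq_one_or_neg_one_of_ebar_perm hM hπ hζ hMk g hg with rfl | rfl
  · exact map_one act
  · exact hneg

end Dist

section HB

variable {L : Type} [Field L] [Algebra ℚ L] [IsAlgClosed L] (A : ValuationSubring L)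
  {k : Type} [Field k] (π : A →+* k) (N : ℕ)
  [IsAlgClosed k] (ℓ : ℕ) [Fact ℓ.Prime] [CharP k ℓ] [NeZero N]
  (hπ : Function.Surjective π) (hℓN : ¬ ℓ ∣ N)

include hπ hℓN in
/-- **the field `hB` of `FullLevelData`** (coercion form, any presentation `F'` of the field). -/
theorem hB_fullLevel (F' : IntermediateField L (LaurentSeries L))
    (hF : ∀ y : ConjFamily.Fk L N, qExpand L N (y : LaurentSeries L) ∈ F')
    {G₀ : Type*} [Group G₀] (act : G₀ →* (F' ≃ₐ[L] F'))
    (act_x : ∀ (g : G₀) (x' : F'), (x' : LaurentSeries L) = qExpand L N (jqModC L) →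
      ((act g x' : F') : LaurentSeries L) = qExpand L N (jqModC L))
    (B : Subgroup G₀)
    (hMc : ∀ f : F', (∀ b ∈ B, act b f = f) →
      ∃ y : ConjFamily.Fk L N, (f : LaurentSeries L) = qExpand L N (y : LaurentSeries L)) :
    ∀ f : F', (∀ g, ((act g f : F') : LaurentSeries L) ∈ gaussRing A π) →
      (∀ b ∈ B, act b f = f) →
      ∀ (g : G₀) (h1 : (f : LaurentSeries L) ∈ gaussRing A π)
        (h2 : ((act g f : F') : LaurentSeries L) ∈ gaussRing A π),
        (gaussRed A π ⟨_, h2⟩ = 0 ↔ gaussRed A π ⟨_, h1⟩ = 0) := by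
  intro f _ hfB g h1 h2
  obtain ⟨y, hy⟩ := hMc f hfB
  obtain ⟨h, hiff⟩ := BorelHB.gaussRed_algEquiv_eq_zero_iff A π N ℓ hπ hℓN F' hF (act g)
    (Subtype.ext (act_x g _ rfl)) f y hy h1
  exact hiff

end HB

end Fermat.Agent.S48x.Red1.FullLevelInputs
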