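import Mathlib

/-!
# P-S48, layer (c): full residue degree for subfields cut out by stabilisers (abstract Galois theory)

`E / K` a finite extension of fields, `G` a finite group acting on `E` by `K`-automorphisms via an
injective `φ : G →* Gal(E/K)` with `[E : K] ≤ |G|` (in the application: `E` the residue field of the
full level field, `K = k(x̄)`, `G = SL₂(ℤ/M)/±1`; the inequality is the fundamental inequality, the
injectivity is the faithfulness of the reduced action).  Then

* `E / K` is Galois with group `G` (`isGalois_of_card_le`, `bijective_of_card_le`,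
  `card_eq_finrank_of_card_le`);
* for a set `S ⊆ E` with pointwise stabiliser `H ≤ G`, `[K(S) : K] = [G : H]`
  (`finrank_adjoin_eq_index`); in particular `K(S) = E` if the stabiliser is trivial
  (`adjoin_eq_top_of_stabiliser_trivial`);
* on the generic side, for `F / K₀` Galois with group `G` (via `ψ`), `[F^H : K₀] = [G : H]`
  (`finrank_fixedField_map_eq_index`), so that "full residue degree" passes to the fixed fields:
  `full_of_stabiliser`.
-/

set_option autoImplicit false
set_option linter.unusedSectionVars false
set_option linter.style.haveILetI false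

open Module IntermediateField

namespace Fermat.Agent.S48x.Red1.FixedFull

section Residue

variable {K E : Type*} [Field K] [Field E] [Algebra K E] [FiniteDimensional K E]
  {G : Type*} [Group G] [Finite G] (φ : G →* Gal(E/K))

include φ in
/-- `|G| = |Gal(E/K)| = [E : K]`. -/
theorem card_eq_finrank_of_card_le (hφ : Function.Injective φ)
    (hcard : finrank K E ≤ Nat.card G) :
    Nat.card G = finrank K E ∧ Nat.card Gal(E/K) = finrank K E := by
  have h1 : Nat.card G ≤ Nat.card Gal(E/K) := Nat.card_le_card_of_injective φ hφ
  have h2 : Nat.card Gal(E/K) ≤ finrank K E := by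
    rw [Nat.card_eq_fintype_card]
    exact AlgEquiv.card_le
  exact ⟨le_antisymm (h1.trans h2) hcard, le_antisymm h2 (hcard.trans h1)⟩

include φ in
/-- `E / K` is Galois. -/
theorem isGalois_of_card_le (hφ : Function.Injective φ)
    (hcard : finrank K E ≤ Nat.card G) : IsGalois K E :=
  IsGalois.of_card_aut_eq_finrank K E (card_eq_finrank_of_card_le φ hφ hcard).2

/-- `φ` is an isomorphism onto the Galois group. -/
theorem bijective_of_card_le (hφ : Function.Injective φ)
    (hcard : finrank K E ≤ Nat.card G) : Function.Bijective φ := by
  have h := card_eq_finrank_of_card_le φ hφ hcard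
  rw [Nat.bijective_iff_injective_and_card]
  exact ⟨hφ, h.1.trans h.2.symm⟩

/-- **Degree of the field generated by a set with stabiliser `H`**: `[K(S) : K] = [G : H]`. -/
theorem finrank_adjoin_eq_index (hφ : Function.Injective φ)
    (hcard : finrank K E ≤ Nat.card G) (S : Set E) (H : Subgroup G)
    (hH : ∀ g : G, g ∈ H ↔ ∀ s ∈ S, φ g s = s) :
    finrank K (IntermediateField.adjoin K S) = H.index := by
  haveI : IsGalois K E := isGalois_of_card_le φ hφ hcard
  have hbij := bijective_of_card_le φ hφ hcard
  have hc := card_eq_finrank_of_card_le φ hφ hcard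
  set T : IntermediateField K E := IntermediateField.adjoin K S with hT
  -- the fixing subgroup of `K(S)` is the image of `H`
  have hfix : T.fixingSubgroup = H.map φ := by
    ext σ
    rw [IntermediateField.mem_fixingSubgroup_iff, Subgroup.mem_map]
    constructor
    · intro hσ
      obtain ⟨g, rfl⟩ := hbij.2 σ
      refine ⟨g, (hH g).mpr fun s hs => hσ s (IntermediateField.subset_adjoin K S hs), rfl⟩
    · rintro ⟨g, hg, rfl⟩ x hx
      have hle : T ≤ IntermediateField.fixedField (H.map φ) := by
        rw [hT, IntermediateField.adjoin_le_iff]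
        intro s hs
        rw [SetLike.mem_coe, IntermediateField.mem_fixedField_iff]
        rintro τ ⟨h, hh, rfl⟩
        exact (hH h).mp hh s hs
      exact (IntermediateField.mem_fixedField_iff _ x).mp (hle hx) (φ g) ⟨g, hg, rfl⟩
  -- count
  have h1 : Nat.card T.fixingSubgroup = finrank T E := IsGalois.card_fixingSubgroup_eq_finrank T
  have h2 : finrank K T * finrank T E = finrank K E := finrank_mul_finrank K T E
  have h3 : Nat.card (H.map φ) = Nat.card H :=
    Nat.card_congr (H.equivMapOfInjective φ hφ).toEquiv.symm
  have h4 : H.index * Nat.card H = Nat.card G := H.index_mul_card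
  have h5 : finrank T E = Nat.card H := by rw [← h1, hfix, h3]
  have hpos : 0 < Nat.card H := Nat.card_pos
  have h6 : finrank K T * Nat.card H = H.index * Nat.card H := by
    rw [← h5, h2, h5, h4, hc.1]
  exact Nat.eq_of_mul_eq_mul_right hpos h6

/-- If only the identity fixes `S` pointwise, then `K(S) = E`. -/
theorem adjoin_eq_top_of_stabiliser_trivial (hφ : Function.Injective φ)
    (hcard : finrank K E ≤ Nat.card G) (S : Set E)
    (hS : ∀ g : G, (∀ s ∈ S, φ g s = s) → g = 1) :
    IntermediateField.adjoin K S = ⊤ := by
  have h := finrank_adjoin_eq_index φ hφ hcard S ⊥ (fun g => by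
    rw [Subgroup.mem_bot]
    exact ⟨fun hg s _ => by rw [hg, map_one, AlgEquiv.one_apply], hS g⟩)
  rw [Subgroup.index_bot, (card_eq_finrank_of_card_le φ hφ hcard).1] at h
  exact IntermediateField.eq_of_le_of_finrank_eq le_top (by rw [h, IntermediateField.finrank_top'])

end Residue

section Generic

variable {K₀ F : Type*} [Field K₀] [Field F] [Algebra K₀ F] [FiniteDimensional K₀ F]
  {G : Type*} [Group G] [Finite G] (ψ : G →* Gal(F/K₀))

/-- On the generic side: for `F / K₀` Galois with group `G` (via `ψ`), the fixed field of the image
of `H` has degree `[G : H]`. -/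
theorem finrank_fixedField_map_eq_index (hψ : Function.Injective ψ)
    (hcard : finrank K₀ F ≤ Nat.card G) (H : Subgroup G) :
    finrank K₀ (IntermediateField.fixedField (H.map ψ)) = H.index := by
  have hc := card_eq_finrank_of_card_le ψ hψ hcard
  set T : IntermediateField K₀ F := IntermediateField.fixedField (H.map ψ) with hT
  have h1 : finrank T F = Nat.card (H.map ψ) := IntermediateField.finrank_fixedField_eq_card _
  have h3 : Nat.card (H.map ψ) = Nat.card H :=
    Nat.card_congr (H.equivMapOfInjective ψ hψ).toEquiv.symm
  have h2 : finrank K₀ T * finrank T F = finrank K₀ F := finrank_mul_finrank K₀ T F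
  have h4 : H.index * Nat.card H = Nat.card G := H.index_mul_card
  have hpos : 0 < Nat.card H := Nat.card_pos
  have h6 : finrank K₀ T * Nat.card H = H.index * Nat.card H := by
    rw [← h3, ← h1, h2, h1, h3, h4, hc.1]
  exact Nat.eq_of_mul_eq_mul_right hpos h6

variable {K E : Type*} [Field K] [Field E] [Algebra K E] [FiniteDimensional K E]
  (φ : G →* Gal(E/K))

/-- **Full residue degree passes to fixed fields.**  `F / K₀` Galois with group `G`, `E / K` the
residue extension with the reduced (faithful) action of `G` and `[E : K] ≤ |G|`.  If `S ⊆ E` (the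
reductions of a generating set of `F^H`) has pointwise stabiliser exactly `H`, then
`[F^H : K₀] = [K(S) : K]`. -/
theorem full_of_stabiliser (hψ : Function.Injective ψ) (hcardF : finrank K₀ F ≤ Nat.card G)
    (hφ : Function.Injective φ) (hcardE : finrank K E ≤ Nat.card G)
    (S : Set E) (H : Subgroup G) (hH : ∀ g : G, g ∈ H ↔ ∀ s ∈ S, φ g s = s) :
    finrank K₀ (IntermediateField.fixedField (H.map ψ)) =
      finrank K (IntermediateField.adjoin K S) := by
  rw [finrank_fixedField_map_eq_index ψ hψ hcardF H, finrank_adjoin_eq_index φ hφ hcardE S H hH]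

end Generic

end Fermat.Agent.S48x.Red1.FixedFull
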