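import Fermat.Agent.S48x.Red1.ResGalois
import Fermat.Agent.S48x.Red1.FixedFull

/-!
# P-S48, layer (c): the residue Galois action as a homomorphism `G →* Gal(E/K)`

Bridge between `Red1/ResGalois.lean` (`resHom`: the ring endomorphism of `E = R / ker ρ` induced by
`g : G`) and `Red1/FixedFull.lean` (Galois correspondence on the residue side).

In the setting of `ResGalois` (`G` finite acting on `R`, `ρ : R →+* E` surjective onto a field with
`G`-stable kernel, `K ⊆ E` the image of the invariants):

* `resGal ρ hρ hker hK : G →* Gal(E/K)` with `resGal_apply : resGal g (ρ r) = ρ (g • r)`;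
* `resGal_injective` from the faithfulness hypothesis `hfaith`;
* `finrank_adjoin_range_eq_index` : if `[E : K] ≤ |G|` and `H = {g | ∀ j, ρ (g • r j) = ρ (r j)}` for
  a family `r : J → R`, then `[K(ρ (r j) : j) : K] = [G : H]`;
* `adjoin_range_eq_top` : if only `g = 1` fixes all `ρ (r j)`, then `K(ρ (r j) : j) = E`.
-/

set_option autoImplicit false
set_option linter.unusedSectionVars false

open Module IntermediateField

namespace Fermat.Agent.S48x.Red1.ResGal

open Fermat.Agent.S48x.Red1

variable {G R K E : Type*} [Group G] [Finite G] [CommRing R] [MulSemiringAction G R]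
  [Field K] [Field E] [Algebra K E] [FiniteDimensional K E]
  (ρ : R →+* E) (hρ : Function.Surjective ρ)
  (hker : ∀ (g : G) (r : R), ρ r = 0 → ρ (g • r) = 0)
  (hK : ∀ c : K, ∃ r : R, (∀ g : G, g • r = r) ∧ ρ r = algebraMap K E c)

/-- the `K`-algebra endomorphism of `E` induced by `g`. -/
noncomputable def resAlgHom (g : G) : E →ₐ[K] E :=
  { resHom ρ hρ hker g with
    commutes' := fun c => by
      obtain ⟨r, hr, hrc⟩ := hK c
      change resHom ρ hρ hker g (algebraMap K E c) = algebraMap K E c
      rw [← hrc, resHom_apply, hr g] }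

theorem resAlgHom_apply (g : G) (r : R) : resAlgHom ρ hρ hker hK g (ρ r) = ρ (g • r) :=
  resHom_apply ρ hρ hker g r

theorem resAlgHom_one : resAlgHom ρ hρ hker hK (1 : G) = AlgHom.id K E := by
  apply AlgHom.ext
  intro y
  obtain ⟨r, rfl⟩ := hρ y
  rw [resAlgHom_apply, one_smul, AlgHom.id_apply]

theorem resAlgHom_mul (g h : G) :
    resAlgHom ρ hρ hker hK (g * h) =
      (resAlgHom ρ hρ hker hK g).comp (resAlgHom ρ hρ hker hK h) := by
  apply AlgHom.ext
  intro y
  obtain ⟨r, rfl⟩ := hρ y
  rw [AlgHom.comp_apply, resAlgHom_apply, resAlgHom_apply, resAlgHom_apply, mul_smul]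

/-- **the residue Galois action**. -/
noncomputable def resGal : G →* Gal(E/K) where
  toFun g := AlgEquiv.ofAlgHom (resAlgHom ρ hρ hker hK g) (resAlgHom ρ hρ hker hK g⁻¹)
    (by rw [← resAlgHom_mul, mul_inv_cancel, resAlgHom_one])
    (by rw [← resAlgHom_mul, inv_mul_cancel, resAlgHom_one])
  map_one' := by
    apply AlgEquiv.ext
    intro y
    change resAlgHom ρ hρ hker hK 1 y = y
    rw [resAlgHom_one, AlgHom.id_apply]
  map_mul' g h := by
    apply AlgEquiv.ext
    intro y
    change resAlgHom ρ hρ hker hK (g * h) y = _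
    rw [resAlgHom_mul]
    rfl

theorem resGal_apply (g : G) (r : R) : resGal ρ hρ hker hK g (ρ r) = ρ (g • r) :=
  resAlgHom_apply ρ hρ hker hK g r

theorem resGal_injective (hfaith : ∀ g : G, (∀ r : R, ρ (g • r) = ρ r) → g = 1) :
    Function.Injective (resGal ρ hρ hker hK) := by
  rw [injective_iff_map_eq_one]
  intro g hg
  refine hfaith g fun r => ?_
  rw [← resGal_apply ρ hρ hker hK g r, hg, AlgEquiv.one_apply]

include hρ hker hK in
/-- **Degree of the field generated by the reductions of a family with stabiliser `H`.** -/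
theorem finrank_adjoin_range_eq_index
    (hfaith : ∀ g : G, (∀ r : R, ρ (g • r) = ρ r) → g = 1)
    (hcard : finrank K E ≤ Nat.card G) {J : Type*} (r : J → R) (H : Subgroup G)
    (hH : ∀ g : G, g ∈ H ↔ ∀ j, ρ (g • r j) = ρ (r j)) :
    finrank K (IntermediateField.adjoin K (Set.range fun j => ρ (r j))) = H.index := by
  refine FixedFull.finrank_adjoin_eq_index (resGal ρ hρ hker hK)
    (resGal_injective ρ hρ hker hK hfaith) hcard _ H fun g => ?_
  rw [hH g]
  constructor
  · rintro h _ ⟨j, rfl⟩
    rw [resGal_apply]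
    exact h j
  · intro h j
    rw [← resGal_apply ρ hρ hker hK g (r j)]
    exact h _ ⟨j, rfl⟩

include hρ hker hK in
/-- If only the identity fixes all `ρ (r j)`, they generate `E` over `K`. -/
theorem adjoin_range_eq_top
    (hfaith : ∀ g : G, (∀ r : R, ρ (g • r) = ρ r) → g = 1)
    (hcard : finrank K E ≤ Nat.card G) {J : Type*} (r : J → R)
    (hr : ∀ g : G, (∀ j, ρ (g • r j) = ρ (r j)) → g = 1) :
    IntermediateField.adjoin K (Set.range fun j => ρ (r j)) = ⊤ := by
  refine FixedFull.adjoin_eq_top_of_stabiliser_trivial (resGal ρ hρ hker hK)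
    (resGal_injective ρ hρ hker hK hfaith) hcard _ fun g hg => hr g fun j => ?_
  rw [← resGal_apply ρ hρ hker hK g (r j)]
  exact hg _ ⟨j, rfl⟩

end Fermat.Agent.S48x.Red1.ResGal
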