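import Mathlib
import Fermat.Agent.S48x.Red1.Setting
import Fermat.Agent.S48x.Red1.ResGal
import Fermat.Agent.S48x.Red1.Shortcuts
import Fermat.Agent.Gateway.GoodRed.GaussRing

/-!
# P-S48, layer (c), (R6): Igusa for an integrally generated field with a group action

`D : IntGen A ι` an integral generating datum (`Red1/Setting.lean`), `π : A →+* k` surjective.
A finite group `G` acts on the index set `ι` and on the field `D.F = L(x, e_i)` by
`L`-automorphisms `act g`, fixing `x`, permuting the generators (`act g (e_i) = e_(perm g i)`, `perm : G → ι → ι` any function), with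
`L(x)` containing the fixed field.

`full_of_decomposition` : under the four hypotheses of the decomposition group argument
(`Red1/DecompGroup.lean`) --

* `hu`  : a "transvection" `u` acts as the twist `z ↦ ζ z` (so it preserves the Gauss norm),
* `hBu` : the "Borel" `B` normalises `⟨u⟩`,
* `hB`  : for `B`-invariant `f` with all conjugates in the Gauss ring, `f` and its conjugates have
  zero reduction simultaneously (this is the landed Igusa theorem for the `Γ₀`-type field),
* `hnc` : the normal closure of `u` is `G` (`Red1/SL2Gen.lean`),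

-- and `dist` : only `g = 1` fixes all the reductions `ē_i`, the datum has full residue degree:
`D.Full π`, i.e. `[F : L(x)] ≤ [κ : k(x̄)]` and `F / L(x)` is finite.

Internals: `D.Sκ π` (Gauss ring elements with reduction in `κ`), `D.igR π act` (its `G`-stable
part, with a `MulSemiringAction G`), `D.igρ π act : igR →+* κ` (the reduction, surjective).
-/

set_option autoImplicit false
set_option linter.unusedSectionVars false

noncomputable section

namespace Fermat.Agent.S48x.Red1

open IntermediateField Fermat.Agent.Gateway.Red Fermat.Agent.Gateway.GoodRed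
open Fermat.Agent.Gateway.GoodRed.GaussRing
open scoped Fermat.Agent.S48x.Red1.Shortcuts

namespace IntGen

variable {L : Type*} [Field L] {A : ValuationSubring L} {k : Type*} [Field k] (π : A →+* k)
  {ι : Type*} (D : IntGen A ι)
  {G : Type*} [Group G] (act : G →* (D.F ≃ₐ[L] D.F))

/-- the elements of the Gauss ring of `F` whose reduction lies in `κ`. -/
def Sκ : Subring D.F :=
  ((D.κ π).toSubfield.toSubring.comap (redV A π D.F)).map (Ov A π D.F).subtype

theorem mem_Sκ_iff {f : D.F} :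
    f ∈ D.Sκ π ↔ ∃ h : f ∈ Ov A π D.F, redV A π D.F ⟨f, h⟩ ∈ D.κ π := by
  constructor
  · rintro ⟨y, hy, rfl⟩
    exact ⟨y.2, hy⟩
  · rintro ⟨h, hf⟩
    exact ⟨⟨f, h⟩, hf, rfl⟩

/-- the `G`-stable part of `Sκ`. -/
def igR : Subring D.F := ⨅ g : G, (D.Sκ π).comap ((act g : D.F ≃ₐ[L] D.F) : D.F →+* D.F)

theorem mem_igR_iff {f : D.F} : f ∈ D.igR π act ↔ ∀ g : G, act g f ∈ D.Sκ π := by
  rw [igR, Subring.mem_iInf]
  rfl

theorem act_mem_igR {f : D.F} (hf : f ∈ D.igR π act) (g : G) : act g f ∈ D.igR π act := by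
  rw [mem_igR_iff] at hf ⊢
  intro h
  have := hf (h * g)
  rwa [map_mul, AlgEquiv.mul_apply] at this

theorem mem_Sκ_of_mem_igR {f : D.F} (hf : f ∈ D.igR π act) : f ∈ D.Sκ π := by
  have := (D.mem_igR_iff π act).mp hf 1
  rwa [map_one, AlgEquiv.one_apply] at this

theorem mem_Ov_of_mem_igR {f : D.F} (hf : f ∈ D.igR π act) : f ∈ Ov A π D.F :=
  ((D.mem_Sκ_iff π).mp (D.mem_Sκ_of_mem_igR π act hf)).1

instance : MulSemiringAction G (D.igR π act) where
  smul g r := ⟨act g r, D.act_mem_igR π act r.2 g⟩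
  one_smul r := Subtype.ext (by
    show act 1 (r : D.F) = r
    rw [map_one, AlgEquiv.one_apply])
  mul_smul g h r := Subtype.ext (by
    show act (g * h) (r : D.F) = act g (act h r)
    rw [map_mul, AlgEquiv.mul_apply])
  smul_zero g := Subtype.ext (map_zero (act g))
  smul_add g a b := Subtype.ext (map_add (act g) _ _)
  smul_one g := Subtype.ext (map_one (act g))
  smul_mul g a b := Subtype.ext (map_mul (act g) _ _)

theorem coe_smul_igR (g : G) (r : D.igR π act) : ((g • r : D.igR π act) : D.F) = act g r := rfl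

/-- the reduction map `igR → κ`. -/
def igρ : D.igR π act →+* D.κ π :=
  ((redV A π D.F).comp (Subring.inclusion fun _ hf => D.mem_Ov_of_mem_igR π act hf)).codRestrict
    (D.κ π) fun r => ((D.mem_Sκ_iff π).mp (D.mem_Sκ_of_mem_igR π act r.2)).2

theorem coe_igρ (r : D.igR π act) :
    ((D.igρ π act r : D.κ π) : LaurentSeries k) =
      redV A π D.F ⟨r, D.mem_Ov_of_mem_igR π act r.2⟩ := rfl

/-! ### generators -/

theorem eF_mem_Sκ (i : ι) : D.eF i ∈ D.Sκ π := by
  rw [mem_Sκ_iff]
  have h : D.eF i ∈ Ov A π D.F := embA_mem_gaussRing A π (D.e i)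
  refine ⟨h, ?_⟩
  rw [redV_of_eq_embA A π D.F ⟨D.eF i, h⟩ (a := D.e i) rfl]
  exact D.ebar_mem π i

variable {perm : G → ι → ι}

theorem eF_mem_igR (act_e : ∀ g i, act g (D.eF i) = D.eF (perm g i)) (i : ι) :
    D.eF i ∈ D.igR π act := by
  rw [mem_igR_iff]
  intro g
  rw [act_e]
  exact D.eF_mem_Sκ π _

theorem igρ_eF (act_e : ∀ g i, act g (D.eF i) = D.eF (perm g i)) (i : ι) :
    D.igρ π act ⟨D.eF i, D.eF_mem_igR π act act_e i⟩ = D.eκ π i := by
  apply Subtype.ext
  rw [coe_igρ]
  exact redV_of_eq_embA A π D.F _ (a := D.e i) rfl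

/-! ### the base field -/

theorem map_adjoin_xF : (L⟮D.xF⟯).map D.F.val = L⟮D.x⟯ := by
  rw [IntermediateField.adjoin_map, Set.image_singleton]
  rfl

theorem coe_mem_adjoin_x {f : D.F} (hf : f ∈ L⟮D.xF⟯) : (f : LaurentSeries L) ∈ L⟮D.x⟯ := by
  rw [← map_adjoin_xF]
  exact ⟨f, hf, rfl⟩

theorem mem_adjoin_xF_of_coe {f : D.F} (hf : (f : LaurentSeries L) ∈ L⟮D.x⟯) : f ∈ L⟮D.xF⟯ := by
  rw [← map_adjoin_xF] at hf
  obtain ⟨f', hf', h⟩ := hf
  have : f' = f := Subtype.ext h
  rwa [← this]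

theorem map_adjoin_xκ : (k⟮D.xκ π⟯).map (D.κ π).val = k⟮D.xbar π⟯ := by
  rw [IntermediateField.adjoin_map, Set.image_singleton]
  rfl

theorem coe_mem_adjoin_xbar {f : D.κ π} (hf : f ∈ k⟮D.xκ π⟯) :
    (f : LaurentSeries k) ∈ k⟮D.xbar π⟯ := by
  rw [← map_adjoin_xκ]
  exact ⟨f, hf, rfl⟩

theorem mem_adjoin_xκ_of_coe {f : D.κ π} (hf : (f : LaurentSeries k) ∈ k⟮D.xbar π⟯) :
    f ∈ k⟮D.xκ π⟯ := by
  rw [← map_adjoin_xκ] at hf
  obtain ⟨f', hf', h⟩ := hf
  have : f' = f := Subtype.ext h
  rwa [← this]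

theorem adjoin_x_le : L⟮D.x⟯ ≤ D.F := by
  rw [IntermediateField.adjoin_simple_le_iff]
  exact D.x_mem

theorem act_eq_of_mem_adjoin (act_x : ∀ g, act g D.xF = D.xF) {f : D.F} (hf : f ∈ L⟮D.xF⟯)
    (g : G) : act g f = f := by
  let σ : D.F →+* D.F := ((act g : D.F ≃ₐ[L] D.F) : D.F →+* D.F)
  show σ f = f
  induction hf using IntermediateField.adjoin_induction with
  | mem x hx =>
    rw [Set.mem_singleton_iff] at hx
    subst hx
    exact act_x g
  | algebraMap c => exact (act g).commutes c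
  | add x y _ _ hx hy => rw [map_add, hx, hy]
  | inv x _ hx => rw [map_inv₀, hx]
  | mul x y _ _ hx hy => rw [map_mul, hx, hy]

/-- the reduction of an element of `L(x)` in the Gauss ring lies in `k(x̄)`. -/
theorem redV_mem_adjoin_xbar (hπ : Function.Surjective π) {f : D.F} (hf : f ∈ L⟮D.xF⟯)
    (hO : f ∈ Ov A π D.F) : redV A π D.F ⟨f, hO⟩ ∈ k⟮D.xbar π⟯ := by
  obtain ⟨c, hc⟩ := exists_evalRF_eq_of_mem_adjoin D.x (transcendental_embA D.hord)
    (D.coe_mem_adjoin_x hf)
  have hcO : c ∈ Ox hπ D.hord D.hlc := by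
    rw [mem_Ox_iff_evalRF]
    have : evalRF (embA A D.ξ) (transcendental_embA D.hord) c = (f : LaurentSeries L) := hc
    rw [this]
    exact hO
  have h1 := redOxHom_mem_adjoin hπ D.hord D.hlc ⟨c, hcO⟩
  have h2 : redOxHom hπ D.hord D.hlc ⟨c, hcO⟩ = redV A π D.F ⟨f, hO⟩ := by
    rw [redOxHom_apply, redV_apply]
    congr 1
    exact Subtype.ext hc
  rw [h2] at h1
  exact h1

theorem mem_igR_of_mem_adjoin (hπ : Function.Surjective π) (act_x : ∀ g, act g D.xF = D.xF)
    {f : D.F} (hf : f ∈ L⟮D.xF⟯) (hO : f ∈ Ov A π D.F) : f ∈ D.igR π act := by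
  rw [mem_igR_iff]
  intro g
  rw [D.act_eq_of_mem_adjoin act act_x hf g, mem_Sκ_iff]
  refine ⟨hO, ?_⟩
  have h1 : k⟮D.xbar π⟯ ≤ D.κ π := by
    rw [IntermediateField.adjoin_simple_le_iff]
    exact D.xbar_mem π
  exact h1 (D.redV_mem_adjoin_xbar π hπ hf hO)

/-- every element of `k(x̄)` is the reduction of a `G`-invariant element of `igR`. -/
theorem exists_invariant_igρ_eq (hπ : Function.Surjective π) (act_x : ∀ g, act g D.xF = D.xF)
    (c : k⟮D.xκ π⟯) :
    ∃ r : D.igR π act, (∀ g : G, g • r = r) ∧ D.igρ π act r = algebraMap k⟮D.xκ π⟯ (D.κ π) c := by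
  obtain ⟨c', hc'⟩ := redOx_surjective hπ D.hord D.hlc
    ⟨((c : D.κ π) : LaurentSeries k), D.coe_mem_adjoin_xbar π c.2⟩
  have hmemF : evalRF D.x (transcendental_embA D.hord) (c' : RatFunc L) ∈ D.F :=
    D.adjoin_x_le (evalRF_mem_adjoin D.x _ _)
  let f : D.F := ⟨_, hmemF⟩
  have hf : f ∈ L⟮D.xF⟯ := D.mem_adjoin_xF_of_coe (evalRF_mem_adjoin D.x _ _)
  have hO : f ∈ Ov A π D.F := c'.2
  have hR : f ∈ D.igR π act := D.mem_igR_of_mem_adjoin π act hπ act_x hf hO
  refine ⟨⟨f, hR⟩, fun g => Subtype.ext (D.act_eq_of_mem_adjoin act act_x hf g), ?_⟩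
  apply Subtype.ext
  rw [coe_igρ]
  have h3 := congrArg (fun y : k⟮redA A π D.ξ⟯ => (y : LaurentSeries k)) hc'
  simp only [redOx_coe, redOxHom_apply] at h3
  exact h3

/-! ### integrality, finiteness of `κ / k(x̄)`, surjectivity of the reduction -/

theorem igρ_mem_of_invariant (hπ : Function.Surjective π)
    (fixed : ∀ f : D.F, (∀ g, act g f = f) → f ∈ L⟮D.xF⟯) (r : D.igR π act)
    (hr : ∀ g : G, g • r = r) : D.igρ π act r ∈ k⟮D.xκ π⟯ := by
  have h1 : ∀ g, act g (r : D.F) = r := fun g =>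
    (D.coe_smul_igR π act g r).symm.trans (congrArg Subtype.val (hr g))
  have h2 : (r : D.F) ∈ L⟮D.xF⟯ := fixed r h1
  have h3 := D.redV_mem_adjoin_xbar π hπ h2 (D.mem_Ov_of_mem_igR π act r.2)
  exact D.mem_adjoin_xκ_of_coe π h3

theorem isIntegral_igρ [Finite G] (hπ : Function.Surjective π)
    (fixed : ∀ f : D.F, (∀ g, act g f = f) → f ∈ L⟮D.xF⟯) (r : D.igR π act) :
    IsIntegral k⟮D.xκ π⟯ (D.igρ π act r) := by
  have : Algebra.IsInvariant (FixedPoints.subring (D.igR π act) G) (D.igR π act) G :=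
    ⟨fun r hr => ⟨⟨r, hr⟩, rfl⟩⟩
  have hint : IsIntegral (FixedPoints.subring (D.igR π act) G) r :=
    (Algebra.IsInvariant.isIntegral (FixedPoints.subring (D.igR π act) G)
      (D.igR π act) G).isIntegral r
  let φ : FixedPoints.subring (D.igR π act) G →+* k⟮D.xκ π⟯ :=
    ((D.igρ π act).comp (FixedPoints.subring (D.igR π act) G).subtype).codRestrict k⟮D.xκ π⟯
      (fun r => D.igρ_mem_of_invariant π act hπ fixed r.1 r.2)
  exact IsIntegral.map_of_comp_eq φ (D.igρ π act) (by ext; rfl) hint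

theorem adjoin_eκ_eq_top :
    IntermediateField.adjoin k⟮D.xκ π⟯ (Set.range (D.eκ π)) = ⊤ := by
  apply IntermediateField.restrictScalars_injective k
  rw [IntermediateField.adjoin_adjoin_left, IntermediateField.restrictScalars_top]
  apply IntermediateField.lift_injective
  rw [IntermediateField.lift_adjoin, IntermediateField.lift_top]
  have : (Subtype.val '' ({D.xκ π} ∪ Set.range (D.eκ π)) : Set (LaurentSeries k)) =
      insert (D.xbar π) (Set.range (D.ebar π)) := by
    rw [Set.image_union, Set.image_singleton, ← Set.range_comp, Set.singleton_union]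
    rfl
  rw [this]
  rfl

theorem finiteDimensional_κ [Finite ι] [Finite G] (hπ : Function.Surjective π)
    (act_e : ∀ g i, act g (D.eF i) = D.eF (perm g i))
    (fixed : ∀ f : D.F, (∀ g, act g f = f) → f ∈ L⟮D.xF⟯) :
    FiniteDimensional k⟮D.xκ π⟯ (D.κ π) := by
  have h1 : FiniteDimensional k⟮D.xκ π⟯
      (IntermediateField.adjoin k⟮D.xκ π⟯ (Set.range (D.eκ π))) := by
    apply IntermediateField.finiteDimensional_adjoin
    rintro _ ⟨i, rfl⟩
    rw [← D.igρ_eF π act act_e i]
    exact D.isIntegral_igρ π act hπ fixed _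
  rw [D.adjoin_eκ_eq_top π] at h1
  exact LinearEquiv.finiteDimensional
    (IntermediateField.topEquiv (F := k⟮D.xκ π⟯) (E := D.κ π)).toLinearEquiv

theorem igρ_surjective [Finite ι] [Finite G] (hπ : Function.Surjective π)
    (act_x : ∀ g, act g D.xF = D.xF)
    (act_e : ∀ g i, act g (D.eF i) = D.eF (perm g i))
    (fixed : ∀ f : D.F, (∀ g, act g f = f) → f ∈ L⟮D.xF⟯) :
    Function.Surjective (D.igρ π act) := by
  have hfd := D.finiteDimensional_κ π act hπ act_e fixed
  have halg : Algebra.IsAlgebraic k⟮D.xκ π⟯ (D.κ π) := Algebra.IsAlgebraic.of_finite _ _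
  let T : Subalgebra k⟮D.xκ π⟯ (D.κ π) :=
    { (D.igρ π act).range with
      algebraMap_mem' := fun c => by
        obtain ⟨r, -, hr⟩ := D.exists_invariant_igρ_eq π act hπ act_x c
        exact ⟨r, hr⟩ }
  have hT : IsField T := Subalgebra.isField_of_algebraic T
  have h1 : IntermediateField.adjoin k⟮D.xκ π⟯ (Set.range (D.eκ π)) ≤ T.toIntermediateField' hT := by
    rw [IntermediateField.adjoin_le_iff]
    rintro _ ⟨i, rfl⟩
    exact ⟨⟨D.eF i, D.eF_mem_igR π act act_e i⟩, D.igρ_eF π act act_e i⟩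
  rw [D.adjoin_eκ_eq_top π] at h1
  intro y
  exact h1 (IntermediateField.mem_top (x := y))

/-! ### the characteristic zero side -/

/-- if `L(x)` contains the fixed field of the finite group `G`, then `F / L(x)` is finite of degree
at most `|G|`. -/
theorem finrank_F_le_card [Finite G]
    (fixed : ∀ f : D.F, (∀ g, act g f = f) → f ∈ L⟮D.xF⟯) :
    FiniteDimensional L⟮D.xF⟯ D.F ∧ Module.finrank L⟮D.xF⟯ D.F ≤ Nat.card G := by
  let H : Subgroup (D.F ≃ₐ[L] D.F) := act.range
  have hfin : Finite H := Set.finite_range act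
  have hle : IntermediateField.fixedField H ≤ L⟮D.xF⟯ := by
    intro f hf
    refine fixed f fun g => ?_
    exact hf ⟨act g, g, rfl⟩
  have hfd : FiniteDimensional (IntermediateField.fixedField H) D.F :=
    inferInstanceAs (FiniteDimensional (FixedPoints.subfield H D.F) D.F)
  have hcard : Module.finrank (IntermediateField.fixedField H) D.F ≤ Nat.card G := by
    have := Fintype.ofFinite H
    calc Module.finrank (IntermediateField.fixedField H) D.F ≤ Fintype.card H :=
          FixedPoints.finrank_le_card H D.F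
      _ = Nat.card H := Nat.card_eq_fintype_card.symm
      _ ≤ Nat.card G := Nat.card_le_card_of_surjective act.rangeRestrict
          act.rangeRestrict_surjective
  refine ⟨?_, (IntermediateField.finrank_le_of_le_left hle).trans hcard⟩
  let alg : Algebra (IntermediateField.fixedField H) L⟮D.xF⟯ :=
    (IntermediateField.inclusion hle).toRingHom.toAlgebra
  let _ : SMul (IntermediateField.fixedField H) L⟮D.xF⟯ := alg.toSMul
  let _ : Module (IntermediateField.fixedField H) L⟮D.xF⟯ := alg.toModule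
  have : IsScalarTower (IntermediateField.fixedField H) L⟮D.xF⟯ D.F :=
    IsScalarTower.of_algebraMap_eq fun x ↦ rfl
  exact FiniteDimensional.right (IntermediateField.fixedField H) L⟮D.xF⟯ D.F

/-! ### the main theorem -/

theorem coe_igρ_smul_of_twist (u : G) (ζ : Aˣ)
    (hu : ∀ f : D.F, ((act u f : D.F) : LaurentSeries L) =
      Fermat.Agent.S28.twist (Units.map (A.subtype : A →* L) ζ) (f : LaurentSeries L))
    (r : D.igR π act) :
    ((D.igρ π act (u • r) : D.κ π) : LaurentSeries k) =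
      Fermat.Agent.S28.twist (Units.map (π : A →* k) ζ)
        ((D.igρ π act r : D.κ π) : LaurentSeries k) := by
  rw [coe_igρ, coe_igρ, redV_apply, redV_apply]
  have hy : ((r : D.F) : LaurentSeries L) ∈ gaussRing A π := D.mem_Ov_of_mem_igR π act r.2
  rw [← gaussRed_twist A π ζ hy]
  congr 1
  exact Subtype.ext (hu r)

/-- **the data of Igusa's theorem** for an integrally generated field `D.F` with an action of a
finite group `G` (faithful on the reductions of the generators: `dist`). `perm` is any function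
(no action axioms are needed). -/
structure IgusaData (G : Type*) [Group G] where
  /-- the action on the field. -/
  act : G →* (D.F ≃ₐ[L] D.F)
  /-- the action on the indices of the generators. -/
  perm : G → ι → ι
  act_x : ∀ g, act g D.xF = D.xF
  act_e : ∀ g i, act g (D.eF i) = D.eF (perm g i)
  /-- the fixed field is contained in `L(x)`. -/
  fixed : ∀ f : D.F, (∀ g, act g f = f) → f ∈ L⟮D.xF⟯
  /-- the "Borel". -/
  B : Subgroup G
  /-- the "transvection". -/
  u : G
  /-- the root of unity of the twist. -/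
  ζ : Aˣ
  hu : ∀ f : D.F, ((act u f : D.F) : LaurentSeries L) =
    Fermat.Agent.S28.twist (Units.map (A.subtype : A →* L) ζ) (f : LaurentSeries L)
  hBu : ∀ b ∈ B, b * u * b⁻¹ ∈ Subgroup.zpowers u
  hnc : Subgroup.normalClosure {u} = ⊤
  /-- the Igusa theorem for the `B`-invariants (landed for the `Γ₀`-type field:
  `Red1/BorelBridge.lean`). -/
  hB : ∀ f : D.F, (∀ g, act g f ∈ Ov A π D.F) → (∀ b ∈ B, act b f = f) →
    ∀ (g : G) (h1 : f ∈ Ov A π D.F) (h2 : act g f ∈ Ov A π D.F),
      (redV A π D.F ⟨_, h2⟩ = 0 ↔ redV A π D.F ⟨_, h1⟩ = 0)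
  /-- only the identity fixes the reductions of all the generators. -/
  dist : ∀ g : G, (∀ i, D.ebar π (perm g i) = D.ebar π i) → g = 1

namespace IgusaData

variable {π D}
variable {G : Type*} [Group G] (I : D.IgusaData π G)

theorem igρ_eq_zero_iff (r : D.igR π I.act) : D.igρ π I.act r = 0 ↔
    redV A π D.F ⟨r, D.mem_Ov_of_mem_igR π I.act r.2⟩ = 0 := by
  rw [← coe_igρ, ← ZeroMemClass.coe_eq_zero]

/-- `G` stabilises the kernel of the reduction map (the decomposition group argument). -/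
theorem ker_stable [Finite G] (g : G) (r : D.igR π I.act) (hr : D.igρ π I.act r = 0) :
    D.igρ π I.act (g • r) = 0 := by
  refine ker_stable_of_decomposition (D.igρ π I.act) I.B I.u (fun r => ?_) I.hBu
    (fun r hr g => ?_) I.hnc g r hr
  · rw [← ZeroMemClass.coe_eq_zero, ← ZeroMemClass.coe_eq_zero (x := D.igρ π I.act r),
      D.coe_igρ_smul_of_twist π I.act I.u I.ζ I.hu r, Fermat.Agent.S28.twist_eq_zero_iff]
  · rw [I.igρ_eq_zero_iff, I.igρ_eq_zero_iff]
    refine I.hB r (fun g => D.mem_Ov_of_mem_igR π I.act (D.act_mem_igR π I.act r.2 g))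
      (fun b hb => ?_) g _ _
    exact (D.coe_smul_igR π I.act b r).symm.trans (congrArg Subtype.val (hr b hb))

theorem faithful (g : G) (hg : ∀ r : D.igR π I.act, D.igρ π I.act (g • r) = D.igρ π I.act r) :
    g = 1 := by
  refine I.dist g fun i => ?_
  have h1 := hg ⟨D.eF i, D.eF_mem_igR π I.act I.act_e i⟩
  have h2 : g • (⟨D.eF i, D.eF_mem_igR π I.act I.act_e i⟩ : D.igR π I.act) =
      ⟨D.eF (I.perm g i), D.eF_mem_igR π I.act I.act_e (I.perm g i)⟩ :=
    Subtype.ext (I.act_e g i)
  rw [h2, D.igρ_eF π I.act I.act_e, D.igρ_eF π I.act I.act_e] at h1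
  exact congrArg Subtype.val h1

variable [Finite ι] [Finite G] (hπ : Function.Surjective π)

include I hπ in
theorem finiteDimensional_κ : FiniteDimensional k⟮D.xκ π⟯ (D.κ π) :=
  D.finiteDimensional_κ π I.act hπ I.act_e I.fixed

include I in
omit [Finite ι] in
theorem finiteDimensional_F : FiniteDimensional L⟮D.xF⟯ D.F :=
  (D.finrank_F_le_card I.act I.fixed).1

include I in
omit [Finite ι] in
theorem finrank_F_le : Module.finrank L⟮D.xF⟯ D.F ≤ Nat.card G :=
  (D.finrank_F_le_card I.act I.fixed).2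

include hπ in
theorem igρ_surjective : Function.Surjective (D.igρ π I.act) :=
  D.igρ_surjective π I.act hπ I.act_x I.act_e I.fixed

include hπ in
omit [Finite ι] [Finite G] in
theorem exists_invariant (c : k⟮D.xκ π⟯) :
    ∃ r : D.igR π I.act, (∀ g : G, g • r = r) ∧
      D.igρ π I.act r = algebraMap k⟮D.xκ π⟯ (D.κ π) c :=
  D.exists_invariant_igρ_eq π I.act hπ I.act_x c

include I hπ in
theorem card_le_finrank_κ : Nat.card G ≤ Module.finrank k⟮D.xκ π⟯ (D.κ π) := by
  have := I.finiteDimensional_κ hπ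
  exact card_le_finrank_of_ker_stable (K := k⟮D.xκ π⟯) (D.igρ π I.act)
    (I.igρ_surjective hπ) I.ker_stable (I.exists_invariant hπ) I.faithful

include I hπ in
/-- **Igusa for an integrally generated field with a group action** (design note
`S48-DESIGN-Red1`, (R6)). -/
theorem full : D.Full π :=
  ⟨I.finiteDimensional_F, I.finrank_F_le.trans (I.card_le_finrank_κ hπ)⟩

/-- the residue Galois action `G →* Gal(κ / k(x̄))`. -/
def φ : G →* Gal(D.κ π/k⟮D.xκ π⟯) :=
  @ResGal.resGal G (D.igR π I.act) k⟮D.xκ π⟯ (D.κ π) _ _ _ _ _ _ _ (I.finiteDimensional_κ hπ)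
    (D.igρ π I.act) (I.igρ_surjective hπ) I.ker_stable (I.exists_invariant hπ)

theorem φ_igρ (g : G) (r : D.igR π I.act) :
    I.φ hπ g (D.igρ π I.act r) = D.igρ π I.act (g • r) :=
  @ResGal.resGal_apply G (D.igR π I.act) k⟮D.xκ π⟯ (D.κ π) _ _ _ _ _ _ _
    (I.finiteDimensional_κ hπ) (D.igρ π I.act) (I.igρ_surjective hπ) I.ker_stable
    (I.exists_invariant hπ) g r

theorem φ_eκ (g : G) (i : ι) : I.φ hπ g (D.eκ π i) = D.eκ π (I.perm g i) := by
  have h1 := I.φ_igρ hπ g ⟨D.eF i, D.eF_mem_igR π I.act I.act_e i⟩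
  have h2 : g • (⟨D.eF i, D.eF_mem_igR π I.act I.act_e i⟩ : D.igR π I.act) =
      ⟨D.eF (I.perm g i), D.eF_mem_igR π I.act I.act_e (I.perm g i)⟩ :=
    Subtype.ext (I.act_e g i)
  rw [h2, D.igρ_eF π I.act I.act_e, D.igρ_eF π I.act I.act_e] at h1
  exact h1

theorem φ_injective : Function.Injective (I.φ hπ) :=
  @ResGal.resGal_injective G (D.igR π I.act) k⟮D.xκ π⟯ (D.κ π) _ _ _ _ _ _ _
    (I.finiteDimensional_κ hπ) (D.igρ π I.act) (I.igρ_surjective hπ) I.ker_stable
    (I.exists_invariant hπ) I.faithful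

/-- the reduction of an element of `D.F` all of whose conjugates lie in the Gauss ring with
reductions in `κ`: `φ g` maps it to the reduction of the conjugate. -/
theorem φ_redV (g : G) {f : D.F} (hf : f ∈ D.igR π I.act) :
    ((I.φ hπ g (D.igρ π I.act ⟨f, hf⟩) : D.κ π) : LaurentSeries k) =
      redV A π D.F ⟨I.act g f, D.mem_Ov_of_mem_igR π I.act (D.act_mem_igR π I.act hf g)⟩ := by
  rw [I.φ_igρ hπ g ⟨f, hf⟩]
  rfl

/-! ### the characteristic zero Galois action -/

omit [Finite ι] [Finite G] in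
/-- the action as a homomorphism to `Gal(F / L(x))`. -/
def ψ : G →* Gal(D.F/L⟮D.xF⟯) where
  toFun g := AlgEquiv.ofRingEquiv (f := (I.act g).toRingEquiv)
    (fun c => D.act_eq_of_mem_adjoin I.act I.act_x c.2 g)
  map_one' := by
    apply AlgEquiv.ext
    intro f
    show I.act 1 f = f
    rw [map_one, AlgEquiv.one_apply]
  map_mul' g h := by
    apply AlgEquiv.ext
    intro f
    show I.act (g * h) f = I.act g (I.act h f)
    rw [map_mul, AlgEquiv.mul_apply]

omit [Finite ι] [Finite G] in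
theorem ψ_apply (g : G) (f : D.F) : I.ψ g f = I.act g f := rfl

omit [Finite ι] [Finite G] in
theorem act_injective : Function.Injective I.act := by
  rw [injective_iff_map_eq_one]
  intro g hg
  refine I.dist g fun i => ?_
  have h1 : D.eF (I.perm g i) = D.eF i := by
    rw [← I.act_e g i, hg, AlgEquiv.one_apply]
  have h2 : embA A (D.e (I.perm g i)) = embA A (D.e i) := congrArg Subtype.val h1
  show redA A π (D.e (I.perm g i)) = redA A π (D.e i)
  rw [embA_injective A h2]

omit [Finite ι] [Finite G] in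
theorem ψ_injective : Function.Injective I.ψ := by
  intro g h hgh
  apply I.act_injective
  apply AlgEquiv.ext
  intro f
  have := congrArg (fun σ : Gal(D.F/L⟮D.xF⟯) => σ f) hgh
  exact this

end IgusaData

/-- **Igusa for an integrally generated field with a group action**, unbundled form
(`[MulAction G ι]` version of `IgusaData.full`). -/
theorem full_of_decomposition [Finite ι] [Finite G] [MulAction G ι] (hπ : Function.Surjective π)
    (act_x : ∀ g, act g D.xF = D.xF)
    (act_e : ∀ g i, act g (D.eF i) = D.eF (g • i))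
    (fixed : ∀ f : D.F, (∀ g, act g f = f) → f ∈ L⟮D.xF⟯)
    (B : Subgroup G) (u : G) (ζ : Aˣ)
    (hu : ∀ f : D.F, ((act u f : D.F) : LaurentSeries L) =
      Fermat.Agent.S28.twist (Units.map (A.subtype : A →* L) ζ) (f : LaurentSeries L))
    (hBu : ∀ b ∈ B, b * u * b⁻¹ ∈ Subgroup.zpowers u)
    (hnc : Subgroup.normalClosure {u} = ⊤)
    (hB : ∀ f : D.F, (∀ g, act g f ∈ Ov A π D.F) → (∀ b ∈ B, act b f = f) →
      ∀ (g : G) (h1 : f ∈ Ov A π D.F) (h2 : act g f ∈ Ov A π D.F),
        (redV A π D.F ⟨_, h2⟩ = 0 ↔ redV A π D.F ⟨_, h1⟩ = 0))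
    (dist : ∀ g : G, (∀ i, D.ebar π (g • i) = D.ebar π i) → g = 1) :
    D.Full π := by
  have I : D.IgusaData π G :=
    ⟨act, fun g i => g • i, act_x, act_e, fixed, B, u, ζ, hu, hBu, hnc, hB, dist⟩
  exact I.full hπ

end IntGen

end Fermat.Agent.S48x.Red1
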