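import Mathlib
import Fermat.Agent.S48x.Red1.IgusaFull

/-!
# P-S48, layer (c), (R6): the full level data (target of (A4)) and the bridge to `IgusaData`

`FullLevelData π D G₀` is what the analytic layer (A4) (`Ana/GaloisAct*.lean`) + the formal model
(`Model/*`) + `Red1/BorelBridge.lean` + rigidity over the residue field have to produce for the
ratio datum `D`: a (not necessarily faithful) action `act : G₀ →* (F' ≃ₐ[L] F')` of a finite group
(`G₀ = SL(2, ZMod M)`) on a field `F' = D.F`, everything stated through the coercion to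
`LaurentSeries L`, so that nothing depends on how `D.F` is presented.

`FullLevelData.igusaData : D.IgusaData π I.act.range` is the bridge to the faithful group
`act.range`, hence `FullLevelData.full : D.Full π`.
-/

set_option autoImplicit false
set_option linter.unusedSectionVars false
set_option linter.style.haveILetI false

noncomputable section

namespace Fermat.Agent.S48x.Red1

open IntermediateField Fermat.Agent.Gateway.Red Fermat.Agent.Gateway.GoodRed
open Fermat.Agent.Gateway.GoodRed.GaussRing
open scoped Fermat.Agent.S48x.Red1.Shortcuts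

namespace IntGen

universe uL

variable {L : Type uL} [Field L] {A : ValuationSubring L} {k : Type*} [Field k] (π : A →+* k)
  {ι : Type*} (D : IntGen A ι)

/-- **the full level data** (non-faithful group, coercion form). -/
structure FullLevelData (G₀ : Type*) [Group G₀] where
  /-- the field, in any presentation. -/
  F' : IntermediateField L (LaurentSeries L)
  hF' : F' = D.F
  /-- the action. -/
  act : G₀ →* (F' ≃ₐ[L] F')
  /-- the action on the indices of the generators (any function). -/
  perm : G₀ → ι → ι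
  act_x : ∀ (g : G₀) (x' : F'), (x' : LaurentSeries L) = D.x →
    ((act g x' : F') : LaurentSeries L) = D.x
  act_e : ∀ (g : G₀) (i : ι) (y : F'), (y : LaurentSeries L) = D.eL i →
    ((act g y : F') : LaurentSeries L) = D.eL (perm g i)
  /-- the fixed field is contained in `L(x)`. -/
  fixed : ∀ f : F', (∀ g, act g f = f) → (f : LaurentSeries L) ∈ L⟮D.x⟯
  /-- the "Borel". -/
  B : Subgroup G₀
  /-- the "transvection". -/
  u : G₀
  /-- the root of unity of the twist. -/
  ζ : Aˣ
  hu : ∀ f : F', ((act u f : F') : LaurentSeries L) =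
    Fermat.Agent.S28.twist (Units.map (A.subtype : A →* L) ζ) (f : LaurentSeries L)
  hBu : ∀ b ∈ B, b * u * b⁻¹ ∈ Subgroup.zpowers u
  hnc : Subgroup.normalClosure {u} = ⊤
  /-- Igusa for the `B`-invariants (`Red1/BorelBridge.lean`). -/
  hB : ∀ f : F', (∀ g, ((act g f : F') : LaurentSeries L) ∈ gaussRing A π) →
    (∀ b ∈ B, act b f = f) →
    ∀ (g : G₀) (h1 : (f : LaurentSeries L) ∈ gaussRing A π)
      (h2 : ((act g f : F') : LaurentSeries L) ∈ gaussRing A π),
      (gaussRed A π ⟨_, h2⟩ = 0 ↔ gaussRed A π ⟨_, h1⟩ = 0)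
  /-- rigidity over the residue field: an element fixing the reductions of all the generators
  acts trivially. -/
  dist : ∀ g : G₀, (∀ i, D.ebar π (perm g i) = D.ebar π i) → act g = 1

namespace FullLevelData

variable {π D}
variable {G₀ : Type*} [Group G₀]

theorem finite_range_act [Finite G₀] (act : G₀ →* (D.F ≃ₐ[L] D.F)) : Finite act.range :=
  Finite.of_surjective _ act.rangeRestrict_surjective

/-- the bridge, for `F' = D.F` definitionally. -/
def igusaDataAux (act : G₀ →* (D.F ≃ₐ[L] D.F)) (perm : G₀ → ι → ι)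
    (act_x : ∀ g, act g D.xF = D.xF)
    (act_e : ∀ g i, act g (D.eF i) = D.eF (perm g i))
    (fixed : ∀ f : D.F, (∀ g, act g f = f) → f ∈ L⟮D.xF⟯)
    (B : Subgroup G₀) (u : G₀) (ζ : Aˣ)
    (hu : ∀ f : D.F, ((act u f : D.F) : LaurentSeries L) =
      Fermat.Agent.S28.twist (Units.map (A.subtype : A →* L) ζ) (f : LaurentSeries L))
    (hBu : ∀ b ∈ B, b * u * b⁻¹ ∈ Subgroup.zpowers u)
    (hnc : Subgroup.normalClosure {u} = ⊤)
    (hB : ∀ f : D.F, (∀ g, act g f ∈ Ov A π D.F) → (∀ b ∈ B, act b f = f) →
      ∀ (g : G₀) (h1 : f ∈ Ov A π D.F) (h2 : act g f ∈ Ov A π D.F),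
        (redV A π D.F ⟨_, h2⟩ = 0 ↔ redV A π D.F ⟨_, h1⟩ = 0))
    (dist : ∀ g : G₀, (∀ i, D.ebar π (perm g i) = D.ebar π i) → act g = 1) :
    D.IgusaData π act.range where
  act := act.range.subtype
  perm σ i := perm (Classical.choose σ.2) i
  act_x σ := by
    obtain ⟨g, hg⟩ := σ.2
    show (σ : D.F ≃ₐ[L] D.F) D.xF = D.xF
    rw [← hg]
    exact act_x g
  act_e σ i := by
    show (σ : D.F ≃ₐ[L] D.F) (D.eF i) = _
    have h := Classical.choose_spec σ.2
    rw [← act_e (Classical.choose σ.2) i, h]
  fixed f hf := fixed f fun g => hf ⟨act g, g, rfl⟩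
  B := B.map act.rangeRestrict
  u := act.rangeRestrict u
  ζ := ζ
  hu f := hu f
  hBu := by
    rintro _ ⟨b, hb, rfl⟩
    rw [← map_inv, ← map_mul, ← map_mul]
    obtain ⟨n, hn⟩ := Subgroup.mem_zpowers_iff.mp (hBu b hb)
    rw [← hn, map_zpow]
    exact Subgroup.zpow_mem_zpowers _ n
  hnc := by
    have h := Subgroup.map_normalClosure {u} act.rangeRestrict act.rangeRestrict_surjective
    rw [hnc, Set.image_singleton] at h
    rw [← h, ← MonoidHom.range_eq_map, MonoidHom.range_eq_top]
    exact act.rangeRestrict_surjective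
  hB f hf hb σ h1 h2 := by
    obtain ⟨g, hg⟩ := σ.2
    have hf' : ∀ g, act g f ∈ Ov A π D.F := fun g => hf ⟨act g, g, rfl⟩
    have hb' : ∀ b ∈ B, act b f = f := fun b hb' => hb (act.rangeRestrict b) ⟨b, hb', rfl⟩
    have h2' : act g f ∈ Ov A π D.F := hf' g
    have key := hB f hf' hb' g h1 h2'
    have heq : (⟨act.range.subtype σ f, h2⟩ : Ov A π D.F) = ⟨act g f, h2'⟩ := by
      apply Subtype.ext
      show (σ : D.F ≃ₐ[L] D.F) f = act g f
      rw [← hg]
    rw [heq]
    exact key
  dist σ hσ := by
    apply Subtype.ext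
    have h := Classical.choose_spec σ.2
    rw [← h]
    exact dist (Classical.choose σ.2) hσ

section Aux

variable (act : G₀ →* (D.F ≃ₐ[L] D.F)) (perm : G₀ → ι → ι)
    (act_x : ∀ g, act g D.xF = D.xF)
    (act_e : ∀ g i, act g (D.eF i) = D.eF (perm g i))
    (fixed : ∀ f : D.F, (∀ g, act g f = f) → f ∈ L⟮D.xF⟯)
    (B : Subgroup G₀) (u : G₀) (ζ : Aˣ)
    (hu : ∀ f : D.F, ((act u f : D.F) : LaurentSeries L) =
      Fermat.Agent.S28.twist (Units.map (A.subtype : A →* L) ζ) (f : LaurentSeries L))
    (hBu : ∀ b ∈ B, b * u * b⁻¹ ∈ Subgroup.zpowers u)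
    (hnc : Subgroup.normalClosure {u} = ⊤)
    (hB : ∀ f : D.F, (∀ g, act g f ∈ Ov A π D.F) → (∀ b ∈ B, act b f = f) →
      ∀ (g : G₀) (h1 : f ∈ Ov A π D.F) (h2 : act g f ∈ Ov A π D.F),
        (redV A π D.F ⟨_, h2⟩ = 0 ↔ redV A π D.F ⟨_, h1⟩ = 0))
    (dist : ∀ g : G₀, (∀ i, D.ebar π (perm g i) = D.ebar π i) → act g = 1)

/-- the action of `igusaDataAux` is the inclusion of `act.range`. -/
theorem igusaDataAux_act (σ : act.range) (f : D.F) :
    (igusaDataAux act perm act_x act_e fixed B u ζ hu hBu hnc hB dist).act σ f =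
      (σ : D.F ≃ₐ[L] D.F) f := rfl

theorem igusaDataAux_act_rangeRestrict (g : G₀) (f : D.F) :
    (igusaDataAux act perm act_x act_e fixed B u ζ hu hBu hnc hB dist).act
      (act.rangeRestrict g) f = act g f := rfl

/-- the index function of `igusaDataAux` agrees with `perm` up to equality of the generators. -/
theorem e_igusaDataAux_perm (g : G₀) (i : ι) :
    D.e ((igusaDataAux act perm act_x act_e fixed B u ζ hu hBu hnc hB dist).perm
      (act.rangeRestrict g) i) = D.e (perm g i) := by
  have h1 := (igusaDataAux act perm act_x act_e fixed B u ζ hu hBu hnc hB dist).act_e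
    (act.rangeRestrict g) i
  rw [igusaDataAux_act_rangeRestrict, act_e g i] at h1
  have h2 : embA A (D.e (perm g i)) = embA A (D.e _) := congrArg Subtype.val h1
  exact (embA_injective A h2).symm

variable [Finite ι] [Finite G₀] (hπ : Function.Surjective π)

/-- the residue action of `g : G₀` on the reduced generators. -/
theorem φ_igusaDataAux_eκ (g : G₀) (i : ι) :
    haveI : Finite act.range := finite_range_act act
    (igusaDataAux act perm act_x act_e fixed B u ζ hu hBu hnc hB dist).φ hπ
      (act.rangeRestrict g) (D.eκ π i) = D.eκ π (perm g i) := by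
  haveI : Finite act.range := finite_range_act act
  rw [IgusaData.φ_eκ]
  apply Subtype.ext
  show redA A π (D.e _) = redA A π (D.e (perm g i))
  rw [e_igusaDataAux_perm]

end Aux

variable (I : D.FullLevelData π G₀)

include I in
/-- **the bridge** `FullLevelData → IgusaData` (on the faithful group `act.range`), up to the
identification `F' = D.F`: stated as an existence to avoid transporting along `hF'`. -/
theorem exists_igusaData :
    ∃ (G : Type uL) (_ : Group G), (Finite G₀ → Finite G) ∧ Nonempty (D.IgusaData π G) := by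
  obtain ⟨F', hF', act, perm, act_x, act_e, fixed, B, u, ζ, hu, hBu, hnc, hB, dist⟩ := I
  subst hF'
  refine ⟨act.range, inferInstance, fun _ => finite_range_act act,
    ⟨igusaDataAux act perm (fun g => ?_) (fun g i => ?_) (fun f hf => ?_) B u ζ hu hBu hnc
      (fun f hf hb g h1 h2 => ?_) dist⟩⟩
  · exact Subtype.ext (act_x g D.xF rfl)
  · exact Subtype.ext (act_e g i (D.eF i) rfl)
  · exact D.mem_adjoin_xF_of_coe (fixed f hf)
  · exact hB f hf hb g h1 h2

include I in
/-- **Igusa for the full level datum**. -/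
theorem full [Finite ι] [Finite G₀] (hπ : Function.Surjective π) : D.Full π := by
  obtain ⟨G, hG, hfin, ⟨J⟩⟩ := I.exists_igusaData
  have := hfin inferInstance
  exact J.full hπ

end FullLevelData

end IntGen

end Fermat.Agent.S48x.Red1
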