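import Mathlib
import Fermat.Agent.S48x.Red1.SL2Gen

/-!
# P-S48, layer (c): the group-theoretic inputs of Igusa for the transvection `upperU M (-1)`

In the model, `T⁻¹ = (1 -1; 0 1)` is the element acting as the twist `z ↦ ζ z`
(`act g (R(v,…)) = R(v g⁻¹,…)`), so the hypotheses `hnc`, `hBu` of
`IntGen.IgusaData` / `IntGen.FullLevelData` are needed for `u = upperU M (-1) = (upperU M 1)⁻¹`.
Generic: `normalClosure {u⁻¹} = normalClosure {u}`, `zpowers u⁻¹ = zpowers u`.
-/

set_option autoImplicit false

open Matrix MatrixGroups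

namespace Fermat.Agent.S48x.Red1

theorem normalClosure_singleton_inv {G : Type*} [Group G] (u : G) :
    Subgroup.normalClosure {u⁻¹} = Subgroup.normalClosure {u} := by
  apply le_antisymm
  · refine Subgroup.normalClosure_le_normal ?_
    rw [Set.singleton_subset_iff]
    exact (Subgroup.normalClosure {u}).inv_mem
      (Subgroup.subset_normalClosure (Set.mem_singleton u))
  · refine Subgroup.normalClosure_le_normal ?_
    rw [Set.singleton_subset_iff]
    have h := (Subgroup.normalClosure {u⁻¹}).inv_mem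
      (Subgroup.subset_normalClosure (Set.mem_singleton u⁻¹))
    rwa [inv_inv] at h

theorem conj_inv_mem_zpowers_inv {G : Type*} [Group G] {u b : G}
    (h : b * u * b⁻¹ ∈ Subgroup.zpowers u) : b * u⁻¹ * b⁻¹ ∈ Subgroup.zpowers u⁻¹ := by
  rw [Subgroup.zpowers_inv]
  have h2 : b * u⁻¹ * b⁻¹ = (b * u * b⁻¹)⁻¹ := by group
  rw [h2]
  exact (Subgroup.zpowers u).inv_mem h

variable {M : ℕ}

theorem upperU_neg_one : upperU M (-1) = (upperU M 1)⁻¹ := by
  rw [eq_inv_iff_mul_eq_one, ← upperU_add, neg_add_cancel, upperU_zero]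

theorem normalClosure_upperU_neg_one [NeZero M] :
    Subgroup.normalClosure {upperU M (-1)} = ⊤ := by
  rw [upperU_neg_one, normalClosure_singleton_inv, normalClosure_upperU_one]

theorem borel_conj_neg_mem_zpowers [NeZero M] {b : SL(2, ZMod M)} (hb : b ∈ borel M) :
    b * upperU M (-1) * b⁻¹ ∈ Subgroup.zpowers (upperU M (-1)) := by
  rw [upperU_neg_one]
  exact conj_inv_mem_zpowers_inv (borel_conj_mem_zpowers hb)

end Fermat.Agent.S48x.Red1
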