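import Fermat.Agent.S48x.Red1.Gamma1Assemble

/-!
# P-S48, layer (c), (R9): the export of layer (c) in the shapes consumed by `Kummer1` over `ℚ̄`

On top of `Red1/Gamma1Assemble.lean` (helper15):

* `Gamma1RedInputs M A ζ` : the three producers of layer (c) for the `Γ₁(M)` model at a valuation
  subring `A` of `ℚ̄` and a primitive `M`-th root of unity `ζ ∈ A` (`full` (R6)/(R9), `hsep`,
  `hgenus` (R8)), hypothesis style;
* `gaussNormalisable_of_inputs`, `kummerRedInj_of_inputs` : (Hnorm), (C0) from them;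
* `galPic_unram_inputs` : the two hypotheses of `Kummer1.galPic_unram` (= `JSide1.unram`) for
  `S := M.primeFactors` and a prime `ℓ ∣ M`;
* `hnorm_hC0_at` : (Hnorm) and (C0) at a single prime `p ∉ M.primeFactors` for the exponent `ℓ ^ n`
  (the inputs of the Eichler–Shimura relation `Kummer1.frobenius_quadratic_of_torsion_diamond_*`).
-/

set_option autoImplicit false
set_option linter.unusedSectionVars false
set_option linter.style.haveILetI false

noncomputable section

namespace Fermat.Agent.S48x.Red1.Gamma1Adapter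

open ModularCurve AlgebraicCurve IntermediateField IsLocalRing
  Fermat.Agent.S48x.Model Fermat.Agent.S48x.Red1 Fermat.Agent.S48x.Red1.ModelInt

local notation "Qb" => AlgebraicClosure ℚ

variable (M : ℕ) [NeZero M]

/-- The three producers of layer (c) for the `Γ₁(M)` model at a valuation subring `A` of `ℚ̄`
and a primitive `M`-th root of unity `ζ ∈ A`, hypothesis style. -/
structure Gamma1RedInputs (A : ValuationSubring Qb) (ζ : A) : Prop where
  /-- (R6)/(R9): full residue degree of the Gauss valuation -/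
  full : (gamma1IntGen A M ζ).Full (residue A)
  /-- separability of the residue field extension `κ / k(j̄)` -/
  hsep : Algebra.IsSeparable (ResidueField A)⟮(gamma1IntGen A M ζ).xκ (residue A)⟯
    ((gamma1IntGen A M ζ).κ (residue A))
  /-- (R8): the genus inequality -/
  hgenus : genusFF Qb (gamma1IntGen A M ζ).F ≤
    genusFF (ResidueField A) ((gamma1IntGen A M ζ).κ (residue A))

variable {M}

/-- (Hnorm) for `gamma1Field M` at `A`, from the inputs. -/
theorem gaussNormalisable_of_inputs {q : ℕ} (hq : q.Prime) (hqM : ¬ q ∣ M)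
    (A : ValuationSubring Qb) (hA : A.LiesOverPrime q) {ζ : A} (hζ : IsPrimitiveRoot ζ M)
    (h : Gamma1RedInputs M A ζ) :
    Fermat.Agent.S48x.Kummer1.GaussNormalisable (gamma1Field M) A :=
  Gamma1Assemble.gaussNormalisable_of_full A hq hA hqM hζ h.full

/-- (C0) for `gamma1Field M` at `A` and an exponent prime to the residue characteristic, from the
inputs. -/
theorem kummerRedInj_of_inputs {q : ℕ} (hq : q.Prime) (hqM : ¬ q ∣ M)
    (A : ValuationSubring Qb) (hA : A.LiesOverPrime q) {ζ : A} (hζ : IsPrimitiveRoot ζ M)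
    (h : Gamma1RedInputs M A ζ) {m : ℕ} (hm : ¬ q ∣ m) :
    Fermat.Agent.S48x.Kummer1.KummerRedInj (gamma1Field M) A m :=
  haveI : Algebra.IsAlgebraic ℚ Qb := AlgebraicClosure.isAlgebraic ℚ
  Gamma1Assemble.kummerRedInj_of_full A hq hA hqM hζ h.full h.hsep h.hgenus hm

/-- a prime outside `M.primeFactors` does not divide `M`. -/
theorem not_dvd_of_not_mem_primeFactors {q : ℕ} (hq : q.Prime) (hqS : q ∉ M.primeFactors) :
    ¬ q ∣ M := fun hd => hqS (Nat.mem_primeFactors.mpr ⟨hq, hd, NeZero.ne M⟩)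

/-- a prime outside `M.primeFactors` does not divide a power of a prime divisor of `M`. -/
theorem not_dvd_pow_of_not_mem_primeFactors {q ℓ : ℕ} (hq : q.Prime) (hqS : q ∉ M.primeFactors)
    (hℓ : ℓ.Prime) (hℓM : ℓ ∣ M) (n : ℕ) : ¬ q ∣ ℓ ^ n := by
  intro hd
  have hqℓ : q = ℓ := (Nat.prime_dvd_prime_iff_eq hq hℓ).mp (hq.dvd_of_dvd_pow hd)
  exact not_dvd_of_not_mem_primeFactors hq hqS (hqℓ ▸ hℓM)

/-- (Hnorm) and (C0) at one prime `p ∉ M.primeFactors`, for the exponent `ℓ ^ n`, `ℓ ∣ M` prime: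
the reduction inputs of the Eichler–Shimura relation at `p`. -/
theorem hnorm_hC0_at
    (h : ∀ q : ℕ, q.Prime → ¬ q ∣ M → ∀ A : ValuationSubring Qb, A.LiesOverPrime q →
      ∃ ζ : A, IsPrimitiveRoot ζ M ∧ Gamma1RedInputs M A ζ)
    {ℓ : ℕ} (hℓ : ℓ.Prime) (hℓM : ℓ ∣ M) (n : ℕ) {p : ℕ} (hp : p.Prime)
    (hpS : p ∉ M.primeFactors) (A : ValuationSubring Qb) (hA : A.LiesOverPrime p) :
    Fermat.Agent.S48x.Kummer1.GaussNormalisable (gamma1Field M) A ∧
      Fermat.Agent.S48x.Kummer1.KummerRedInj (gamma1Field M) A (ℓ ^ n) := by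
  have hpM := not_dvd_of_not_mem_primeFactors hp hpS
  obtain ⟨ζ, hζ, hin⟩ := h p hp hpM A hA
  exact ⟨gaussNormalisable_of_inputs hp hpM A hA hζ hin,
    kummerRedInj_of_inputs hp hpM A hA hζ hin
      (not_dvd_pow_of_not_mem_primeFactors hp hpS hℓ hℓM n)⟩

/-- **The two hypotheses of `Kummer1.galPic_unram`** for `S := M.primeFactors` and a prime
`ℓ ∣ M`. -/
theorem galPic_unram_inputs
    (h : ∀ q : ℕ, q.Prime → ¬ q ∣ M → ∀ A : ValuationSubring Qb, A.LiesOverPrime q →
      ∃ ζ : A, IsPrimitiveRoot ζ M ∧ Gamma1RedInputs M A ζ)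
    {ℓ : ℕ} (hℓ : ℓ.Prime) (hℓM : ℓ ∣ M) :
    (∀ q : ℕ, q.Prime → q ∉ M.primeFactors → ∀ A : ValuationSubring Qb, A.LiesOverPrime q →
      Fermat.Agent.S48x.Kummer1.GaussNormalisable (gamma1Field M) A) ∧
    (∀ n q : ℕ, q.Prime → q ∉ M.primeFactors → ∀ A : ValuationSubring Qb, A.LiesOverPrime q →
      Fermat.Agent.S48x.Kummer1.KummerRedInj (gamma1Field M) A (ℓ ^ n)) :=
  ⟨fun _ hq hqS A hA => (hnorm_hC0_at h hℓ hℓM 0 hq hqS A hA).1,
    fun n _ hq hqS A hA => (hnorm_hC0_at h hℓ hℓM n hq hqS A hA).2⟩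

/-- **`JSide1.unram` for `galPic (gamma1Field M)`**: inertia at the primes outside
`M.primeFactors` acts trivially on the `ℓ`-power torsion, `ℓ ∣ M` prime. -/
theorem galPic_unram_of_inputs
    (h : ∀ q : ℕ, q.Prime → ¬ q ∣ M → ∀ A : ValuationSubring Qb, A.LiesOverPrime q →
      ∃ ζ : A, IsPrimitiveRoot ζ M ∧ Gamma1RedInputs M A ζ)
    {ℓ : ℕ} (hℓ : ℓ.Prime) (hℓM : ℓ ∣ M) :
    ∀ (n q : ℕ), q.Prime → q ∉ M.primeFactors → ∀ A : ValuationSubring Qb, A.LiesOverPrime q →
      ∀ τ ∈ A.inertiaSubgroupIn ℚ, ∀ x : Pic0 Qb (laurentBaseChange Qb (gamma1Field M)),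
        ℓ ^ n • x = 0 → Fermat.Agent.S48x.Kummer1.galPic (gamma1Field M) τ x = x :=
  Fermat.Agent.S48x.Kummer1.galPic_unram (gamma1Field M) M.primeFactors hℓ.ne_zero
    (galPic_unram_inputs h hℓ hℓM).1 (galPic_unram_inputs h hℓ hℓM).2

end Fermat.Agent.S48x.Red1.Gamma1Adapter
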