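import Fermat.Agent.S48x.Red1.IgusaFixed

/-!
# P-S48, layer (c), (R9): the Gauss ring of a full level field is stable under the group

For `I : D.IgusaData π G` (so `D.Full π` holds, `I.full`), the Gauss valuation ring `Ov` of
`D.F` is stable under `G`:

* `act_mem_Ov` : `f ∈ Ov → I.act g f ∈ Ov`.  (Normal form: `f · d(x) = c · n` with `c ∈ A`,
  `d ∈ A[x]` with nonzero reduction, `n` an `A[x]`-combination of monomials in the generators;
  the group fixes `x` and permutes the generators.)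
* `mem_igR_of_mem_Ov` : hence `igR = Ov` as sets, and every Gauss-integral element has its
  reduction in `κ` with `φ g (red f) = red (act g f)` (`φ_redV'`);
* `φ_eq_of_act_eq` : if `act g f = f` then `φ g` fixes the reduction of `f`.

Consequently the inclusion `H ⊆ stabiliser of the reduced generators` (the half `→` of `hstab`
in `FullFixedInst.full_of_fixed`) follows from `hfix`:

* `full_and_poles_of_fixed'`, `full_and_poles_of_fixed_scale'` : the composites of
  `Red1/IgusaFixed.lean` with `hstab` only in the direction `←`, and only on a subset `J` of the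
  generators.
-/

set_option autoImplicit false
set_option linter.unusedSectionVars false

noncomputable section

namespace Fermat.Agent.S48x.Red1.IgusaOv

open Module IntermediateField AlgebraicCurve Polynomial
open Fermat.Agent.S48x.Red1 Fermat.Agent.Gateway.Red Fermat.Agent.Gateway.GoodRed
open scoped Fermat.Agent.S48x.Red1.Shortcuts

variable {L : Type*} [Field L] {A : ValuationSubring L} {k : Type*} [Field k] {π : A →+* k}
  {ι ι' : Type*} {D : IntGen A ι} {G : Type*} [Group G] (I : D.IgusaData π G)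

/-- the elements of `D.F` whose `g`-conjugate is Gauss-integral. -/
def T (g : G) : Subring D.F :=
  (Ov A π D.F).comap ((I.act g : D.F ≃ₐ[L] D.F) : D.F →+* D.F)

theorem mem_T_iff {g : G} {f : D.F} : f ∈ T I g ↔ I.act g f ∈ Ov A π D.F := Iff.rfl

theorem eF_mem_T (g : G) (i : ι) : D.eF i ∈ T I g := by
  rw [mem_T_iff, I.act_e]
  exact eF_mem_Ov _

/-- `act g` fixes the polynomials in `x`. -/
theorem act_aeval_xF (g : G) (P : L[X]) : I.act g (aeval D.xF P) = aeval D.xF P := by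
  have h := Polynomial.aeval_algHom_apply ((I.act g : D.F ≃ₐ[L] D.F) : D.F →ₐ[L] D.F) D.xF P
  have h2 : ((I.act g : D.F ≃ₐ[L] D.F) : D.F →ₐ[L] D.F) D.xF = D.xF := I.act_x g
  rw [h2] at h
  exact h.symm

theorem coe_aeval_xF (P : L[X]) :
    ((aeval D.xF P : D.F) : LaurentSeries L) = pev (embA A D.ξ) P := by
  rw [← aeval_eq_pev_field]
  have h := Polynomial.aeval_algHom_apply (D.F.val) D.xF P
  exact h.symm

/-- the element `P(x)`, `P ∈ A[X]`, of `D.F`. -/
def pevF (P : A[X]) : D.F := aeval D.xF (P.map A.subtype)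

theorem coe_pevF (P : A[X]) :
    ((pevF (D := D) P : D.F) : LaurentSeries L) = embA A (pev D.ξ P) := by
  rw [pevF, coe_aeval_xF, embA_pev]

theorem pevF_mem_Ov (P : A[X]) : pevF (D := D) P ∈ Ov A π D.F := by
  rw [mem_Ov_iff, coe_pevF]
  exact embA_mem_gaussRing A π _

theorem act_pevF (g : G) (P : A[X]) : I.act g (pevF P) = pevF P := act_aeval_xF I g _

theorem pevF_mem_T (g : G) (P : A[X]) : pevF P ∈ T I g := by
  rw [mem_T_iff, act_pevF]
  exact pevF_mem_Ov P

theorem monoF_eq_prod (μ : ι →₀ ℕ) : D.monoF μ = μ.prod fun i m => D.eF i ^ m := by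
  apply Subtype.ext
  rw [IntGen.coe_monoF, IntGen.embA_mono, Finsupp.prod, Finsupp.prod]
  show _ = D.F.val (∏ a ∈ μ.support, D.eF a ^ μ a)
  rw [map_prod]
  refine Finset.prod_congr rfl fun i _ => ?_
  rw [map_pow]
  rfl

theorem monoF_mem_T (g : G) (μ : ι →₀ ℕ) : D.monoF μ ∈ T I g := by
  rw [monoF_eq_prod, Finsupp.prod]
  exact prod_mem fun i _ => pow_mem (eF_mem_T I g i) _

section Main

variable [Finite ι] [Finite G] (hπ : Function.Surjective π)

include hπ in
/-- **the Gauss ring of `D.F` is stable under the group.** -/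
theorem act_mem_Ov (g : G) {f : D.F} (hf : f ∈ Ov A π D.F) : I.act g f ∈ Ov A π D.F := by
  classical
  by_cases hf0 : f = 0
  · rw [hf0, map_zero]; exact zero_mem _
  have hfull : D.Full π := I.full hπ
  have hne := hfull.nonempty_fin
  set S := hfull.spanData with hS
  have hf0' : (f : LaurentSeries L) ≠ 0 := fun h => hf0 (Subtype.ext h)
  obtain ⟨Q, hQ, P, hrel⟩ := S.span f f.2
  obtain ⟨c, P', Q', hc, hPπ, hQπ, hnf⟩ := exists_normal_form S.indep hf0' hQ hrel
  have hn0 : redA A π (∑ j, pev D.ξ (P' j) * S.b j) ≠ 0 := S.indep.redA_sum_ne_zero hPπ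
  have hd0 : redA A π (pev D.ξ Q') ≠ 0 := S.indep.redA_pev_ne_zero hQπ
  -- the numerator and the denominator as elements of `D.F`
  set nF : D.F := ∑ j, pevF (P' j) * D.monoF (hfull.exponents j) with hnF
  have hnFcoe : ((nF : D.F) : LaurentSeries L) = embA A (∑ j, pev D.ξ (P' j) * S.b j) := by
    rw [hnF, IntermediateField.coe_sum, map_sum]
    refine Finset.sum_congr rfl fun j _ => ?_
    rw [IntermediateField.coe_mul, coe_pevF, IntGen.coe_monoF, map_mul]
    rfl
  have hdFcoe : ((pevF (D := D) Q' : D.F) : LaurentSeries L) = embA A (pev D.ξ Q') := coe_pevF Q'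
  -- the constant is integral
  have hnmem : embA A (∑ j, pev D.ξ (P' j) * S.b j) ∈ gaussRing A π := embA_mem_gaussRing A π _
  have hnred : gaussRed A π ⟨_, hnmem⟩ ≠ 0 := by
    rw [gaussRed_of_eq_embA A π _ rfl]; exact hn0
  have hninv := inv_mem_gaussRing A π hnmem hnred
  have hn0' : embA A (∑ j, pev D.ξ (P' j) * S.b j) ≠ 0 := by
    intro h
    apply hn0
    rw [(embA_eq_zero_iff A _).mp h, map_zero]
  have hcC : (HahnSeries.C c : LaurentSeries L) =
      ((f : LaurentSeries L) * embA A (pev D.ξ Q')) * (embA A (∑ j, pev D.ξ (P' j) * S.b j))⁻¹ := by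
    rw [hnf, mul_assoc, mul_inv_cancel₀ hn0', mul_one]
  have hcA : c ∈ A := by
    refine (hahnC_mem_gaussRing_iff A π (fun a ha => isUnit_of_map_ne_zero' hπ ha) c).mp ?_
    rw [hcC]
    exact mul_mem (mul_mem hf (embA_mem_gaussRing A π _)) hninv
  -- the relation in `D.F`
  have hrelF : f * pevF Q' = algebraMap L D.F c * nF := by
    apply Subtype.ext
    rw [IntermediateField.coe_mul, IntermediateField.coe_mul, hdFcoe, hnFcoe,
      IntGen.coe_algebraMap_F D, hnf]
  have hrelg : I.act g f * pevF Q' = algebraMap L D.F c * I.act g nF := by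
    have h := congrArg (I.act g) hrelF
    rwa [map_mul, map_mul, act_pevF, AlgEquiv.commutes] at h
  have hnT : I.act g nF ∈ Ov A π D.F := by
    rw [← mem_T_iff, hnF]
    exact sum_mem fun j _ => mul_mem (pevF_mem_T I g _) (monoF_mem_T I g _)
  have hdOv : pevF (D := D) Q' ∈ Ov A π D.F := pevF_mem_Ov Q'
  have hdred : redV A π D.F ⟨pevF Q', hdOv⟩ ≠ 0 := by
    rw [redV_of_eq_embA A π D.F _ hdFcoe]; exact hd0
  have hdinv : (pevF (D := D) Q')⁻¹ ∈ Ov A π D.F := inv_mem_Ov A π D.F hdOv hdred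
  have hd0F : pevF (D := D) Q' ≠ 0 := by
    intro h
    apply hdred
    have : (⟨pevF Q', hdOv⟩ : Ov A π D.F) = 0 := Subtype.ext h
    rw [this, map_zero]
  have hfin : I.act g f = algebraMap L D.F c * I.act g nF * (pevF Q')⁻¹ := by
    rw [← hrelg, mul_assoc, mul_inv_cancel₀ hd0F, mul_one]
  rw [hfin]
  exact mul_mem (mul_mem ((algebraMap_mem_Ov_iff hπ c).mpr hcA) hnT) hdinv

include hπ in
/-- every Gauss-integral element lies in `igR`. -/
theorem mem_igR_of_mem_Ov {f : D.F} (hf : f ∈ Ov A π D.F) : f ∈ D.igR π I.act := by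
  have hfull : D.Full π := I.full hπ
  have hne := hfull.nonempty_fin
  rw [IntGen.mem_igR_iff]
  intro g
  rw [IntGen.mem_Sκ_iff]
  exact ⟨act_mem_Ov I hπ g hf, hfull.spanData.redV_mem_κ hπ _⟩

/-- the residue action on the reduction of any Gauss-integral element. -/
theorem φ_redV' (g : G) {f : D.F} (hf : f ∈ Ov A π D.F) :
    ((I.φ hπ g (D.igρ π I.act ⟨f, mem_igR_of_mem_Ov I hπ hf⟩) : D.κ π) : LaurentSeries k) =
      redV A π D.F ⟨I.act g f, act_mem_Ov I hπ g hf⟩ :=
  I.φ_redV hπ g (mem_igR_of_mem_Ov I hπ hf)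

/-- if `act g` fixes a Gauss-integral `f`, then `φ g` fixes its reduction. -/
theorem φ_eq_of_act_eq (g : G) {f : D.F} (hf : f ∈ Ov A π D.F) (hg : I.act g f = f)
    (y : D.κ π) (hy : (y : LaurentSeries k) = redV A π D.F ⟨f, hf⟩) : I.φ hπ g y = y := by
  have hy' : y = D.igρ π I.act ⟨f, mem_igR_of_mem_Ov I hπ hf⟩ := Subtype.ext hy
  rw [hy', I.φ_igρ hπ g]
  congr 1
  exact Subtype.ext hg

/-- the case of an `A`-integral series. -/
theorem φ_eq_of_act_eq_embA (g : G) (a : LaurentSeries A) (ha : embA A a ∈ D.F)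
    (hg : I.act g ⟨embA A a, ha⟩ = ⟨embA A a, ha⟩) (hk : redA A π a ∈ D.κ π) :
    I.φ hπ g ⟨redA A π a, hk⟩ = ⟨redA A π a, hk⟩ := by
  have hOv : (⟨embA A a, ha⟩ : D.F) ∈ Ov A π D.F := embA_mem_gaussRing A π a
  refine φ_eq_of_act_eq I hπ g hOv hg _ ?_
  exact (redV_of_eq_embA A π D.F ⟨_, hOv⟩ rfl).symm

/-- `H ⊆` stabiliser of the reduced generators, from `hfix`. -/
theorem φ_ebar_eq_of_fix (D' : IntGen A ι') (hF : ∀ j, D'.eL j ∈ D.F) (H : Subgroup G)
    (hfix : ∀ f : D.F, (f : LaurentSeries L) ∈ D'.F → ∀ h ∈ H, I.act h f = f)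
    {h : G} (hh : h ∈ H) (j : ι') (hj : D'.ebar π j ∈ D.κ π) :
    I.φ hπ h ⟨D'.ebar π j, hj⟩ = (⟨D'.ebar π j, hj⟩ : D.κ π) :=
  φ_eq_of_act_eq_embA I hπ h (D'.e j) (hF j) (hfix ⟨D'.eL j, hF j⟩ (D'.eL_mem j) h hh) hj

/-- **`Full` and the pole inequality for the fixed field datum** (`z`-variable), with `hstab`
only in the direction `←` and only on a subset `J` of the generators. -/
theorem full_and_poles_of_fixed' (D' : IntGen A ι')
    (hξ : D'.ξ = D.ξ) (hF : ∀ j, D'.eL j ∈ D.F) (H : Subgroup G)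
    (hfix : ∀ f : D.F, (f : LaurentSeries L) ∈ D'.F ↔ ∀ h ∈ H, I.act h f = f)
    (J : Set ι')
    (hstab : ∀ g : G, (∀ j ∈ J, ∀ hj : D'.ebar π j ∈ D.κ π,
      I.φ hπ g ⟨D'.ebar π j, hj⟩ = (⟨D'.ebar π j, hj⟩ : D.κ π)) → g ∈ H)
    {M : ℕ} [NeZero M] (hξM : D.ξ.order = -(M : ℤ))
    (hζL : IsPrimitiveRoot (Units.map (A.subtype : A →* L) I.ζ) M)
    (hζk : IsPrimitiveRoot (Units.map (π : A →* k) I.ζ) M)
    (hζξ : Fermat.Agent.S28.twist I.ζ D.ξ = D.ξ) :
    D'.Full π ∧
      Nat.card {P : Place k (D'.κ π) // P.ord (D'.xκ π) < 0} ≤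
        Nat.card {P : Place L D'.F // P.ord D'.xF < 0} := by
  refine IgusaFixed.full_and_poles_of_fixed I hπ D' hξ hF H hfix (fun g => ⟨fun hg j hj => ?_,
    fun hg => hstab g fun j _ hj => hg j hj⟩) hξM hζL hζk hζξ
  exact φ_ebar_eq_of_fix I hπ D' hF H (fun f hf => (hfix f).mp hf) hg j hj

/-- **`Full` and the pole inequality in the variable `q`**, with `hstab` only in the direction
`←` and only on a subset `J` of the generators. -/
theorem full_and_poles_of_fixed_scale' (D₀ : IntGen A ι') (M₀ : ℕ) [NeZero M₀]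
    (hξ : (D₀.scale M₀).ξ = D.ξ) (hF : ∀ j, (D₀.scale M₀).eL j ∈ D.F) (H : Subgroup G)
    (hfix : ∀ f : D.F, (f : LaurentSeries L) ∈ (D₀.scale M₀).F ↔ ∀ h ∈ H, I.act h f = f)
    (J : Set ι')
    (hstab : ∀ g : G, (∀ j ∈ J, ∀ hj : (D₀.scale M₀).ebar π j ∈ D.κ π,
      I.φ hπ g ⟨(D₀.scale M₀).ebar π j, hj⟩ = (⟨(D₀.scale M₀).ebar π j, hj⟩ : D.κ π)) → g ∈ H)
    {M : ℕ} [NeZero M] (hξM : D.ξ.order = -(M : ℤ))
    (hζL : IsPrimitiveRoot (Units.map (A.subtype : A →* L) I.ζ) M)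
    (hζk : IsPrimitiveRoot (Units.map (π : A →* k) I.ζ) M)
    (hζξ : Fermat.Agent.S28.twist I.ζ D.ξ = D.ξ) :
    D₀.Full π ∧
      Nat.card {P : Place k (D₀.κ π) // P.ord (D₀.xκ π) < 0} ≤
        Nat.card {P : Place L D₀.F // P.ord D₀.xF < 0} := by
  obtain ⟨h1, h2⟩ := full_and_poles_of_fixed' I hπ (D₀.scale M₀) hξ hF H hfix J hstab hξM hζL hζk
    hζξ
  refine ⟨IntGen.Full.of_scale M₀ h1, ?_⟩
  rwa [IntGen.card_poles_scale_F D₀ M₀, IntGen.card_poles_scale_κ π D₀ M₀] at h2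

end Main

end Fermat.Agent.S48x.Red1.IgusaOv
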