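import Fermat.Agent.S48x.Red1.Gamma1FixStab
import Fermat.Agent.S48x.Red1.IgusaOv

/-!
# P-S48, layer (c), (R9): `Full` AND the pole inequality for the `Γ₁(M)`-datum

Same inputs as `Red1/Gamma1FixStab.gamma1_full_of_igusaData` / `gamma1_full_of_fullLevelData`
(minus `hjO`, which is `Red1/IgusaOv.act_mem_Ov`), plus the two facts "the root of unity of the
transvection is a primitive `M`-th root of unity over `L` and over `k`".  Conclusions:
`(gamma1IntGen A M ζ).Full π` **and** `#{poles of x̄ in κ₁} ≤ #{poles of x in F₁}` (the input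
`hpoles` of `Red1/Gamma1Genus.genusFF_le_gamma1IntGen`), through
`Red1/IgusaFixed.full_and_poles_of_fixed_scale` with `H := stab I.ψ (genF ..)`.
-/

set_option autoImplicit false
set_option linter.unusedSectionVars false
set_option linter.style.haveILetI false

noncomputable section

open Module IntermediateField AlgebraicCurve

namespace Fermat.Agent.S48x.Red1.Gamma1FixStabPoles

open Fermat.Agent.S48x.Red1 Fermat.Agent.Gateway.Red Fermat.Agent.Gateway.GoodRed
open Fermat.Agent.S48x.Model Fermat.Agent.S48x.Model.Rigidity ModularCurve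
open Fermat.Agent.S48x.Red1.Gamma1FixStab ModelInt
open scoped Fermat.Agent.S48x.Red1.Shortcuts

variable {L : Type*} [Field L] {A : ValuationSubring L} {k : Type*} [Field k] {π : A →+* k}
  {M : ℕ} [NeZero M]

/-- a unit of `A` whose image in `L` is an `M`-th root of unity is an `M`-th root of unity. -/
theorem unit_pow_eq_one {u : Aˣ} (h : IsPrimitiveRoot (Units.map (A.subtype : A →* L) u) M) :
    u ^ M = 1 := by
  have h1 : Units.map (A.subtype : A →* L) (u ^ M) = Units.map (A.subtype : A →* L) 1 := by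
    rw [map_pow, h.pow_eq_one, map_one]
  exact Units.map_injective (f := (A.subtype : A →* L)) Subtype.val_injective h1

/-- the twist by an `M`-th root of unity fixes `j(z^M)`. -/
theorem twist_jA {u : Aˣ} (h : u ^ M = 1) : Fermat.Agent.S28.twist u (jA A M) = jA A M :=
  Fermat.Agent.S28.twist_qExpand_of_pow_eq_one u M h _

/-- **`Full` and the pole inequality for the `Γ₁(M)`-datum from the Igusa datum of the ratio-only
full level datum.** -/
theorem gamma1_full_and_poles_of_igusaData (hπ : Function.Surjective π) {ζ : A}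
    (hζ : IsPrimitiveRoot ζ M) (hMk : ((M : ℕ) : k) ≠ 0) (hM : 8 ≤ M)
    {G : Type*} [Group G] [Finite G] (I : (ratioIntGen A M ζ).IgusaData π G)
    (mat : G → Matrix (Fin 2) (Fin 2) (ZMod M))
    (hmat : ∀ g, ∃ h : Matrix (Fin 2) (Fin 2) (ZMod M), mat g * h = 1)
    (hperm : ∀ (g : G) (q : QuadIdx M), (I.perm g q).1 =
      (vecAct (mat g) q.1.1, vecAct (mat g) q.1.2.1, vecAct (mat g) q.1.2.2.1,
        vecAct (mat g) q.1.2.2.2))
    (hjF : ∀ (d : ℕ) [NeZero d], d ∣ M →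
      qExpand L (d * M) (jqModC L) ∈ (ratioIntGen A M ζ).F)
    (hj : ∀ g : G, LowerRow (mat g) → ∀ (d : ℕ) [NeZero d], d ∣ M →
      ∀ f : (ratioIntGen A M ζ).F,
        (f : LaurentSeries L) = qExpand L (d * M) (jqModC L) → I.act g f = f)
    (hζL : IsPrimitiveRoot (Units.map (A.subtype : A →* L) I.ζ) M)
    (hζk : IsPrimitiveRoot (Units.map (π : A →* k) I.ζ) M) :
    (gamma1IntGen A M ζ).Full π ∧
      Nat.card {P : Place k ((gamma1IntGen A M ζ).κ π) //
          P.ord ((gamma1IntGen A M ζ).xκ π) < 0} ≤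
        Nat.card {P : Place L (gamma1IntGen A M ζ).F // P.ord (gamma1IntGen A M ζ).xF < 0} := by
  have hfull : (ratioIntGen A M ζ).Full π := I.full hπ
  haveI := I.finiteDimensional_F
  have hξ : ((gamma1IntGen A M ζ).scale M).ξ = (ratioIntGen A M ζ).ξ := scale_gamma1_ξ ζ
  have hF : ∀ j, ((gamma1IntGen A M ζ).scale M).eL j ∈ (ratioIntGen A M ζ).F := by
    rintro (d | q)
    · haveI := neZero_of_mem_divisors M d.2
      rw [scale_gamma1_eL_inl]
      exact hjF d.1 (Nat.dvd_of_mem_divisors d.2)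
    · rw [scale_gamma1_eL_inr hπ hζ hMk]
      exact ratio_mem_ratioIntGen_F hπ hζ hMk (zeroVec_ne_zero q.2.1) (zeroVec_ne_zero q.2.2.1)
        (zeroVec_ne_zero q.2.2.2.1) (zeroVec_ne_zero q.2.2.2.2)
  have hκ : ∀ j, ((gamma1IntGen A M ζ).scale M).ebar π j ∈ (ratioIntGen A M ζ).κ π :=
    FixedCompose.ebar_mem_of_eL_mem π _ _ hfull hπ hF
  have hpow : I.ζ ^ M = 1 := unit_pow_eq_one hζL
  -- the four action hypotheses of `mem_stab_genF_iff` / `mem_stab_genκ_iff`
  have hψR : ∀ (g : G) (v w v' w' : Vec M), v ≠ 0 → w ≠ 0 → Good v' w' →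
      ∀ f : (ratioIntGen A M ζ).F, (f : LaurentSeries L) = ratio M ((ζ : A) : L) v w v' w' →
        ((I.ψ g f : (ratioIntGen A M ζ).F) : LaurentSeries L) =
          ratio M ((ζ : A) : L) (vecAct (mat g) v) (vecAct (mat g) w) (vecAct (mat g) v')
            (vecAct (mat g) w') := by
    intro g v w v' w' hv hw hg f hf
    have e : f = (ratioIntGen A M ζ).eF ⟨(v, w, v', w'), hv, hw, hg⟩ :=
      Subtype.ext (hf.trans (ratioIntGen_coe_eF hπ hζ hMk ⟨(v, w, v', w'), hv, hw, hg⟩).symm)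
    rw [e, I.ψ_apply, I.act_e, ratioIntGen_coe_eF hπ hζ hMk, hperm g]
  have hψj : ∀ g : G, LowerRow (mat g) → ∀ (d : ℕ) [NeZero d], d ∣ M →
      ∀ f : (ratioIntGen A M ζ).F,
        (f : LaurentSeries L) = qExpand L (d * M) (jqModC L) → I.ψ g f = f := by
    intro g hlow d _ hd f hf
    rw [I.ψ_apply]
    exact hj g hlow d hd f hf
  have hφR : ∀ (g : G) (v w v' w' : Vec M), v ≠ 0 → w ≠ 0 → Good v' w' →
      ∀ y : (ratioIntGen A M ζ).κ π, (y : LaurentSeries k) = ratio M (π ζ) v w v' w' →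
        ((I.φ hπ g y : (ratioIntGen A M ζ).κ π) : LaurentSeries k) =
          ratio M (π ζ) (vecAct (mat g) v) (vecAct (mat g) w) (vecAct (mat g) v')
            (vecAct (mat g) w') := by
    intro g v w v' w' hv hw hg y hy
    have e : y = (ratioIntGen A M ζ).eκ π ⟨(v, w, v', w'), hv, hw, hg⟩ :=
      Subtype.ext (hy.trans (ratioIntGen_coe_eκ hπ hζ hMk ⟨(v, w, v', w'), hv, hw, hg⟩).symm)
    rw [e, I.φ_eκ hπ, ratioIntGen_coe_eκ hπ hζ hMk, hperm g]
  have hφj : ∀ g : G, LowerRow (mat g) → ∀ (d : ℕ) [NeZero d], d ∣ M →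
      ∀ y : (ratioIntGen A M ζ).κ π,
        (y : LaurentSeries k) = qExpand k (d * M) (jqModC k) → I.φ hπ g y = y := by
    intro g hlow d _ hd y hy
    have hmemF : embA A (jA A (d * M)) ∈ (ratioIntGen A M ζ).F := by
      rw [embA_jA]; exact hjF d hd
    have hOv : (⟨embA A (jA A (d * M)), hmemF⟩ : (ratioIntGen A M ζ).F) ∈
        Ov A π (ratioIntGen A M ζ).F := embA_mem_gaussRing A π _
    refine IgusaOv.φ_eq_of_act_eq I hπ g hOv (hj g hlow d hd _ (embA_jA A (d * M))) y ?_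
    rw [redV_of_eq_embA A π (ratioIntGen A M ζ).F ⟨_, hOv⟩ (a := jA A (d * M)) rfl, redA_jA]
    exact hy
  refine IgusaFixed.full_and_poles_of_fixed_scale I hπ (gamma1IntGen A M ζ) M hξ hF
    (stab I.ψ (genF (ratioIntGen A M ζ) ((gamma1IntGen A M ζ).scale M) hF))
    (coe_mem_F_iff_fixed (ratioIntGen A M ζ) ((gamma1IntGen A M ζ).scale M) hξ hF I.ψ
      I.ψ_injective I.finrank_F_le) (fun g => ?_) (order_jA A M) hζL hζk (twist_jA hpow)
  obtain ⟨h, hmh⟩ := hmat g
  rw [mem_stab_genF_iff (ratioIntGen A M ζ) hπ hζ hMk hM hF I.ψ g (mat g) h hmh (hψR g) (hψj g),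
    ← mem_stab_genκ_iff (ratioIntGen A M ζ) hπ hζ hMk hM hκ (I.φ hπ) g (mat g) h hmh (hφR g)
      (hφj g), mem_stab]
  constructor
  · intro hg j hj'
    exact hg _ ⟨j, rfl⟩
  · rintro hg _ ⟨j, rfl⟩
    exact hg j (hκ j)

/-- **`Full` and the pole inequality for the `Γ₁(M)`-datum from the full level datum of the
ratio-only field** (the target of the analytic layer (A4)). -/
theorem gamma1_full_and_poles_of_fullLevelData (hπ : Function.Surjective π) {ζ : A}
    (hζ : IsPrimitiveRoot ζ M) (hMk : ((M : ℕ) : k) ≠ 0) (hM : 8 ≤ M)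
    {G₀ : Type*} [Group G₀] [Finite G₀] (I₀ : (ratioIntGen A M ζ).FullLevelData π G₀)
    (mat₀ : G₀ → Matrix (Fin 2) (Fin 2) (ZMod M))
    (hmat₀ : ∀ g, ∃ h : Matrix (Fin 2) (Fin 2) (ZMod M), mat₀ g * h = 1)
    (hperm₀ : ∀ (g : G₀) (q : QuadIdx M), (I₀.perm g q).1 =
      (vecAct (mat₀ g) q.1.1, vecAct (mat₀ g) q.1.2.1, vecAct (mat₀ g) q.1.2.2.1,
        vecAct (mat₀ g) q.1.2.2.2))
    (hjF : ∀ (d : ℕ) [NeZero d], d ∣ M → qExpand L (d * M) (jqModC L) ∈ I₀.F')
    (hj₀ : ∀ g : G₀, LowerRow (mat₀ g) → ∀ (d : ℕ) [NeZero d], d ∣ M → ∀ f : I₀.F',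
      (f : LaurentSeries L) = qExpand L (d * M) (jqModC L) → I₀.act g f = f)
    (hζL : IsPrimitiveRoot (Units.map (A.subtype : A →* L) I₀.ζ) M)
    (hζk : IsPrimitiveRoot (Units.map (π : A →* k) I₀.ζ) M) :
    (gamma1IntGen A M ζ).Full π ∧
      Nat.card {P : Place k ((gamma1IntGen A M ζ).κ π) //
          P.ord ((gamma1IntGen A M ζ).xκ π) < 0} ≤
        Nat.card {P : Place L (gamma1IntGen A M ζ).F // P.ord (gamma1IntGen A M ζ).xF < 0} := by
  obtain ⟨F', hF', act, perm, act_x, act_e, fixed, B, u, ζu, hu, hBu, hnc, hB, dist⟩ := I₀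
  subst hF'
  haveI : Finite act.range := IntGen.FullLevelData.finite_range_act act
  have act_x' : ∀ g, act g (ratioIntGen A M ζ).xF = (ratioIntGen A M ζ).xF :=
    fun g => Subtype.ext (act_x g (ratioIntGen A M ζ).xF rfl)
  have act_e' : ∀ g i, act g ((ratioIntGen A M ζ).eF i) = (ratioIntGen A M ζ).eF (perm g i) :=
    fun g i => Subtype.ext (act_e g i ((ratioIntGen A M ζ).eF i) rfl)
  have fixed' : ∀ f : (ratioIntGen A M ζ).F, (∀ g, act g f = f) →
      f ∈ L⟮(ratioIntGen A M ζ).xF⟯ :=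
    fun f hf => (ratioIntGen A M ζ).mem_adjoin_xF_of_coe (fixed f hf)
  have hB' : ∀ f : (ratioIntGen A M ζ).F, (∀ g, act g f ∈ Ov A π (ratioIntGen A M ζ).F) →
      (∀ b ∈ B, act b f = f) →
      ∀ (g : G₀) (h1 : f ∈ Ov A π (ratioIntGen A M ζ).F)
        (h2 : act g f ∈ Ov A π (ratioIntGen A M ζ).F),
        (redV A π (ratioIntGen A M ζ).F ⟨_, h2⟩ = 0 ↔
          redV A π (ratioIntGen A M ζ).F ⟨_, h1⟩ = 0) :=
    fun f hf hb g h1 h2 => hB f hf hb g h1 h2
  let I := IntGen.FullLevelData.igusaDataAux act perm act_x' act_e' fixed' B u ζu hu hBu hnc hB'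
    dist
  have hspec : ∀ σ : act.range, act (Classical.choose σ.2) = σ := fun σ =>
    Classical.choose_spec σ.2
  refine gamma1_full_and_poles_of_igusaData hπ hζ hMk hM I
    (fun σ => mat₀ (Classical.choose σ.2)) (fun σ => hmat₀ _)
    (fun σ q => hperm₀ (Classical.choose σ.2) q) hjF ?_ hζL hζk
  intro σ hlow d _ hd f hf
  have h1 : act (Classical.choose σ.2) f = f := hj₀ (Classical.choose σ.2) hlow d hd f hf
  rw [hspec σ] at h1
  exact h1

end Fermat.Agent.S48x.Red1.Gamma1FixStabPoles
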