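import Mathlib
import Fermat.Agent.S27x.G1.GenusGamma

/-!
# P-S48 layer (c)/(a): the genus formula `12 (g - 1) = μ - 6 ν_∞` for a group without elliptic
elements

Consumer: hypothesis `hgen` of `Red1/GenusLE1.genusFF_le_of_hurwitz`.  Input: the orbit form of
the genus of a `Γ`-general modular function field, `S27x/G1/GenusGamma.two_genusFF_add`.

Setting of `S27x/G1` (`K` algebraically closed of characteristic zero, `ι : K →+* ℂ`,
`D : EmbData K F ι x Γ`, `hnorm`, `hneg : -1 ∈ Γ`, `hn`, `hcusp`, `hT`).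

* `mul_orbNum_eq_card` : a group element acting without fixed points, whose `p`-th power acts
  trivially (`p` prime), has `|X| / p` orbits;
* `card_eq_finrank` : `|SL(2,ℤ) ⧸ Γ| = [F : K(x)]`;
* `card_poles_eq_orbNum` : the number of poles of `x` is the number of orbits of `T`;
* `genus_formula` : if `S` and `S T` act without fixed points on `SL(2,ℤ) ⧸ Γ`, then
  `6 (2 g(F) - 2) = [F : K(x)] - 6 #{poles of x}`;
* `smul_ne_of_trace` : fixed-point-freeness from a condition on traces; `genus_formula_of_trace`: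
  the genus formula for `Γ` all of whose elements have trace `≡ ± 2 mod M`, `M ≥ 4`
  (e.g. `± Γ₁(M)` and every group between `± Γ₁(M)` and ... with that property).
-/

set_option autoImplicit false
set_option linter.unusedSectionVars false
set_option linter.style.haveILetI false

noncomputable section

open UpperHalfPlane IntermediateField ModularGroup AlgebraicCurve
open scoped MatrixGroups

namespace Fermat.Agent.S48x.Red1.GenusFormula

open Fermat.Agent.S24 Fermat.Agent.S24.CuspOrd Fermat.Agent.S24.Final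
open Fermat.Agent.Gateway.Dict.ConjAbs Fermat.Agent.S27x.G1

/-! ### Orbits of a fixed-point-free element of prime order -/

section Orbits

variable {G X : Type*} [Group G] [MulAction G X]

/-- An element acting without fixed points whose `p`-th power acts trivially, `p` prime: all
orbits have `p` elements. -/
theorem mul_orbNum_eq_card [Finite X] (g : G) {p : ℕ} (hp : p.Prime)
    (hpow : ∀ b : X, g ^ p • b = b) (hfree : ∀ b : X, g • b ≠ b) :
    p * Fermat.Agent.Gateway.A2.orbNum g X = Nat.card X := by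
  classical
  haveI := Fintype.ofFinite X
  unfold Fermat.Agent.Gateway.A2.orbNum
  have hper : ∀ b : X, Function.minimalPeriod (g • · : X → X) b = p := by
    intro b
    have h1 : Function.IsPeriodicPt (g • · : X → X) p b := by
      show (g • · : X → X)^[p] b = b
      rw [smul_iterate]
      exact hpow b
    have h2 := h1.minimalPeriod_dvd
    rcases (Nat.dvd_prime hp).mp h2 with h | h
    · exfalso
      rw [Function.minimalPeriod_eq_one_iff_isFixedPt] at h
      exact hfree b h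
    · exact h
  have hcard : ∀ b : X, Nat.card (MulAction.orbit (Subgroup.zpowers g) b) = p := by
    intro b
    rw [Nat.card_congr (MulAction.orbitZPowersEquiv g b), Nat.card_zmod, hper]
  haveI : Fintype (MulAction.orbitRel.Quotient (Subgroup.zpowers g) X) := Fintype.ofFinite _
  rw [Nat.card_congr (MulAction.selfEquivSigmaOrbits (Subgroup.zpowers g) X), Nat.card_sigma]
  simp only [hcard, Finset.sum_const, Finset.card_univ, smul_eq_mul, Nat.card_eq_fintype_card]
  exact mul_comm _ _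

end Orbits

/-! ### Degree and cusps -/

variable {K F : Type*} [Field K] [Field F] [Algebra K F]
  {ι : K →+* ℂ} {x : F} {Γ : Subgroup SL(2, ℤ)} (D : EmbData K F ι x Γ)
  [IsAlgClosed K] [CharZero K] [Fintype (SL(2, ℤ) ⧸ Γ)] [FiniteDimensional K⟮x⟯ F]
  (hnorm : ∀ (b0 : SL(2, ℤ) ⧸ Γ) (f : F),
      sigma D b0 (algebraMap K⟮x⟯ F (Algebra.norm K⟮x⟯ f)) = ∏ b, sigma D b f)

include hnorm

/-- `|SL(2,ℤ) ⧸ Γ| = [F : K(x)]` (place counting over a generic value). -/
theorem card_eq_finrank : Fintype.card (SL(2, ℤ) ⧸ Γ) = Module.finrank K⟮x⟯ F := by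
  classical
  have hx := transcendental_x D
  obtain ⟨a, ha0, ha1⟩ : ∃ a : K, ι a ≠ 0 ∧ ι a ≠ 1728 := by
    refine ⟨1, ?_, ?_⟩ <;> rw [map_one] <;> norm_num
  have hta := RH.transcendental_sub_const hx a
  have hy0 : x - algebraMap K F a ≠ 0 := fun h0 => hta (h0 ▸ isAlgebraic_zero)
  have hxy : K⟮x - algebraMap K F a⟯ = K⟮x⟯ := RH.adjoin_sub_const x a
  have hfd : FiniteDimensional K⟮x - algebraMap K F a⟯ F :=
    Final.finiteDimensional_congr hxy.symm inferInstance
  obtain ⟨m, w, b0, hm, hw, hwa, hN, hc, hper, hd⟩ := pcInput_generic D hnorm a ha0 ha1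
  obtain ⟨β, -, -, -, hcard⟩ := placeCount (K := K) (x - algebraMap K F a) hy0
    (ZP.zeroPlacesData _ hta) (1 : Equiv.Perm (SL(2, ℤ) ⧸ Γ)) m hm w hw hwa b0
    (fun f hf => by rw [hN f hf, Final.algebraMap_norm_congr hxy.symm f]) hc hper hd
  obtain ⟨inst, hsum⟩ := ZD.sum_ord_zeros (x - algebraMap K F a) hta
  have h2 : ∑ᶠ z : ZeroPlace K (x - algebraMap K F a), z.1.ord (x - algebraMap K F a)
      = (Module.finrank K⟮x - algebraMap K F a⟯ F : ℤ) := by
    rw [← hsum]
    exact finsum_eq_sum_of_fintype _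
  have h3 : (Fintype.card (SL(2, ℤ) ⧸ Γ) : ℤ) = (Module.finrank K⟮x⟯ F : ℤ) := by
    rw [hcard, h2, PD.finrank_adjoin_sub_const]
  exact_mod_cast h3

variable {n : ℕ} (hn : 0 < n)
  (hcusp : ∀ (f : F) (g : SL(2, ℤ)), IsCuspMer n (g • D.emb f))
  (hT : ∀ b : SL(2, ℤ) ⧸ Γ, T ^ n • b = b)

include hn hcusp hT

/-- the number of poles of `x` is the number of orbits of `T` on the cosets. -/
theorem card_poles_eq_orbNum :
    Nat.card {v : Place K F // v.ord x < 0} =
      Fermat.Agent.Gateway.A2.orbNum (T : SL(2, ℤ)) (SL(2, ℤ) ⧸ Γ) := by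
  classical
  have hx := transcendental_x D
  have hinf := pcInput_inf D hnorm hn hcusp hT
  have hta := RH.transcendental_inv hx
  have hcardinf : Nat.card (RH.Zeros K x⁻¹)
      = orbCount (MulAction.toPerm T : Equiv.Perm (SL(2, ℤ) ⧸ Γ)) := by
    refine card_zeros_eq_orbCount x _ ?_ (RH.adjoin_inv x)
      (fun [FiniteDimensional K⟮x⁻¹⟯ F] => ZP.zeroPlacesData _ hta) _ hinf
    intro h0
    exact hta (h0 ▸ isAlgebraic_zero)
  have he : Nat.card {v : Place K F // v.ord x < 0} = Nat.card (RH.Zeros K x⁻¹) := by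
    refine Nat.card_congr (Equiv.subtypeEquivRight fun v => ?_)
    rw [v.ord_inv]
    omega
  rw [he, hcardinf, orbCount_toPerm]
  rfl

variable (hneg : (-1 : SL(2, ℤ)) ∈ Γ)

include hneg

/-- **The genus formula of a group without elliptic elements**:
`6 (2 g - 2) = [F : K(x)] - 6 #{poles of x}`. -/
theorem genus_formula (hS : ∀ b : SL(2, ℤ) ⧸ Γ, (S : SL(2, ℤ)) • b ≠ b)
    (hST : ∀ b : SL(2, ℤ) ⧸ Γ, (S * T : SL(2, ℤ)) • b ≠ b) :
    6 * (2 * (genusFF K F : ℤ) - 2) =
      (Module.finrank K⟮x⟯ F : ℤ) - 6 * (Nat.card {v : Place K F // v.ord x < 0} : ℤ) := by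
  have h := two_genusFF_add D hnorm hneg hn hcusp hT
  have h2 := mul_orbNum_eq_card (X := SL(2, ℤ) ⧸ Γ) (S : SL(2, ℤ)) Nat.prime_two
    (fun b => S_pow_two_smul hneg b) hS
  have h3 := mul_orbNum_eq_card (X := SL(2, ℤ) ⧸ Γ) (S * T : SL(2, ℤ)) Nat.prime_three
    (fun b => ST_pow_three_smul hneg b) hST
  rw [card_poles_eq_orbNum D hnorm hn hcusp hT, ← card_eq_finrank D hnorm]
  rw [Nat.card_eq_fintype_card] at h h2 h3
  have h' : ((2 * genusFF K F
      + Fermat.Agent.Gateway.A2.orbNum (S : SL(2, ℤ)) (SL(2, ℤ) ⧸ Γ)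
      + Fermat.Agent.Gateway.A2.orbNum (S * T : SL(2, ℤ)) (SL(2, ℤ) ⧸ Γ)
      + Fermat.Agent.Gateway.A2.orbNum (T : SL(2, ℤ)) (SL(2, ℤ) ⧸ Γ) : ℕ) : ℤ)
      = ((Fintype.card (SL(2, ℤ) ⧸ Γ) + 2 : ℕ) : ℤ) := by exact_mod_cast h
  have h2' : ((2 * Fermat.Agent.Gateway.A2.orbNum (S : SL(2, ℤ)) (SL(2, ℤ) ⧸ Γ) : ℕ) : ℤ)
      = (Fintype.card (SL(2, ℤ) ⧸ Γ) : ℤ) := by exact_mod_cast h2
  have h3' : ((3 * Fermat.Agent.Gateway.A2.orbNum (S * T : SL(2, ℤ)) (SL(2, ℤ) ⧸ Γ) : ℕ) : ℤ)
      = (Fintype.card (SL(2, ℤ) ⧸ Γ) : ℤ) := by exact_mod_cast h3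
  push_cast at h' h2' h3'
  linarith

omit hnorm hn hcusp hT hneg in
/-- an element none of whose conjugates lies in `Γ` has no fixed point on the cosets: trace
form. -/
theorem smul_ne_of_trace {γ : SL(2, ℤ)}
    (h : ∀ δ ∈ Γ, (δ : Matrix (Fin 2) (Fin 2) ℤ).trace ≠ (γ : Matrix (Fin 2) (Fin 2) ℤ).trace)
    (b : SL(2, ℤ) ⧸ Γ) : γ • b ≠ b := by
  induction b using QuotientGroup.induction_on with
  | H g =>
    intro hfix
    have hmem := conj_mem_of_smul_eq hfix
    exact h _ hmem (trace_conj g γ)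

/-- **The genus formula** for a group all of whose elements have trace `≡ ± 2` modulo `M ≥ 4`
(for instance `± Γ₁(M)`). -/
theorem genus_formula_of_trace {M : ℕ} (hM : 4 ≤ M)
    (htr : ∀ δ ∈ Γ, (M : ℤ) ∣ (δ : Matrix (Fin 2) (Fin 2) ℤ).trace - 2 ∨
      (M : ℤ) ∣ (δ : Matrix (Fin 2) (Fin 2) ℤ).trace + 2) :
    6 * (2 * (genusFF K F : ℤ) - 2) =
      (Module.finrank K⟮x⟯ F : ℤ) - 6 * (Nat.card {v : Place K F // v.ord x < 0} : ℤ) := by
  have hM' : (4 : ℤ) ≤ (M : ℤ) := by exact_mod_cast hM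
  refine genus_formula D hnorm hn hcusp hT hneg (smul_ne_of_trace fun δ hδ => ?_)
    (smul_ne_of_trace fun δ hδ => ?_)
  · rw [trace_S]
    intro h0
    rcases htr δ hδ with h | h
    · rw [h0] at h
      have := Int.le_of_dvd (by norm_num) ((dvd_neg).mpr h)
      omega
    · rw [h0] at h
      have := Int.le_of_dvd (by norm_num) h
      omega
  · rw [trace_ST]
    intro h0
    rcases htr δ hδ with h | h
    · rw [h0] at h
      have := Int.le_of_dvd (by norm_num) ((dvd_neg).mpr h)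
      omega
    · rw [h0] at h
      have := Int.le_of_dvd (by norm_num) h
      omega

end Fermat.Agent.S48x.Red1.GenusFormula
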