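import Mathlib
import Fermat.Agent.S48x.Red1.GenusFormula
import Fermat.Agent.S27x.A.Setting
import Fermat.Agent.S48x.G1.Defs

/-!
# P-S48 layer (c)/(a): the genus formula for `± Γ₁(M)`, `M ≥ 4`

* `neg_one_mem_of_embData`, `T_pow_smul_coset` : for any `EmbData K F ι x Γ` with cusp-meromorphic
  translates, `-1 ∈ Γ` and `T ^ n` acts trivially on the cosets (so that the hypotheses `hneg`,
  `hT` of `S27x/G1` are automatic);
* `genus_formula'` : `GenusFormula.genus_formula` without `hneg`, `hT`;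
* `trace_Gamma1pm` : the elements of `± Γ₁(M)` have trace `≡ ± 2 mod M`;
* `genus_formula_Gamma1pm` : for `D : EmbData K F ι x (Gamma1pm M)`, `4 ≤ M`:
  `6 (2 g(F) - 2) = [F : K(x)] - 6 #{poles of x}` (= hypothesis `hgen` of
  `GenusLE1.genusFF_le_of_hurwitz`).
-/

set_option autoImplicit false
set_option linter.unusedSectionVars false
set_option linter.style.haveILetI false

noncomputable section

open UpperHalfPlane IntermediateField ModularGroup AlgebraicCurve CongruenceSubgroup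
open scoped MatrixGroups

namespace Fermat.Agent.S48x.Red1.GenusFormula

open Fermat.Agent.S24 Fermat.Agent.S24.CuspOrd
open Fermat.Agent.Gateway.Dict.ConjAbs Fermat.Agent.S27x.G1 Fermat.Agent.S48x.G1

section General

variable {K F : Type*} [Field K] [Field F] [Algebra K F]
  {ι : K →+* ℂ} {x : F} {Γ : Subgroup SL(2, ℤ)} (D : EmbData K F ι x Γ)

include D in
/-- The stabiliser of the embedding contains `-1`. -/
theorem neg_one_mem_of_embData : (-1 : SL(2, ℤ)) ∈ Γ :=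
  D.stab _ fun f => Fermat.Agent.S27x.A.neg_one_smul_merFun (D.emb f)

variable {n : ℕ} (hcusp : ∀ (f : F) (g : SL(2, ℤ)), IsCuspMer n (g • D.emb f))

include hcusp in
/-- `T ^ n` acts trivially on the cosets of the stabiliser. -/
theorem T_pow_smul_coset (b : SL(2, ℤ) ⧸ Γ) : T ^ n • b = b := by
  induction b using QuotientGroup.induction_on with
  | H g =>
    apply smul_eq_of_conj_mem
    refine D.stab _ fun f => ?_
    have h1 := Fermat.Agent.S27x.A.T_pow_smul_of_isCuspMer (hcusp f g)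
    rw [mul_smul, mul_smul, h1, inv_smul_smul]

variable [IsAlgClosed K] [CharZero K] [Fintype (SL(2, ℤ) ⧸ Γ)] [FiniteDimensional K⟮x⟯ F]
  (hnorm : ∀ (b0 : SL(2, ℤ) ⧸ Γ) (f : F),
      sigma D b0 (algebraMap K⟮x⟯ F (Algebra.norm K⟮x⟯ f)) = ∏ b, sigma D b f)
  (hn : 0 < n)

include hnorm hn hcusp

/-- **The genus formula of a group without elliptic elements** (`hneg`, `hT` automatic). -/
theorem genus_formula' (hS : ∀ b : SL(2, ℤ) ⧸ Γ, (S : SL(2, ℤ)) • b ≠ b)
    (hST : ∀ b : SL(2, ℤ) ⧸ Γ, (S * T : SL(2, ℤ)) • b ≠ b) :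
    6 * (2 * (genusFF K F : ℤ) - 2) =
      (Module.finrank K⟮x⟯ F : ℤ) - 6 * (Nat.card {v : Place K F // v.ord x < 0} : ℤ) :=
  genus_formula D hnorm hn hcusp (T_pow_smul_coset D hcusp) (neg_one_mem_of_embData D) hS hST

/-- the trace form. -/
theorem genus_formula_of_trace' {M : ℕ} (hM : 4 ≤ M)
    (htr : ∀ δ ∈ Γ, (M : ℤ) ∣ (δ : Matrix (Fin 2) (Fin 2) ℤ).trace - 2 ∨
      (M : ℤ) ∣ (δ : Matrix (Fin 2) (Fin 2) ℤ).trace + 2) :
    6 * (2 * (genusFF K F : ℤ) - 2) =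
      (Module.finrank K⟮x⟯ F : ℤ) - 6 * (Nat.card {v : Place K F // v.ord x < 0} : ℤ) :=
  genus_formula_of_trace D hnorm hn hcusp (T_pow_smul_coset D hcusp) (neg_one_mem_of_embData D)
    hM htr

end General

/-! ### `± Γ₁(M)` -/

/-- The elements of `± Γ₁(M)` have trace `≡ ± 2 mod M`. -/
theorem trace_Gamma1pm {M : ℕ} {δ : SL(2, ℤ)} (h : δ ∈ Gamma1pm M) :
    (M : ℤ) ∣ (δ : Matrix (Fin 2) (Fin 2) ℤ).trace - 2 ∨
      (M : ℤ) ∣ (δ : Matrix (Fin 2) (Fin 2) ℤ).trace + 2 := by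
  obtain ⟨h0, h1⟩ := h
  rw [Gamma0_mem] at h0
  have hdet : (δ 0 0 : ℤ) * δ 1 1 - δ 0 1 * δ 1 0 = 1 := by
    have := δ.det_coe
    rw [Matrix.det_fin_two] at this
    exact this
  have hdetM : ((δ 0 0 : ℤ) : ZMod M) * ((δ 1 1 : ℤ) : ZMod M) = 1 := by
    have := congrArg (fun z : ℤ => (z : ZMod M)) hdet
    simp only [Int.cast_sub, Int.cast_mul, Int.cast_one] at this
    rw [h0, mul_zero, sub_zero] at this
    exact this
  rw [Matrix.trace_fin_two]
  unfold lr at h1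
  rcases h1 with h1 | h1
  · left
    rw [h1, mul_one] at hdetM
    rw [← ZMod.intCast_zmod_eq_zero_iff_dvd]
    push_cast
    rw [hdetM, h1]
    ring
  · right
    rw [h1, mul_neg, mul_one, neg_eq_iff_eq_neg] at hdetM
    rw [← ZMod.intCast_zmod_eq_zero_iff_dvd]
    push_cast
    rw [hdetM, h1]
    ring

section Gamma1

variable {K F : Type*} [Field K] [Field F] [Algebra K F]
  {ι : K →+* ℂ} {x : F} {M : ℕ} [NeZero M] (D : EmbData K F ι x (Gamma1pm M))
  [IsAlgClosed K] [CharZero K] [FiniteDimensional K⟮x⟯ F]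

/-- **The genus formula for `± Γ₁(M)`, `M ≥ 4`.** -/
theorem genus_formula_Gamma1pm [Fintype (SL(2, ℤ) ⧸ Gamma1pm M)]
    (hnorm : ∀ (b0 : SL(2, ℤ) ⧸ Gamma1pm M) (f : F),
      sigma D b0 (algebraMap K⟮x⟯ F (Algebra.norm K⟮x⟯ f)) = ∏ b, sigma D b f)
    {n : ℕ} (hn : 0 < n)
    (hcusp : ∀ (f : F) (g : SL(2, ℤ)), IsCuspMer n (g • D.emb f)) (hM : 4 ≤ M) :
    6 * (2 * (genusFF K F : ℤ) - 2) =
      (Module.finrank K⟮x⟯ F : ℤ) - 6 * (Nat.card {v : Place K F // v.ord x < 0} : ℤ) :=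
  genus_formula_of_trace' D hcusp hnorm hn hM fun _ hδ => trace_Gamma1pm hδ

end Gamma1

end Fermat.Agent.S48x.Red1.GenusFormula
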