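import Mathlib
import Fermat.Agent.S48x.Red1.Setting

/-!
# P-S48, layer (c), (R3): the Gauss valuation ring of an integrally generated field

Generic clone of `Gateway/GoodRed/{GaussBar, GaussNorm}` over the setting of `Red1/Setting.lean`.

Input (the output of (R2) `Red1/MonomialBasis`): a finite family `b j : LaurentSeries A` of
`A`-integral series in `F = L(x, e_i)` whose reductions lie in `κ = k(x̄, ē_i)` and are linearly
independent over `k[x̄]` (`IndepMod`), and which span `F` over `L(x)` (`SpanData`).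

Output:
* `SpanData.exists_const_mul_unit` : Gauss normalisation, `f = c * u`, `gaussRed u ≠ 0`,
  `gaussRed u ∈ κ`; `SpanData.normalisable : D.Normalisable π`; `SpanData.exists_integral_ratio`;
* `SpanData.OvValF : ValuationSubring D.F` (carrier `Ov A π D.F`), the residue map
  `SpanData.resF : OvValF →+* D.κ π`, surjective, with kernel the non-units
  (`resF_surjective`, `resF_eq_zero_iff`), its values on constants and on the generators;
* `redV_eq_zero_iff` : the kernel of the reduction is `𝔪_A · Ov`.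
-/

set_option autoImplicit false

noncomputable section

namespace Fermat.Agent.S48x.Red1

open Polynomial IntermediateField ModularCurve Fermat.Agent.Gateway.Red
  Fermat.Agent.Gateway.GoodRed

section Span

variable {L E : Type*} [Field L] [Field E] [Algebra L E]

/-- polynomial form of membership in the `L(x)`-span of a finite family. -/
theorem exists_poly_of_mem_span {J : Type*} [Fintype J] (x : E) (b : J → E) {f : E}
    (hf : f ∈ Submodule.span L⟮x⟯ (Set.range b)) :
    ∃ Q : L[X], Q ≠ 0 ∧ ∃ P : J → L[X], aeval x Q * f = ∑ j, aeval x (P j) * b j := by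
  classical
  induction hf using Submodule.span_induction with
  | mem y hy =>
    obtain ⟨j₀, rfl⟩ := hy
    refine ⟨1, one_ne_zero, fun j => if j = j₀ then 1 else 0, ?_⟩
    rw [map_one, one_mul, Finset.sum_eq_single j₀]
    · simp
    · intro j _ hj
      simp [hj]
    · intro h; exact absurd (Finset.mem_univ _) h
  | zero =>
    exact ⟨1, one_ne_zero, fun _ => 0, by simp⟩
  | add y₁ y₂ _ _ h₁ h₂ =>
    obtain ⟨Q₁, hQ₁, P₁, e₁⟩ := h₁
    obtain ⟨Q₂, hQ₂, P₂, e₂⟩ := h₂
    refine ⟨Q₁ * Q₂, mul_ne_zero hQ₁ hQ₂, fun j => Q₂ * P₁ j + Q₁ * P₂ j, ?_⟩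
    have : aeval x (Q₁ * Q₂) * (y₁ + y₂) =
        aeval x Q₂ * (aeval x Q₁ * y₁) + aeval x Q₁ * (aeval x Q₂ * y₂) := by
      rw [map_mul]; ring
    rw [this, e₁, e₂, Finset.mul_sum, Finset.mul_sum, ← Finset.sum_add_distrib]
    refine Finset.sum_congr rfl fun j _ => ?_
    rw [map_add, map_mul, map_mul]; ring
  | smul a y _ h =>
    obtain ⟨Q, hQ, P, e⟩ := h
    obtain ⟨r, s, hrs⟩ := (IntermediateField.mem_adjoin_simple_iff L (a : E)).mp a.2
    have hsmul : a • y = (a : E) * y := rfl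
    by_cases hS : aeval x s = 0
    · refine ⟨1, one_ne_zero, fun _ => 0, ?_⟩
      rw [hsmul, hrs, hS, div_zero, zero_mul, mul_zero]
      simp
    · have hs0 : s ≠ 0 := by rintro rfl; simp at hS
      refine ⟨s * Q, mul_ne_zero hs0 hQ, fun j => r * P j, ?_⟩
      have hsum : ∑ j, aeval x (r * P j) * b j = aeval x r * (aeval x Q * y) := by
        rw [e, Finset.mul_sum]
        refine Finset.sum_congr rfl fun j _ => ?_
        rw [map_mul, mul_assoc]
      rw [hsum, hsmul, hrs, map_mul]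
      field_simp

end Span

variable {L : Type*} [Field L] {A : ValuationSubring L} {k : Type*} [Field k] (π : A →+* k)
  {ι : Type*} (D : IntGen A ι)

/-- What (R3) consumes from (R2): a finite family of `A`-integral series in `F` with reductions
in `κ`, independent modulo `π` over `k[x̄]`, spanning `F` over `L(x)` (in polynomial form). -/
structure SpanData (J : Type*) [Fintype J] where
  /-- the family (in the applications: monomials in the generators). -/
  b : J → LaurentSeries A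
  mem_F : ∀ j, embA A (b j) ∈ D.F
  mem_κ : ∀ j, redA A π (b j) ∈ D.κ π
  indep : IndepMod A π D.ξ b
  span : ∀ f : LaurentSeries L, f ∈ D.F → ∃ Q : L[X], Q ≠ 0 ∧ ∃ P : J → L[X],
    pev (embA A D.ξ) Q * f = ∑ j, pev (embA A D.ξ) (P j) * embA A (b j)

/-- constructor of the `span` field from membership in the `L(x)`-span. -/
theorem span_of_mem_span {D : IntGen A ι} {J : Type*} [Fintype J] (b : J → LaurentSeries A)
    (h : ∀ f : LaurentSeries L, f ∈ D.F →
      f ∈ Submodule.span L⟮embA A D.ξ⟯ (Set.range fun j => embA A (b j)))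
    (f : LaurentSeries L) (hf : f ∈ D.F) : ∃ Q : L[X], Q ≠ 0 ∧ ∃ P : J → L[X],
      pev (embA A D.ξ) Q * f = ∑ j, pev (embA A D.ξ) (P j) * embA A (b j) := by
  obtain ⟨Q, hQ, P, e⟩ := exists_poly_of_mem_span (embA A D.ξ) (fun j => embA A (b j)) (h f hf)
  refine ⟨Q, hQ, P, ?_⟩
  rw [← aeval_eq_pev_field, e]
  refine Finset.sum_congr rfl fun j _ => ?_
  rw [aeval_eq_pev_field]

/-- constructor of the `span` field from a spanning family of `F` over `L(x)` (e.g. a basis). -/
theorem span_of_top_le_span {D : IntGen A ι} {J : Type*} [Fintype J] (b : J → LaurentSeries A)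
    (hbF : ∀ j, embA A (b j) ∈ D.F)
    (h : ⊤ ≤ Submodule.span L⟮D.xF⟯ (Set.range fun j => (⟨embA A (b j), hbF j⟩ : D.F)))
    (f : LaurentSeries L) (hf : f ∈ D.F) : ∃ Q : L[X], Q ≠ 0 ∧ ∃ P : J → L[X],
      pev (embA A D.ξ) Q * f = ∑ j, pev (embA A D.ξ) (P j) * embA A (b j) := by
  obtain ⟨Q, hQ, P, e⟩ := exists_poly_of_mem_span D.xF
    (fun j => (⟨embA A (b j), hbF j⟩ : D.F)) (f := (⟨f, hf⟩ : D.F)) (h Submodule.mem_top)
  refine ⟨Q, hQ, P, ?_⟩
  have e' := congrArg (D.F.val) e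
  rw [map_mul, map_sum, ← Polynomial.aeval_algHom_apply] at e'
  rw [← aeval_eq_pev_field]
  refine e'.trans (Finset.sum_congr rfl fun j _ => ?_)
  rw [map_mul, ← Polynomial.aeval_algHom_apply, ← aeval_eq_pev_field]
  rfl

/-- `SpanData` from a spanning family (the natural output of (R2)). -/
def SpanData.ofSpanTop {π : A →+* k} {D : IntGen A ι} {J : Type*} [Fintype J]
    (b : J → LaurentSeries A) (hbF : ∀ j, embA A (b j) ∈ D.F)
    (hbκ : ∀ j, redA A π (b j) ∈ D.κ π) (hind : IndepMod A π D.ξ b)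
    (h : ⊤ ≤ Submodule.span L⟮D.xF⟯ (Set.range fun j => (⟨embA A (b j), hbF j⟩ : D.F))) :
    SpanData π D J where
  b := b
  mem_F := hbF
  mem_κ := hbκ
  indep := hind
  span := span_of_top_le_span b hbF h

namespace IntGen

theorem hahnC_mem_F (c : L) : (HahnSeries.C c : LaurentSeries L) ∈ D.F := by
  have := D.F.algebraMap_mem c
  rwa [algebraMap_laurentSeries_eq_single] at this

theorem hahnC_mem_κ (a : k) : (HahnSeries.C a : LaurentSeries k) ∈ D.κ π := by
  have := (D.κ π).algebraMap_mem a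
  rwa [algebraMap_laurentSeries_eq_single] at this

theorem coe_algebraMap_F (c : L) :
    ((algebraMap L D.F c : D.F) : LaurentSeries L) = HahnSeries.C c := by
  have h : ((algebraMap L D.F c : D.F) : LaurentSeries L)
      = algebraMap L (LaurentSeries L) c := rfl
  rw [h, algebraMap_laurentSeries_eq_single]
  rfl

theorem coe_algebraMap_κ (a : k) :
    ((algebraMap k (D.κ π) a : D.κ π) : LaurentSeries k) = HahnSeries.C a := by
  have h : ((algebraMap k (D.κ π) a : D.κ π) : LaurentSeries k)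
      = algebraMap k (LaurentSeries k) a := rfl
  rw [h, algebraMap_laurentSeries_eq_single]
  rfl

theorem pev_x_mem_F (Q : L[X]) : pev (embA A D.ξ) Q ∈ D.F := by
  rw [pev, Polynomial.eval₂_eq_sum_range]
  exact sum_mem fun i _ => mul_mem (D.hahnC_mem_F _) (pow_mem D.x_mem _)

end IntGen

variable {π D}

theorem isUnit_of_map_ne_zero' (hπ : Function.Surjective π) {a : A} (ha : π a ≠ 0) :
    IsUnit a := by
  have hmax : (RingHom.ker π).IsMaximal := RingHom.ker_isMaximal_of_surjective π hπ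
  have hker : RingHom.ker π = IsLocalRing.maximalIdeal A := IsLocalRing.eq_maximalIdeal hmax
  by_contra hu
  have : a ∈ IsLocalRing.maximalIdeal A := (IsLocalRing.mem_maximalIdeal a).mpr hu
  rw [← hker, RingHom.mem_ker] at this
  exact ha this

theorem algebraMap_mem_Ov_iff (hπ : Function.Surjective π) (c : L) :
    algebraMap L D.F c ∈ Ov A π D.F ↔ c ∈ A := by
  rw [mem_Ov_iff, IntGen.coe_algebraMap_F D]
  exact hahnC_mem_gaussRing_iff A π (fun a ha => isUnit_of_map_ne_zero' hπ ha) c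

theorem redV_algebraMap (a : A) (h : algebraMap L D.F (a : L) ∈ Ov A π D.F) :
    redV A π D.F ⟨algebraMap L D.F (a : L), h⟩ = HahnSeries.C (π a) := by
  rw [redV_of_eq_embA A π D.F _ (a := HahnSeries.C a), redA_C]
  rw [embA_C]
  exact IntGen.coe_algebraMap_F D (a : L)

namespace SpanData

variable {J : Type*} [Fintype J] [Nonempty J] (S : SpanData π D J)

include S

/-- **Gauss normalisation** in `L((q))`. -/
theorem exists_const_mul_unit {f : LaurentSeries L} (hf : f ∈ D.F) (hf0 : f ≠ 0) :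
    ∃ (c : L) (u : gaussRing A π), c ≠ 0 ∧ (u : LaurentSeries L) ∈ D.F ∧
      gaussRed A π u ≠ 0 ∧ gaussRed A π u ∈ D.κ π ∧
      f = HahnSeries.C c * (u : LaurentSeries L) := by
  obtain ⟨Q, hQ, P, hrel⟩ := S.span f hf
  obtain ⟨c, u, hc, hu0, huk, hfu⟩ :=
    _root_.Fermat.Agent.Gateway.GoodRed.exists_const_mul_unit S.indep hf0 hQ hrel
    (D.κ π).toSubfield (fun a => D.hahnC_mem_κ π a) (D.xbar_mem π) (fun j => S.mem_κ j)
  refine ⟨c, u, hc, ?_, hu0, huk, hfu⟩
  have hCc : (HahnSeries.C c : LaurentSeries L) ≠ 0 := by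
    rw [Ne, map_eq_zero_iff _ HahnSeries.C_injective]
    exact hc
  have : (u : LaurentSeries L) = (HahnSeries.C c)⁻¹ * f := by
    rw [hfu, ← mul_assoc, inv_mul_cancel₀ hCc, one_mul]
  rw [this]
  exact mul_mem (inv_mem (D.hahnC_mem_F c)) hf

/-- every nonzero `f ∈ F` is, up to a constant, a quotient `a / b` of two elements of `F` with
`A`-integral expansions and nonzero reductions. -/
theorem exists_integral_ratio {f : LaurentSeries L} (hf : f ∈ D.F) (hf0 : f ≠ 0) :
    ∃ c : L, c ≠ 0 ∧ ∃ a b : LaurentSeries A, embA A a ∈ D.F ∧ embA A b ∈ D.F ∧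
      redA A π a ≠ 0 ∧ redA A π b ≠ 0 ∧ (HahnSeries.C c * f) * embA A b = embA A a := by
  obtain ⟨Q, hQ, P, hrel⟩ := S.span f hf
  obtain ⟨c, P', Q', hc, hPπ, hQπ, hnf⟩ := exists_normal_form S.indep hf0 hQ hrel
  refine ⟨c⁻¹, inv_ne_zero hc, ∑ j, pev D.ξ (P' j) * S.b j, pev D.ξ Q', ?_, ?_,
    S.indep.redA_sum_ne_zero hPπ, S.indep.redA_pev_ne_zero hQπ, ?_⟩
  · rw [map_sum]
    refine sum_mem fun j _ => ?_
    rw [map_mul, embA_pev]
    exact mul_mem (D.pev_x_mem_F _) (S.mem_F j)
  · rw [embA_pev]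
    exact D.pev_x_mem_F _
  · rw [mul_assoc, hnf, ← mul_assoc, ← map_mul, inv_mul_cancel₀ hc, map_one, one_mul]

/-- **(Hnorm)** in the generic form of `Red1/Setting.lean`. -/
theorem normalisable : D.Normalisable π := by
  intro f hf
  have hf0 : (f : LaurentSeries L) ≠ 0 := fun h => hf (Subtype.ext h)
  obtain ⟨c, u, hc, -, hu0, -, hfu⟩ := S.exists_const_mul_unit f.2 hf0
  have hCc : (HahnSeries.C c : LaurentSeries L) ≠ 0 := by
    rw [Ne, map_eq_zero_iff _ HahnSeries.C_injective]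
    exact hc
  have hu : HahnSeries.C c⁻¹ * (f : LaurentSeries L) = (u : LaurentSeries L) := by
    rw [hfu, ← mul_assoc, ← map_mul, inv_mul_cancel₀ hc, map_one, one_mul]
  refine ⟨c⁻¹, inv_ne_zero hc, by rw [hu]; exact u.2, ?_⟩
  have : (⟨HahnSeries.C c⁻¹ * (f : LaurentSeries L), by rw [hu]; exact u.2⟩ : gaussRing A π)
      = u := Subtype.ext hu
  rw [this]
  exact hu0

/-- Gauss normalisation in terms of `Ov` and `redV`. -/
theorem exists_const_mul_unit_F (f : D.F) (hf : f ≠ 0) :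
    ∃ (c : L) (u : Ov A π D.F), c ≠ 0 ∧ redV A π D.F u ≠ 0 ∧
      redV A π D.F u ∈ D.κ π ∧ f = algebraMap L D.F c * (u : D.F) := by
  have hf0 : (f : LaurentSeries L) ≠ 0 := fun h => hf (Subtype.ext h)
  obtain ⟨c, u, hc, huF, hu0, huk, hfu⟩ := S.exists_const_mul_unit f.2 hf0
  refine ⟨c, ⟨⟨(u : LaurentSeries L), huF⟩, u.2⟩, hc, hu0, huk, Subtype.ext ?_⟩
  rw [hfu]
  show HahnSeries.C c * (u : LaurentSeries L)
    = ((algebraMap L D.F c : D.F) : LaurentSeries L) * (u : LaurentSeries L)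
  rw [IntGen.coe_algebraMap_F D]

/-- `Ov` is a valuation subring of `F`. -/
theorem mem_Ov_or_inv_mem_Ov (hπ : Function.Surjective π) (f : D.F) :
    f ∈ Ov A π D.F ∨ f⁻¹ ∈ Ov A π D.F := by
  by_cases hf : f = 0
  · left; rw [hf]; exact zero_mem _
  obtain ⟨c, u, hc, hu0, -, hfu⟩ := S.exists_const_mul_unit_F f hf
  rcases A.mem_or_inv_mem c with hcA | hcA
  · left
    rw [hfu]
    exact mul_mem ((algebraMap_mem_Ov_iff hπ c).mpr hcA) u.2
  · right
    rw [hfu, mul_inv, ← map_inv₀]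
    exact mul_mem ((algebraMap_mem_Ov_iff hπ c⁻¹).mpr hcA) (inv_mem_Ov A π D.F u.2 hu0)

/-- refined normalisation of an element of `Ov`: the constant lies in `A`. -/
theorem exists_const_mul_unit_Ov (hπ : Function.Surjective π) (f : Ov A π D.F) (hf : f ≠ 0) :
    ∃ (c : A) (u : Ov A π D.F), c ≠ 0 ∧ redV A π D.F u ≠ 0 ∧ redV A π D.F u ∈ D.κ π ∧
      (u : D.F)⁻¹ ∈ Ov A π D.F ∧
      f = (⟨algebraMap L D.F (c : L), (algebraMap_mem_Ov_iff hπ c).mpr c.2⟩ : Ov A π D.F) * u := by
  have hf' : (f : D.F) ≠ 0 := fun h => hf (Subtype.ext h)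
  obtain ⟨c, u, hc, hu0, huk, hfu⟩ := S.exists_const_mul_unit_F (f : D.F) hf'
  have huinv := inv_mem_Ov A π D.F u.2 hu0
  have hu0' : (u : D.F) ≠ 0 := by
    intro h
    apply hu0
    have : u = 0 := Subtype.ext h
    rw [this, map_zero]
  have hcmem : algebraMap L D.F c ∈ Ov A π D.F := by
    have : algebraMap L D.F c = (f : D.F) * (u : D.F)⁻¹ := by
      rw [hfu, mul_assoc, mul_inv_cancel₀ hu0', mul_one]
    rw [this]
    exact mul_mem f.2 huinv
  have hcA : c ∈ A := (algebraMap_mem_Ov_iff hπ c).mp hcmem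
  refine ⟨⟨c, hcA⟩, u, fun h => hc (congrArg Subtype.val h), hu0, huk, huinv, Subtype.ext ?_⟩
  exact hfu

/-- **kernel of `redV`**: the multiples of the maximal ideal of `A`. -/
theorem redV_eq_zero_iff (hπ : Function.Surjective π) (f : Ov A π D.F) :
    redV A π D.F f = 0 ↔
      ∃ (c : A) (u : Ov A π D.F), π c = 0 ∧
        (f : D.F) = algebraMap L D.F (c : L) * (u : D.F) := by
  constructor
  · intro h
    by_cases hf : f = 0
    · exact ⟨0, 0, map_zero _, by rw [hf]; simp⟩
    obtain ⟨c, u, -, hu0, -, -, hfu⟩ := S.exists_const_mul_unit_Ov hπ f hf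
    refine ⟨c, u, ?_, by rw [hfu]; rfl⟩
    rw [hfu, map_mul, redV_algebraMap] at h
    rcases mul_eq_zero.mp h with h1 | h1
    · exact (map_eq_zero_iff _ HahnSeries.C_injective).mp h1
    · exact absurd h1 hu0
  · rintro ⟨c, u, hc, hfu⟩
    have hcmem := (algebraMap_mem_Ov_iff (D := D) hπ (c : L)).mpr c.2
    have : f = (⟨algebraMap L D.F (c : L), hcmem⟩ : Ov A π D.F) * u := Subtype.ext hfu
    rw [this, map_mul, redV_algebraMap, hc, map_zero, zero_mul]

/-- the reduction of an element of `Ov` lies in `κ`. -/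
theorem redV_mem_κ (hπ : Function.Surjective π) (f : Ov A π D.F) :
    redV A π D.F f ∈ D.κ π := by
  by_cases hf : f = 0
  · rw [hf, map_zero]; exact zero_mem _
  obtain ⟨c, u, -, -, huk, -, hfu⟩ := S.exists_const_mul_unit_Ov hπ f hf
  rw [hfu, map_mul, redV_algebraMap]
  exact mul_mem (D.hahnC_mem_κ π (π c)) huk

end SpanData

/-! ### the generators -/

theorem xF_mem_Ov : D.xF ∈ Ov A π D.F := by
  rw [mem_Ov_iff]
  exact embA_mem_gaussRing A π _

theorem eF_mem_Ov (i : ι) : D.eF i ∈ Ov A π D.F := by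
  rw [mem_Ov_iff]
  exact embA_mem_gaussRing A π _

theorem redV_xF : redV A π D.F ⟨D.xF, xF_mem_Ov⟩ = D.xbar π :=
  redV_of_eq_embA A π D.F _ (a := D.ξ) rfl

theorem redV_eF (i : ι) : redV A π D.F ⟨D.eF i, eF_mem_Ov i⟩ = D.ebar π i :=
  redV_of_eq_embA A π D.F _ (a := D.e i) rfl

/-- the image of `redV`, as an intermediate field of `k((q)) / k`. -/
def resRange (hπ : Function.Surjective π) : IntermediateField k (LaurentSeries k) where
  carrier := Set.range (redV A π D.F)
  mul_mem' := by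
    rintro _ _ ⟨f, rfl⟩ ⟨g, rfl⟩
    exact ⟨f * g, map_mul _ _ _⟩
  one_mem' := ⟨1, map_one _⟩
  add_mem' := by
    rintro _ _ ⟨f, rfl⟩ ⟨g, rfl⟩
    exact ⟨f + g, map_add _ _ _⟩
  zero_mem' := ⟨0, map_zero _⟩
  algebraMap_mem' := by
    intro a
    obtain ⟨a', rfl⟩ := hπ a
    refine ⟨⟨algebraMap L D.F (a' : L), (algebraMap_mem_Ov_iff hπ a').mpr a'.2⟩, ?_⟩
    rw [redV_algebraMap, algebraMap_laurentSeries_eq_single]
    rfl
  inv_mem' := by
    rintro _ ⟨f, rfl⟩
    by_cases h0 : redV A π D.F f = 0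
    · rw [h0, inv_zero]; exact ⟨0, map_zero _⟩
    · have hinv := inv_mem_Ov A π D.F f.2 h0
      refine ⟨⟨(f : D.F)⁻¹, hinv⟩, ?_⟩
      have hf0 : (f : D.F) ≠ 0 := by
        intro h
        apply h0
        have : f = 0 := Subtype.ext h
        rw [this, map_zero]
      have h1 : (⟨(f : D.F)⁻¹, hinv⟩ : Ov A π D.F) * f = 1 :=
        Subtype.ext (inv_mul_cancel₀ hf0)
      have h2 := congrArg (redV A π D.F) h1
      rw [map_mul, map_one] at h2
      exact eq_inv_of_mul_eq_one_left h2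

/-- `redV` maps `Ov` onto `κ` (no hypothesis on the generators needed). -/
theorem redV_surjective_κ (hπ : Function.Surjective π) {z : LaurentSeries k}
    (hz : z ∈ D.κ π) : ∃ f : Ov A π D.F, redV A π D.F f = z := by
  have hle : D.κ π ≤ resRange (D := D) hπ := by
    rw [IntGen.κ, IntermediateField.adjoin_le_iff]
    intro y hy
    rcases hy with rfl | ⟨i, rfl⟩
    · exact ⟨⟨D.xF, xF_mem_Ov⟩, redV_xF⟩
    · exact ⟨⟨D.eF i, eF_mem_Ov i⟩, redV_eF i⟩
  exact hle hz

namespace SpanData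

variable {J : Type*} [Fintype J] [Nonempty J] (S : SpanData π D J)

/-- `Ov` as a valuation subring of `F`. -/
def OvValF (hπ : Function.Surjective π) : ValuationSubring D.F :=
  { Ov A π D.F with
    mem_or_inv_mem' := S.mem_Ov_or_inv_mem_Ov hπ }

theorem mem_OvValF_iff (hπ : Function.Surjective π) {f : D.F} :
    f ∈ S.OvValF hπ ↔ f ∈ Ov A π D.F := Iff.rfl

/-- the identity map `OvValF → Ov`. -/
def ovValToOv (hπ : Function.Surjective π) : S.OvValF hπ →+* Ov A π D.F where
  toFun f := ⟨(f : D.F), f.2⟩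
  map_one' := rfl
  map_mul' _ _ := rfl
  map_zero' := rfl
  map_add' _ _ := rfl

/-- the residue map `OvValF → κ`. -/
def resF (hπ : Function.Surjective π) : S.OvValF hπ →+* D.κ π :=
  ((redV A π D.F).comp (S.ovValToOv hπ)).codRestrict (D.κ π) fun _ => S.redV_mem_κ hπ _

theorem coe_resF (hπ : Function.Surjective π) (f : S.OvValF hπ) :
    ((S.resF hπ f : D.κ π) : LaurentSeries k) = redV A π D.F ⟨(f : D.F), f.2⟩ := rfl

theorem resF_surjective (hπ : Function.Surjective π) : Function.Surjective (S.resF hπ) := by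
  intro z
  obtain ⟨f, hf⟩ := redV_surjective_κ (D := D) hπ z.2
  exact ⟨⟨(f : D.F), f.2⟩, Subtype.ext hf⟩

/-- the kernel of the residue map is the set of non-units of `OvValF`. -/
theorem resF_eq_zero_iff (hπ : Function.Surjective π) (f : S.OvValF hπ) :
    S.resF hπ f = 0 ↔ ¬ IsUnit f := by
  constructor
  · intro h hu
    have := hu.map (S.resF hπ)
    rw [h] at this
    exact not_isUnit_zero this
  · intro hu
    by_contra h0
    apply hu
    have h0' : redV A π D.F ⟨(f : D.F), f.2⟩ ≠ 0 := fun h => h0 (Subtype.ext h)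
    have hinv := inv_mem_Ov A π D.F f.2 h0'
    have hf0 : (f : D.F) ≠ 0 := by
      intro h
      apply h0'
      have : (⟨(f : D.F), f.2⟩ : Ov A π D.F) = 0 := Subtype.ext h
      rw [this, map_zero]
    exact IsUnit.of_mul_eq_one (⟨(f : D.F)⁻¹, hinv⟩ : S.OvValF hπ)
      (Subtype.ext (mul_inv_cancel₀ hf0))

/-- constants: `c ∈ OvValF ↔ c ∈ A`. -/
theorem algebraMap_mem_OvValF_iff (hπ : Function.Surjective π) (c : L) :
    algebraMap L D.F c ∈ S.OvValF hπ ↔ c ∈ A :=
  algebraMap_mem_Ov_iff hπ c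

/-- the residue map on constants. -/
theorem resF_algebraMap (hπ : Function.Surjective π) (a : A) :
    S.resF hπ ⟨algebraMap L D.F (a : L), (S.algebraMap_mem_OvValF_iff hπ a).mpr a.2⟩ =
      algebraMap k (D.κ π) (π a) := by
  apply Subtype.ext
  rw [coe_resF]
  exact (redV_algebraMap a _).trans (IntGen.coe_algebraMap_κ π D (π a)).symm

theorem xF_mem_OvValF (hπ : Function.Surjective π) : D.xF ∈ S.OvValF hπ := xF_mem_Ov

theorem eF_mem_OvValF (hπ : Function.Surjective π) (i : ι) : D.eF i ∈ S.OvValF hπ :=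
  eF_mem_Ov i

theorem resF_xF (hπ : Function.Surjective π) :
    S.resF hπ ⟨D.xF, S.xF_mem_OvValF hπ⟩ = D.xκ π :=
  Subtype.ext redV_xF

theorem resF_eF (hπ : Function.Surjective π) (i : ι) :
    S.resF hπ ⟨D.eF i, S.eF_mem_OvValF hπ i⟩ = D.eκ π i :=
  Subtype.ext (redV_eF i)

/-- Gauss normalisation in terms of `OvValF` and `resF`: every nonzero element of `F` is a
nonzero constant times a unit of `OvValF`. -/
theorem exists_const_mul_unit_OvValF (hπ : Function.Surjective π) (f : D.F) (hf : f ≠ 0) :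
    ∃ (c : L) (u : S.OvValF hπ), c ≠ 0 ∧ IsUnit u ∧ f = algebraMap L D.F c * (u : D.F) := by
  obtain ⟨c, u, hc, hu0, -, hfu⟩ := S.exists_const_mul_unit_F f hf
  refine ⟨c, ⟨(u : D.F), u.2⟩, hc, ?_, hfu⟩
  by_contra hnu
  have := (S.resF_eq_zero_iff hπ ⟨(u : D.F), u.2⟩).mpr hnu
  apply hu0
  exact congrArg Subtype.val this

end SpanData

end Fermat.Agent.S48x.Red1
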