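import Mathlib
import Fermat.Agent.S48x.Red1.GenusLE1
import Fermat.Agent.S48x.Red1.GaussGen

/-!
# P-S48 layer (c), (R8) in the generic setting `IntGen` of `Red1/Setting`

For `D : IntGen A ι` with `SpanData` (output of (R2), consumed by (R3) `Red1/GaussGen`):

* `redA_mem_κ` : the reduction of an `A`-integral series lying in `D.F` lies in `D.κ π`;
* `x4k_mem_κ`, `y9k_mem_κ` : the Hauptmoduln of level four / nine of the special fibre lie in
  `D.κ π` as soon as those of the generic fibre lie in `D.F` (e.g. `FBar L M ≤ D.F`);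
* `genusFF_le_four`, `genusFF_le_nine` : **(R8)** `genusFF L D.F ≤ genusFF k (D.κ π)` from
  `D.Full π`, separability of `κ / k(x̄)`, the genus formula `hgen` of the generic fibre
  (`Red1/GenusFormula`) and the bound `hpoles` on the cusps of the special fibre ((R7)).
-/

set_option autoImplicit false
set_option linter.unusedSectionVars false
set_option linter.style.haveILetI false

noncomputable section

namespace Fermat.Agent.S48x.Red1

open IntermediateField AlgebraicCurve Module ModularCurve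
open Fermat.Agent.Gateway.Red Fermat.Agent.Gateway.GoodRed Fermat.Agent.Gateway.AuxLevel

variable {L : Type*} [Field L] {A : ValuationSubring L} {k : Type} [Field k] {π : A →+* k}
  {ι : Type*} {D : IntGen A ι}

namespace SpanData

variable {J : Type*} [Fintype J] [Nonempty J] (S : SpanData π D J)

include S in
/-- the reduction of an `A`-integral series of `F` lies in `κ`. -/
theorem redA_mem_κ (hπ : Function.Surjective π) (a : LaurentSeries A) (ha : embA A a ∈ D.F) :
    redA A π a ∈ D.κ π := by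
  have hmem : (⟨embA A a, ha⟩ : D.F) ∈ Ov A π D.F := embA_mem_gaussRing A π a
  have h := S.redV_mem_κ hπ ⟨_, hmem⟩
  rwa [redV_of_eq_embA A π D.F _ rfl] at h

include S in
/-- a series with integer coefficients: if its image over `L` lies in `F`, its image over `k`
lies in `κ`. -/
theorem coeffMap_int_mem_κ (hπ : Function.Surjective π) (z : LaurentSeries ℤ)
    (hz : coeffMap (Int.castRingHom L) z ∈ D.F) : coeffMap (Int.castRingHom k) z ∈ D.κ π := by
  have h1 : embA A (coeffMap (Int.castRingHom A) z) = coeffMap (Int.castRingHom L) z := by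
    rw [embA, coeffMap_coeffMap]
    exact coeffMap_congr (RingHom.ext_int _ _) z
  have h2 : redA A π (coeffMap (Int.castRingHom A) z) = coeffMap (Int.castRingHom k) z := by
    rw [redA, coeffMap_coeffMap]
    exact coeffMap_congr (RingHom.ext_int _ _) z
  rw [← h2]
  exact S.redA_mem_κ hπ _ (by rw [h1]; exact hz)

include S in
theorem x4k_mem_κ (hπ : Function.Surjective π)
    (hx4 : coeffMap (Int.castRingHom L) L4.x4 ∈ D.F) : TLine4.x4k k ∈ D.κ π :=
  S.coeffMap_int_mem_κ hπ L4.x4 hx4

include S in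
theorem y9k_mem_κ (hπ : Function.Surjective π)
    (hy9 : coeffMap (Int.castRingHom L) L9.y9 ∈ D.F) : TLine9.y9k k ∈ D.κ π :=
  S.coeffMap_int_mem_κ hπ L9.y9 hy9

variable [IsAlgClosed k]

include S in
/-- **(R8) at a level divisible by four**, in the generic setting. -/
theorem genusFF_le_four (hπ : Function.Surjective π) (h2 : (2 : k) ≠ 0)
    (hξ : redA A π D.ξ = jqModC k) (hx4 : coeffMap (Int.castRingHom L) L4.x4 ∈ D.F)
    [FiniteDimensional k⟮D.xκ π⟯ (D.κ π)] [Algebra.IsSeparable k⟮D.xκ π⟯ (D.κ π)]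
    (hfull : D.Full π)
    (hgen : 6 * (2 * (genusFF L D.F : ℤ) - 2) =
      (finrank L⟮D.xF⟯ D.F : ℤ) - 6 * (Nat.card {v : Place L D.F // v.ord D.xF < 0} : ℤ))
    (hpoles : Nat.card {v : Place k (D.κ π) // v.ord (D.xκ π) < 0} ≤
      Nat.card {v : Place L D.F // v.ord D.xF < 0}) :
    genusFF L D.F ≤ genusFF k (D.κ π) :=
  GenusLE1.genusFF_le_of_hurwitz D.xF (D.xκ π) hgen hfull.2 hpoles
    (GenusLE1.hurwitz_of_x4k_mem (D.κ π) (D.xκ π) hξ h2 (S.x4k_mem_κ hπ hx4))

include S in
/-- **(R8) at a level divisible by nine**, in the generic setting. -/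
theorem genusFF_le_nine (hπ : Function.Surjective π) (h3 : (3 : k) ≠ 0)
    (hξ : redA A π D.ξ = jqModC k) (hy9 : coeffMap (Int.castRingHom L) L9.y9 ∈ D.F)
    [FiniteDimensional k⟮D.xκ π⟯ (D.κ π)] [Algebra.IsSeparable k⟮D.xκ π⟯ (D.κ π)]
    (hfull : D.Full π)
    (hgen : 6 * (2 * (genusFF L D.F : ℤ) - 2) =
      (finrank L⟮D.xF⟯ D.F : ℤ) - 6 * (Nat.card {v : Place L D.F // v.ord D.xF < 0} : ℤ))
    (hpoles : Nat.card {v : Place k (D.κ π) // v.ord (D.xκ π) < 0} ≤
      Nat.card {v : Place L D.F // v.ord D.xF < 0}) :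
    genusFF L D.F ≤ genusFF k (D.κ π) :=
  GenusLE1.genusFF_le_of_hurwitz D.xF (D.xκ π) hgen hfull.2 hpoles
    (GenusLE1.hurwitz_of_y9k_mem (D.κ π) (D.xκ π) hξ h3 (S.y9k_mem_κ hπ hy9))

end SpanData

end Fermat.Agent.S48x.Red1
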