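import Fermat.Agent.S48x.Red1.ModelIntGen
import Fermat.Agent.S48x.Model.DescentHyp
import Fermat.Prelude.Def_FLTPrelim_Ramification

/-!
# P-S48, layer (c), slice of (R9): transport of the model to the rational form

For an algebraically closed field `L` of characteristic zero, a valuation subring `A` of `L` lying
over a prime `p ∤ M` and a residue map `π : A →+* k`:

* `natCast_ne_zero_of_liesOverPrime` : `M ≠ 0` in `k`;
* `exists_primitiveRoot_mem` : `A` contains a primitive `M`-th root of unity;
* `laurentBaseChange_gamma1Field_eq_F` : the base change to `L` of the rational form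
  `Model.gamma1Field M` of the function field of `X₁(M)` is the field `(gamma1IntGen A M ζ).F` of
  the integral generating datum of `Red1/ModelIntGen`;
* `exists_transport` : everything packaged, i.e. the inputs `(F', hF')` of
  `IntGen.Full.kummerRedInj` / `IntGen.Full.gaussNormalisable` for
  `F' = laurentBaseChange L (gamma1Field M)`.
-/

set_option autoImplicit false
set_option linter.unusedSectionVars false

noncomputable section

namespace Fermat.Agent.S48x.Red1.ModelTransport

open ModularCurve IsLocalRing Fermat.Agent.S48x.Model Fermat.Agent.S48x.Red1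
  Fermat.Agent.S48x.Red1.ModelInt

variable {L : Type*} [Field L] [Algebra ℚ L] (A : ValuationSubring L) {k : Type*} [Field k]
  (π : A →+* k) {M : ℕ} [NeZero M]

/-- A prime below `A` vanishes in the residue field. -/
theorem pi_natCast_eq_zero (hπ : Function.Surjective π) {p : ℕ} (hA : A.LiesOverPrime p) :
    ((p : ℕ) : k) = 0 := by
  have hmem : ((p : A) : L) ∈ A.nonunits := by
    have : ((p : A) : L) = (p : L) := by simp
    rw [this]
    exact hA
  have hmax : (p : A) ∈ maximalIdeal A := by
    rw [ValuationSubring.mem_nonunits_iff_exists_mem_maximalIdeal] at hmem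
    obtain ⟨_, h⟩ := hmem
    exact h
  have hker : RingHom.ker π = maximalIdeal A :=
    eq_maximalIdeal (RingHom.ker_isMaximal_of_surjective π hπ)
  have : (p : A) ∈ RingHom.ker π := hker ▸ hmax
  rw [RingHom.mem_ker, map_natCast] at this
  exact this

/-- `M ≠ 0` in the residue field when the residue characteristic does not divide `M`. -/
theorem natCast_ne_zero_of_liesOverPrime (hπ : Function.Surjective π) {p : ℕ} (hp : p.Prime)
    (hA : A.LiesOverPrime p) (hpM : ¬ p ∣ M) : ((M : ℕ) : k) ≠ 0 := by
  have h0 := pi_natCast_eq_zero A π hπ hA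
  have hchar : CharP k p := by
    have := CharP.ringChar_of_prime_eq_zero hp h0
    rw [← this]
    exact ringChar.charP k
  intro hM
  exact hpM ((CharP.cast_eq_zero_iff k p M).mp hM)

/-- `A` contains a primitive `M`-th root of unity. -/
theorem exists_primitiveRoot_mem [IsAlgClosed L] [CharZero L] (M : ℕ) [NeZero M] :
    ∃ ζ : A, IsPrimitiveRoot ζ M := by
  have : NeZero ((M : ℕ) : L) := ⟨by exact_mod_cast NeZero.ne M⟩
  obtain ⟨ζ, hζ⟩ := HasEnoughRootsOfUnity.exists_primitiveRoot L M
  exact ⟨⟨ζ, mem_of_pow_eq_one A hζ.pow_eq_one⟩, isPrimitiveRoot_of_coe A hζ⟩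

variable {A π}

/-- **Transport**: the base change of the rational form of the function field of `X₁(M)` is the
field of the integral generating datum. -/
theorem laurentBaseChange_gamma1Field_eq_F (hπ : Function.Surjective π) {ζ : A}
    (hζ : IsPrimitiveRoot ζ M) (hMk : ((M : ℕ) : k) ≠ 0) :
    laurentBaseChange L (gamma1Field M) = (gamma1IntGen A M ζ).F := by
  rw [gamma1IntGen_F hπ hζ hMk]
  exact laurentBaseChange_gamma1Field_eq (isPrimitiveRoot_coe A hζ)

variable (A π)

/-- **Transport, packaged.** -/
theorem exists_transport [IsAlgClosed L] [CharZero L] (hπ : Function.Surjective π) {p : ℕ}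
    (hp : p.Prime) (hA : A.LiesOverPrime p) (M : ℕ) [NeZero M] (hpM : ¬ p ∣ M) :
    ∃ ζ : A, IsPrimitiveRoot ζ M ∧ ((M : ℕ) : k) ≠ 0 ∧ IsPrimitiveRoot (π ζ) M ∧
      laurentBaseChange L (gamma1Field M) = (gamma1IntGen A M ζ).F ∧
      (gamma1IntGen A M ζ).κ π = gamma1FieldC M (π ζ) := by
  obtain ⟨ζ, hζ⟩ := exists_primitiveRoot_mem A M
  have hMk := natCast_ne_zero_of_liesOverPrime A π hπ hp hA hpM
  exact ⟨ζ, hζ, hMk, isPrimitiveRoot_pi A π hπ hζ hMk,
    laurentBaseChange_gamma1Field_eq_F hπ hζ hMk, gamma1IntGen_κ hπ hζ hMk⟩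

end Fermat.Agent.S48x.Red1.ModelTransport
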