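import Mathlib
import Fermat.Agent.S48x.Red1.Setting
import Fermat.Agent.Gateway.GoodRed.GaussRing
import Fermat.Agent.Gateway.GoodRed.CuspAdapter

/-!
# P-S48, layer (c), (R2): monomial bases of an integrally generated field with full residue degree

Setting of `Red1/Setting.lean`: `D : IntGen A ι`, `F = L(x, e_i)`, `κ = k(x̄, ē_i)`.
Under `D.Full π` (`[F : L(x)] = n` finite and `n ≤ [κ : k(x̄)]`) there are `n` monomials
`b_j = ∏ e_i ^ (μ_j i)` (Laurent series over `A`) such that

* the reductions `b̄_j` are linearly independent over `k[x̄]` (`GaussAbstract.IndepMod`), and are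
  a `k(x̄)`-basis of `κ`; in particular `[κ : k(x̄)] = n` (`Full.finrank_κ`);
* the `b_j` (as elements of `F`) are an `L(x)`-basis of `F`.

This is the generic replacement of the `S28` box monomials / `indepMod_box`.
Without `Full`: residue degree `≤` degree (`finrank_κ_le`), `IndepMod` from independence in `κ`
(`indepMod_of_linearIndependent`), independence in `F` from `IndepMod`
(`linearIndependent_of_indepMod`).
-/

set_option autoImplicit false

noncomputable section

namespace Fermat.Agent.S48x.Red1

open IntermediateField Polynomial Fermat.Agent.Gateway.Red Fermat.Agent.Gateway.GoodRed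

variable {L : Type*} [Field L] {A : ValuationSubring L} {k : Type*} [Field k] (π : A →+* k)

section Abstract

/-- from a spanning family of a finite-dimensional space one can extract `finrank` independent
members. -/
theorem exists_fin_linearIndependent_of_span_eq_top {K V α : Type*} [DivisionRing K]
    [AddCommGroup V] [Module K V] [FiniteDimensional K V] (f : α → V)
    (h : Submodule.span K (Set.range f) = ⊤) :
    ∃ μ : Fin (Module.finrank K V) → α, LinearIndependent K (fun j => f (μ j)) := by
  obtain ⟨g, hg, -, hli⟩ := Submodule.exists_fun_fin_finrank_span_eq K (Set.range f)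
  have hn : Module.finrank K (Submodule.span K (Set.range f)) = Module.finrank K V := by
    rw [h, finrank_top]
  choose μ hμ using hg
  refine ⟨fun j => μ (Fin.cast hn.symm j), ?_⟩
  have e : (fun j => f (μ (Fin.cast hn.symm j))) = g ∘ Fin.cast hn.symm := by
    funext j
    simp only [Function.comp_apply, hμ]
  rw [e]
  exact hli.comp _ (Fin.cast_injective _)

theorem finiteDimensional_of_finrank_pos' {K V : Type*} [DivisionRing K]
    [AddCommGroup V] [Module K V] (h : 0 < Module.finrank K V) : FiniteDimensional K V :=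
  Module.finite_of_finrank_pos h

end Abstract

namespace IntGen

variable {ι : Type*} (D : IntGen A ι)

/-- the monomial `∏ e_i ^ (μ i)` in the generators, as a Laurent series over `A`. -/
def mono (μ : ι →₀ ℕ) : LaurentSeries A := μ.prod fun i m => D.e i ^ m

theorem embA_mono (μ : ι →₀ ℕ) : embA A (D.mono μ) = μ.prod fun i m => D.eL i ^ m := by
  rw [mono, map_finsuppProd]
  simp only [map_pow]
  rfl

theorem redA_mono (μ : ι →₀ ℕ) : redA A π (D.mono μ) = μ.prod fun i m => D.ebar π i ^ m := by
  rw [mono, map_finsuppProd]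
  simp only [map_pow]
  rfl

theorem embA_mono_mem (μ : ι →₀ ℕ) : embA A (D.mono μ) ∈ D.F := by
  rw [embA_mono]
  exact prod_mem fun i _ => pow_mem (D.eL_mem i) _

theorem redA_mono_mem (μ : ι →₀ ℕ) : redA A π (D.mono μ) ∈ D.κ π := by
  rw [redA_mono]
  exact prod_mem fun i _ => pow_mem (D.ebar_mem π i) _

/-- the monomial as an element of `F`. -/
def monoF (μ : ι →₀ ℕ) : D.F := ⟨embA A (D.mono μ), D.embA_mono_mem μ⟩

/-- the reduced monomial as an element of `κ`. -/
def monoκ (μ : ι →₀ ℕ) : D.κ π := ⟨redA A π (D.mono μ), D.redA_mono_mem π μ⟩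

@[simp] theorem coe_monoF (μ : ι →₀ ℕ) :
    ((D.monoF μ : D.F) : LaurentSeries L) = embA A (D.mono μ) := rfl

@[simp] theorem coe_monoκ (μ : ι →₀ ℕ) :
    ((D.monoκ π μ : D.κ π) : LaurentSeries k) = redA A π (D.mono μ) := rfl

/-- shortcut instance (the default search is very slow here). -/
@[reducible] def algKx : Algebra k k⟮D.xκ π⟯ := IntermediateField.algebra' _

/-- shortcut instance (the default search is very slow here). -/
@[reducible] def algLx : Algebra L L⟮D.xF⟯ := IntermediateField.algebra' _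

attribute [local instance 5000] algKx algLx

theorem mono_zero : D.mono 0 = 1 := Finsupp.prod_zero_index

theorem mono_single (i : ι) : D.mono (Finsupp.single i 1) = D.e i := by
  rw [mono, Finsupp.prod_single_index (h := fun i m => D.e i ^ m) (pow_zero _), pow_one]

theorem mono_add (μ ν : ι →₀ ℕ) : D.mono (μ + ν) = D.mono μ * D.mono ν :=
  Finsupp.prod_add_index' (fun _ => pow_zero _) (fun _ _ _ => pow_add _ _ _)

theorem transcendental_xF : Transcendental L D.xF := by
  have h : Transcendental L (embA A D.ξ) := GaussRing.transcendental_embA D.hord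
  exact (transcendental_algebraMap_iff (R := L) (S := D.F) (A := LaurentSeries L)
    (a := D.xF) (algebraMap D.F (LaurentSeries L)).injective).mp h

theorem transcendental_xκ : Transcendental k (D.xκ π) := by
  have h : Transcendental k (redA A π D.ξ) := GaussRing.transcendental_redA D.hord D.hlc
  exact (transcendental_algebraMap_iff (R := k) (S := D.κ π) (A := LaurentSeries k)
    (a := D.xκ π) (algebraMap (D.κ π) (LaurentSeries k)).injective).mp h

/-- coercion of `aeval` at the generator of `k(x̄)` down to Laurent series. -/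
theorem coe_aeval_gen_xκ (P : k[X]) :
    (((aeval (AdjoinSimple.gen k (D.xκ π)) P : k⟮D.xκ π⟯) : D.κ π) : LaurentSeries k)
      = pev (redA A π D.ξ) P := by
  rw [← aeval_eq_pev_field]
  have h1 : ((aeval (AdjoinSimple.gen k (D.xκ π)) P : k⟮D.xκ π⟯) : D.κ π)
      = aeval (D.xκ π) P := by
    rw [← IntermediateField.algebraMap_apply, ← aeval_algebraMap_apply,
      AdjoinSimple.algebraMap_gen]
  rw [h1, ← IntermediateField.algebraMap_apply, ← aeval_algebraMap_apply]
  rfl

/-- `k(x̄)`-independence in `κ` of reduced series is `IndepMod`. -/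
theorem indepMod_of_linearIndependent {m : ℕ} (b : Fin m → LaurentSeries A)
    (hmem : ∀ j, redA A π (b j) ∈ D.κ π)
    (hli : LinearIndependent k⟮D.xκ π⟯ (fun j => (⟨redA A π (b j), hmem j⟩ : D.κ π))) :
    IndepMod A π D.ξ b := by
  intro c hc j
  rw [Fintype.linearIndependent_iff] at hli
  have h0 : ∑ j, (aeval (AdjoinSimple.gen k (D.xκ π)) (c j) : k⟮D.xκ π⟯)
      • (⟨redA A π (b j), hmem j⟩ : D.κ π) = 0 := by
    apply Subtype.ext
    rw [IntermediateField.coe_sum]
    simp only [IntermediateField.coe_zero]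
    rw [← hc]
    refine Finset.sum_congr rfl fun j _ => ?_
    rw [Algebra.smul_def, IntermediateField.coe_mul, IntermediateField.algebraMap_apply,
      coe_aeval_gen_xκ]
  have h1 := hli _ h0 j
  have h2 := congrArg (fun r : k⟮D.xκ π⟯ => ((r : D.κ π) : LaurentSeries k)) h1
  simp only [coe_aeval_gen_xκ] at h2
  have h3 : pev (redA A π D.ξ) (c j) = 0 := by simpa using h2
  rw [← aeval_eq_pev_field] at h3
  exact (transcendental_iff.mp (GaussRing.transcendental_redA D.hord D.hlc)) _ h3

/-- the `x^n b_j` are `L`-linearly independent (polynomial form). -/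
theorem sum_pev_ne_zero {m : ℕ} {b : Fin m → LaurentSeries A} (hb : IndepMod A π D.ξ b)
    {P : Fin m → L[X]} (hP : ∃ j, P j ≠ 0) :
    ∑ j, pev (embA A D.ξ) (P j) * embA A (b j) ≠ 0 := by
  obtain ⟨c, hc, P', hP', hPπ⟩ := exists_content A π P hP
  have e : ∑ j, pev (embA A D.ξ) (P j) * embA A (b j)
      = HahnSeries.C c * embA A (∑ j, pev D.ξ (P' j) * b j) := by
    rw [map_sum, Finset.mul_sum]
    refine Finset.sum_congr rfl fun i _ => ?_
    rw [map_mul, embA_pev, hP', pev_mul, pev_C, ← mul_assoc, ← mul_assoc, ← map_mul,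
      mul_inv_cancel₀ hc, map_one, one_mul]
  rw [e]
  have hW := hb.redA_sum_ne_zero hPπ
  have hW0 : embA A (∑ j, pev D.ξ (P' j) * b j) ≠ 0 := by
    intro h0
    rw [embA_eq_zero_iff] at h0
    exact hW (by rw [h0, map_zero])
  have hCc : (HahnSeries.C c : LaurentSeries L) ≠ 0 := by
    rw [Ne, map_eq_zero_iff _ HahnSeries.C_injective]
    exact hc
  exact mul_ne_zero hCc hW0

/-- `IndepMod` lifts to `L(x)`-independence in `F`. -/
theorem linearIndependent_of_indepMod {m : ℕ} (b : Fin m → LaurentSeries A)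
    (hb : IndepMod A π D.ξ b) (hmem : ∀ j, embA A (b j) ∈ D.F) :
    LinearIndependent L⟮D.xF⟯ (fun j => (⟨embA A (b j), hmem j⟩ : D.F)) := by
  let _ := polyAlgebra (L := L) D.xF
  let _ := adjoinPolyAlgebra (L := L) D.xF
  have := isScalarTower_poly (L := L) D.xF
  have := isFractionRing_poly D.xF D.transcendental_xF
  rw [← LinearIndependent.iff_fractionRing L[X] L⟮D.xF⟯, Fintype.linearIndependent_iff]
  intro g hg
  by_contra hne
  push Not at hne
  refine D.sum_pev_ne_zero π hb hne ?_
  have h1 := congrArg (fun f : D.F => (f : LaurentSeries L)) hg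
  simp only [IntermediateField.coe_sum, IntermediateField.coe_zero] at h1
  rw [← h1]
  refine Finset.sum_congr rfl fun j _ => ?_
  rw [Algebra.smul_def, polyAlgebra_algebraMap_apply, IntermediateField.coe_mul,
    ← aeval_eq_pev_field, ← IntermediateField.algebraMap_apply, ← aeval_algebraMap_apply]
  rfl

/-- the reduced monomials contain the multiplicative closure of the reduced generators. -/
theorem closure_range_eκ_le :
    (Submonoid.closure (Set.range (D.eκ π)) : Set (D.κ π)) ⊆ Set.range (D.monoκ π) := by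
  intro y hy
  induction hy using Submonoid.closure_induction with
  | mem y hy =>
    obtain ⟨i, rfl⟩ := hy
    exact ⟨Finsupp.single i 1, Subtype.ext (by rw [coe_monoκ, mono_single]; rfl)⟩
  | one => exact ⟨0, Subtype.ext (by rw [coe_monoκ, mono_zero, map_one]; rfl)⟩
  | mul y z _ _ hy hz =>
    obtain ⟨μ, rfl⟩ := hy
    obtain ⟨ν, rfl⟩ := hz
    exact ⟨μ + ν, Subtype.ext (by rw [coe_monoκ, mono_add, map_mul]; rfl)⟩

/-- if `κ / k(x̄)` is algebraic, the reduced monomials span `κ` over `k(x̄)`. -/
theorem span_monoκ_eq_top [Algebra.IsAlgebraic k⟮D.xκ π⟯ (D.κ π)] :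
    Submodule.span k⟮D.xκ π⟯ (Set.range (D.monoκ π)) = ⊤ := by
  set Sa : Subalgebra k⟮D.xκ π⟯ (D.κ π) := Algebra.adjoin k⟮D.xκ π⟯ (Set.range (D.eκ π)) with hSa
  set K₁ : IntermediateField k⟮D.xκ π⟯ (D.κ π) :=
    Sa.toIntermediateField' (Subalgebra.isField_of_algebraic Sa) with hK₁
  have hle : D.κ π ≤ IntermediateField.lift (K₁.restrictScalars k) := by
    show IntermediateField.adjoin k (insert (D.xbar π) (Set.range (D.ebar π))) ≤ _
    rw [IntermediateField.adjoin_le_iff]
    rintro y (rfl | ⟨i, rfl⟩)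
    · show ((D.xκ π : D.κ π) : LaurentSeries k) ∈ _
      rw [SetLike.mem_coe, IntermediateField.mem_lift]
      show D.xκ π ∈ Sa
      have h := Sa.algebraMap_mem (AdjoinSimple.gen k (D.xκ π))
      rwa [AdjoinSimple.algebraMap_gen] at h
    · show ((D.eκ π i : D.κ π) : LaurentSeries k) ∈ _
      rw [SetLike.mem_coe, IntermediateField.mem_lift]
      show D.eκ π i ∈ Sa
      exact Algebra.subset_adjoin (Set.mem_range_self i)
  have htop : Sa = ⊤ := by
    rw [eq_top_iff]
    intro y _
    have h := hle y.2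
    have h' : y ∈ K₁.restrictScalars k := (IntermediateField.mem_lift y).mp h
    exact h'
  rw [eq_top_iff, ← Algebra.toSubmodule_eq_top.mpr htop, hSa, Algebra.adjoin_eq_span]
  exact Submodule.span_mono (D.closure_range_eκ_le π)

/-- a family of reduced monomials which is independent over `k(x̄)` has at most `[F : L(x)]`
members. -/
theorem card_le_of_linearIndependent_monoκ [FiniteDimensional L⟮D.xF⟯ D.F] {m : ℕ}
    (μ : Fin m → (ι →₀ ℕ)) (hli : LinearIndependent k⟮D.xκ π⟯ (fun j => D.monoκ π (μ j))) :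
    m ≤ Module.finrank L⟮D.xF⟯ D.F := by
  have h1 := D.indepMod_of_linearIndependent π (fun j => D.mono (μ j))
    (fun j => D.redA_mono_mem π (μ j)) hli
  have h2 := D.linearIndependent_of_indepMod π _ h1 (fun j => D.embA_mono_mem (μ j))
  simpa using h2.fintype_card_le_finrank

/-- a `k(x̄)`-independent family of `[κ : k(x̄)]` reduced monomials. -/
theorem exists_linearIndependent_monoκ [FiniteDimensional k⟮D.xκ π⟯ (D.κ π)] :
    ∃ μ : Fin (Module.finrank k⟮D.xκ π⟯ (D.κ π)) → (ι →₀ ℕ),
      LinearIndependent k⟮D.xκ π⟯ (fun j => D.monoκ π (μ j)) := by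
  have : Algebra.IsAlgebraic k⟮D.xκ π⟯ (D.κ π) := Algebra.IsAlgebraic.of_finite _ _
  exact exists_fin_linearIndependent_of_span_eq_top (D.monoκ π) (D.span_monoκ_eq_top π)

/-- residue degree `≤` degree (for the monomially generated residue field). -/
theorem finrank_κ_le [FiniteDimensional L⟮D.xF⟯ D.F] [FiniteDimensional k⟮D.xκ π⟯ (D.κ π)] :
    Module.finrank k⟮D.xκ π⟯ (D.κ π) ≤ Module.finrank L⟮D.xF⟯ D.F := by
  obtain ⟨μ, hμ⟩ := D.exists_linearIndependent_monoκ π
  exact D.card_le_of_linearIndependent_monoκ π μ hμ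

variable {π D}

theorem Full.finiteDimensional_F (h : D.Full π) : FiniteDimensional L⟮D.xF⟯ D.F := h.1

theorem Full.finrank_pos (h : D.Full π) : 0 < Module.finrank L⟮D.xF⟯ D.F := by
  have := h.1
  exact Module.finrank_pos

theorem Full.finiteDimensional_κ (h : D.Full π) : FiniteDimensional k⟮D.xκ π⟯ (D.κ π) :=
  finiteDimensional_of_finrank_pos' (lt_of_lt_of_le h.finrank_pos h.2)

theorem Full.finrank_κ (h : D.Full π) :
    Module.finrank k⟮D.xκ π⟯ (D.κ π) = Module.finrank L⟮D.xF⟯ D.F := by
  have := h.1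
  have := h.finiteDimensional_κ
  exact le_antisymm (D.finrank_κ_le π) h.2

/-- **(R2)**: under `Full`, `n = [F : L(x)]` monomials in the generators whose reductions are
`k[x̄]`-independent (`IndepMod`), which form an `L(x)`-basis of `F`, and whose reductions form a
`k(x̄)`-basis of `κ`. -/
theorem Full.exists_monomial_basis (h : D.Full π) :
    ∃ μ : Fin (Module.finrank L⟮D.xF⟯ D.F) → (ι →₀ ℕ),
      IndepMod A π D.ξ (fun j => D.mono (μ j)) ∧
      (∃ b : Module.Basis (Fin (Module.finrank L⟮D.xF⟯ D.F)) L⟮D.xF⟯ D.F,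
        ∀ j, b j = D.monoF (μ j)) ∧
      (∃ b' : Module.Basis (Fin (Module.finrank L⟮D.xF⟯ D.F)) k⟮D.xκ π⟯ (D.κ π),
        ∀ j, b' j = D.monoκ π (μ j)) := by
  have := h.1
  have := h.finiteDimensional_κ
  have hne : Nonempty (Fin (Module.finrank L⟮D.xF⟯ D.F)) := Fin.pos_iff_nonempty.mp h.finrank_pos
  obtain ⟨μ', hμ'⟩ := D.exists_linearIndependent_monoκ π
  have hn := h.finrank_κ
  have hli : LinearIndependent k⟮D.xκ π⟯ (fun j => D.monoκ π (μ' (Fin.cast hn.symm j))) :=
    hμ'.comp _ (Fin.cast_injective _)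
  have h1 := D.indepMod_of_linearIndependent π (fun j => D.mono (μ' (Fin.cast hn.symm j)))
    (fun j => D.redA_mono_mem π _) hli
  have h2 := D.linearIndependent_of_indepMod π _ h1 (fun j => D.embA_mono_mem _)
  refine ⟨fun j => μ' (Fin.cast hn.symm j), h1, ?_, ?_⟩
  · refine ⟨basisOfLinearIndependentOfCardEqFinrank h2 (Fintype.card_fin _), fun j => ?_⟩
    rw [coe_basisOfLinearIndependentOfCardEqFinrank]
    rfl
  · refine ⟨basisOfLinearIndependentOfCardEqFinrank hli
      ((Fintype.card_fin _).trans hn.symm), fun j => ?_⟩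
    rw [coe_basisOfLinearIndependentOfCardEqFinrank]

end IntGen

end Fermat.Agent.S48x.Red1
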