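import Mathlib
import Fermat.Agent.S48x.Red1.MonomialBasis
import Fermat.Agent.S48x.Red1.GaussGen

/-!
# P-S48, layer (c): (R2) → (R3) adapter

`D.Full π` produces the `SpanData` consumed by `Red1/GaussGen.lean` (index `Fin [F : L(x)]`,
family = the monomial basis of `Red1/MonomialBasis.lean`), hence the Gauss valuation ring of `F`,
its residue map onto `κ`, and (Hnorm) in the generic form `D.Normalisable π`.
-/

set_option autoImplicit false

noncomputable section

namespace Fermat.Agent.S48x.Red1

open IntermediateField Polynomial Fermat.Agent.Gateway.Red Fermat.Agent.Gateway.GoodRed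

variable {L : Type*} [Field L] {A : ValuationSubring L} {k : Type*} [Field k] {π : A →+* k}

namespace IntGen

variable {ι : Type*} {D : IntGen A ι}

/-- the exponents of the monomial basis chosen by `Full.exists_monomial_basis`. -/
def Full.exponents (h : D.Full π) : Fin (Module.finrank L⟮D.xF⟯ D.F) → (ι →₀ ℕ) :=
  Classical.choose h.exists_monomial_basis

theorem Full.indepMod_exponents (h : D.Full π) :
    IndepMod A π D.ξ (fun j => D.mono (h.exponents j)) :=
  (Classical.choose_spec h.exists_monomial_basis).1

theorem Full.exists_basis_F (h : D.Full π) :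
    ∃ b : Module.Basis (Fin (Module.finrank L⟮D.xF⟯ D.F)) L⟮D.xF⟯ D.F,
      ∀ j, b j = D.monoF (h.exponents j) :=
  (Classical.choose_spec h.exists_monomial_basis).2.1

theorem Full.exists_basis_κ (h : D.Full π) :
    ∃ b' : Module.Basis (Fin (Module.finrank L⟮D.xF⟯ D.F)) k⟮D.xκ π⟯ (D.κ π),
      ∀ j, b' j = D.monoκ π (h.exponents j) :=
  (Classical.choose_spec h.exists_monomial_basis).2.2

theorem Full.top_le_span (h : D.Full π) :
    ⊤ ≤ Submodule.span L⟮D.xF⟯ (Set.range fun j =>
      (⟨embA A (D.mono (h.exponents j)), D.embA_mono_mem _⟩ : D.F)) := by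
  obtain ⟨b, hb⟩ := h.exists_basis_F
  have e : (fun j => (⟨embA A (D.mono (h.exponents j)), D.embA_mono_mem _⟩ : D.F)) = b := by
    funext j
    rw [hb j]
    rfl
  rw [e, b.span_eq]

/-- **(R2) → (R3)**: the `SpanData` of the monomial basis. -/
def Full.spanData (h : D.Full π) : SpanData π D (Fin (Module.finrank L⟮D.xF⟯ D.F)) :=
  SpanData.ofSpanTop (fun j => D.mono (h.exponents j)) (fun _ => D.embA_mono_mem _)
    (fun _ => D.redA_mono_mem π _) h.indepMod_exponents h.top_le_span

@[simp] theorem Full.spanData_b (h : D.Full π) (j : Fin (Module.finrank L⟮D.xF⟯ D.F)) :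
    h.spanData.b j = D.mono (h.exponents j) := rfl

theorem Full.nonempty_fin (h : D.Full π) : Nonempty (Fin (Module.finrank L⟮D.xF⟯ D.F)) :=
  Fin.pos_iff_nonempty.mp h.finrank_pos

/-- (Hnorm), generic form: `Full` implies `Normalisable`. -/
theorem Full.normalisable (h : D.Full π) : D.Normalisable π :=
  have := h.nonempty_fin
  h.spanData.normalisable

end IntGen

end Fermat.Agent.S48x.Red1
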