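import Mathlib
import Fermat.Agent.S48x.Red1.GenusLE1Setting
import Fermat.Agent.S48x.Red1.GenusFormulaGamma1
import Fermat.Agent.S48x.Red1.ModelTransport
import Fermat.Agent.S48x.Red1.MonomialSpan
import Fermat.Agent.S48x.Ana.DegreeF1
import Fermat.Agent.Gateway.AuxLevel.MembershipFk

/-!
# P-S48 layer (c), (R9): the genus does not drop for the model of `X₁(M)` (helper47)

`D := gamma1IntGen A M ζ` is the integral generating datum of the function field of `X₁(M)`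
(`Red1/ModelIntGen`, variable `q`, base coordinate `j(q)`).

* `hdeg_of_finrank` : degree bound from the degree of a finite extension;
* `hnorm_rational`, `hgen_rational` : for `L` algebraically closed of characteristic zero with an
  embedding `ι : L →+* ℂ` and `8 ≤ M`, the norm formula and the **genus formula**
  `6 (2 g - 2) = [F : L(j)] - 6 #{poles of j}` of `F = laurentBaseChange L (gamma1Field M)`,
  hypothesis-free (from `Ana/Emb1Inst`, `Ana/DegreeF1`, `Red1/GenusFormulaGamma1`);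
* `hgen_gamma1IntGen`, `finiteDimensional_gamma1IntGen` : the same for `D.F`, `D.xF`;
* `redA_ξ_gamma1IntGen` : `hξ`; `x4_mem_gamma1IntGen`, `y9_mem_gamma1IntGen` : `hx4`, `hy9`;
* `genusFF_le_gamma1IntGen_four`, `genusFF_le_gamma1IntGen_nine`, `genusFF_le_gamma1IntGen` :
  **`genusFF L D.F ≤ genusFF k (D.κ π)`** from `D.Full π`, separability of `κ / k(x̄)` and the
  bound `hpoles` on the number of cusps of the special fibre.
-/

set_option autoImplicit false
set_option linter.unusedSectionVars false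
set_option linter.style.haveILetI false

noncomputable section

open IntermediateField AlgebraicCurve Module ModularCurve CongruenceSubgroup
open scoped MatrixGroups

namespace Fermat.Agent.S48x.Red1.Gamma1Genus

open Fermat.Agent.Gateway.Red Fermat.Agent.Gateway.GoodRed Fermat.Agent.Gateway.AuxLevel
open Fermat.Agent.Gateway.Dict.ConjAbs
open Fermat.Agent.S48x.Model Fermat.Agent.S48x.G1 Fermat.Agent.S48x.Ana.Emb1
open Fermat.Agent.S48x.Red1 Fermat.Agent.S48x.Red1.ModelInt Fermat.Agent.S48x.Red1.ModelTransport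

/-! ### Degree bound from finiteness -/

section Deg

variable {K F : Type*} [Field K] [Field F] [Algebra K F]

theorem hdeg_of_finrank (x : F) [FiniteDimensional K⟮x⟯ F] {n : ℕ}
    (h : finrank K⟮x⟯ F ≤ n) (a : F) :
    ∃ p : Polynomial K⟮x⟯, p ≠ 0 ∧ p.natDegree ≤ n ∧ Polynomial.aeval a p = 0 :=
  ⟨minpoly K⟮x⟯ a, minpoly.ne_zero (Algebra.IsIntegral.isIntegral a),
    (minpoly.natDegree_le a).trans h, minpoly.aeval _ _⟩

end Deg

/-! ### The genus formula of the rational form -/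

section Rational

variable {M : ℕ} [NeZero M] {L : Type*} [Field L] [Algebra ℚ L] [IsAlgClosed L] [CharZero L]

/-- the statement of the genus formula. -/
def GenusFormulaAt (F : IntermediateField L (LaurentSeries L)) (x : F) : Prop :=
  6 * (2 * (genusFF L F : ℤ) - 2) =
    (finrank L⟮x⟯ F : ℤ) - 6 * (Nat.card {v : Place L F // v.ord x < 0} : ℤ)

theorem GenusFormulaAt.congr {F₁ F₂ : IntermediateField L (LaurentSeries L)} (h : F₁ = F₂)
    (x₁ : F₁) (x₂ : F₂) (hx : (x₁ : LaurentSeries L) = x₂) (H : GenusFormulaAt F₁ x₁) :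
    GenusFormulaAt F₂ x₂ := by
  subst h
  obtain rfl : x₁ = x₂ := Subtype.ext hx
  exact H

theorem finiteDimensional_congr {F₁ F₂ : IntermediateField L (LaurentSeries L)} (h : F₁ = F₂)
    (x₁ : F₁) (x₂ : F₂) (hx : (x₁ : LaurentSeries L) = x₂) (H : FiniteDimensional L⟮x₁⟯ F₁) :
    FiniteDimensional L⟮x₂⟯ F₂ := by
  subst h
  obtain rfl : x₁ = x₂ := Subtype.ext hx
  exact H

/-- **The genus formula of `X₁(M)`, `8 ≤ M`, over any algebraically closed field of
characteristic zero embedded in `ℂ`.** -/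
theorem hgen_rational (ι : L →+* ℂ) (hM : 8 ≤ M) :
    GenusFormulaAt (laurentBaseChange L (gamma1Field M)) (jF1R L M) := by
  obtain ⟨ζ, hζ, hι⟩ := exists_zeta ι M
  letI : Fintype (SL(2, ℤ) ⧸ Gamma1pm M) := Fintype.ofFinite _
  obtain ⟨hfd, hfr⟩ := Fermat.Agent.S48x.Ana.DegreeF1.finiteDimensional_and_finrank
    (M := M) ι hM
  haveI := hfd
  have hcard : finrank L⟮jF1R L M⟯ (laurentBaseChange L (gamma1Field M)) ≤
      Fintype.card (SL(2, ℤ) ⧸ Gamma1pm M) := by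
    rw [hfr, Subgroup.index_eq_card, Nat.card_eq_fintype_card]
  have hnorm := (finrank_and_norm (embData1 ι ζ hM hζ hι) Set.univ
    (fun f => ⟨f, Set.mem_univ f, 1, one_ne_zero, by rw [map_one, div_one]⟩)
    (fun a _ => hdeg_of_finrank (jF1R L M) hcard a)).2.2
  exact Fermat.Agent.S48x.Red1.GenusFormula.genus_formula_Gamma1pm (embData1 ι ζ hM hζ hι) hnorm
    (Nat.pos_of_ne_zero (NeZero.ne M)) (hcusp_embData1 hM hζ hι) (by omega)

end Rational

/-! ### The datum `gamma1IntGen` -/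

section Datum

variable {L : Type} [Field L] [Algebra ℚ L] [IsAlgClosed L] [CharZero L]
  {A : ValuationSubring L} {k : Type} [Field k] {π : A →+* k} {M : ℕ} [NeZero M]

theorem coe_xF_gamma1IntGen (ζ : A) :
    (((gamma1IntGen A M ζ).xF : (gamma1IntGen A M ζ).F) : LaurentSeries L) = jqModC L :=
  gamma1IntGen_x ζ

/-- the genus formula for the field of the datum. -/
theorem hgen_gamma1IntGen (ι : L →+* ℂ) (hM : 8 ≤ M) (hπ : Function.Surjective π) {ζ : A}
    (hζ : IsPrimitiveRoot ζ M) (hMk : ((M : ℕ) : k) ≠ 0) :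
    6 * (2 * (genusFF L (gamma1IntGen A M ζ).F : ℤ) - 2) =
      (finrank L⟮(gamma1IntGen A M ζ).xF⟯ (gamma1IntGen A M ζ).F : ℤ) -
        6 * (Nat.card {v : Place L (gamma1IntGen A M ζ).F //
          v.ord (gamma1IntGen A M ζ).xF < 0} : ℤ) :=
  GenusFormulaAt.congr (laurentBaseChange_gamma1Field_eq_F hπ hζ hMk) (jF1R L M)
    (gamma1IntGen A M ζ).xF ((coe_jF1R).trans (coe_xF_gamma1IntGen ζ).symm) (hgen_rational ι hM)

theorem finiteDimensional_gamma1IntGen (ι : L →+* ℂ) (hM : 8 ≤ M) (hπ : Function.Surjective π)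
    {ζ : A} (hζ : IsPrimitiveRoot ζ M) (hMk : ((M : ℕ) : k) ≠ 0) :
    FiniteDimensional L⟮(gamma1IntGen A M ζ).xF⟯ (gamma1IntGen A M ζ).F :=
  finiteDimensional_congr (laurentBaseChange_gamma1Field_eq_F hπ hζ hMk) (jF1R L M)
    (gamma1IntGen A M ζ).xF ((coe_jF1R).trans (coe_xF_gamma1IntGen ζ).symm)
    (Fermat.Agent.S48x.Ana.DegreeF1.finiteDimensional_and_finrank (M := M) ι hM).1

theorem finrank_gamma1IntGen (ι : L →+* ℂ) (hM : 8 ≤ M) (hπ : Function.Surjective π)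
    {ζ : A} (hζ : IsPrimitiveRoot ζ M) (hMk : ((M : ℕ) : k) ≠ 0) :
    finrank L⟮(gamma1IntGen A M ζ).xF⟯ (gamma1IntGen A M ζ).F = (Gamma1pm M).index := by
  have key : ∀ {F₁ F₂ : IntermediateField L (LaurentSeries L)} (h : F₁ = F₂) (x₁ : F₁) (x₂ : F₂)
      (_ : (x₁ : LaurentSeries L) = x₂), finrank L⟮x₁⟯ F₁ = finrank L⟮x₂⟯ F₂ := by
    intro F₁ F₂ h x₁ x₂ hx
    subst h
    obtain rfl : x₁ = x₂ := Subtype.ext hx
    rfl
  rw [← key (laurentBaseChange_gamma1Field_eq_F hπ hζ hMk) (jF1R L M)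
    (gamma1IntGen A M ζ).xF ((coe_jF1R).trans (coe_xF_gamma1IntGen ζ).symm)]
  exact (Fermat.Agent.S48x.Ana.DegreeF1.finiteDimensional_and_finrank (M := M) ι hM).2

/-- `hξ` -/
theorem redA_ξ_gamma1IntGen (ζ : A) : redA A π (gamma1IntGen A M ζ).ξ = jqModC k :=
  gamma1IntGen_xbar π ζ

/-- the function field of `X₀(M)` is contained in the model of `X₁(M)`. -/
theorem fullC_le_gamma1FieldC (ζ : L) : modularFunctionFieldFullC L M ≤ gamma1FieldC M ζ := by
  rw [modularFunctionFieldFullC, IntermediateField.adjoin_le_iff]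
  rintro x ⟨d, hd0, hd, rfl⟩
  exact jqd_mem_gamma1FieldC ζ hd

/-- `hx4` -/
theorem x4_mem_gamma1IntGen (hπ : Function.Surjective π) {ζ : A}
    (hζ : IsPrimitiveRoot ζ M) (hMk : ((M : ℕ) : k) ≠ 0) (h4 : 4 ∣ M) :
    coeffMap (Int.castRingHom L) L4.x4 ∈ (gamma1IntGen A M ζ).F := by
  rw [gamma1IntGen_F hπ hζ hMk]
  exact fullC_le_gamma1FieldC _
    (L4.x4k_mem h4 (by exact_mod_cast (NeZero.ne M : M ≠ 0)))

/-- `hy9` -/
theorem y9_mem_gamma1IntGen (hπ : Function.Surjective π) {ζ : A}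
    (hζ : IsPrimitiveRoot ζ M) (hMk : ((M : ℕ) : k) ≠ 0) (h9 : 9 ∣ M) :
    coeffMap (Int.castRingHom L) L9.y9 ∈ (gamma1IntGen A M ζ).F := by
  rw [gamma1IntGen_F hπ hζ hMk]
  exact fullC_le_gamma1FieldC _
    (L9.y9k_mem h9 (by exact_mod_cast (NeZero.ne M : M ≠ 0)))

variable [IsAlgClosed k]

/-- **`g(F) ≤ g(κ)` for the model of `X₁(M)`, `4 ∣ M`.** -/
theorem genusFF_le_gamma1IntGen_four (ι : L →+* ℂ) (hM : 8 ≤ M) (hπ : Function.Surjective π)
    {ζ : A} (hζ : IsPrimitiveRoot ζ M) (hMk : ((M : ℕ) : k) ≠ 0) (h4 : 4 ∣ M)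
    [FiniteDimensional k⟮(gamma1IntGen A M ζ).xκ π⟯ ((gamma1IntGen A M ζ).κ π)]
    [Algebra.IsSeparable k⟮(gamma1IntGen A M ζ).xκ π⟯ ((gamma1IntGen A M ζ).κ π)]
    (hfull : (gamma1IntGen A M ζ).Full π)
    (hpoles : Nat.card {v : Place k ((gamma1IntGen A M ζ).κ π) //
        v.ord ((gamma1IntGen A M ζ).xκ π) < 0} ≤
      Nat.card {v : Place L (gamma1IntGen A M ζ).F // v.ord (gamma1IntGen A M ζ).xF < 0}) :
    genusFF L (gamma1IntGen A M ζ).F ≤ genusFF k ((gamma1IntGen A M ζ).κ π) := by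
  have h2 : (2 : k) ≠ 0 := by
    intro h0
    apply hMk
    obtain ⟨c, rfl⟩ := h4
    have : ((4 : ℕ) : k) = 2 * 2 := by norm_num
    rw [Nat.cast_mul, this, h0, zero_mul, zero_mul]
  haveI := hfull.nonempty_fin
  exact hfull.spanData.genusFF_le_four hπ h2 (redA_ξ_gamma1IntGen ζ)
    (x4_mem_gamma1IntGen hπ hζ hMk h4) hfull (hgen_gamma1IntGen ι hM hπ hζ hMk) hpoles

/-- **`g(F) ≤ g(κ)` for the model of `X₁(M)`, `9 ∣ M`.** -/
theorem genusFF_le_gamma1IntGen_nine (ι : L →+* ℂ) (hM : 8 ≤ M) (hπ : Function.Surjective π)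
    {ζ : A} (hζ : IsPrimitiveRoot ζ M) (hMk : ((M : ℕ) : k) ≠ 0) (h9 : 9 ∣ M)
    [FiniteDimensional k⟮(gamma1IntGen A M ζ).xκ π⟯ ((gamma1IntGen A M ζ).κ π)]
    [Algebra.IsSeparable k⟮(gamma1IntGen A M ζ).xκ π⟯ ((gamma1IntGen A M ζ).κ π)]
    (hfull : (gamma1IntGen A M ζ).Full π)
    (hpoles : Nat.card {v : Place k ((gamma1IntGen A M ζ).κ π) //
        v.ord ((gamma1IntGen A M ζ).xκ π) < 0} ≤
      Nat.card {v : Place L (gamma1IntGen A M ζ).F // v.ord (gamma1IntGen A M ζ).xF < 0}) :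
    genusFF L (gamma1IntGen A M ζ).F ≤ genusFF k ((gamma1IntGen A M ζ).κ π) := by
  have h3 : (3 : k) ≠ 0 := by
    intro h0
    apply hMk
    obtain ⟨c, rfl⟩ := h9
    have : ((9 : ℕ) : k) = 3 * 3 := by norm_num
    rw [Nat.cast_mul, this, h0, zero_mul, zero_mul]
  haveI := hfull.nonempty_fin
  exact hfull.spanData.genusFF_le_nine hπ h3 (redA_ξ_gamma1IntGen ζ)
    (y9_mem_gamma1IntGen hπ hζ hMk h9) hfull (hgen_gamma1IntGen ι hM hπ hζ hMk) hpoles

/-- **`g(F) ≤ g(κ)` for the model of `X₁(M)`, `4 ∣ M` or `9 ∣ M`.** -/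
theorem genusFF_le_gamma1IntGen (ι : L →+* ℂ) (hM : 8 ≤ M) (hπ : Function.Surjective π)
    {ζ : A} (hζ : IsPrimitiveRoot ζ M) (hMk : ((M : ℕ) : k) ≠ 0) (h49 : 4 ∣ M ∨ 9 ∣ M)
    [FiniteDimensional k⟮(gamma1IntGen A M ζ).xκ π⟯ ((gamma1IntGen A M ζ).κ π)]
    [Algebra.IsSeparable k⟮(gamma1IntGen A M ζ).xκ π⟯ ((gamma1IntGen A M ζ).κ π)]
    (hfull : (gamma1IntGen A M ζ).Full π)
    (hpoles : Nat.card {v : Place k ((gamma1IntGen A M ζ).κ π) //
        v.ord ((gamma1IntGen A M ζ).xκ π) < 0} ≤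
      Nat.card {v : Place L (gamma1IntGen A M ζ).F // v.ord (gamma1IntGen A M ζ).xF < 0}) :
    genusFF L (gamma1IntGen A M ζ).F ≤ genusFF k ((gamma1IntGen A M ζ).κ π) := by
  rcases h49 with h4 | h9
  · exact genusFF_le_gamma1IntGen_four ι hM hπ hζ hMk h4 hfull hpoles
  · exact genusFF_le_gamma1IntGen_nine ι hM hπ hζ hMk h9 hfull hpoles

end Datum

end Fermat.Agent.S48x.Red1.Gamma1Genus
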