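import Mathlib
import Fermat.Agent.S48x.Red1.Gamma1Genus
import Fermat.Agent.S48x.Red1.MonomialBasis
import Fermat.Agent.S48x.Red1.ModelTransport
import Fermat.Agent.S48x.Red1.Shortcuts
import Fermat.Agent.Gateway.ES.ResidueField

/-!
# P-S48 layer (c): `hgenus` in the consumer setting (helper82; specialisation of
`Red1/Gamma1Genus.genusFF_le_gamma1IntGen`, requested by helper47)

`L / ℚ` algebraic and algebraically closed, `A : ValuationSubring L` over a prime `p ∤ M`,
`k := IsLocalRing.ResidueField A`, `π := IsLocalRing.residue A`, `ζ : A` a primitive `M`-th root of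
unity, `8 ≤ M`, `4 ∣ M ∨ 9 ∣ M`, `D := gamma1IntGen A M ζ`:

* `hgenus_residue` : `D.Full π → IsSeparable k(x̄) κ → #poles(x̄) ≤ #poles(x) → g(F) ≤ g(κ)`
  (= field `hgenus` of `Gamma1RedInputs`, note 1276, from the other two producers and the
  pole count); discharged here: the embedding `L → ℂ`, surjectivity of `π`, `M ≠ 0` in `k`,
  `k` algebraically closed, finiteness of `κ / k(x̄)`.
* `exists_ringHom_complex`, `natCast_ne_zero_residue'`, `finiteDimensional_κ_residue` : the
  discharged side conditions, for reuse.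
-/

set_option autoImplicit false
set_option linter.unusedSectionVars false
set_option linter.style.haveILetI false

noncomputable section

namespace Fermat.Agent.S48x.Red1.Gamma1GenusInst

open IntermediateField AlgebraicCurve Module ModularCurve IsLocalRing
open Fermat.Agent.S48x.Red1 Fermat.Agent.S48x.Red1.ModelInt Fermat.Agent.S48x.Red1.ModelTransport
open scoped Fermat.Agent.S48x.Red1.Shortcuts

variable {L : Type} [Field L] [Algebra ℚ L] [Algebra.IsAlgebraic ℚ L] [IsAlgClosed L]
  (A : ValuationSubring L) {M : ℕ} [NeZero M]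

/-- an algebraic extension of `ℚ` embeds into `ℂ`. -/
theorem exists_ringHom_complex : Nonempty (L →+* ℂ) :=
  ⟨((IsAlgClosed.lift : L →ₐ[ℚ] ℂ) : L →+* ℂ)⟩

/-- `M ≠ 0` in the residue field of a valuation subring over `p ∤ M`. -/
theorem natCast_ne_zero_residue' {p : ℕ} (hp : p.Prime) (hA : A.LiesOverPrime p)
    (hpM : ¬ p ∣ M) : ((M : ℕ) : ResidueField A) ≠ 0 :=
  natCast_ne_zero_of_liesOverPrime A (residue A) residue_surjective hp hA hpM

/-- `κ / k(x̄)` is finite under `Full`. -/
theorem finiteDimensional_κ_residue {ζ : A}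
    (hfull : (gamma1IntGen A M ζ).Full (residue A)) :
    FiniteDimensional (ResidueField A)⟮(gamma1IntGen A M ζ).xκ (residue A)⟯
      ((gamma1IntGen A M ζ).κ (residue A)) :=
  hfull.finiteDimensional_κ

/-- **`hgenus` in the consumer setting**: `g(F) ≤ g(κ)` for the model of `X₁(M)` at a valuation
subring `A` of `L` over `p ∤ M`, with `k` the residue field of `A`. -/
theorem hgenus_residue {p : ℕ} (hp : p.Prime) (hA : A.LiesOverPrime p) (hpM : ¬ p ∣ M)
    (hM : 8 ≤ M) (h49 : 4 ∣ M ∨ 9 ∣ M) {ζ : A} (hζ : IsPrimitiveRoot ζ M)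
    (hfull : (gamma1IntGen A M ζ).Full (residue A))
    (hsep : Algebra.IsSeparable (ResidueField A)⟮(gamma1IntGen A M ζ).xκ (residue A)⟯
      ((gamma1IntGen A M ζ).κ (residue A)))
    (hpoles : Nat.card {v : Place (ResidueField A) ((gamma1IntGen A M ζ).κ (residue A)) //
        v.ord ((gamma1IntGen A M ζ).xκ (residue A)) < 0} ≤
      Nat.card {v : Place L (gamma1IntGen A M ζ).F // v.ord (gamma1IntGen A M ζ).xF < 0}) :
    genusFF L (gamma1IntGen A M ζ).F ≤
      genusFF (ResidueField A) ((gamma1IntGen A M ζ).κ (residue A)) := by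
  haveI : CharZero L := algebraRat.charZero L
  haveI : IsAlgClosed (ResidueField A) := Fermat.Agent.Gateway.ES.isAlgClosed_residueField A
  haveI := finiteDimensional_κ_residue A hfull
  obtain ⟨ι⟩ := exists_ringHom_complex (L := L)
  exact Gamma1Genus.genusFF_le_gamma1IntGen ι hM residue_surjective hζ
    (natCast_ne_zero_residue' A hp hA hpM) h49 hfull hpoles

end Fermat.Agent.S48x.Red1.Gamma1GenusInst
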