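import Fermat.Agent.S48x.Red1.CuspFamilyFull
import Fermat.Agent.S27x.G3.Transport

/-!
# P-S48, layer (c), (R7b): change of variable `q = z^M` for integrally generated fields

For `D : IntGen A ι` in the variable `q` (e.g. `ModelInt.gamma1IntGen`, base coordinate `j(q)` of
order `-1`) the cusp embeddings `F → L((q))` over `x` only see the cusps of width one.  The set of
*all* cusps is seen in the variable `z = q^(1/M)`:

* `D.scale M : IntGen A ι` : the datum `ξ(z^M)`, `e i (z^M)`;
* `scale_F : (D.scale M).F = D.F.map (qExpandAlgHomC L M)`, `scale_κ`;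
* `scaleEquivF : D.F ≃ₐ[L] (D.scale M).F`, `scaleEquivκ : D.κ π ≃ₐ[k] (D.scale M).κ π`, matching
  `xF, eF i` resp. `xκ, eκ i`;
* `finrank_scale_F`, `finrank_scale_κ`, `Full.scale : D.Full π → (D.scale M).Full π`, the converse
  `Full.of_scale` and `full_scale_iff`;
* `card_poles_scale_F`, `card_poles_scale_κ` : the numbers of poles of `x` resp. `x̄` do not change;
* `isIntegral_scale_eF`;
* `Full.card_poles_le_of_scale` : **`#{poles of x̄ in κ} ≤ #{poles of x in F}` for `D` from the
  cusp-embedding hypotheses for `D.scale M`** (helper12).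
-/

set_option autoImplicit false
set_option linter.unusedSectionVars false
set_option linter.style.haveILetI false

noncomputable section

namespace Fermat.Agent.S48x.Red1

open Polynomial IntermediateField AlgebraicCurve ModularCurve Module
open Fermat.Agent.Gateway.Red Fermat.Agent.Gateway.GoodRed

/-! ### abstract transport along an algebra isomorphism -/

section Abstract

variable {K E E' : Type*} [Field K] [Field E] [Field E'] [Algebra K E] [Algebra K E']

theorem map_adjoin_simple_eq (e : E ≃ₐ[K] E') (x : E) :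
    (K⟮x⟯).map e.toAlgHom = K⟮e x⟯ := by
  rw [IntermediateField.adjoin_map, Set.image_singleton]
  rfl

/-- the restriction of an algebra isomorphism to simple subextensions. -/
def adjoinSimpleEquiv (e : E ≃ₐ[K] E') (x : E) : K⟮x⟯ ≃+* K⟮e x⟯ :=
  ((IntermediateField.intermediateFieldMap e K⟮x⟯).trans
    (IntermediateField.equivOfEq (map_adjoin_simple_eq e x))).toRingEquiv

theorem coe_adjoinSimpleEquiv (e : E ≃ₐ[K] E') (x : E) (r : K⟮x⟯) :
    ((adjoinSimpleEquiv e x r : K⟮e x⟯) : E') = e (r : E) := rfl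

theorem finrank_adjoin_simple_map (e : E ≃ₐ[K] E') (x : E) :
    finrank K⟮x⟯ E = finrank K⟮e x⟯ E' :=
  Algebra.finrank_eq_of_equiv_equiv (adjoinSimpleEquiv e x) e.toRingEquiv
    (RingHom.ext fun _ => rfl)

theorem finiteDimensional_adjoin_simple_map (e : E ≃ₐ[K] E') (x : E)
    [FiniteDimensional K⟮x⟯ E] : FiniteDimensional K⟮e x⟯ E' := by
  have hpos : 0 < finrank K⟮x⟯ E := finrank_pos
  rw [finrank_adjoin_simple_map e x] at hpos
  exact Module.finite_of_finrank_pos hpos

/-- the number of poles is invariant under algebra isomorphisms. -/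
theorem card_poles_map (e : E ≃ₐ[K] E') (x : E) :
    Nat.card {P : Place K E // P.ord x < 0} = Nat.card {P : Place K E' // P.ord (e x) < 0} := by
  refine Nat.card_congr ((Fermat.Agent.S27x.G3.placeEquiv e).subtypeEquiv fun P => ?_)
  rw [Fermat.Agent.S27x.G3.ord_placeEquiv]

/-- integrality over `K[a]` is transported by algebra homomorphisms. -/
theorem isIntegral_adjoin_singleton_map (φ : E →ₐ[K] E') {a b : E}
    (h : IsIntegral (Algebra.adjoin K {a}) b) :
    IsIntegral (Algebra.adjoin K {φ a}) (φ b) := by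
  have hle : (Algebra.adjoin K {a}).map φ ≤ Algebra.adjoin K {φ a} := by
    rw [AlgHom.map_adjoin, Set.image_singleton]
  let ψ : Algebra.adjoin K {a} →+* Algebra.adjoin K {φ a} :=
    { toFun := fun z => ⟨φ z, hle ⟨z, z.2, rfl⟩⟩
      map_one' := Subtype.ext (map_one φ)
      map_mul' := fun z w => Subtype.ext (map_mul φ (z : E) (w : E))
      map_zero' := Subtype.ext (map_zero φ)
      map_add' := fun z w => Subtype.ext (map_add φ (z : E) (w : E)) }
  exact IsIntegral.map_of_comp_eq ψ (φ : E →+* E') (RingHom.ext fun z => rfl) h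

end Abstract

/-! ### the datum in the variable `z = q^(1/M)` -/

variable {L : Type*} [Field L] {A : ValuationSubring L} {k : Type*} [Field k] (π : A →+* k)
  {ι : Type*}

namespace IntGen

variable (D : IntGen A ι) (M : ℕ) [NeZero M]

/-- the same datum in the variable `z = q^(1/M)`: all series are composed with `z ↦ z^M`. -/
def scale : IntGen A ι where
  ξ := qExpand A M D.ξ
  hord := by
    rw [Fermat.Agent.S28.qExpand_order]
    have hM : (0 : ℤ) < M := by exact_mod_cast Nat.pos_of_ne_zero (NeZero.ne M)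
    exact mul_neg_of_pos_of_neg hM D.hord
  hlc := by
    rw [HahnSeries.leadingCoeff_eq, Fermat.Agent.S28.qExpand_order, qExpand_coeff_mul,
      ← HahnSeries.leadingCoeff_eq]
    exact D.hlc
  e := fun i => qExpand A M (D.e i)

@[simp] theorem scale_ξ : (D.scale M).ξ = qExpand A M D.ξ := rfl

@[simp] theorem scale_e (i : ι) : (D.scale M).e i = qExpand A M (D.e i) := rfl

theorem scale_ξ_order : (D.scale M).ξ.order = (M : ℤ) * D.ξ.order :=
  Fermat.Agent.S28.qExpand_order M D.ξ

theorem scale_x : (D.scale M).x = qExpand L M D.x :=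
  GaussRing.embA_qExpand A M D.ξ

theorem scale_eL (i : ι) : (D.scale M).eL i = qExpand L M (D.eL i) :=
  GaussRing.embA_qExpand A M (D.e i)

theorem scale_xbar : (D.scale M).xbar π = qExpand k M (D.xbar π) :=
  GaussRing.redA_qExpand A π M D.ξ

theorem scale_ebar (i : ι) : (D.scale M).ebar π i = qExpand k M (D.ebar π i) :=
  GaussRing.redA_qExpand A π M (D.e i)

theorem scale_F : (D.scale M).F = D.F.map (qExpandAlgHomC L M) := by
  have h1 : (D.scale M).eL = (qExpandAlgHomC L M) ∘ D.eL := funext fun i => scale_eL D M i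
  rw [F, F, IntermediateField.adjoin_map, Set.image_insert_eq, ← Set.range_comp, h1, scale_x]
  rfl

theorem scale_κ : (D.scale M).κ π = (D.κ π).map (qExpandAlgHomC k M) := by
  have h1 : (D.scale M).ebar π = (qExpandAlgHomC k M) ∘ D.ebar π :=
    funext fun i => scale_ebar π D M i
  rw [κ, κ, IntermediateField.adjoin_map, Set.image_insert_eq, ← Set.range_comp, h1, scale_xbar]
  rfl

/-- `f(q) ↦ f(z^M)` as an isomorphism `F ≃ F(z)`. -/
def scaleEquivF : D.F ≃ₐ[L] (D.scale M).F :=
  (IntermediateField.equivMap D.F (qExpandAlgHomC L M)).trans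
    (IntermediateField.equivOfEq (scale_F D M).symm)

/-- `f(q) ↦ f(z^M)` as an isomorphism `κ ≃ κ(z)`. -/
def scaleEquivκ : D.κ π ≃ₐ[k] (D.scale M).κ π :=
  (IntermediateField.equivMap (D.κ π) (qExpandAlgHomC k M)).trans
    (IntermediateField.equivOfEq (scale_κ π D M).symm)

theorem coe_scaleEquivF (f : D.F) :
    ((D.scaleEquivF M f : (D.scale M).F) : LaurentSeries L) = qExpand L M (f : LaurentSeries L) :=
  rfl

theorem coe_scaleEquivκ (f : D.κ π) :
    ((D.scaleEquivκ π M f : (D.scale M).κ π) : LaurentSeries k) =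
      qExpand k M (f : LaurentSeries k) := rfl

theorem scaleEquivF_xF : D.scaleEquivF M D.xF = (D.scale M).xF :=
  Subtype.ext (by rw [coe_scaleEquivF, coe_xF, coe_xF]; exact (scale_x D M).symm)

theorem scaleEquivF_eF (i : ι) : D.scaleEquivF M (D.eF i) = (D.scale M).eF i :=
  Subtype.ext (by rw [coe_scaleEquivF, coe_eF, coe_eF]; exact (scale_eL D M i).symm)

theorem scaleEquivκ_xκ : D.scaleEquivκ π M (D.xκ π) = (D.scale M).xκ π :=
  Subtype.ext (by rw [coe_scaleEquivκ, coe_xκ, coe_xκ]; exact (scale_xbar π D M).symm)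

theorem scaleEquivκ_eκ (i : ι) : D.scaleEquivκ π M (D.eκ π i) = (D.scale M).eκ π i :=
  Subtype.ext (by rw [coe_scaleEquivκ, coe_eκ, coe_eκ]; exact (scale_ebar π D M i).symm)

/-! ### degrees, `Full`, poles -/

theorem finrank_scale_F :
    finrank L⟮(D.scale M).xF⟯ (D.scale M).F = finrank L⟮D.xF⟯ D.F := by
  rw [finrank_adjoin_simple_map (D.scaleEquivF M) D.xF, scaleEquivF_xF]

theorem finrank_scale_κ :
    finrank k⟮(D.scale M).xκ π⟯ ((D.scale M).κ π) = finrank k⟮D.xκ π⟯ (D.κ π) := by
  rw [finrank_adjoin_simple_map (D.scaleEquivκ π M) (D.xκ π), scaleEquivκ_xκ]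

variable {π D}

/-- `Full` is invariant under the change of variable. -/
theorem Full.scale (h : D.Full π) : (D.scale M).Full π := by
  haveI := h.1
  refine ⟨?_, ?_⟩
  · have := finiteDimensional_adjoin_simple_map (D.scaleEquivF M) D.xF
    rwa [scaleEquivF_xF] at this
  · rw [finrank_scale_F, finrank_scale_κ]
    exact h.2

/-- the converse: `Full` in the variable `z` gives `Full` in the variable `q`. -/
theorem Full.of_scale (h : (D.scale M).Full π) : D.Full π := by
  haveI := h.1
  refine ⟨?_, ?_⟩
  · have := finiteDimensional_adjoin_simple_map (D.scaleEquivF M).symm (D.scale M).xF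
    rwa [← scaleEquivF_xF, AlgEquiv.symm_apply_apply] at this
  · have h2 := h.2
    rwa [finrank_scale_F, finrank_scale_κ] at h2

theorem full_scale_iff : (D.scale M).Full π ↔ D.Full π :=
  ⟨Full.of_scale M, Full.scale M⟩

variable (π D)

theorem card_poles_scale_F :
    Nat.card {P : Place L (D.scale M).F // P.ord (D.scale M).xF < 0} =
      Nat.card {P : Place L D.F // P.ord D.xF < 0} := by
  rw [card_poles_map (D.scaleEquivF M) D.xF, scaleEquivF_xF]

theorem card_poles_scale_κ :
    Nat.card {P : Place k ((D.scale M).κ π) // P.ord ((D.scale M).xκ π) < 0} =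
      Nat.card {P : Place k (D.κ π) // P.ord (D.xκ π) < 0} := by
  rw [card_poles_map (D.scaleEquivκ π M) (D.xκ π), scaleEquivκ_xκ]

/-- integrality of the generators over `L[x]` is invariant under the change of variable. -/
theorem isIntegral_scale_eF {i : ι} (he : IsIntegral (Algebra.adjoin L {D.xF}) (D.eF i)) :
    IsIntegral (Algebra.adjoin L {(D.scale M).xF}) ((D.scale M).eF i) := by
  have h1 := isIntegral_adjoin_singleton_map (D.scaleEquivF M).toAlgHom he
  have h2 : (D.scaleEquivF M).toAlgHom D.xF = (D.scale M).xF := scaleEquivF_xF D M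
  have h3 : (D.scaleEquivF M).toAlgHom (D.eF i) = (D.scale M).eF i := scaleEquivF_eF D M i
  rwa [h2, h3] at h1

variable {π D}

/-- **(R7) in the variable `q` from the cusp embeddings in the variable `z = q^(1/M)`.** -/
theorem Full.card_poles_le_of_scale [Fintype ι] [Infinite k] (h : D.Full π)
    (hπ : Function.Surjective π)
    [Algebra.IsSeparable L⟮(D.scale M).xF⟯ (D.scale M).F]
    (he : ∀ i, IsIntegral (Algebra.adjoin L {D.xF}) (D.eF i))
    (hcard : Nat.card (CuspEmb (D.scale M).F (D.scale M).xF) =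
      finrank L⟮(D.scale M).xF⟯ (D.scale M).F)
    (g : CuspEmb (D.scale M).F (D.scale M).xF → ι → LaurentSeries A)
    (hg : ∀ s i, s.1 ((D.scale M).eF i) = embA A (g s i))
    (hunit : ∀ s s' i, g s i ≠ g s' i → IsUnit (g s i - g s' i))
    {M' : ℕ} [NeZero M'] (hξM : (D.scale M).ξ.order = -(M' : ℤ))
    (ζ : Aˣ) (hζ : IsPrimitiveRoot ζ M')
    (hζk : IsPrimitiveRoot (Units.map (π : A →* k) ζ) M')
    (hζξ : Fermat.Agent.S28.twist ζ (D.scale M).ξ = (D.scale M).ξ) :
    Nat.card {P : Place k (D.κ π) // P.ord (D.xκ π) < 0} ≤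
      Nat.card {P : Place L D.F // P.ord D.xF < 0} := by
  rw [← card_poles_scale_F D M, ← card_poles_scale_κ π D M]
  exact (h.scale M).card_poles_le hπ (fun i => isIntegral_scale_eF D M (he i)) hcard g hg hunit
    hξM ζ hζ hζk hζξ

end IntGen

end Fermat.Agent.S48x.Red1
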