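/-
P-S48, layer (c), (R9): the `Γ₁(M)`-datum inside the full-level ratio datum (helper15).

`D  := ModelInt.ratioIntGen A M ζ`            (variable `z = q^(1/M)`, base coordinate `j(z^M)`),
`D' := (ModelInt.gamma1IntGen A M ζ).scale M`  (the `Γ₁(M)`-datum, rewritten in the variable `z`).

This file proves the model facts shared by `FullFixedInst.full_of_fixed`,
`CuspPolesFixed.card_poles_le_of_fixed` and the separability descent:

* `scale_ξ_eq`  : `D'.ξ = D.ξ` (`hξ`), `scale_x_eq`, `scale_xbar_eq`;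
* the generators of `D'` in `Model.ratio` form, over `L` and over `k`:
  `scale_eL_inl`, `scale_ebar_inl` (`j(z^(dM))`), `scale_eL_inr`, `scale_ebar_inr`
  (`ratio M ζ (0,b) (0,c) (0,b') (0,c')`);
* `scale_F_le_fullField`, `scale_κ_le_fullField`;
* `hF` : `∀ j, D'.eL j ∈ D.F` from `hFtop : D.F = fullField M ζ` (the analytic input
  `Ana/GaloisFull.adjoin_jFull_ratioSet_eq_top` + `ModelRatioGen.ratioIntGen_F`);
* `Full.redA_mem_κ_of_embA_mem` : under `D.Full π` the reduction of an `A`-integral series of `D.F`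
  lies in `D.κ π` (any universe for `k`);
* `hκ` : `∀ j, D'.ebar π j ∈ D.κ π` from `D.Full π` + `hFtop`.
-/
import Mathlib
import Fermat.Agent.S48x.Red1.ModelRatioGen
import Fermat.Agent.S48x.Red1.MonomialSpan
import Fermat.Agent.S48x.Red1.VarChange
import Fermat.Agent.S48x.Model.Identities

set_option autoImplicit false
set_option linter.unusedSectionVars false

noncomputable section

namespace Fermat.Agent.S48x.Red1

open ModularCurve Fermat.Agent.Gateway.Red Fermat.Agent.Gateway.GoodRed Fermat.Agent.S48x.Model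

section Generic

variable {L : Type*} [Field L] {A : ValuationSubring L} {k : Type*} [Field k] {π : A →+* k}
  {ι : Type*} {D : IntGen A ι}

/-- under `D.Full π` the reduction of an `A`-integral series of `D.F` lies in `D.κ π`. -/
theorem IntGen.Full.redA_mem_κ_of_embA_mem (h : D.Full π) (hπ : Function.Surjective π)
    (a : LaurentSeries A) (ha : embA A a ∈ D.F) : redA A π a ∈ D.κ π := by
  have := h.nonempty_fin
  have hmem : (⟨embA A a, ha⟩ : D.F) ∈ Ov A π D.F := embA_mem_gaussRing A π a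
  have h1 := h.spanData.redV_mem_κ hπ ⟨_, hmem⟩
  rwa [redV_of_eq_embA A π D.F _ rfl] at h1

end Generic

namespace Gamma1InRatio

open ModelInt

variable {L : Type*} [Field L] {A : ValuationSubring L} {k : Type*} [Field k] {π : A →+* k}
variable {M : ℕ} [NeZero M]

/-- **`hξ`**: the base coordinates agree, `j(q)(z^M) = j(z^M)`. -/
theorem scale_ξ_eq (ζ : A) :
    ((gamma1IntGen A M ζ).scale M).ξ = (ratioIntGen A M ζ).ξ := by
  show qExpand A M (jA A 1) = jA A M
  rw [jA, jA, qExpand_one_apply]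

theorem scale_x_eq (ζ : A) :
    ((gamma1IntGen A M ζ).scale M).x = (ratioIntGen A M ζ).x := by
  rw [IntGen.x, IntGen.x, scale_ξ_eq]

theorem scale_xbar_eq (ζ : A) :
    ((gamma1IntGen A M ζ).scale M).xbar π = (ratioIntGen A M ζ).xbar π := by
  rw [IntGen.xbar, IntGen.xbar, scale_ξ_eq]

/-- the generator `j(q^d)` becomes `j(z^(dM))`, over `L`. -/
theorem scale_eL_inl (ζ : A) (d : (M.divisors : Type)) :
    ((gamma1IntGen A M ζ).scale M).eL (Sum.inl d) =
      haveI := neZero_of_mem_divisors M d.2; qExpand L (d.1 * M) (jqModC L) := by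
  have := neZero_of_mem_divisors M d.2
  rw [IntGen.scale_eL, gamma1IntGen_eL_inl, qExpand_qExpand, qExpand_congr (mul_comm M d.1)]

/-- the generator `j(q^d)` becomes `j(z^(dM))`, over `k`. -/
theorem scale_ebar_inl (ζ : A) (d : (M.divisors : Type)) :
    ((gamma1IntGen A M ζ).scale M).ebar π (Sum.inl d) =
      haveI := neZero_of_mem_divisors M d.2; qExpand k (d.1 * M) (jqModC k) := by
  have := neZero_of_mem_divisors M d.2
  rw [IntGen.scale_ebar, gamma1IntGen_ebar_inl, qExpand_qExpand, qExpand_congr (mul_comm M d.1)]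

/-- `D'.eL (inl d) = (fullIntGen A M ζ).eL (inl d)`. -/
theorem scale_eL_inl_eq_fullIntGen (ζ : A) (d : (M.divisors : Type)) :
    ((gamma1IntGen A M ζ).scale M).eL (Sum.inl d) = (fullIntGen A M ζ).eL (Sum.inl d) := by
  rw [scale_eL_inl, fullIntGen_eL_inl]

/-- `D'.ebar π (inl d) = (fullIntGen A M ζ).ebar π (inl d)`. -/
theorem scale_ebar_inl_eq_fullIntGen (ζ : A) (d : (M.divisors : Type)) :
    ((gamma1IntGen A M ζ).scale M).ebar π (Sum.inl d) =
      (fullIntGen A M ζ).ebar π (Sum.inl d) := by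
  rw [scale_ebar_inl, fullIntGen_ebar_inl]

/-- the ratio generators of the `Γ₁`-datum become the ratios with first coordinates `0`, over `L`.
-/
theorem scale_eL_inr (hπ : Function.Surjective π) {ζ : A} (hζ : IsPrimitiveRoot ζ M)
    (hMk : ((M : ℕ) : k) ≠ 0) (q : Quad1 M) :
    ((gamma1IntGen A M ζ).scale M).eL (Sum.inr q) =
      ratio M ((ζ : A) : L) ((0 : ZMod M), q.1.1) ((0 : ZMod M), q.1.2.1)
        ((0 : ZMod M), q.1.2.2.1) ((0 : ZMod M), q.1.2.2.2) := by
  rw [IntGen.scale_eL, gamma1IntGen_eL_inr hπ hζ hMk, Identities.qExpand_ratio1]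

/-- the same over `k`. -/
theorem scale_ebar_inr (hπ : Function.Surjective π) {ζ : A} (hζ : IsPrimitiveRoot ζ M)
    (hMk : ((M : ℕ) : k) ≠ 0) (q : Quad1 M) :
    ((gamma1IntGen A M ζ).scale M).ebar π (Sum.inr q) =
      ratio M (π ζ) ((0 : ZMod M), q.1.1) ((0 : ZMod M), q.1.2.1)
        ((0 : ZMod M), q.1.2.2.1) ((0 : ZMod M), q.1.2.2.2) := by
  rw [IntGen.scale_ebar, gamma1IntGen_ebar_inr hπ hζ hMk, Identities.qExpand_ratio1]

/-- the ratio generators of `D'` with a good denominator are generators of the ratio datum. -/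
theorem scale_eL_inr_eq_ratioIntGen (hπ : Function.Surjective π) {ζ : A}
    (hζ : IsPrimitiveRoot ζ M) (hMk : ((M : ℕ) : k) ≠ 0) (q : Quad1 M)
    (hgood : Rigidity.Good (((0 : ZMod M), q.1.2.2.1) : Vec M) ((0 : ZMod M), q.1.2.2.2)) :
    ((gamma1IntGen A M ζ).scale M).eL (Sum.inr q) =
      (ratioIntGen A M ζ).eL ⟨(((0 : ZMod M), q.1.1), ((0 : ZMod M), q.1.2.1),
        ((0 : ZMod M), q.1.2.2.1), ((0 : ZMod M), q.1.2.2.2)),
        Identities.zero_pair_ne_zero q.2.1, Identities.zero_pair_ne_zero q.2.2.1, hgood⟩ := by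
  rw [scale_eL_inr hπ hζ hMk, ratioIntGen_eL hπ hζ hMk]

theorem scale_ebar_inr_eq_ratioIntGen (hπ : Function.Surjective π) {ζ : A}
    (hζ : IsPrimitiveRoot ζ M) (hMk : ((M : ℕ) : k) ≠ 0) (q : Quad1 M)
    (hgood : Rigidity.Good (((0 : ZMod M), q.1.2.2.1) : Vec M) ((0 : ZMod M), q.1.2.2.2)) :
    ((gamma1IntGen A M ζ).scale M).ebar π (Sum.inr q) =
      (ratioIntGen A M ζ).ebar π ⟨(((0 : ZMod M), q.1.1), ((0 : ZMod M), q.1.2.1),
        ((0 : ZMod M), q.1.2.2.1), ((0 : ZMod M), q.1.2.2.2)),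
        Identities.zero_pair_ne_zero q.2.1, Identities.zero_pair_ne_zero q.2.2.1, hgood⟩ := by
  rw [scale_ebar_inr hπ hζ hMk, ratioIntGen_ebar hπ hζ hMk]

/-- the field of `D'` is the image of the `Γ₁`-field under `q ↦ z^M`, inside the full field. -/
theorem scale_F_le_fullField (hπ : Function.Surjective π) {ζ : A} (hζ : IsPrimitiveRoot ζ M)
    (hMk : ((M : ℕ) : k) ≠ 0) :
    ((gamma1IntGen A M ζ).scale M).F ≤ fullField M ((ζ : A) : L) := by
  rw [IntGen.scale_F, gamma1IntGen_F hπ hζ hMk]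
  rintro _ ⟨f, hf, rfl⟩
  exact Identities.qExpand_mem_fullField _ hf

theorem scale_κ_le_fullField (hπ : Function.Surjective π) {ζ : A} (hζ : IsPrimitiveRoot ζ M)
    (hMk : ((M : ℕ) : k) ≠ 0) :
    ((gamma1IntGen A M ζ).scale M).κ π ≤ fullField M (π ζ) := by
  rw [IntGen.scale_κ, gamma1IntGen_κ hπ hζ hMk]
  rintro _ ⟨f, hf, rfl⟩
  exact Identities.qExpand_mem_fullField _ hf

/-- **`hF`**: the generators of `D'` lie in the field of the ratio datum, as soon as the latter is
the whole function field of `X(M)`. -/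
theorem hF (hπ : Function.Surjective π) {ζ : A} (hζ : IsPrimitiveRoot ζ M)
    (hMk : ((M : ℕ) : k) ≠ 0)
    (hFtop : (ratioIntGen A M ζ).F = fullField M ((ζ : A) : L)) (j : G1Idx M) :
    ((gamma1IntGen A M ζ).scale M).eL j ∈ (ratioIntGen A M ζ).F := by
  rw [hFtop]
  exact scale_F_le_fullField hπ hζ hMk (IntGen.eL_mem _ j)

/-- the field of `D'` is contained in the field of the ratio datum. -/
theorem scale_F_le (hπ : Function.Surjective π) {ζ : A} (hζ : IsPrimitiveRoot ζ M)
    (hMk : ((M : ℕ) : k) ≠ 0)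
    (hFtop : (ratioIntGen A M ζ).F = fullField M ((ζ : A) : L)) :
    ((gamma1IntGen A M ζ).scale M).F ≤ (ratioIntGen A M ζ).F := by
  rw [hFtop]
  exact scale_F_le_fullField hπ hζ hMk

/-- **`hκ`**: the reduced generators of `D'` lie in the residue field of the ratio datum, under
`Full` for the ratio datum. -/
theorem hκ (hπ : Function.Surjective π) {ζ : A} (hζ : IsPrimitiveRoot ζ M)
    (hMk : ((M : ℕ) : k) ≠ 0)
    (hFtop : (ratioIntGen A M ζ).F = fullField M ((ζ : A) : L))
    (hfull : (ratioIntGen A M ζ).Full π) (j : G1Idx M) :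
    ((gamma1IntGen A M ζ).scale M).ebar π j ∈ (ratioIntGen A M ζ).κ π :=
  hfull.redA_mem_κ_of_embA_mem hπ _ (hF hπ hζ hMk hFtop j)

/-- the residue field of `D'` is contained in the residue field of the ratio datum. -/
theorem scale_κ_le (hπ : Function.Surjective π) {ζ : A} (hζ : IsPrimitiveRoot ζ M)
    (hMk : ((M : ℕ) : k) ≠ 0)
    (hFtop : (ratioIntGen A M ζ).F = fullField M ((ζ : A) : L))
    (hfull : (ratioIntGen A M ζ).Full π) :
    ((gamma1IntGen A M ζ).scale M).κ π ≤ (ratioIntGen A M ζ).κ π := by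
  rw [IntGen.κ, IntermediateField.adjoin_le_iff]
  rintro _ (rfl | ⟨j, rfl⟩)
  · rw [scale_xbar_eq]
    exact IntGen.xbar_mem _ _
  · exact hκ hπ hζ hMk hFtop hfull j

end Gamma1InRatio

end Fermat.Agent.S48x.Red1
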