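import Mathlib
import Fermat.Agent.S48x.Red1.IgusaFull
import Fermat.Agent.S48x.Red1.MonomialBasis
import Fermat.Agent.S48x.Red1.VarChange

/-!
# P-S48, layer (c): separability of the residue extension `κ / k(x̄)` (`hsep`)

* `isSeparable_adjoin_simple_of_algHom` (Mathlib only): if `E / k(i x')` is separable then
  `E' / k(x')` is separable, for a `k`-algebra embedding `i : E' →ₐ[k] E`.
* `IgusaData.isGalois_κ`, `IgusaData.isSeparable_κ` : under the hypotheses of Igusa's theorem the
  residue extension `D.κ π / k(x̄)` is Galois (group `G`), in particular separable.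
* `isSeparable_κ_of_le` : separability descends to a sub-datum `D'` (`D'.ξ = D.ξ`,
  `D'.κ π ≤ D.κ π`), e.g. the `Γ₁`-field inside the full level field;
* `isSeparable_κ_of_scale` : and along the change of variable `q ↦ z^M` (`Red1/VarChange`).
-/

set_option autoImplicit false
set_option linter.unusedSectionVars false
set_option linter.style.haveILetI false

noncomputable section

namespace Fermat.Agent.S48x.Red1

open IntermediateField Polynomial

/-- separability over a simple subextension descends along a `k`-algebra embedding: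
if `E / k(i x')` is separable then `E' / k(x')` is separable, for `i : E' →ₐ[k] E`. -/
theorem isSeparable_adjoin_simple_of_algHom {k E' E : Type*} [Field k] [Field E'] [Field E]
    [Algebra k E'] [Algebra k E] (i : E' →ₐ[k] E) (x' : E')
    [Algebra.IsSeparable k⟮i x'⟯ E] : Algebra.IsSeparable k⟮x'⟯ E' := by
  have hmap : (k⟮x'⟯).map i = k⟮i x'⟯ := by
    rw [IntermediateField.adjoin_map, Set.image_singleton]
  have hmem : ∀ c : k⟮x'⟯, i (c : E') ∈ k⟮i x'⟯ := fun c => by
    rw [← hmap]
    exact ⟨c, c.2, rfl⟩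
  let j : k⟮x'⟯ →+* k⟮i x'⟯ :=
    ((i : E' →+* E).comp (algebraMap k⟮x'⟯ E')).codRestrict k⟮i x'⟯ hmem
  have hj : Function.Surjective j := by
    rintro ⟨c, hc⟩
    rw [← hmap] at hc
    obtain ⟨c', hc', rfl⟩ := hc
    exact ⟨⟨c', hc'⟩, rfl⟩
  have hsq : (algebraMap k⟮i x'⟯ E).comp j = (i : E' →+* E).comp (algebraMap k⟮x'⟯ E') := rfl
  refine ⟨fun y => ?_⟩
  have hsep : (minpoly k⟮i x'⟯ (i y)).Separable := Algebra.IsSeparable.isSeparable _ (i y)
  obtain ⟨p', hp'⟩ := Polynomial.map_surjective j hj (minpoly k⟮i x'⟯ (i y))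
  have hp'sep : p'.Separable := by
    rw [← Polynomial.separable_map j, hp']
    exact hsep
  have hroot : aeval y p' = 0 := by
    apply (i : E' →+* E).injective
    rw [Polynomial.map_aeval_eq_aeval_map hsq, hp', map_zero]
    exact minpoly.aeval _ _
  exact hp'sep.of_dvd (minpoly.dvd _ _ hroot)

/-- variant with the generator of the target given up to equality. -/
theorem isSeparable_adjoin_simple_of_algHom' {k E' E : Type*} [Field k] [Field E'] [Field E]
    [Algebra k E'] [Algebra k E] (i : E' →ₐ[k] E) (x' : E') (x : E) (hx : i x' = x)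
    [h : Algebra.IsSeparable k⟮x⟯ E] : Algebra.IsSeparable k⟮x'⟯ E' := by
  subst hx
  exact isSeparable_adjoin_simple_of_algHom i x'

open Fermat.Agent.Gateway.Red Fermat.Agent.Gateway.GoodRed
open scoped Fermat.Agent.S48x.Red1.Shortcuts

namespace IntGen

variable {L : Type*} [Field L] {A : ValuationSubring L} {k : Type*} [Field k] {π : A →+* k}
  {ι : Type*} {D : IntGen A ι}

section Igusa

variable {G : Type*} [Group G] (I : D.IgusaData π G) [Finite ι] [Finite G]
  (hπ : Function.Surjective π)

include I hπ in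
theorem IgusaData.finrank_κ_le_card : Module.finrank k⟮D.xκ π⟯ (D.κ π) ≤ Nat.card G := by
  haveI := I.finiteDimensional_F
  haveI := I.finiteDimensional_κ hπ
  exact (D.finrank_κ_le π).trans I.finrank_F_le

include I hπ in
/-- the residue extension is Galois (with group `G` via `I.φ hπ`). -/
theorem IgusaData.isGalois_κ : IsGalois k⟮D.xκ π⟯ (D.κ π) := by
  haveI := I.finiteDimensional_κ hπ
  exact FixedFull.isGalois_of_card_le (I.φ hπ) (I.φ_injective hπ) (I.finrank_κ_le_card hπ)

include I hπ in
/-- **`hsep` for the full level datum.** -/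
theorem IgusaData.isSeparable_κ : Algebra.IsSeparable k⟮D.xκ π⟯ (D.κ π) := by
  exact @IsGalois.to_isSeparable _ _ _ _ _ (I.isGalois_κ hπ)

end Igusa

/-- **`hsep` descends to a sub-datum** with the same base coordinate. -/
theorem isSeparable_κ_of_le {ι' : Type*} (D' : IntGen A ι') (hξ : D'.ξ = D.ξ)
    (hle : D'.κ π ≤ D.κ π) [Algebra.IsSeparable k⟮D.xκ π⟯ (D.κ π)] :
    Algebra.IsSeparable k⟮D'.xκ π⟯ (D'.κ π) := by
  refine isSeparable_adjoin_simple_of_algHom' (IntermediateField.inclusion hle) (D'.xκ π)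
    (D.xκ π) ?_
  apply Subtype.ext
  show redA A π D'.ξ = redA A π D.ξ
  rw [hξ]

/-- **`hsep` is invariant under the change of variable** `q ↦ z^M`. -/
theorem isSeparable_κ_of_scale (D : IntGen A ι) (M : ℕ) [NeZero M]
    [Algebra.IsSeparable k⟮(D.scale M).xκ π⟯ ((D.scale M).κ π)] :
    Algebra.IsSeparable k⟮D.xκ π⟯ (D.κ π) :=
  isSeparable_adjoin_simple_of_algHom' (D.scaleEquivκ π M).toAlgHom (D.xκ π)
    ((D.scale M).xκ π) (D.scaleEquivκ_xκ π M)

end IntGen

end Fermat.Agent.S48x.Red1
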