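import Mathlib
import Fermat.Agent.S48x.Red1.IgusaLevel
import Fermat.Agent.S48x.Red1.SepGen

/-!
# P-S48, layer (c): `hsep` from the full level data

`FullLevelData.isSeparable_κ` : the residue extension of the full level datum is separable;
`FullLevelData.isSeparable_κ_sub` : hence so is the residue extension of any sub-datum `D'`
(same base coordinate, `D'.κ π ≤ D.κ π`) and of any `D''` with `D''.scale M = D'`-type change of
variable (`isSeparable_κ_of_scale`).
-/

set_option autoImplicit false
set_option linter.unusedSectionVars false

noncomputable section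

namespace Fermat.Agent.S48x.Red1.IntGen

open IntermediateField
open scoped Fermat.Agent.S48x.Red1.Shortcuts

variable {L : Type*} [Field L] {A : ValuationSubring L} {k : Type*} [Field k] {π : A →+* k}
  {ι : Type*} {D : IntGen A ι} {G₀ : Type*} [Group G₀] (I : D.FullLevelData π G₀)
  [Finite ι] [Finite G₀] (hπ : Function.Surjective π)

include I hπ in
/-- **`hsep` for the full level datum**, from the (non-faithful) full level data. -/
theorem FullLevelData.isSeparable_κ : Algebra.IsSeparable k⟮D.xκ π⟯ (D.κ π) := by
  obtain ⟨G, hG, hfin, ⟨J⟩⟩ := I.exists_igusaData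
  have := hfin inferInstance
  exact J.isSeparable_κ hπ

include I hπ in
/-- **`hsep` for a sub-datum** of the full level datum. -/
theorem FullLevelData.isSeparable_κ_sub {ι' : Type*} (D' : IntGen A ι') (hξ : D'.ξ = D.ξ)
    (hle : D'.κ π ≤ D.κ π) : Algebra.IsSeparable k⟮D'.xκ π⟯ (D'.κ π) := by
  have := I.isSeparable_κ hπ
  exact isSeparable_κ_of_le D' hξ hle

end Fermat.Agent.S48x.Red1.IntGen
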