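/-
P-S48, layer (c), LAST wrapper (helper15): the three producers of layer (c) for the model of
`X₁(M)`, UNCONDITIONALLY, for every valuation subring `A` of an algebraically closed field `L`
algebraic over `ℚ` lying over a prime `p ∤ M` and EVERY primitive `M`-th root of unity `ζ ∈ A`
(`8 ≤ M`; `4 ∣ M ∨ 9 ∣ M` for the genus inequality):

* `gamma1_redFacts` : `(gamma1IntGen A M ζ).Full (residue A)` ∧ separability of `κ / k(j̄)` ∧
  (`4 ∣ M ∨ 9 ∣ M → g(F) ≤ g(κ)`);
* `gamma1RedInputs_all` : the hypothesis (H) of `Red1/Gamma1Adapter.lean` over `ℚ̄`;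
* `gaussNormalisable_gamma1Field`, `kummerRedInj_gamma1Field` : (Hnorm) and (C0) in the `Kummer1`
  shapes for `gamma1Field M`.

Inputs (all landed): `Ana/FullLevelFinal.fullLevelDataIota` + `Ana/FullLevelFacts` (helper75, the
analytic full level data for `ι : L →+* ℂ` with `ι ζ = exp(2πi/M)`),
`Red1/Gamma1FixStabPoles.gamma1_full_and_poles_of_fullLevelData` (helper83/helper92, `Full` and
the pole count of the fixed field datum), `Red1/SepLevel` (helper22, `hsep`),
`Red1/Gamma1GenusInst.hgenus_residue` (helper47/helper82, `hgenus`), `Red1/Gamma1Assemble`.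
The embedding `ι` is chosen AFTER `ζ` (`exists_algHom_map_primitiveRoot`, helper97).
-/
import Mathlib
import Fermat.Agent.S48x.Ana.FullLevelFacts
import Fermat.Agent.S48x.Red1.Gamma1FixStabPoles
import Fermat.Agent.S48x.Red1.SepLevel
import Fermat.Agent.S48x.Red1.Gamma1GenusInst
import Fermat.Agent.S48x.Red1.Gamma1Adapter
import Fermat.Agent.S48x.Red1.Gamma1InRatio

set_option autoImplicit false
set_option linter.unusedSectionVars false
set_option linter.style.haveILetI false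

noncomputable section

namespace Fermat.Agent.S48x.Red1.Gamma1Final

open IntermediateField AlgebraicCurve Module ModularCurve IsLocalRing
open Fermat.Agent.Gateway.Red Fermat.Agent.Gateway.GoodRed
open Fermat.Agent.S48x.Model Fermat.Agent.S48x.Model.Rigidity
open Fermat.Agent.S48x.Red1 Fermat.Agent.S48x.Red1.ModelInt
open Fermat.Agent.S48x.Ana
open scoped MatrixGroups
open scoped Fermat.Agent.S48x.Red1.Shortcuts

/-! ### Choosing the complex embedding after the root of unity (helper97) -/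

/-- for `L / ℚ` algebraic, a primitive `M`-th root of unity of `L` can be sent to any primitive
`M`-th root of unity of `ℂ` by an embedding `L → ℂ`. -/
theorem exists_algHom_map_primitiveRoot {L : Type*} [Field L] [Algebra ℚ L]
    [Algebra.IsAlgebraic ℚ L] {M : ℕ} [NeZero M] {ζ : L} (hζ : IsPrimitiveRoot ζ M) {z : ℂ}
    (hz : IsPrimitiveRoot z M) : ∃ ι : L →ₐ[ℚ] ℂ, ι ζ = z := by
  have : CharZero L := algebraRat.charZero L
  have hpos : 0 < M := NeZero.pos M
  have hmin : minpoly ℚ ζ = Polynomial.cyclotomic M ℚ := by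
    rw [← Polynomial.map_cyclotomic_int, Polynomial.cyclotomic_eq_minpoly hζ hpos]
    exact minpoly.isIntegrallyClosed_eq_field_fractions' ℚ (hζ.isIntegral hpos)
  refine IntermediateField.exists_algHom_of_splits_of_aeval (F := ℚ) (E := L) (K := ℂ)
    (fun s => ⟨Algebra.IsIntegral.isIntegral s, IsAlgClosed.splits _⟩) ?_
  rw [hmin, Polynomial.aeval_def, Polynomial.eval₂_eq_eval_map, Polynomial.map_cyclotomic]
  exact Polynomial.isRoot_cyclotomic_iff.mpr hz

/-! ### A matrix fact -/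

/-- the lower left entry of `g⁻¹` vanishes iff that of `g` does (`SL₂`). -/
theorem sl_apply_one_zero_of_inv {M : ℕ} (g : SL(2, ZMod M))
    (h : ((g⁻¹ : SL(2, ZMod M)) : Matrix (Fin 2) (Fin 2) (ZMod M)) 1 0 = 0) : g 1 0 = 0 := by
  rw [Matrix.SpecialLinearGroup.coe_inv, Matrix.adjugate_fin_two] at h
  simpa using h

/-! ### The core: one root of unity with a compatible complex embedding, any residue map -/

section Core

variable {L : Type} [Field L] [Algebra ℚ L] [IsAlgClosed L] (A : ValuationSubring L)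
  {k : Type} [Field k] [IsAlgClosed k] (π : A →+* k) (M : ℕ) [NeZero M]
  (ℓ : ℕ) [Fact ℓ.Prime] [CharP k ℓ] (hπ : Function.Surjective π) (hℓM : ¬ ℓ ∣ M)
  (hM : 8 ≤ M) (ζ : Aˣ) (ι : L →+* ℂ) (hιζ : ι ((((ζ : Aˣ) : A) : L)) = PPack.zetaM M)

include hπ hℓM hM hιζ in
/-- **`Full` and the pole count** for the `Γ₁(M)`-datum. -/
theorem full_and_poles_of_iota :
    (gamma1IntGen A M (ζ : A)).Full π ∧
      Nat.card {P : Place k ((gamma1IntGen A M (ζ : A)).κ π) //
          P.ord ((gamma1IntGen A M (ζ : A)).xκ π) < 0} ≤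
        Nat.card {P : Place L (gamma1IntGen A M (ζ : A)).F //
          P.ord (gamma1IntGen A M (ζ : A)).xF < 0} := by
  have hM5 : 5 ≤ M := le_trans (by norm_num) hM
  obtain ⟨hperm, hjF, hjB, -⟩ :=
    FullLevelInst.fullLevelDataIota_facts A π M ℓ hπ hℓM hM5 ζ ι hιζ
  have hζ : IsPrimitiveRoot ((ζ : Aˣ) : A) M :=
    FullLevelInst.isPrimitiveRoot_of_iota A M ζ ι hιζ
  have hMk : ((M : ℕ) : k) ≠ 0 := FullLevelInst.natCast_ne_zero_of_not_dvd M ℓ hℓM
  have hζL : IsPrimitiveRoot (Units.map (A.subtype : A →* L) ζ) M := by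
    rw [← IsPrimitiveRoot.coe_units_iff]
    exact isPrimitiveRoot_coe A hζ
  have hζk : IsPrimitiveRoot (Units.map (π : A →* k) ζ) M := by
    rw [← IsPrimitiveRoot.coe_units_iff]
    exact isPrimitiveRoot_pi A π hπ hζ hMk
  exact Gamma1FixStabPoles.gamma1_full_and_poles_of_fullLevelData hπ hζ hMk hM
    (FullLevelInst.fullLevelDataIota A π M ℓ hπ hℓM hM5 ζ ι hιζ)
    (fun g => ((g⁻¹ : SL(2, ZMod M)) : Matrix (Fin 2) (Fin 2) (ZMod M)))
    (fun g => ⟨_, sl_mul_inv g⁻¹⟩)
    (fun g q => by rw [hperm g q, perm_val])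
    hjF
    (by
      intro g hlow d _ hd f hf
      exact hjB g (sl_apply_one_zero_of_inv g hlow.1) d hd f hf)
    hζL hζk

include hπ hℓM hM hιζ in
/-- **`hsep`** for the `Γ₁(M)`-datum. -/
theorem isSeparable_of_iota :
    Algebra.IsSeparable k⟮(gamma1IntGen A M (ζ : A)).xκ π⟯ ((gamma1IntGen A M (ζ : A)).κ π) := by
  have hM5 : 5 ≤ M := le_trans (by norm_num) hM
  have hζ : IsPrimitiveRoot ((ζ : Aˣ) : A) M :=
    FullLevelInst.isPrimitiveRoot_of_iota A M ζ ι hιζ
  have hMk : ((M : ℕ) : k) ≠ 0 := FullLevelInst.natCast_ne_zero_of_not_dvd M ℓ hℓM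
  have hfullR : (ratioIntGen A M (ζ : A)).Full π :=
    FullLevelInst.full_ratioIntGen_of_iota A π M ℓ hπ hℓM hM5 ζ ι hιζ
  have hFtop : (ratioIntGen A M (ζ : A)).F = fullField M ((((ζ : Aˣ) : A) : L)) :=
    (FullLevelInst.fullField_eq_ratioIntGen_F A π M ℓ hπ hℓM hM5 ζ ι hιζ).symm
  have hle : ((gamma1IntGen A M (ζ : A)).scale M).κ π ≤ (ratioIntGen A M (ζ : A)).κ π :=
    Gamma1InRatio.scale_κ_le hπ hζ hMk hFtop hfullR
  haveI : Algebra.IsSeparable k⟮((gamma1IntGen A M (ζ : A)).scale M).xκ π⟯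
      (((gamma1IntGen A M (ζ : A)).scale M).κ π) :=
    IntGen.FullLevelData.isSeparable_κ_sub
      (FullLevelInst.fullLevelDataIota A π M ℓ hπ hℓM hM5 ζ ι hιζ) hπ
      ((gamma1IntGen A M (ζ : A)).scale M) (Gamma1InRatio.scale_ξ_eq (ζ : A)) hle
  exact IntGen.isSeparable_κ_of_scale (gamma1IntGen A M (ζ : A)) M

end Core

/-! ### The consumer setting: `L / ℚ` algebraic, `π` the residue map of `A` -/

section Residue

variable {L : Type} [Field L] [Algebra ℚ L] [Algebra.IsAlgebraic ℚ L] [IsAlgClosed L]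
  (A : ValuationSubring L) {M : ℕ} [NeZero M]

/-- **the three producers of layer (c)** for the model of `X₁(M)`, for every primitive `M`-th
root of unity of `A`. -/
theorem gamma1_redFacts {p : ℕ} (hp : p.Prime) (hA : A.LiesOverPrime p) (hpM : ¬ p ∣ M)
    (hM : 8 ≤ M) {ζ : A} (hζ : IsPrimitiveRoot ζ M) :
    (gamma1IntGen A M ζ).Full (residue A) ∧
    Algebra.IsSeparable (ResidueField A)⟮(gamma1IntGen A M ζ).xκ (residue A)⟯
      ((gamma1IntGen A M ζ).κ (residue A)) ∧
    ((4 ∣ M ∨ 9 ∣ M) → genusFF L (gamma1IntGen A M ζ).F ≤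
      genusFF (ResidueField A) ((gamma1IntGen A M ζ).κ (residue A))) := by
  haveI : Fact p.Prime := ⟨hp⟩
  haveI : IsAlgClosed (ResidueField A) := Fermat.Agent.Gateway.ES.isAlgClosed_residueField A
  haveI : CharP (ResidueField A) p :=
    Fermat.Agent.Gateway.ES.charP_residueField_of_liesOverPrime A hA
  obtain ⟨ζu, rfl⟩ := hζ.isUnit (NeZero.ne M)
  obtain ⟨ι, hι⟩ := exists_algHom_map_primitiveRoot (isPrimitiveRoot_coe A hζ)
    (GaloisFull.isPrimitiveRoot_zetaM M)
  have hιζ : (ι : L →+* ℂ) ((((ζu : Aˣ) : A) : L)) = PPack.zetaM M := hι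
  obtain ⟨hfull, hpoles⟩ :=
    full_and_poles_of_iota A (residue A) M p residue_surjective hpM hM ζu (ι : L →+* ℂ) hιζ
  have hsep := isSeparable_of_iota A (residue A) M p residue_surjective hpM hM ζu
    (ι : L →+* ℂ) hιζ
  exact ⟨hfull, hsep, fun h49 =>
    Gamma1GenusInst.hgenus_residue A hp hA hpM hM h49 hζ hfull hsep hpoles⟩

/-- **(Hnorm)** for the function field of `X₁(M)`, unconditionally. -/
theorem gaussNormalisable_gamma1Field (hM : 8 ≤ M) {p : ℕ} (hp : p.Prime) (hpM : ¬ p ∣ M)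
    (hA : A.LiesOverPrime p) :
    Fermat.Agent.S48x.Kummer1.GaussNormalisable (gamma1Field M) A := by
  haveI : CharZero L := algebraRat.charZero L
  obtain ⟨ζ, hζ⟩ := ModelTransport.exists_primitiveRoot_mem A M
  exact Gamma1Assemble.gaussNormalisable_of_full A hp hA hpM hζ
    (gamma1_redFacts A hp hA hpM hM hζ).1

/-- **(C0)** for the function field of `X₁(M)`, unconditionally. -/
theorem kummerRedInj_gamma1Field (hM : 8 ≤ M) (h49 : 4 ∣ M ∨ 9 ∣ M) {p : ℕ} (hp : p.Prime)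
    (hpM : ¬ p ∣ M) (hA : A.LiesOverPrime p) {m : ℕ} (hm : ¬ p ∣ m) :
    Fermat.Agent.S48x.Kummer1.KummerRedInj (gamma1Field M) A m := by
  haveI : CharZero L := algebraRat.charZero L
  obtain ⟨ζ, hζ⟩ := ModelTransport.exists_primitiveRoot_mem A M
  obtain ⟨hfull, hsep, hgenus⟩ := gamma1_redFacts A hp hA hpM hM hζ
  exact Gamma1Assemble.kummerRedInj_of_full A hp hA hpM hζ hfull hsep (hgenus h49) hm

end Residue

/-! ### Over `ℚ̄`: the hypothesis (H) of `Red1/Gamma1Adapter.lean` -/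

section Qbar

local notation "Qb" => AlgebraicClosure ℚ

variable {M : ℕ} [NeZero M]

/-- the three producers over `ℚ̄`, for every primitive root of unity. -/
theorem gamma1RedInputs (hM : 8 ≤ M) (h49 : 4 ∣ M ∨ 9 ∣ M) {q : ℕ} (hq : q.Prime)
    (hqM : ¬ q ∣ M) (A : ValuationSubring Qb) (hA : A.LiesOverPrime q) {ζ : A}
    (hζ : IsPrimitiveRoot ζ M) : Gamma1Adapter.Gamma1RedInputs M A ζ := by
  haveI : Algebra.IsAlgebraic ℚ Qb := AlgebraicClosure.isAlgebraic ℚ
  obtain ⟨hfull, hsep, hgenus⟩ := gamma1_redFacts A hq hA hqM hM hζ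
  exact ⟨hfull, hsep, hgenus h49⟩

/-- **(H)** of `Red1/Gamma1Adapter.lean`. -/
theorem gamma1RedInputs_all (hM : 8 ≤ M) (h49 : 4 ∣ M ∨ 9 ∣ M) :
    ∀ q : ℕ, q.Prime → ¬ q ∣ M → ∀ A : ValuationSubring Qb, A.LiesOverPrime q →
      ∃ ζ : A, IsPrimitiveRoot ζ M ∧ Gamma1Adapter.Gamma1RedInputs M A ζ := by
  intro q hq hqM A hA
  haveI : Algebra.IsAlgebraic ℚ Qb := AlgebraicClosure.isAlgebraic ℚ
  haveI : CharZero Qb := algebraRat.charZero Qb
  obtain ⟨ζ, hζ⟩ := ModelTransport.exists_primitiveRoot_mem A M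
  exact ⟨ζ, hζ, gamma1RedInputs hM h49 hq hqM A hA hζ⟩

end Qbar

end Fermat.Agent.S48x.Red1.Gamma1Final
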