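import Fermat.Agent.S48x.Red1.C0Gen
import Fermat.Agent.S48x.Red1.MonomialSpan

/-!
# P-S48, layer (c): (C0) and (Hnorm) from the Igusa-type hypothesis `D.Full π`

One-hypothesis packaging of (R2) `Red1/MonomialBasis`, (R3) `Red1/GaussGen`, (R5) `Red1/C0Gen`:
for `h : D.Full π` and `hπ : Function.Surjective π`

* `h.OvVal hπ : ValuationSubring D.F`, `h.res hπ : h.OvVal hπ →+* D.κ π` (the Gauss valuation ring
  and its residue map; `mem_OvVal_iff`, `coe_res` hold by `Iff.rfl` / `rfl`, these are the two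
  facts consumed by the abstract interface of (R4) `Red1/GaussDataGen`);
* `h.kummerRedInj` : (C0) over a rational prime, in the shape of `Kummer.KummerRedInj`;
* `h.gaussNormalisable` : (Hnorm) in the shape of `Kummer.GaussNormalisable`.
-/

set_option autoImplicit false
set_option linter.unusedSectionVars false
set_option linter.style.haveILetI false

noncomputable section

namespace Fermat.Agent.S48x.Red1

open Polynomial IntermediateField ModularCurve AlgebraicCurve Module
  Fermat.Agent.Gateway.Red Fermat.Agent.Gateway.GoodRed Fermat.Agent.Gateway.C0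
  Fermat.Agent.Gateway.Kummer

variable {L : Type*} [Field L] {A : ValuationSubring L} {k : Type*} [Field k] {π : A →+* k}
  {ι : Type*} {D : IntGen A ι}

namespace IntGen

/-- the Gauss valuation ring of `D.F`. -/
def Full.OvVal (h : D.Full π) (hπ : Function.Surjective π) : ValuationSubring D.F :=
  haveI := h.nonempty_fin
  h.spanData.OvValF hπ

/-- the residue map of the Gauss valuation ring, onto `D.κ π`. -/
def Full.res (h : D.Full π) (hπ : Function.Surjective π) : h.OvVal hπ →+* D.κ π :=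
  haveI := h.nonempty_fin
  h.spanData.resF hπ

theorem Full.mem_OvVal_iff (h : D.Full π) (hπ : Function.Surjective π) {f : D.F} :
    f ∈ h.OvVal hπ ↔ (f : LaurentSeries L) ∈ gaussRing A π := Iff.rfl

theorem Full.mem_OvVal_iff_mem_Ov (h : D.Full π) (hπ : Function.Surjective π) {f : D.F} :
    f ∈ h.OvVal hπ ↔ f ∈ Ov A π D.F := Iff.rfl

theorem Full.coe_res (h : D.Full π) (hπ : Function.Surjective π) (f : h.OvVal hπ) :
    ((h.res hπ f : D.κ π) : LaurentSeries k)
      = gaussRed A π ⟨((f : D.F) : LaurentSeries L), f.2⟩ := rfl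

theorem Full.coe_res_eq_redV (h : D.Full π) (hπ : Function.Surjective π) (f : h.OvVal hπ) :
    ((h.res hπ f : D.κ π) : LaurentSeries k) = redV A π D.F ⟨(f : D.F), f.2⟩ := rfl

theorem Full.res_surjective (h : D.Full π) (hπ : Function.Surjective π) :
    Function.Surjective (h.res hπ) :=
  haveI := h.nonempty_fin
  h.spanData.resF_surjective hπ

theorem Full.res_eq_zero_iff (h : D.Full π) (hπ : Function.Surjective π) (f : h.OvVal hπ) :
    h.res hπ f = 0 ↔ ¬ IsUnit f :=
  haveI := h.nonempty_fin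
  h.spanData.resF_eq_zero_iff hπ f

theorem Full.algebraMap_mem_OvVal_iff (h : D.Full π) (hπ : Function.Surjective π) (c : L) :
    algebraMap L D.F c ∈ h.OvVal hπ ↔ c ∈ A :=
  haveI := h.nonempty_fin
  h.spanData.algebraMap_mem_OvValF_iff hπ c

theorem Full.res_algebraMap (h : D.Full π) (hπ : Function.Surjective π) (a : A) :
    h.res hπ ⟨algebraMap L D.F (a : L), (h.algebraMap_mem_OvVal_iff hπ a).mpr a.2⟩ =
      algebraMap k (D.κ π) (π a) :=
  haveI := h.nonempty_fin
  h.spanData.resF_algebraMap hπ a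

theorem Full.xF_mem_OvVal (h : D.Full π) (hπ : Function.Surjective π) : D.xF ∈ h.OvVal hπ :=
  haveI := h.nonempty_fin
  h.spanData.xF_mem_OvValF hπ

theorem Full.eF_mem_OvVal (h : D.Full π) (hπ : Function.Surjective π) (i : ι) :
    D.eF i ∈ h.OvVal hπ :=
  haveI := h.nonempty_fin
  h.spanData.eF_mem_OvValF hπ i

theorem Full.res_xF (h : D.Full π) (hπ : Function.Surjective π) :
    h.res hπ ⟨D.xF, h.xF_mem_OvVal hπ⟩ = D.xκ π :=
  haveI := h.nonempty_fin
  h.spanData.resF_xF hπ

theorem Full.res_eF (h : D.Full π) (hπ : Function.Surjective π) (i : ι) :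
    h.res hπ ⟨D.eF i, h.eF_mem_OvVal hπ i⟩ = D.eκ π i :=
  haveI := h.nonempty_fin
  h.spanData.resF_eF hπ i

/-- **(C0)** from `D.Full π` over a rational prime `ℓ ∤ m`, in the shape of
`Kummer.KummerRedInj`, for any intermediate field `F'` equal to `D.F`.  Remaining inputs:
separability of `κ / k(x̄)` ((R6)), (G3) `hint1`, `hint2` and (G4) `hcart` ((R4)), (G2) `hgenus`
((R8)). -/
theorem Full.kummerRedInj [Algebra ℚ L] [Algebra.IsAlgebraic ℚ L] [IsAlgClosed L]
    [IsAlgClosed k] (h : D.Full π) (hπ : Function.Surjective π)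
    {ℓ : ℕ} (hℓ : ℓ.Prime) (hA : A.LiesOverPrime ℓ)
    (F' : IntermediateField L (LaurentSeries L)) (hF' : F' = D.F)
    (hsep : Algebra.IsSeparable k⟮D.xκ π⟯ (D.κ π))
    (hint1 : ∀ (f : D.F) (hf : f ∈ h.OvVal hπ), IsIntegral (Algebra.adjoin L {D.xF}) f →
      IsIntegral (Algebra.adjoin k {D.xκ π}) (h.res hπ ⟨f, hf⟩))
    (hint2 : ∀ (f : D.F) (hf : f ∈ h.OvVal hπ), IsIntegral (Algebra.adjoin L {(D.xF)⁻¹}) f →
      IsIntegral (Algebra.adjoin k {(D.xκ π)⁻¹}) (h.res hπ ⟨f, hf⟩))
    (hgenus : genusFF L D.F ≤ genusFF k (D.κ π))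
    (hcart : ∀ V : Submodule L D.F, FiniteDimensional L V → ∀ Λ : Submodule A D.F,
      (∀ f, f ∈ Λ ↔ f ∈ V ∧ f ∈ h.OvVal hπ) → Λ.FG)
    {m : ℕ} (hm : ¬ ℓ ∣ m) :
    ∀ z : F', z ≠ 0 → (∀ P : Place L F', (m : ℤ) ∣ P.ord z) →
      RedRel A π F' (z : LaurentSeries L) 1 →
      ∃ (c : L) (w : F'), z = algebraMap L F' c * w ^ m :=
  haveI := h.nonempty_fin
  haveI := h.finiteDimensional_F
  haveI := h.finiteDimensional_κ
  haveI := hsep
  h.spanData.kummerRedInj_of_liesOverPrime hℓ hA F' hF' hπ D.transcendental_xF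
    (D.transcendental_xκ π) hint1 hint2 (le_of_eq h.finrank_κ) hgenus hcart hm

/-- **(Hnorm)** from `D.Full π`, in the shape of `Kummer.GaussNormalisable`, for any
intermediate field `F'` equal to `D.F`. -/
theorem Full.gaussNormalisable (h : D.Full π)
    (F' : IntermediateField L (LaurentSeries L)) (hF' : F' = D.F) :
    ∀ u : F', u ≠ 0 → ∃ c : L, c ≠ 0 ∧ ∃ ū : LaurentSeries k, ū ≠ 0 ∧
      RedRel A π F' (((algebraMap L F' c * u : F')) : LaurentSeries L) ū :=
  haveI := h.nonempty_fin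
  h.spanData.gaussNormalisable_of_eq F' hF'

end IntGen

end Fermat.Agent.S48x.Red1
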