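import Mathlib
import Fermat.Agent.Gateway.GoodRed.GaussExt
import Fermat.Agent.Gateway.GoodRed.GaussRing
import Fermat.Agent.Gateway.Red.Defs
import Fermat.Agent.Gateway.GoodRed.Instantiate.TLineFacts

/-!
# P-S48, layer (c), (R4): the Gauss residue data of an integrally generated field, generic form

`S : GaussDatum A π` = a subfield `S.F ⊆ L((q))` with a valuation subring `S.O = S.F ∩ gaussRing`,
a residue map `S.res : S.O →+* S.κ` onto a subfield `S.κ ⊆ k((q))` induced by `gaussRed`, and a base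
coordinate `x = embA ξ ∈ S.F` (`ξ : A((q))` with a pole whose leading coefficient is a unit).
This is the abstract output of (R3) `Red1/GaussGen.lean`; everything here is a generic clone of
`Gateway/GoodRed/Instantiate/{GaussDataT, IntegralRedT, TLineFacts}.lean`.

* `S.xF : S.F`, `S.xκ : S.κ`, `S.xF_mem`, `S.res_xF`, transcendence;
* `S.algebraRF`, `S.algebraRFk` : the `L(X)`- resp. `k(X)`-algebra structures `X ↦ x`, `X ↦ x̄`;
* `S.gaussData hπ` : `GaussExt.ResidueData S.O (RatFunc k) S.κ`, `S.gaussData_full hπ hle`;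
* element forms (no instances in the statements): `S.finiteDimensional_xκ`, `S.finrank_xκ_le`
  (fundamental inequality) and, under `hle : [F : L(x)] ≤ [κ : k(x̄)]`, `S.finrank_xκ_eq`,
  `S.isIntegral_res_of_isIntegral`, `S.isIntegral_res_of_isIntegral_inv` ((G3));
* traces: `S.trace_mem_Ox`, `S.redx_trace`.
-/

set_option autoImplicit false
set_option linter.unusedSectionVars false
set_option linter.style.haveILetI false

noncomputable section

namespace Fermat.Agent.S48x.Red1

open Polynomial IntermediateField Module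
open Fermat.Agent.Gateway.Red Fermat.Agent.Gateway.GoodRed
open Fermat.Agent.Gateway.GoodRed.IntegralRed Fermat.Agent.Gateway.GoodRed.TLineFacts

/-- The abstract output of (R3): a subfield of `L((q))` with its Gauss valuation ring and residue
map, and a base coordinate. -/
structure GaussDatum {L : Type*} [Field L] (A : ValuationSubring L) {k : Type*} [Field k]
    (π : A →+* k) where
  /-- the base coordinate. -/
  ξ : LaurentSeries A
  hord : ξ.order < 0
  hlc : IsUnit ξ.leadingCoeff
  /-- the function field. -/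
  F : IntermediateField L (LaurentSeries L)
  /-- the residue field. -/
  κ : IntermediateField k (LaurentSeries k)
  /-- the Gauss valuation ring. -/
  O : ValuationSubring F
  mem_O_iff : ∀ f : F, f ∈ O ↔ f ∈ Ov A π F
  /-- the residue map. -/
  res : O →+* κ
  coe_res : ∀ f : O, ((res f : κ) : LaurentSeries k) = redV A π F ⟨(f : F), (mem_O_iff _).mp f.2⟩
  res_surjective : Function.Surjective res
  x_mem : embA A ξ ∈ F

namespace GaussDatum

variable {L : Type*} [Field L] {A : ValuationSubring L} {k : Type*} [Field k] {π : A →+* k}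
  (S : GaussDatum A π)

/-! ### The base coordinate -/

/-- `x = embA ξ` as an element of `F`. -/
def xF : S.F := ⟨embA A S.ξ, S.x_mem⟩

@[simp] theorem coe_xF : ((S.xF : S.F) : LaurentSeries L) = embA A S.ξ := rfl

theorem xF_mem : S.xF ∈ S.O := by
  rw [S.mem_O_iff, mem_Ov_iff]
  exact embA_mem_gaussRing A π _

/-- the identity map `O → Ov`. -/
def toOv : S.O →+* Ov A π S.F where
  toFun f := ⟨(f : S.F), (S.mem_O_iff _).mp f.2⟩
  map_one' := rfl
  map_mul' _ _ := rfl
  map_zero' := rfl
  map_add' _ _ := rfl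

theorem coe_res' (f : S.O) :
    ((S.res f : S.κ) : LaurentSeries k) = redV A π S.F (S.toOv f) := S.coe_res f

/-- `x̄ = res x`. -/
def xκ : S.κ := S.res ⟨S.xF, S.xF_mem⟩

@[simp] theorem coe_xκ : ((S.xκ : S.κ) : LaurentSeries k) = redA A π S.ξ := by
  rw [xκ, S.coe_res, redV_of_eq_embA A π S.F _ (a := S.ξ) rfl]

theorem xbar_mem : redA A π S.ξ ∈ S.κ := by
  rw [← S.coe_xκ]
  exact Subtype.property _

theorem res_xF (h : S.xF ∈ S.O) : S.res ⟨S.xF, h⟩ = S.xκ := rfl

theorem transcendental_xF : Transcendental L S.xF := by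
  apply (transcendental_algebraMap_iff (algebraMap S.F (LaurentSeries L)).injective).mp
  exact GaussRing.transcendental_embA S.hord

theorem transcendental_xκ : Transcendental k S.xκ := by
  apply (transcendental_algebraMap_iff (algebraMap S.κ (LaurentSeries k)).injective).mp
  show Transcendental k ((S.xκ : S.κ) : LaurentSeries k)
  rw [S.coe_xκ]
  exact GaussRing.transcendental_redA S.hord S.hlc

/-- `res` kills exactly the non-units: inverse of an element with nonzero residue. -/
theorem inv_mem_of_res_ne_zero (f : S.O) (hf : S.res f ≠ 0) : ((f : S.F))⁻¹ ∈ S.O := by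
  rw [S.mem_O_iff]
  have hf' : redV A π S.F ⟨(f : S.F), (S.mem_O_iff _).mp f.2⟩ ≠ 0 := by
    intro h0
    apply hf
    apply Subtype.ext
    rw [S.coe_res, h0]
    rfl
  exact inv_mem_Ov A π S.F ((S.mem_O_iff _).mp f.2) hf'

/-! ### The canonical algebra structures -/

theorem adjoin_le_F : L⟮embA A S.ξ⟯ ≤ S.F := by
  rw [IntermediateField.adjoin_le_iff]
  rintro _ rfl
  exact S.x_mem

theorem adjoin_le_κ : k⟮redA A π S.ξ⟯ ≤ S.κ := by
  rw [IntermediateField.adjoin_le_iff]
  rintro _ rfl
  exact S.xbar_mem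

/-- evaluation of rational functions at `x`, as a ring hom into `F`. -/
def ringRF : RatFunc L →+* S.F :=
  (GaussRing.evalRF (embA A S.ξ) (GaussRing.transcendental_embA S.hord)).toRingHom.codRestrict
    S.F fun g => S.adjoin_le_F (GaussRing.evalRF_mem_adjoin _ _ g)

/-- the `L(X)`-algebra structure on `F`, `X ↦ x`. -/
@[reducible] def algebraRF : Algebra (RatFunc L) S.F := S.ringRF.toAlgebra

theorem algebraRF_compat (g : RatFunc L) :
    ((@algebraMap (RatFunc L) S.F _ _ S.algebraRF g : S.F) : LaurentSeries L) =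
      GaussRing.evalRF (embA A S.ξ) (GaussRing.transcendental_embA S.hord) g := rfl

/-- evaluation of rational functions at `x̄`, as a ring hom into `κ`. -/
def ringRFk : RatFunc k →+* S.κ :=
  (GaussRing.evalRF (redA A π S.ξ)
    (GaussRing.transcendental_redA S.hord S.hlc)).toRingHom.codRestrict
    S.κ fun g => S.adjoin_le_κ (GaussRing.evalRF_mem_adjoin _ _ g)

/-- the `k(X)`-algebra structure on `κ`, `X ↦ x̄`. -/
@[reducible] def algebraRFk : Algebra (RatFunc k) S.κ := S.ringRFk.toAlgebra

theorem algebraRFk_compat (g : RatFunc k) :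
    ((@algebraMap (RatFunc k) S.κ _ _ S.algebraRFk g : S.κ) : LaurentSeries k) =
      GaussRing.evalRF (redA A π S.ξ) (GaussRing.transcendental_redA S.hord S.hlc) g := rfl

/-! ### The residue data -/

attribute [local instance] GaussDatum.algebraRF GaussDatum.algebraRFk

variable (hπ : Function.Surjective π)

theorem isScalarTower_RF : IsScalarTower L (RatFunc L) S.F := by
  refine IsScalarTower.of_algebraMap_eq fun c => Subtype.ext ?_
  rw [algebraRF_compat, AlgHom.commutes]
  rfl

theorem isScalarTower_RFk : IsScalarTower k (RatFunc k) S.κ := by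
  refine IsScalarTower.of_algebraMap_eq fun c => Subtype.ext ?_
  rw [algebraRFk_compat, AlgHom.commutes]
  rfl

theorem mem_baseVal_iff (c : RatFunc L) :
    c ∈ GaussExt.baseVal (RatFunc L) S.O ↔ c ∈ GaussRing.Ox hπ S.hord S.hlc := by
  show algebraMap (RatFunc L) S.F c ∈ S.O ↔ _
  rw [S.mem_O_iff, mem_Ov_iff, algebraRF_compat, GaussRing.mem_Ox_iff_evalRF]

theorem baseVal_eq_Ox : GaussExt.baseVal (RatFunc L) S.O = GaussRing.Ox hπ S.hord S.hlc :=
  SetLike.ext fun c => S.mem_baseVal_iff hπ c

/-- the reduction on `O ∩ L(x)`, with values in `k((q))`. -/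
def redxHom : GaussExt.baseVal (RatFunc L) S.O →+* LaurentSeries k :=
  (redV A π S.F).comp (S.toOv.comp (GaussExt.baseIncl (RatFunc L) S.O))

theorem redxHom_eq_redOxHom (c : GaussExt.baseVal (RatFunc L) S.O) :
    S.redxHom c = GaussRing.redOxHom hπ S.hord S.hlc
      ⟨(c : RatFunc L), (S.mem_baseVal_iff hπ _).mp c.2⟩ := by
  rw [GaussRing.redOxHom_apply]
  rfl

include hπ in
theorem redxHom_mem (c : GaussExt.baseVal (RatFunc L) S.O) :
    S.redxHom c ∈ k⟮redA A π S.ξ⟯ := by
  rw [S.redxHom_eq_redOxHom hπ]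
  exact GaussRing.redOxHom_mem_adjoin hπ S.hord S.hlc _

/-- the reduction `O ∩ L(x) → k(X)`. -/
def redx : GaussExt.baseVal (RatFunc L) S.O →+* RatFunc k :=
  ((RatFunc.algEquivOfTranscendental (redA A π S.ξ)
      (GaussRing.transcendental_redA S.hord S.hlc)).symm : k⟮redA A π S.ξ⟯ →+* RatFunc k).comp
    (S.redxHom.codRestrict (k⟮redA A π S.ξ⟯) (S.redxHom_mem hπ))

theorem evalRF_redx (c : GaussExt.baseVal (RatFunc L) S.O) :
    GaussRing.evalRF (redA A π S.ξ) (GaussRing.transcendental_redA S.hord S.hlc)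
      (S.redx hπ c) = S.redxHom c := by
  show ((RatFunc.algEquivOfTranscendental (redA A π S.ξ)
      (GaussRing.transcendental_redA S.hord S.hlc))
    ((RatFunc.algEquivOfTranscendental (redA A π S.ξ)
      (GaussRing.transcendental_redA S.hord S.hlc)).symm _) : LaurentSeries k) = _
  rw [AlgEquiv.apply_symm_apply]
  rfl

/-- **the residue data of the Gauss valuation** of `F / L(x)`, with residue extension
`κ / k(X)`, `X ↦ x̄`. -/
def gaussData : GaussExt.ResidueData (Kx := RatFunc L) S.O (RatFunc k) S.κ where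
  redx := S.redx hπ
  red := S.res
  red_baseIncl := by
    intro c
    apply Subtype.ext
    rw [algebraRFk_compat, evalRF_redx, S.coe_res]
    rfl
  inv_mem_of_red_ne_zero := S.inv_mem_of_res_ne_zero

theorem gaussData_red_surjective : Function.Surjective (S.gaussData hπ).red := S.res_surjective

@[simp] theorem gaussData_red (f : S.O) : (S.gaussData hπ).red f = S.res f := rfl

@[simp] theorem gaussData_redx (c : GaussExt.baseVal (RatFunc L) S.O) :
    (S.gaussData hπ).redx c = S.redx hπ c := rfl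

/-! ### Polynomials over `A` -/

/-- the rational function attached to a polynomial over `A`. -/
def rfA (a : A[X]) : RatFunc L := algebraMap L[X] (RatFunc L) (a.map A.subtype)

/-- the rational function over `k` attached to the reduction of a polynomial over `A`. -/
def rfk (π : A →+* k) (a : A[X]) : RatFunc k := algebraMap k[X] (RatFunc k) (a.map π)

include hπ in
theorem rfA_mem_baseVal (a : A[X]) : rfA a ∈ GaussExt.baseVal (RatFunc L) S.O := by
  rw [S.mem_baseVal_iff hπ, rfA, GaussRing.algebraMap_mem_Ox_iff]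
  intro n
  rw [Polynomial.coeff_map]
  exact (a.coeff n).2

/-- `redx (a(X)) = ā(X)`. -/
theorem redx_rfA (a : A[X]) :
    S.redx hπ ⟨rfA a, S.rfA_mem_baseVal hπ a⟩ = rfk π a := by
  apply GaussRing.evalRF_injective (redA A π S.ξ) (GaussRing.transcendental_redA S.hord S.hlc)
  rw [evalRF_redx, S.redxHom_eq_redOxHom hπ, GaussRing.redOxHom_apply,
    rfk, GaussRing.evalRF_algebraMap]
  have h : GaussRing.evalRF (embA A S.ξ) (GaussRing.transcendental_embA S.hord) (rfA a) =
      embA A (aeval S.ξ a) := by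
    rw [rfA, GaussRing.evalRF_algebraMap, GaussRing.embA_aeval]
  rw [gaussRed_of_eq_embA A π _ h, GaussRing.redA_aeval]

theorem rfA_eq_zero_iff (a : A[X]) : (rfA a : RatFunc L) = 0 ↔ a = 0 := by
  rw [rfA, map_eq_zero_iff _ (IsFractionRing.injective L[X] (RatFunc L)),
    Polynomial.map_eq_zero_iff (Subtype.val_injective)]

/-! ### Full residue degree and traces -/

section Full

variable [FiniteDimensional (RatFunc L) S.F]

/-- full residue degree, from the inequality of degrees. -/
theorem gaussData_full (hle : finrank (RatFunc L) S.F ≤ finrank (RatFunc k) S.κ) :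
    (S.gaussData hπ).FullResidueDegree :=
  GaussExt.ResidueData.fullResidueDegree_of_le _ (S.gaussData_red_surjective hπ) hle

variable (H : (S.gaussData hπ).FullResidueDegree)

include H in
/-- the trace of an element of `O` lies in `O ∩ L(x)`. -/
theorem trace_mem_baseVal (f : S.O) :
    Algebra.trace (RatFunc L) S.F (f : S.F) ∈ GaussExt.baseVal (RatFunc L) S.O := by
  rw [← GaussExt.ResidueData.FullResidueDegree.coe_trace _ H f]
  exact Subtype.property _

include H in
/-- the trace of an element of `O` lies in the Gauss valuation ring of `L(X)`. -/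
theorem trace_mem_Ox (f : S.O) :
    Algebra.trace (RatFunc L) S.F (f : S.F) ∈ GaussRing.Ox hπ S.hord S.hlc :=
  (S.mem_baseVal_iff hπ _).mp (S.trace_mem_baseVal hπ H f)

/-- the trace reduces to the trace of the residue extension. -/
theorem redx_trace (f : S.O) :
    S.redx hπ ⟨Algebra.trace (RatFunc L) S.F (f : S.F), S.trace_mem_baseVal hπ H f⟩ =
      Algebra.trace (RatFunc k) S.κ (S.res f) := by
  have h1 := GaussExt.ResidueData.FullResidueDegree.redx_trace _ H
    (S.gaussData_red_surjective hπ) f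
  rw [gaussData_red, gaussData_redx] at h1
  rw [← h1]
  congr 1
  exact Subtype.ext (GaussExt.ResidueData.FullResidueDegree.coe_trace _ H f).symm

end Full

/-! ### Integrality over `L[x]`, `L[1/x]` reduces -/

section Integral

include hπ in
theorem exists_eq_map_of_aeval_X (c : GaussExt.baseVal (RatFunc L) S.O) (P : L[X])
    (hc : (c : RatFunc L) = aeval (RatFunc.X : RatFunc L) P) :
    ∃ P₀ : A[X], P = P₀.map A.subtype := by
  have h1 := (S.mem_baseVal_iff hπ (c : RatFunc L)).mp c.2
  rw [hc, RatFunc.aeval_X_left_eq_algebraMap] at h1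
  obtain ⟨P₀, hP₀⟩ := GaussRing.exists_map_subtype_eq A
    ((GaussRing.algebraMap_mem_Ox_iff _ _ _ P).mp h1)
  exact ⟨P₀, hP₀.symm⟩

include hπ in
theorem X_mem_baseVal : (RatFunc.X : RatFunc L) ∈ GaussExt.baseVal (RatFunc L) S.O := by
  rw [S.mem_baseVal_iff hπ]
  exact GaussRing.X_mem_Ox _ _ _

include hπ in
theorem exists_eq_map_of_aeval_X_inv (c : GaussExt.baseVal (RatFunc L) S.O) (P : L[X])
    (hc : (c : RatFunc L) = aeval ((RatFunc.X : RatFunc L)⁻¹) P) :
    ∃ P₀ : A[X], P = P₀.map A.subtype := by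
  have h0 : (c : RatFunc L) * RatFunc.X ^ P.natDegree ∈ GaussExt.baseVal (RatFunc L) S.O :=
    mul_mem c.2 (pow_mem (S.X_mem_baseVal hπ) _)
  have h1 := (S.mem_baseVal_iff hπ _).mp h0
  rw [hc, aeval_X_inv_mul_pow P P.natDegree le_rfl] at h1
  have h2 := (GaussRing.algebraMap_mem_Ox_iff _ _ _ _).mp h1
  have h3 : ∀ n, P.coeff n ∈ A := by
    intro n
    have h3 := h2 (Polynomial.revAt P.natDegree n)
    rwa [Polynomial.coeff_reflect, Polynomial.revAt_invol] at h3
  obtain ⟨P₀, hP₀⟩ := GaussRing.exists_map_subtype_eq A h3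
  exact ⟨P₀, hP₀.symm⟩

theorem rfA_X : rfA (X : A[X]) = (RatFunc.X : RatFunc L) := by
  rw [rfA, Polynomial.map_X, RatFunc.algebraMap_X]

theorem rfk_X : rfk π (X : A[X]) = (RatFunc.X : RatFunc k) := by
  rw [rfk, Polynomial.map_X, RatFunc.algebraMap_X]

theorem redx_X : S.redx hπ ⟨RatFunc.X, S.X_mem_baseVal hπ⟩ = RatFunc.X := by
  have h := S.redx_rfA hπ (X : A[X])
  rw [rfk_X] at h
  rw [← h]
  congr 1
  exact Subtype.ext rfA_X.symm

theorem hR_X (c : GaussExt.baseVal (RatFunc L) S.O)
    (hc : IsIntegral (Algebra.adjoin L {(RatFunc.X : RatFunc L)}) (c : RatFunc L)) :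
    IsIntegral (Algebra.adjoin k {(RatFunc.X : RatFunc k)}) (S.redx hπ c) := by
  obtain ⟨P, hP⟩ := exists_eq_aeval_X_of_isIntegral hc
  obtain ⟨P₀, rfl⟩ := S.exists_eq_map_of_aeval_X hπ c P hP
  have hc' : c = ⟨rfA P₀, S.rfA_mem_baseVal hπ P₀⟩ := by
    apply Subtype.ext
    rw [hP, RatFunc.aeval_X_left_eq_algebraMap]
    rfl
  have hmem : S.redx hπ c ∈ Algebra.adjoin k {(RatFunc.X : RatFunc k)} := by
    rw [hc', redx_rfA, rfk, ← RatFunc.aeval_X_left_eq_algebraMap,
      Algebra.adjoin_singleton_eq_range_aeval]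
    exact ⟨P₀.map π, rfl⟩
  exact isIntegral_algebraMap (x := (⟨_, hmem⟩ : Algebra.adjoin k {(RatFunc.X : RatFunc k)}))

theorem hR_X_inv (c : GaussExt.baseVal (RatFunc L) S.O)
    (hc : IsIntegral (Algebra.adjoin L {(RatFunc.X : RatFunc L)⁻¹}) (c : RatFunc L)) :
    IsIntegral (Algebra.adjoin k {(RatFunc.X : RatFunc k)⁻¹}) (S.redx hπ c) := by
  obtain ⟨P, hP⟩ := exists_eq_aeval_X_inv_of_isIntegral hc
  obtain ⟨P₀, rfl⟩ := S.exists_eq_map_of_aeval_X_inv hπ c P hP
  set n := (P₀.map A.subtype).natDegree with hn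
  have h1 : c * ⟨RatFunc.X, S.X_mem_baseVal hπ⟩ ^ n =
      ⟨rfA (P₀.reflect n), S.rfA_mem_baseVal hπ _⟩ := by
    apply Subtype.ext
    show (c : RatFunc L) * RatFunc.X ^ n = rfA (P₀.reflect n)
    rw [hP, aeval_X_inv_mul_pow _ n le_rfl, rfA, Polynomial.reflect_map]
  have h2 := congrArg (S.redx hπ) h1
  rw [map_mul, map_pow, redx_X, redx_rfA] at h2
  have hdeg : (P₀.map π).natDegree ≤ n := by
    refine le_trans (Polynomial.natDegree_map_le) ?_
    rw [hn, Polynomial.natDegree_map_eq_of_injective Subtype.val_injective]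
  have h3 : S.redx hπ c = aeval ((RatFunc.X : RatFunc k)⁻¹) (P₀.map π) := by
    have hX : (RatFunc.X : RatFunc k) ^ n ≠ 0 := pow_ne_zero _ RatFunc.X_ne_zero
    apply mul_right_cancel₀ hX
    rw [h2, aeval_X_inv_mul_pow _ n hdeg, rfk, Polynomial.reflect_map]
  have hmem : S.redx hπ c ∈ Algebra.adjoin k {(RatFunc.X : RatFunc k)⁻¹} := by
    rw [h3, Algebra.adjoin_singleton_eq_range_aeval]
    exact ⟨P₀.map π, rfl⟩
  exact isIntegral_algebraMap (x := (⟨_, hmem⟩ : Algebra.adjoin k {(RatFunc.X : RatFunc k)⁻¹}))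

end Integral

/-! ### The canonical structures are evaluation at `xF`, `xκ` -/

theorem algebraRF_eq_evalRF (g : RatFunc L) :
    algebraMap (RatFunc L) S.F g = GaussRing.evalRF S.xF S.transcendental_xF g := by
  apply Subtype.ext
  rw [algebraRF_compat]
  exact (algHom_evalRF S.F.val S.transcendental_xF
    (GaussRing.transcendental_embA S.hord) g).symm

theorem algebraRFk_eq_evalRF (g : RatFunc k) :
    algebraMap (RatFunc k) S.κ g = GaussRing.evalRF S.xκ S.transcendental_xκ g := by
  apply Subtype.ext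
  rw [algebraRFk_compat]
  have hx' : Transcendental k (S.κ.val S.xκ) := by
    show Transcendental k ((S.xκ : S.κ) : LaurentSeries k)
    rw [S.coe_xκ]
    exact GaussRing.transcendental_redA S.hord S.hlc
  rw [GaussDataT.evalRF_congr' (show redA A π S.ξ = S.κ.val S.xκ from S.coe_xκ.symm)
    (GaussRing.transcendental_redA S.hord S.hlc) hx']
  exact (algHom_evalRF S.κ.val S.transcendental_xκ hx' g).symm

theorem algebraMap_RF_X : algebraMap (RatFunc L) S.F RatFunc.X = S.xF :=
  algebraMap_X_eq S.transcendental_xF S.algebraRF_eq_evalRF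

theorem algebraMap_RFk_X : algebraMap (RatFunc k) S.κ RatFunc.X = S.xκ :=
  algebraMap_X_eq S.transcendental_xκ S.algebraRFk_eq_evalRF

/-! ### Element forms -/

section Element

variable [FiniteDimensional L⟮S.xF⟯ S.F]

theorem finiteDimensional_RF : FiniteDimensional (RatFunc L) S.F :=
  finite_ratFunc_of_finite S.transcendental_xF S.algebraRF_eq_evalRF

theorem finrank_RF_eq : finrank (RatFunc L) S.F = finrank L⟮S.xF⟯ S.F :=
  finrank_ratFunc_eq S.transcendental_xF S.algebraRF_eq_evalRF

theorem finrank_RFk_eq : finrank (RatFunc k) S.κ = finrank k⟮S.xκ⟯ S.κ :=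
  finrank_ratFunc_eq S.transcendental_xκ S.algebraRFk_eq_evalRF

include hπ in
/-- `κ / k(x̄)` is finite. -/
theorem finiteDimensional_xκ : FiniteDimensional k⟮S.xκ⟯ S.κ := by
  haveI := S.finiteDimensional_RF
  haveI : FiniteDimensional (RatFunc k) S.κ :=
    GaussExt.ResidueData.finiteDimensional_residue' (S.gaussData hπ)
      (S.gaussData_red_surjective hπ)
  exact finite_adjoin_of_finite S.transcendental_xκ S.algebraRFk_eq_evalRF

include hπ in
/-- the fundamental inequality `[κ : k(x̄)] ≤ [F : L(x)]`. -/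
theorem finrank_xκ_le : finrank k⟮S.xκ⟯ S.κ ≤ finrank L⟮S.xF⟯ S.F := by
  haveI := S.finiteDimensional_RF
  rw [← S.finrank_RF_eq, ← S.finrank_RFk_eq]
  exact GaussExt.ResidueData.finrank_residue_le (S.gaussData hπ) (S.gaussData_red_surjective hπ)

variable (hle : finrank L⟮S.xF⟯ S.F ≤ finrank k⟮S.xκ⟯ S.κ)

include hle in
/-- full residue degree, element form of the hypothesis. -/
theorem gaussData_full_of_le :
    haveI := S.finiteDimensional_RF
    (S.gaussData hπ).FullResidueDegree := by
  haveI := S.finiteDimensional_RF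
  refine S.gaussData_full hπ ?_
  rw [S.finrank_RF_eq, S.finrank_RFk_eq]
  exact hle

include hπ hle in
theorem finrank_xκ_eq : finrank k⟮S.xκ⟯ S.κ = finrank L⟮S.xF⟯ S.F :=
  le_antisymm (S.finrank_xκ_le hπ) hle

include hπ hle in
/-- **(G3)** integrality over `L[x]` reduces to integrality over `k[x̄]`. -/
theorem isIntegral_res_of_isIntegral (f : S.F) (hf : f ∈ S.O)
    (h : IsIntegral (Algebra.adjoin L {S.xF}) f) :
    IsIntegral (Algebra.adjoin k {S.xκ}) (S.res ⟨f, hf⟩) := by
  haveI := S.finiteDimensional_RF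
  haveI := S.isScalarTower_RF
  haveI := S.isScalarTower_RFk
  have H := S.gaussData_full_of_le hπ hle
  rw [← S.algebraMap_RF_X] at h
  rw [← S.algebraMap_RFk_X]
  have h1 : IsIntegral (Algebra.adjoin L {(RatFunc.X : RatFunc L)}) f := by
    refine isIntegral_of_range_le ?_ h
    exact range_algebraMap_adjoin_ge (R := L) (A := RatFunc L) (B := S.F) RatFunc.X
  have h2 := GaussExt.ResidueData.FullResidueDegree.isIntegral_red' (S.gaussData hπ) H
    (R1 := Algebra.adjoin L {(RatFunc.X : RatFunc L)})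
    (R1k := Algebra.adjoin k {(RatFunc.X : RatFunc k)}) (S.hR_X hπ) ⟨f, hf⟩ h1
  refine isIntegral_of_range_le ?_ h2
  exact range_algebraMap_adjoin_le (R := k) (A := RatFunc k) (B := S.κ) RatFunc.X

include hπ hle in
/-- **(G3')** integrality over `L[1/x]` reduces to integrality over `k[1/x̄]`. -/
theorem isIntegral_res_of_isIntegral_inv (f : S.F) (hf : f ∈ S.O)
    (h : IsIntegral (Algebra.adjoin L {S.xF⁻¹}) f) :
    IsIntegral (Algebra.adjoin k {S.xκ⁻¹}) (S.res ⟨f, hf⟩) := by
  haveI := S.finiteDimensional_RF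
  haveI := S.isScalarTower_RF
  haveI := S.isScalarTower_RFk
  have H := S.gaussData_full_of_le hπ hle
  rw [← S.algebraMap_RF_X] at h
  rw [← S.algebraMap_RFk_X]
  have h1 : IsIntegral (Algebra.adjoin L {(RatFunc.X : RatFunc L)⁻¹}) f := by
    refine isIntegral_of_range_le ?_ h
    rw [← map_inv₀]
    exact range_algebraMap_adjoin_ge (R := L) (A := RatFunc L) (B := S.F) (RatFunc.X)⁻¹
  have h2 := GaussExt.ResidueData.FullResidueDegree.isIntegral_red' (S.gaussData hπ) H
    (R1 := Algebra.adjoin L {(RatFunc.X : RatFunc L)⁻¹})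
    (R1k := Algebra.adjoin k {(RatFunc.X : RatFunc k)⁻¹}) (S.hR_X_inv hπ) ⟨f, hf⟩ h1
  refine isIntegral_of_range_le ?_ h2
  rw [← map_inv₀]
  exact range_algebraMap_adjoin_le (R := k) (A := RatFunc k) (B := S.κ) (RatFunc.X)⁻¹

end Element

end GaussDatum

end Fermat.Agent.S48x.Red1
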