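import Mathlib
import Fermat.Agent.S48x.Red1.GaussGen
import Fermat.Agent.S48x.Red1.GaussDataGen

/-!
# P-S48, layer (c), (R4): the Gauss residue data of `D : IntGen A ι` with a spanning family

Instantiation of `Red1/GaussDataGen.lean` (`GaussDatum`) with the output of (R3)
`Red1/GaussGen.lean` (`S : SpanData π D J`, `S.OvValF hπ`, `S.resF hπ`):

* `S.gaussDatum hπ : GaussDatum A π`;
* `S.finiteDimensional_κ`, `S.finrank_κ_le` : `[κ : k(x̄)] ≤ [F : L(x)]` (fundamental inequality);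
* under `hle : [F : L(x)] ≤ [κ : k(x̄)]` (resp. `hFull : D.Full π`): `S.finrank_κ_eq`,
  `S.isIntegral_resF_of_isIntegral`, `S.isIntegral_resF_of_isIntegral_inv` = the hypotheses
  `hint1`, `hint2` of `C0.exists_const_mul_pow_of_res_eq_one` for `x := D.xF`, `xb := D.xκ π`.
-/

set_option autoImplicit false
set_option linter.unusedSectionVars false
set_option linter.style.haveILetI false

noncomputable section

namespace Fermat.Agent.S48x.Red1

open Polynomial IntermediateField Module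
open Fermat.Agent.Gateway.Red Fermat.Agent.Gateway.GoodRed

namespace SpanData

variable {L : Type*} [Field L] {A : ValuationSubring L} {k : Type*} [Field k] {π : A →+* k}
  {ι : Type*} {D : IntGen A ι} {J : Type*} [Fintype J] [Nonempty J] (S : SpanData π D J)
  (hπ : Function.Surjective π)

/-- the abstract Gauss datum of `(D, S)`. -/
def gaussDatum : GaussDatum A π where
  ξ := D.ξ
  hord := D.hord
  hlc := D.hlc
  F := D.F
  κ := D.κ π
  O := S.OvValF hπ
  mem_O_iff := fun _ => Iff.rfl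
  res := S.resF hπ
  coe_res := fun _ => rfl
  res_surjective := S.resF_surjective hπ
  x_mem := D.x_mem

@[simp] theorem gaussDatum_F : (S.gaussDatum hπ).F = D.F := rfl
@[simp] theorem gaussDatum_κ : (S.gaussDatum hπ).κ = D.κ π := rfl
@[simp] theorem gaussDatum_O : (S.gaussDatum hπ).O = S.OvValF hπ := rfl
@[simp] theorem gaussDatum_res : (S.gaussDatum hπ).res = S.resF hπ := rfl
@[simp] theorem gaussDatum_xF : (S.gaussDatum hπ).xF = D.xF := rfl

theorem gaussDatum_xκ : (S.gaussDatum hπ).xκ = D.xκ π := by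
  apply Subtype.ext
  rw [GaussDatum.coe_xκ]
  rfl

include S hπ in
theorem transcendental_xF : Transcendental L D.xF := (S.gaussDatum hπ).transcendental_xF

include S hπ in
theorem transcendental_xκ : Transcendental k (D.xκ π) := by
  rw [← S.gaussDatum_xκ hπ]
  exact (S.gaussDatum hπ).transcendental_xκ

section Finite

variable [hfin : FiniteDimensional L⟮D.xF⟯ D.F]

include S hπ in
/-- `κ / k(x̄)` is finite. -/
theorem finiteDimensional_κ : FiniteDimensional k⟮D.xκ π⟯ (D.κ π) := by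
  haveI : FiniteDimensional L⟮(S.gaussDatum hπ).xF⟯ (S.gaussDatum hπ).F := hfin
  rw [← S.gaussDatum_xκ hπ]
  exact (S.gaussDatum hπ).finiteDimensional_xκ hπ

include S hπ in
/-- **(hdeg)** the fundamental inequality `[κ : k(x̄)] ≤ [F : L(x)]`. -/
theorem finrank_κ_le : finrank k⟮D.xκ π⟯ (D.κ π) ≤ finrank L⟮D.xF⟯ D.F := by
  haveI : FiniteDimensional L⟮(S.gaussDatum hπ).xF⟯ (S.gaussDatum hπ).F := hfin
  rw [← S.gaussDatum_xκ hπ]
  exact (S.gaussDatum hπ).finrank_xκ_le hπ

variable (hle : finrank L⟮D.xF⟯ D.F ≤ finrank k⟮D.xκ π⟯ (D.κ π))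

include S hπ hle in
theorem finrank_κ_eq : finrank k⟮D.xκ π⟯ (D.κ π) = finrank L⟮D.xF⟯ D.F :=
  le_antisymm (S.finrank_κ_le hπ) hle

include hle in
/-- **(hint1)** integrality over `L[x]` reduces to integrality over `k[x̄]`. -/
theorem isIntegral_resF_of_isIntegral (f : D.F) (hf : f ∈ S.OvValF hπ)
    (h : IsIntegral (Algebra.adjoin L {D.xF}) f) :
    IsIntegral (Algebra.adjoin k {D.xκ π}) (S.resF hπ ⟨f, hf⟩) := by
  haveI : FiniteDimensional L⟮(S.gaussDatum hπ).xF⟯ (S.gaussDatum hπ).F := hfin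
  rw [← S.gaussDatum_xκ hπ] at hle ⊢
  exact (S.gaussDatum hπ).isIntegral_res_of_isIntegral hπ hle f hf h

include hle in
/-- **(hint2)** integrality over `L[1/x]` reduces to integrality over `k[1/x̄]`. -/
theorem isIntegral_resF_of_isIntegral_inv (f : D.F) (hf : f ∈ S.OvValF hπ)
    (h : IsIntegral (Algebra.adjoin L {(D.xF)⁻¹}) f) :
    IsIntegral (Algebra.adjoin k {(D.xκ π)⁻¹}) (S.resF hπ ⟨f, hf⟩) := by
  haveI : FiniteDimensional L⟮(S.gaussDatum hπ).xF⟯ (S.gaussDatum hπ).F := hfin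
  rw [← S.gaussDatum_xκ hπ] at hle ⊢
  exact (S.gaussDatum hπ).isIntegral_res_of_isIntegral_inv hπ hle f hf h

end Finite

/-! ### In terms of `D.Full π` -/

section Full

variable (hFull : D.Full π)

include hFull in
theorem Full.finiteDimensional_F : FiniteDimensional L⟮D.xF⟯ D.F := hFull.1

include S hπ hFull in
theorem Full.finiteDimensional_κ : FiniteDimensional k⟮D.xκ π⟯ (D.κ π) :=
  haveI := hFull.1
  S.finiteDimensional_κ hπ

include S hπ hFull in
theorem Full.finrank_κ_eq : finrank k⟮D.xκ π⟯ (D.κ π) = finrank L⟮D.xF⟯ D.F :=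
  haveI := hFull.1
  S.finrank_κ_eq hπ hFull.2

include S hπ hFull in
theorem Full.finrank_κ_le : finrank k⟮D.xκ π⟯ (D.κ π) ≤ finrank L⟮D.xF⟯ D.F :=
  haveI := hFull.1
  S.finrank_κ_le hπ

include hFull in
theorem Full.isIntegral_resF_of_isIntegral (f : D.F) (hf : f ∈ S.OvValF hπ)
    (h : IsIntegral (Algebra.adjoin L {D.xF}) f) :
    IsIntegral (Algebra.adjoin k {D.xκ π}) (S.resF hπ ⟨f, hf⟩) :=
  haveI := hFull.1
  S.isIntegral_resF_of_isIntegral hπ hFull.2 f hf h

include hFull in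
theorem Full.isIntegral_resF_of_isIntegral_inv (f : D.F) (hf : f ∈ S.OvValF hπ)
    (h : IsIntegral (Algebra.adjoin L {(D.xF)⁻¹}) f) :
    IsIntegral (Algebra.adjoin k {(D.xκ π)⁻¹}) (S.resF hπ ⟨f, hf⟩) :=
  haveI := hFull.1
  S.isIntegral_resF_of_isIntegral_inv hπ hFull.2 f hf h

end Full

end SpanData

end Fermat.Agent.S48x.Red1
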