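import Mathlib
import Fermat.Agent.S48x.Red1.C0GenFull
import Fermat.Agent.S48x.Red1.GaussDataInst

/-!
# P-S48, layer (c): (C0) from `D.Full π` with (G3) discharged

`Full.isIntegral_res_of_isIntegral`, `Full.isIntegral_res_of_isIntegral_inv` : the hypotheses
`hint1`, `hint2` of `Full.kummerRedInj` (`Red1/C0GenFull.lean`) in terms of `h.OvVal hπ`,
`h.res hπ`, from `Red1/GaussDataInst.lean`; `Full.kummerRedInj_of_cart` : (C0) with remaining
inputs separability ((R6)), genus ((R8)) and the cartesian property ((G4)).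
-/

set_option autoImplicit false
set_option linter.unusedSectionVars false
set_option linter.style.haveILetI false

noncomputable section

namespace Fermat.Agent.S48x.Red1

open Polynomial IntermediateField Module AlgebraicCurve
open Fermat.Agent.Gateway.Red Fermat.Agent.Gateway.GoodRed Fermat.Agent.Gateway.Kummer

variable {L : Type*} [Field L] {A : ValuationSubring L} {k : Type*} [Field k] {π : A →+* k}
  {ι : Type*} {D : IntGen A ι}

namespace IntGen

/-- **(hint1)** for `h.OvVal`, `h.res`. -/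
theorem Full.isIntegral_res_of_isIntegral (h : D.Full π) (hπ : Function.Surjective π)
    (f : D.F) (hf : f ∈ h.OvVal hπ) (hint : IsIntegral (Algebra.adjoin L {D.xF}) f) :
    IsIntegral (Algebra.adjoin k {D.xκ π}) (h.res hπ ⟨f, hf⟩) :=
  haveI := h.nonempty_fin
  SpanData.Full.isIntegral_resF_of_isIntegral h.spanData hπ h f hf hint

/-- **(hint2)** for `h.OvVal`, `h.res`. -/
theorem Full.isIntegral_res_of_isIntegral_inv (h : D.Full π) (hπ : Function.Surjective π)
    (f : D.F) (hf : f ∈ h.OvVal hπ) (hint : IsIntegral (Algebra.adjoin L {(D.xF)⁻¹}) f) :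
    IsIntegral (Algebra.adjoin k {(D.xκ π)⁻¹}) (h.res hπ ⟨f, hf⟩) :=
  haveI := h.nonempty_fin
  SpanData.Full.isIntegral_resF_of_isIntegral_inv h.spanData hπ h f hf hint

set_option synthInstance.maxHeartbeats 400000 in
/-- **(C0)** from `D.Full π`, with (G3) discharged.  Remaining inputs: separability ((R6)),
genus ((R8)), cartesian lattices ((G4)). -/
theorem Full.kummerRedInj_of_cart [Algebra ℚ L] [Algebra.IsAlgebraic ℚ L] [IsAlgClosed L]
    [IsAlgClosed k] (h : D.Full π) (hπ : Function.Surjective π)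
    {ℓ : ℕ} (hℓ : ℓ.Prime) (hA : A.LiesOverPrime ℓ)
    (F' : IntermediateField L (LaurentSeries L)) (hF' : F' = D.F)
    (hsep : Algebra.IsSeparable k⟮D.xκ π⟯ (D.κ π))
    (hgenus : genusFF L D.F ≤ genusFF k (D.κ π))
    (hcart : ∀ V : Submodule L D.F, FiniteDimensional L V → ∀ Λ : Submodule A D.F,
      (∀ f, f ∈ Λ ↔ f ∈ V ∧ f ∈ h.OvVal hπ) → Λ.FG)
    {m : ℕ} (hm : ¬ ℓ ∣ m) :
    ∀ z : F', z ≠ 0 → (∀ P : Place L F', (m : ℤ) ∣ P.ord z) →
      RedRel A π F' (z : LaurentSeries L) 1 →
      ∃ (c : L) (w : F'), z = algebraMap L F' c * w ^ m :=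
  h.kummerRedInj hπ hℓ hA F' hF' hsep (h.isIntegral_res_of_isIntegral hπ)
    (h.isIntegral_res_of_isIntegral_inv hπ) hgenus hcart hm

end IntGen

end Fermat.Agent.S48x.Red1
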