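import Mathlib
import Fermat.Agent.S48x.Red1.GaussGen
import Fermat.Agent.Gateway.GoodRed.Orthonormal

/-!
# P-S48, layer (c), (R4)/(G4): cartesian lattices over an integrally generated field

Generic clone of `Gateway/GoodRed/Orthonormal.lean` (section `Concrete`) over the setting of
`Red1/Setting.lean`, on top of (R3) `Red1/GaussGen.lean`.  For `S : SpanData π D J`:

* `SpanData.orthoFam : J × ℕ → D.F`, `(j, n) ↦ x^n * b_j`;
* `SpanData.linearIndependent_orthoFam`, `SpanData.orthoFam_orth` (orthonormality for the Gauss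
  valuation ring `S.OvValF hπ` over `A`);
* `SpanData.exists_unit_denominator` : every finite-dimensional `V ≤ D.F` has a unit `q` of
  `OvValF` with `q V ≤ span (orthoFam)`;
* `SpanData.fg_inf_OvValF` : `V ∩ OvValF` is a finitely generated `A`-module (the hypothesis
  `hcart` of `Red1/C0Gen.lean`).
-/

set_option autoImplicit false
set_option linter.unusedSectionVars false

noncomputable section

namespace Fermat.Agent.S48x.Red1

open Polynomial IntermediateField ModularCurve Fermat.Agent.Gateway.Red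
  Fermat.Agent.Gateway.GoodRed

variable {L : Type*} [Field L] {A : ValuationSubring L} {k : Type*} [Field k] {π : A →+* k}
  {ι : Type*} {D : IntGen A ι}

/-- shortcut instance (the default search is very slow here). -/
@[reducible] def algAF (A : ValuationSubring L) {ι : Type*} (D : IntGen A ι) : Algebra A D.F :=
  Algebra.ofSubsemiring A

attribute [local instance 5000] algAF

namespace SpanData

variable {J : Type*} [Fintype J] (S : SpanData π D J)

/-- the family `b_j` as elements of `F`. -/
def bF (j : J) : D.F := ⟨embA A (S.b j), S.mem_F j⟩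

@[simp] theorem coe_bF (j : J) : ((S.bF j : D.F) : LaurentSeries L) = embA A (S.b j) := rfl

/-- the orthonormal family `(j, n) ↦ x^n * b_j`. -/
def orthoFam (s : J × ℕ) : D.F := D.xF ^ s.2 * S.bF s.1

theorem coe_orthoFam (s : J × ℕ) :
    ((S.orthoFam s : D.F) : LaurentSeries L) = embA A D.ξ ^ s.2 * embA A (S.b s.1) := rfl

/-- the polynomial `∑ n, a (j, n) X^n`. -/
def polyOfJ (a : (J × ℕ) →₀ L) (j : J) : L[X] :=
  ∑ n ∈ a.support.image Prod.snd, Polynomial.monomial n (a (j, n))

theorem coeff_polyOfJ (a : (J × ℕ) →₀ L) (j : J) (n : ℕ) :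
    (polyOfJ a j).coeff n = a (j, n) := by
  classical
  rw [polyOfJ, Polynomial.finsetSum_coeff]
  simp only [Polynomial.coeff_monomial]
  rw [Finset.sum_ite_eq' (a.support.image Prod.snd) n fun m => a (j, m)]
  split_ifs with h
  · rfl
  · symm
    by_contra h0
    apply h
    rw [Finset.mem_image]
    exact ⟨(j, n), Finsupp.mem_support_iff.mpr h0, rfl⟩

theorem aeval_mul_bF_eq_sum (R : L[X]) (j : J) :
    aeval D.xF R * S.bF j =
      ∑ n ∈ Finset.range (R.natDegree + 1), R.coeff n • S.orthoFam (j, n) := by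
  rw [Polynomial.aeval_eq_sum_range, Finset.sum_mul]
  refine Finset.sum_congr rfl fun n _ => ?_
  rw [orthoFam, smul_mul_assoc]

/-- the `L`-combination `∑ a_s e_s` in polynomial form. -/
theorem sum_orthoFam_eq (a : (J × ℕ) →₀ L) :
    (a.sum fun s c => c • S.orthoFam s) = ∑ j : J, aeval D.xF (polyOfJ a j) * S.bF j := by
  classical
  have h1 : ∀ j : J, aeval D.xF (polyOfJ a j) * S.bF j =
      ∑ n ∈ a.support.image Prod.snd, a (j, n) • S.orthoFam (j, n) := by
    intro j
    rw [polyOfJ, map_sum, Finset.sum_mul]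
    refine Finset.sum_congr rfl fun n _ => ?_
    rw [Polynomial.aeval_monomial, orthoFam, Algebra.smul_def, mul_assoc]
  simp only [h1]
  rw [← Finset.sum_product' (Finset.univ : Finset J) (a.support.image Prod.snd)
    (fun j n => a (j, n) • S.orthoFam (j, n))]
  rw [Finsupp.sum]
  refine Finset.sum_subset ?_ ?_
  · intro s hs
    rw [Finset.mem_product]
    exact ⟨Finset.mem_univ _, Finset.mem_image_of_mem _ hs⟩
  · intro s _ hs
    rw [Finsupp.notMem_support_iff.mp hs, zero_smul]

theorem coe_aeval_xF (R : L[X]) :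
    ((aeval D.xF R : D.F) : LaurentSeries L) = pev (embA A D.ξ) R := by
  rw [← IntermediateField.coe_val, ← Polynomial.aeval_algHom_apply, IntermediateField.coe_val,
    aeval_eq_pev_field]
  rfl

/-- the coercion to `L((q))` of `∑ P_j(x) b_j`, in `pev` form. -/
theorem coe_sum_aeval_mul_bF (P : J → L[X]) :
    ((∑ j : J, aeval D.xF (P j) * S.bF j : D.F) : LaurentSeries L) =
      ∑ j : J, pev (embA A D.ξ) (P j) * embA A (S.b j) := by
  rw [← IntermediateField.coe_val, map_sum]
  refine Finset.sum_congr rfl fun j _ => ?_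
  rw [map_mul, IntermediateField.coe_val, coe_aeval_xF, coe_bF]

/-- the family `x^n * b_j` is `L`-linearly independent. -/
theorem linearIndependent_orthoFam : LinearIndependent L S.orthoFam := by
  rw [linearIndependent_iff]
  intro a ha
  rw [Finsupp.linearCombination_apply, sum_orthoFam_eq] at ha
  have h1 := congrArg (fun f : D.F => (f : LaurentSeries L)) ha
  simp only [coe_sum_aeval_mul_bF, ZeroMemClass.coe_zero] at h1
  have h2 : ∀ j, polyOfJ a j = 0 := by
    by_contra hcon
    push Not at hcon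
    exact S.indep.sum_ne_zero hcon h1
  ext ⟨j, n⟩
  rw [← coeff_polyOfJ, h2 j, coeff_zero, Finsupp.zero_apply]

theorem orthoFam_mem_Ov (s : J × ℕ) : S.orthoFam s ∈ Ov A π D.F := by
  rw [mem_Ov_iff, coe_orthoFam, ← map_pow, ← map_mul]
  exact embA_mem_gaussRing A π _

theorem aeval_mul_bF_mem_span (R : L[X]) (j : J) :
    aeval D.xF R * S.bF j ∈ Submodule.span L (Set.range S.orthoFam) := by
  rw [aeval_mul_bF_eq_sum]
  exact Submodule.sum_mem _ fun n _ =>
    Submodule.smul_mem _ _ (Submodule.subset_span ⟨(j, n), rfl⟩)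

/-- every element of `F` has a polynomial denominator in `x`. -/
theorem exists_poly_denominator (f : D.F) :
    ∃ Q : L[X], Q ≠ 0 ∧ aeval D.xF Q * f ∈ Submodule.span L (Set.range S.orthoFam) := by
  obtain ⟨Q, hQ, P, hrel⟩ := S.span f.1 f.2
  refine ⟨Q, hQ, ?_⟩
  have h : aeval D.xF Q * f = ∑ j : J, aeval D.xF (P j) * S.bF j := by
    apply Subtype.ext
    rw [MulMemClass.coe_mul, coe_aeval_xF, coe_sum_aeval_mul_bF]
    exact hrel
  rw [h]
  exact Submodule.sum_mem _ fun j _ => S.aeval_mul_bF_mem_span (P j) j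

/-- a common polynomial denominator for a finite-dimensional subspace. -/
theorem exists_common_denominator (V : Submodule L D.F) [FiniteDimensional L V] :
    ∃ Q : L[X], Q ≠ 0 ∧ ∀ f ∈ V,
      aeval D.xF Q * f ∈ Submodule.span L (Set.range S.orthoFam) := by
  classical
  obtain ⟨T, hT⟩ : V.FG := (Submodule.fg_iff_finiteDimensional V).mpr inferInstance
  choose Q hQ0 hQ using fun g : D.F => S.exists_poly_denominator g
  refine ⟨∏ g ∈ T, Q g, Finset.prod_ne_zero_iff.mpr fun g _ => hQ0 g, ?_⟩
  -- multiplication by a polynomial in `x` preserves the span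
  have hstab : ∀ (R : L[X]) (g : D.F),
      g ∈ Submodule.span L (Set.range S.orthoFam) →
      aeval D.xF R * g ∈ Submodule.span L (Set.range S.orthoFam) := by
    intro R g hg
    induction hg using Submodule.span_induction with
    | mem x hx =>
      obtain ⟨⟨j, n⟩, rfl⟩ := hx
      have : aeval D.xF R * S.orthoFam (j, n) = aeval D.xF (R * X ^ n) * S.bF j := by
        rw [orthoFam, map_mul, map_pow, aeval_X, mul_assoc]
      rw [this]
      exact S.aeval_mul_bF_mem_span _ j
    | zero => rw [mul_zero]; exact Submodule.zero_mem _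
    | add x y _ _ hx hy => rw [mul_add]; exact Submodule.add_mem _ hx hy
    | smul c x _ hx => rw [mul_smul_comm]; exact Submodule.smul_mem _ _ hx
  intro f hf
  rw [← hT] at hf
  induction hf using Submodule.span_induction with
  | mem g hg =>
    have hsplit : ∏ g' ∈ T, Q g' = (∏ g' ∈ T.erase g, Q g') * Q g := by
      rw [Finset.prod_erase_mul _ _ hg]
    rw [hsplit, map_mul, mul_assoc]
    exact hstab _ _ (hQ g)
  | zero => rw [mul_zero]; exact Submodule.zero_mem _
  | add x y _ _ hx hy => rw [mul_add]; exact Submodule.add_mem _ hx hy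
  | smul c x _ hx => rw [mul_smul_comm]; exact Submodule.smul_mem _ _ hx

variable [Nonempty J]

/-- **Orthonormality** of `x^n * b_j` for the Gauss valuation ring over `A`. -/
theorem orthoFam_orth (hπ : Function.Surjective π) (a : (J × ℕ) →₀ L) :
    (a.sum fun s c => c • S.orthoFam s) ∈ S.OvValF hπ ↔ ∀ s, a s ∈ A := by
  constructor
  · intro hmem s
    rw [mem_OvValF_iff, mem_Ov_iff, sum_orthoFam_eq, coe_sum_aeval_mul_bF] at hmem
    have := S.indep.coeff_mem_of_sum_mem_gaussRing
      (fun a ha => isUnit_of_map_ne_zero' hπ ha) hmem s.1 s.2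
    rwa [coeff_polyOfJ] at this
  · intro h
    rw [Finsupp.sum]
    refine Subring.sum_mem _ fun s _ => ?_
    rw [Algebra.smul_def]
    exact Subring.mul_mem _ ((S.algebraMap_mem_OvValF_iff hπ (a s)).mpr (h s))
      (S.orthoFam_mem_Ov s)

/-- every finite-dimensional `L`-subspace `V` of `F` has a unit `q` of the Gauss ring with
`q V ≤ span (x^n b_j)`. -/
theorem exists_unit_denominator (hπ : Function.Surjective π)
    (V : Submodule L D.F) [FiniteDimensional L V] :
    ∃ q : D.F, q ≠ 0 ∧ q ∈ S.OvValF hπ ∧ q⁻¹ ∈ S.OvValF hπ ∧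
      ∀ f ∈ V, q * f ∈ Submodule.span L (Set.range S.orthoFam) := by
  obtain ⟨Q, hQ0, hQ⟩ := S.exists_common_denominator V
  obtain ⟨c, hc, Q', hQ', hQπ⟩ := exists_content_single A π Q hQ0
  have hcoe : ((aeval D.xF (C c⁻¹ * Q) : D.F) : LaurentSeries L) =
      embA A (pev D.ξ Q') := by
    rw [coe_aeval_xF, embA_pev, hQ']
  have hred : redA A π (pev D.ξ Q') ≠ 0 := S.indep.redA_pev_ne_zero hQπ
  have hq0 : aeval D.xF (C c⁻¹ * Q) ≠ 0 := by
    intro h0
    have h1 := congrArg (fun f : D.F => (f : LaurentSeries L)) h0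
    simp only [hcoe, ZeroMemClass.coe_zero] at h1
    rw [embA_eq_zero_iff] at h1
    exact hred (by rw [h1, map_zero])
  have hqmem : aeval D.xF (C c⁻¹ * Q) ∈ Ov A π D.F := by
    rw [mem_Ov_iff, hcoe]
    exact embA_mem_gaussRing A π _
  refine ⟨aeval D.xF (C c⁻¹ * Q), hq0, hqmem, ?_, ?_⟩
  · show (aeval D.xF (C c⁻¹ * Q))⁻¹ ∈ Ov A π D.F
    apply inv_mem_Ov A π D.F hqmem
    rw [redV_of_eq_embA A π D.F _ hcoe]
    exact hred
  · intro f hf
    rw [map_mul, aeval_C, mul_assoc, ← Algebra.smul_def]
    exact Submodule.smul_mem _ _ (hQ f hf)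

/-- **Cartesian lattices**: for every finite-dimensional `L`-subspace `V` of `F`, the lattice
`V ∩ OvValF` is a finitely generated `A`-module. -/
theorem fg_inf_OvValF (hπ : Function.Surjective π)
    (V : Submodule L D.F) [FiniteDimensional L V] (Λ : Submodule A D.F)
    (hΛ : ∀ f, f ∈ Λ ↔ f ∈ V ∧ f ∈ S.OvValF hπ) : Λ.FG := by
  obtain ⟨q, hq0, hq, hq', hqV⟩ := S.exists_unit_denominator hπ V
  exact Fermat.Agent.Gateway.C0.fg_inf_of_orthonormal_mul A (S.OvValF hπ)
    S.orthoFam S.linearIndependent_orthoFam (S.orthoFam_orth hπ)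
    V q hq0 hq hq' hqV Λ hΛ

/-- the hypothesis `hcart` of `Red1/C0Gen.lean`, verbatim. -/
theorem hcart (hπ : Function.Surjective π) :
    ∀ V : Submodule L D.F, FiniteDimensional L V → ∀ Λ : Submodule A D.F,
      (∀ f, f ∈ Λ ↔ f ∈ V ∧ f ∈ S.OvValF hπ) → Λ.FG :=
  fun V hV Λ hΛ => haveI := hV; S.fg_inf_OvValF hπ V Λ hΛ

end SpanData

end Fermat.Agent.S48x.Red1
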