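import Mathlib
import Fermat.Agent.S48x.Red1.C0GenFullG3
import Fermat.Agent.S48x.Red1.CartesianGen

/-!
# P-S48, layer (c): (C0) from `D.Full π` with (G3) and (G4) discharged

`Full.hcart` : the cartesian property for `h.OvVal hπ` (from `Red1/CartesianGen.lean`);
`Full.kummerRedInj_final` : (C0) for an integrally generated field with full residue degree; the
only remaining inputs are separability of `κ / k(x̄)` ((R6)) and the genus inequality ((R8)).
-/

set_option autoImplicit false
set_option linter.unusedSectionVars false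
set_option linter.style.haveILetI false

noncomputable section

namespace Fermat.Agent.S48x.Red1

open Polynomial IntermediateField Module AlgebraicCurve
open Fermat.Agent.Gateway.Red Fermat.Agent.Gateway.GoodRed Fermat.Agent.Gateway.Kummer

variable {L : Type*} [Field L] {A : ValuationSubring L} {k : Type*} [Field k] {π : A →+* k}
  {ι : Type*} {D : IntGen A ι}

attribute [local instance 5000] algAF

namespace IntGen

/-- **(G4)** for `h.OvVal`: cartesian lattices. -/
theorem Full.hcart (h : D.Full π) (hπ : Function.Surjective π) :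
    ∀ V : Submodule L D.F, FiniteDimensional L V → ∀ Λ : Submodule A D.F,
      (∀ f, f ∈ Λ ↔ f ∈ V ∧ f ∈ h.OvVal hπ) → Λ.FG :=
  fun V hV Λ hΛ =>
    haveI := hV
    haveI := h.nonempty_fin
    h.spanData.fg_inf_OvValF hπ V Λ hΛ

/-- **(C0)** from `D.Full π`, with (G3) and (G4) discharged.  Remaining inputs: separability
((R6)) and the genus inequality ((R8)). -/
theorem Full.kummerRedInj_final [Algebra ℚ L] [Algebra.IsAlgebraic ℚ L] [IsAlgClosed L]
    [IsAlgClosed k] (h : D.Full π) (hπ : Function.Surjective π)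
    {ℓ : ℕ} (hℓ : ℓ.Prime) (hA : A.LiesOverPrime ℓ)
    (F' : IntermediateField L (LaurentSeries L)) (hF' : F' = D.F)
    (hsep : Algebra.IsSeparable k⟮D.xκ π⟯ (D.κ π))
    (hgenus : genusFF L D.F ≤ genusFF k (D.κ π))
    {m : ℕ} (hm : ¬ ℓ ∣ m) :
    ∀ z : F', z ≠ 0 → (∀ P : Place L F', (m : ℤ) ∣ P.ord z) →
      RedRel A π F' (z : LaurentSeries L) 1 →
      ∃ (c : L) (w : F'), z = algebraMap L F' c * w ^ m :=
  h.kummerRedInj_of_cart hπ hℓ hA F' hF' hsep hgenus (h.hcart hπ) hm

end IntGen

end Fermat.Agent.S48x.Red1
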