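import Mathlib
import Fermat.Agent.S48x.Red1.C0GenFinal
import Fermat.Agent.S48x.Red1.ModelTransport
import Fermat.Agent.S48x.Kummer1.Unram
import Fermat.Agent.Gateway.ES.ResidueField
import Fermat.Agent.S48x.Red1.Shortcuts

/-!
# P-S48, layer (c), (R9): assembly of (Hnorm) and (C0) for the function field of `X₁(M)`

The two deliverables of layer (c), in the exact shapes consumed by `Kummer1`
(`Kummer1.GaussNormalisable (gamma1Field M) A`, `Kummer1.KummerRedInj (gamma1Field M) A m`), from

* `h : (gamma1IntGen A M ζ).Full (residue A)` — full residue degree of the Gauss valuation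
  ((R6) Igusa, via the full-level field);
* `hsep` — separability of the residue field extension `κ / k(j̄)`;
* `hgenus` — the genus inequality ((R8)).

Everything else ((R2) monomial basis, (R3) Gauss valuation ring, (R4) (G3)/(G4), (R5) abstract
(C0), the transport to `laurentBaseChange L (gamma1Field M)`) is discharged here.
-/

set_option autoImplicit false
set_option linter.unusedSectionVars false
set_option linter.style.haveILetI false

noncomputable section

namespace Fermat.Agent.S48x.Red1.Gamma1Assemble

open ModularCurve AlgebraicCurve IntermediateField IsLocalRing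
  Fermat.Agent.S48x.Model Fermat.Agent.S48x.Red1 Fermat.Agent.S48x.Red1.ModelInt
  Fermat.Agent.S48x.Red1.ModelTransport Fermat.Agent.Gateway.Kummer
open scoped Fermat.Agent.S48x.Red1.Shortcuts

variable {L : Type*} [Field L] [Algebra ℚ L] (A : ValuationSubring L) {M : ℕ} [NeZero M]

/-- `M ≠ 0` in the residue field of a valuation subring over `p ∤ M`. -/
theorem natCast_ne_zero_residue {p : ℕ} (hp : p.Prime) (hA : A.LiesOverPrime p)
    (hpM : ¬ p ∣ M) : ((M : ℕ) : ResidueField A) ≠ 0 :=
  natCast_ne_zero_of_liesOverPrime A (residue A) residue_surjective hp hA hpM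

/-- **(Hnorm)** for the function field of `X₁(M)`, from the full residue degree of the Gauss
valuation, for a given primitive `M`-th root of unity `ζ ∈ A`. -/
theorem gaussNormalisable_of_full {p : ℕ} (hp : p.Prime) (hA : A.LiesOverPrime p)
    (hpM : ¬ p ∣ M) {ζ : A} (hζ : IsPrimitiveRoot ζ M)
    (h : (gamma1IntGen A M ζ).Full (residue A)) :
    Kummer1.GaussNormalisable (gamma1Field M) A :=
  h.gaussNormalisable (laurentBaseChange L (gamma1Field M))
    (laurentBaseChange_gamma1Field_eq_F residue_surjective hζ (natCast_ne_zero_residue A hp hA hpM))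

/-- **(C0)** for the function field of `X₁(M)`, from the full residue degree of the Gauss
valuation, separability of the residue extension and the genus inequality, for a given primitive
`M`-th root of unity `ζ ∈ A`. -/
theorem kummerRedInj_of_full [Algebra.IsAlgebraic ℚ L] [IsAlgClosed L] {p : ℕ} (hp : p.Prime)
    (hA : A.LiesOverPrime p) (hpM : ¬ p ∣ M) {ζ : A} (hζ : IsPrimitiveRoot ζ M)
    (h : (gamma1IntGen A M ζ).Full (residue A))
    (hsep : Algebra.IsSeparable (ResidueField A)⟮(gamma1IntGen A M ζ).xκ (residue A)⟯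
      ((gamma1IntGen A M ζ).κ (residue A)))
    (hgenus : genusFF L (gamma1IntGen A M ζ).F ≤
      genusFF (ResidueField A) ((gamma1IntGen A M ζ).κ (residue A)))
    {m : ℕ} (hm : ¬ p ∣ m) :
    Kummer1.KummerRedInj (gamma1Field M) A m :=
  haveI := Fermat.Agent.Gateway.ES.isAlgClosed_residueField A
  h.kummerRedInj_final residue_surjective hp hA (laurentBaseChange L (gamma1Field M))
    (laurentBaseChange_gamma1Field_eq_F residue_surjective hζ (natCast_ne_zero_residue A hp hA hpM))
    hsep hgenus hm

/-- **(Hnorm)**, root-of-unity-free form. -/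
theorem gaussNormalisable_gamma1 [IsAlgClosed L] {p : ℕ} (hp : p.Prime)
    (hA : A.LiesOverPrime p) (hpM : ¬ p ∣ M)
    (h : ∀ ζ : A, IsPrimitiveRoot ζ M → (gamma1IntGen A M ζ).Full (residue A)) :
    Kummer1.GaussNormalisable (gamma1Field M) A := by
  haveI : CharZero L := algebraRat.charZero L
  obtain ⟨ζ, hζ⟩ := exists_primitiveRoot_mem A M
  exact gaussNormalisable_of_full A hp hA hpM hζ (h ζ hζ)

/-- **(C0)**, root-of-unity-free form. -/
theorem kummerRedInj_gamma1 [Algebra.IsAlgebraic ℚ L] [IsAlgClosed L] {p : ℕ} (hp : p.Prime)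
    (hA : A.LiesOverPrime p) (hpM : ¬ p ∣ M)
    (h : ∀ ζ : A, IsPrimitiveRoot ζ M → (gamma1IntGen A M ζ).Full (residue A))
    (hsep : ∀ ζ : A, IsPrimitiveRoot ζ M →
      Algebra.IsSeparable (ResidueField A)⟮(gamma1IntGen A M ζ).xκ (residue A)⟯
        ((gamma1IntGen A M ζ).κ (residue A)))
    (hgenus : ∀ ζ : A, IsPrimitiveRoot ζ M → genusFF L (gamma1IntGen A M ζ).F ≤
      genusFF (ResidueField A) ((gamma1IntGen A M ζ).κ (residue A)))
    {m : ℕ} (hm : ¬ p ∣ m) :
    Kummer1.KummerRedInj (gamma1Field M) A m := by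
  haveI : CharZero L := algebraRat.charZero L
  obtain ⟨ζ, hζ⟩ := exists_primitiveRoot_mem A M
  exact kummerRedInj_of_full A hp hA hpM hζ (h ζ hζ) (hsep ζ hζ) (hgenus ζ hζ) hm

end Fermat.Agent.S48x.Red1.Gamma1Assemble
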