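import Mathlib
import Fermat.Agent.Gateway.GoodRed.RedEmb

/-!
# P-S48, layer (c): the `Γ₀`-input of the decomposition group argument, in Laurent series form

Setting of `Gateway/GoodRed/RedEmb.lean`: `L` algebraically closed of characteristic zero,
`A ⊆ L` a valuation subring, `π : A →+* k` onto an algebraically closed field of characteristic
`ℓ ∤ N`.  `Fk L N = L(j(q^d) : d ∣ N) ⊆ L((q))` is the `Γ₀(N)`-field.

`cuspHom_gauss`: EVERY ring hom `s : Fk L N →+* L((z))` which is the identity on constants and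
sends `j` to `j(z^N)` (`ConjFamily.IsEmb`) maps Gauss-integral elements to Gauss-integral elements,
and `gaussRed (s f) = 0 ↔ gaussRed f = 0`.

This is hypothesis (hB) of `Red1/DecompGroup` (in the elementwise form
`Red1/ResGalois.exists_mem_smul_eq_of_fixed`): for `g` in the full level group and `r` fixed by the
Borel, `r = qExpand N r₀` with `r₀ ∈ Fk L N`, and `s := (g • ·) ∘ qExpand N` is such a ring hom,
so `g • r ∈ P ↔ r ∈ P` for `P = ker (reduction)`.
-/

set_option autoImplicit false
set_option linter.unusedSectionVars false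

noncomputable section

namespace Fermat.Agent.S48x.Red1

open ModularCurve Fermat.Agent.Gateway.Red Fermat.Agent.Gateway.GoodRed

variable {L : Type} [Field L] [Algebra ℚ L] [IsAlgClosed L] (A : ValuationSubring L)
  {k : Type} [Field k] (π : A →+* k) (N : ℕ)
  [IsAlgClosed k] (ℓ : ℕ) [Fact ℓ.Prime] [CharP k ℓ] [NeZero N]
  (hπ : Function.Surjective π) (hℓN : ¬ ℓ ∣ N)

include hπ hℓN in
/-- every cusp hom of the `Γ₀(N)`-field preserves the Gauss ring and the kernel of the
reduction (both ways). -/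
theorem cuspHom_gauss (s : ConjFamily.Fk L N →+* LaurentSeries L) (hs : ConjFamily.IsEmb L N s)
    (f : ConjFamily.Fk L N) (hf : (f : LaurentSeries L) ∈ gaussRing A π) :
    ∃ h : s f ∈ gaussRing A π,
      (gaussRed A π ⟨s f, h⟩ = 0 ↔ gaussRed A π ⟨(f : LaurentSeries L), hf⟩ = 0) := by
  set τ : ConjFamily.Emb L N := ⟨s, hs⟩ with hτ
  set f' : FBar L N := ⟨(f : LaurentSeries L), (fBar_eq_fullC L N).ge f.2⟩ with hf'
  have hto : toFullC L N f' = f := Subtype.ext (coe_toFullC L N f')
  have hP : Persists A π N (embF τ) := persists_embF A π N ℓ hπ hℓN τ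
  have hfO : f' ∈ Ov A π (FBar L N) := (mem_Ov_iff A π (FBar L N)).mpr hf
  have hval : embF τ f' = s f := by rw [embF_apply, hto]
  have hmem : s f ∈ gaussRing A π := by
    rw [← hval]
    exact hP.mem f' hfO
  refine ⟨hmem, ?_, ?_⟩
  · intro h0
    have h1 := redHom_resFk ℓ hπ hℓN hP (⟨f', hfO⟩ : OvVal A π N ℓ hπ hℓN)
    have h2 : gaussRed A π ⟨embF τ f', hP.mem f' hfO⟩ = 0 := by
      have e : (⟨embF τ f', hP.mem f' hfO⟩ : gaussRing A π) = ⟨s f, hmem⟩ := Subtype.ext hval
      rw [e, h0]
    rw [h2] at h1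
    have h3 : resFk A π N ℓ hπ hℓN (⟨f', hfO⟩ : OvVal A π N ℓ hπ hℓN) = 0 :=
      (map_eq_zero_iff _ (redHom ℓ hπ hℓN hP).injective).mp h1
    have h4 := congrArg Subtype.val h3
    rw [coe_resFk, redV_apply] at h4
    exact h4
  · intro h0
    have h1 : redV A π (FBar L N) ⟨f', hfO⟩ = 0 := by
      rw [redV_apply]
      exact h0
    have h2 := hP.red_eq_zero f' hfO h1
    have e : (⟨embF τ f', hP.mem f' hfO⟩ : gaussRing A π) = ⟨s f, hmem⟩ := Subtype.ext hval
    rw [e] at h2
    exact h2

include hπ hℓN in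
/-- for `y` in the `Γ₀(N)`-field, Gauss-integrality of `y(z^N)` implies that of `y`. -/
theorem mem_gaussRing_of_qExpand_mem (y : ConjFamily.Fk L N)
    (hy : qExpand L N (y : LaurentSeries L) ∈ gaussRing A π) :
    (y : LaurentSeries L) ∈ gaussRing A π := by
  by_cases hy0 : (y : LaurentSeries L) = 0
  · rw [hy0]
    exact zero_mem _
  obtain ⟨y', hy'⟩ : ∃ y' : FBar L N, (y' : LaurentSeries L) = (y : LaurentSeries L) :=
    ⟨⟨(y : LaurentSeries L), (fBar_eq_fullC L N).ge y.2⟩, rfl⟩
  have hinv : ((y'⁻¹ : FBar L N) : LaurentSeries L) = (y : LaurentSeries L)⁻¹ := by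
    rw [IntermediateField.coe_inv, hy']
  rcases mem_Ov_or_inv_mem_Ov A π N ℓ hπ hℓN y' with h | h
  · have := (mem_Ov_iff A π (FBar L N)).mp h
    rwa [hy'] at this
  · have hu : (y : LaurentSeries L)⁻¹ ∈ gaussRing A π := by
      have := (mem_Ov_iff A π (FBar L N)).mp h
      rwa [hinv] at this
    by_cases hred : gaussRed A π ⟨(y : LaurentSeries L)⁻¹, hu⟩ = 0
    · exfalso
      have hq := GaussRing.gaussRed_qExpand A π N hu
      rw [hred, map_zero] at hq
      have h1 : (⟨qExpand L N (y : LaurentSeries L), hy⟩ : gaussRing A π)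
          * ⟨qExpand L N (y : LaurentSeries L)⁻¹, GaussRing.qExpand_mem_gaussRing A π N hu⟩ = 1 := by
        apply Subtype.ext
        show qExpand L N (y : LaurentSeries L) * qExpand L N (y : LaurentSeries L)⁻¹ = 1
        rw [← map_mul, mul_inv_cancel₀ hy0, map_one]
      have h2 := congrArg (gaussRed A π) h1
      rw [map_mul, hq, mul_zero, map_one] at h2
      exact zero_ne_one h2
    · have := inv_mem_gaussRing A π hu hred
      rwa [inv_inv] at this

include hπ hℓN in
/-- **(hB), elementwise**: let `F ⊆ L((z))` contain `y(z^N)` for all `y` in the `Γ₀(N)`-field, and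
let `g : F →+* L((z))` be the identity on constants and fix `j(z^N)`.  Then for `y` in the
`Γ₀(N)`-field with `y(z^N)` Gauss-integral, `g (y(z^N))` is Gauss-integral, and its reduction
vanishes iff the reduction of `y(z^N)` does. -/
theorem gaussRed_apply_qExpand_eq_zero_iff (F : IntermediateField L (LaurentSeries L))
    (hF : ∀ y : ConjFamily.Fk L N, qExpand L N (y : LaurentSeries L) ∈ F)
    (g : F →+* LaurentSeries L) (hgC : ∀ c : L, g (algebraMap L F c) = HahnSeries.C c)
    (hgx : g ⟨qExpand L N (jqModC L), hF (ConjFamily.jFk L N)⟩ = qExpand L N (jqModC L))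
    (y : ConjFamily.Fk L N) (hy : qExpand L N (y : LaurentSeries L) ∈ gaussRing A π) :
    ∃ h : g ⟨qExpand L N (y : LaurentSeries L), hF y⟩ ∈ gaussRing A π,
      (gaussRed A π ⟨_, h⟩ = 0 ↔ gaussRed A π ⟨qExpand L N (y : LaurentSeries L), hy⟩ = 0) := by
  -- the ring hom `y ↦ y(z^N)` into `F`
  let q : ConjFamily.Fk L N →+* F :=
    ((qExpand L N).comp (ConjFamily.Fk L N).val.toRingHom).codRestrict F.toSubfield.toSubring
      (fun y => hF y)
  have hq : ∀ y : ConjFamily.Fk L N, q y = ⟨qExpand L N (y : LaurentSeries L), hF y⟩ :=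
    fun y => rfl
  set s : ConjFamily.Fk L N →+* LaurentSeries L := g.comp q with hs
  have hsE : ConjFamily.IsEmb L N s := by
    refine ⟨fun c => ?_, ?_⟩
    · have e : q (algebraMap L (ConjFamily.Fk L N) c) = algebraMap L F c := by
        apply Subtype.ext
        rw [hq]
        show qExpand L N (algebraMap L (LaurentSeries L) c) = algebraMap L (LaurentSeries L) c
        rw [algebraMap_laurentSeries_eq_single]
        exact qExpand_C N c
      rw [hs, RingHom.comp_apply, e, hgC]
    · rw [hs, RingHom.comp_apply, hq]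
      exact hgx
  have hy1 : (y : LaurentSeries L) ∈ gaussRing A π :=
    mem_gaussRing_of_qExpand_mem A π N ℓ hπ hℓN y hy
  obtain ⟨h, hiff⟩ := cuspHom_gauss A π N ℓ hπ hℓN s hsE y hy1
  have hsy : s y = g ⟨qExpand L N (y : LaurentSeries L), hF y⟩ := by
    rw [hs, RingHom.comp_apply, hq]
  refine ⟨hsy ▸ h, ?_⟩
  have e1 : gaussRed A π ⟨qExpand L N (y : LaurentSeries L), hy⟩
      = qExpand k N (gaussRed A π ⟨(y : LaurentSeries L), hy1⟩) :=
    GaussRing.gaussRed_qExpand A π N hy1
  rw [e1, map_eq_zero_iff _ (qExpand_injective (R := k) N), ← hiff]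
  have e2 : (⟨g ⟨qExpand L N (y : LaurentSeries L), hF y⟩, hsy ▸ h⟩ : gaussRing A π)
      = ⟨s y, h⟩ := Subtype.ext hsy.symm
  rw [e2]

end Fermat.Agent.S48x.Red1
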