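import Fermat.Agent.S48x.Red1.GaussGen
import Fermat.Agent.Gateway.C0.Main
import Fermat.Agent.Gateway.C0.RankOne
import Fermat.Agent.Gateway.Kummer.RedBridge

/-!
# P-S48, layer (c), (R5): (C0) and (Hnorm) for an integrally generated field

Generic clone of `Gateway/C0/{GaussSetup, Instantiate}` over the setting of `Red1/Setting.lean`,
on top of (R3) `Red1/GaussGen.lean`.  For `S : SpanData π D J`:

* `SpanData.redSetup` : the `C0.RedSetup` of the Gauss valuation ring `S.OvValF hπ` of `D.F` with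
  its residue map `S.resF hπ` onto `D.κ π`;
* `SpanData.exists_const_mul_pow_of_resF_eq_one` : the abstract (C0) of `Gateway/C0/Main.lean`
  instantiated (hypothesis-style: integrality reduces, degree, genus, cartesian lattices);
* `SpanData.kummerRedInj_of_eq`, `SpanData.gaussNormalisable_of_eq` : the two deliverables of
  layer (c) in the shapes of `Kummer.KummerRedInj`, `Kummer.GaussNormalisable`, for any
  intermediate field `F'` equal to `D.F`.
-/

set_option autoImplicit false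
set_option linter.unusedSectionVars false
set_option linter.style.haveILetI false

noncomputable section

namespace Fermat.Agent.S48x.Red1

open Polynomial IntermediateField ModularCurve AlgebraicCurve Module
  Fermat.Agent.Gateway.Red Fermat.Agent.Gateway.GoodRed Fermat.Agent.Gateway.C0
  Fermat.Agent.Gateway.Kummer

variable {L : Type*} [Field L] {A : ValuationSubring L} {k : Type*} [Field k] {π : A →+* k}
  {ι : Type*} {D : IntGen A ι}

namespace SpanData

variable {J : Type*} [Fintype J] [Nonempty J] (S : SpanData π D J)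

/-! ### the `RedSetup` of the Gauss valuation -/

/-- The `C0.RedSetup` of the Gauss valuation ring of `D.F`. -/
def redSetup (hπ : Function.Surjective π)
    (hrk : ∀ x ∈ IsLocalRing.maximalIdeal A, ∀ c : A, c ≠ 0 → ∃ j : ℕ, c ∣ x ^ j)
    (hne : ∃ ϖ ∈ IsLocalRing.maximalIdeal A, ϖ ≠ 0) :
    RedSetup A (S.OvValF hπ) k (D.κ π) where
  π := π
  π_surj := hπ
  res := S.resF hπ
  res_ker x := by
    rw [S.resF_eq_zero_iff hπ, ValuationSubring.valuation_eq_one_iff]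
    have hle : (S.OvValF hπ).valuation (x : D.F) ≤ 1 :=
      (ValuationSubring.valuation_le_one_iff _ _).mpr x.2
    exact ⟨fun h => lt_of_le_of_ne hle h, fun h => ne_of_lt h⟩
  algebraMap_mem a := (S.algebraMap_mem_OvValF_iff hπ (a : L)).mpr a.2
  res_algebraMap a := S.resF_algebraMap hπ a
  scal f hf := by
    obtain ⟨c, u, hc, hu, hfu⟩ := S.exists_const_mul_unit_OvValF hπ f hf
    refine ⟨c⁻¹, inv_ne_zero hc, ?_⟩
    have hfu' : c⁻¹ • f = (u : D.F) := by
      rw [hfu, Algebra.smul_def, ← mul_assoc, ← map_mul, inv_mul_cancel₀ hc, map_one, one_mul]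
    rw [hfu']
    exact (ValuationSubring.valuation_eq_one_iff _ _).mp hu
  rank_one := hrk
  exists_ne_zero := hne

@[simp] theorem redSetup_res (hπ : Function.Surjective π)
    (hrk : ∀ x ∈ IsLocalRing.maximalIdeal A, ∀ c : A, c ≠ 0 → ∃ j : ℕ, c ∣ x ^ j)
    (hne : ∃ ϖ ∈ IsLocalRing.maximalIdeal A, ϖ ≠ 0) :
    (S.redSetup hπ hrk hne).res = S.resF hπ := rfl

@[simp] theorem redSetup_π (hπ : Function.Surjective π)
    (hrk : ∀ x ∈ IsLocalRing.maximalIdeal A, ∀ c : A, c ≠ 0 → ∃ j : ℕ, c ∣ x ^ j)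
    (hne : ∃ ϖ ∈ IsLocalRing.maximalIdeal A, ϖ ≠ 0) :
    (S.redSetup hπ hrk hne).π = π := rfl

/-! ### the abstract (C0), instantiated -/

section C0

variable [IsAlgClosed L] [CharZero L] [IsAlgClosed k]

/-- **(C0)** for `D.F`, in terms of `OvValF` and `resF`, hypothesis-style:
`hint1`, `hint2` = (G3) (reduction preserves integrality over `L[x]`, `L[1/x]`), `hdeg` = the
fundamental inequality, `hgenus` = (G2), `hcart` = (G4) (cartesian lattices). -/
theorem exists_const_mul_pow_of_resF_eq_one (hπ : Function.Surjective π)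
    (hrk : ∀ x ∈ IsLocalRing.maximalIdeal A, ∀ c : A, c ≠ 0 → ∃ j : ℕ, c ∣ x ^ j)
    (hne : ∃ ϖ ∈ IsLocalRing.maximalIdeal A, ϖ ≠ 0)
    (hxF : Transcendental L D.xF) (hxκ : Transcendental k (D.xκ π))
    [FiniteDimensional L⟮D.xF⟯ D.F] [FiniteDimensional k⟮D.xκ π⟯ (D.κ π)]
    [Algebra.IsSeparable k⟮D.xκ π⟯ (D.κ π)]
    (hint1 : ∀ (f : D.F) (hf : f ∈ S.OvValF hπ), IsIntegral (Algebra.adjoin L {D.xF}) f →
      IsIntegral (Algebra.adjoin k {D.xκ π}) (S.resF hπ ⟨f, hf⟩))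
    (hint2 : ∀ (f : D.F) (hf : f ∈ S.OvValF hπ), IsIntegral (Algebra.adjoin L {(D.xF)⁻¹}) f →
      IsIntegral (Algebra.adjoin k {(D.xκ π)⁻¹}) (S.resF hπ ⟨f, hf⟩))
    (hdeg : finrank k⟮D.xκ π⟯ (D.κ π) ≤ finrank L⟮D.xF⟯ D.F)
    (hgenus : genusFF L D.F ≤ genusFF k (D.κ π))
    (hcart : ∀ V : Submodule L D.F, FiniteDimensional L V → ∀ Λ : Submodule A D.F,
      (∀ f, f ∈ Λ ↔ f ∈ V ∧ f ∈ S.OvValF hπ) → Λ.FG)
    {m : ℕ} (hm : IsUnit ((m : ℕ) : A)) {z : D.F} (hz : z ≠ 0)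
    (hdiv : ∀ P : Place L D.F, (m : ℤ) ∣ P.ord z)
    (hzO : z ∈ S.OvValF hπ) (hz1 : S.resF hπ ⟨z, hzO⟩ = 1) :
    ∃ (c : L) (w : D.F), z = algebraMap L D.F c * w ^ m :=
  exists_const_mul_pow_of_res_eq_one (S.redSetup hπ hrk hne) hxF (S.xF_mem_OvValF hπ)
    (S.resF_xF hπ) hxκ hint1 hint2 hdeg hgenus
    (fun V hV => hcart V hV _ (fun _ => Iff.rfl)) hm hz hdiv hzO hz1

/-- **(C0)** for any intermediate field `F'` equal to `D.F`, in the shape of
`Kummer.KummerRedInj` (the statement consumed by `Kummer1`). -/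
theorem kummerRedInj_of_eq (F' : IntermediateField L (LaurentSeries L)) (hF' : F' = D.F)
    (hπ : Function.Surjective π)
    (hrk : ∀ x ∈ IsLocalRing.maximalIdeal A, ∀ c : A, c ≠ 0 → ∃ j : ℕ, c ∣ x ^ j)
    (hne : ∃ ϖ ∈ IsLocalRing.maximalIdeal A, ϖ ≠ 0)
    (hxF : Transcendental L D.xF) (hxκ : Transcendental k (D.xκ π))
    [FiniteDimensional L⟮D.xF⟯ D.F] [FiniteDimensional k⟮D.xκ π⟯ (D.κ π)]
    [Algebra.IsSeparable k⟮D.xκ π⟯ (D.κ π)]
    (hint1 : ∀ (f : D.F) (hf : f ∈ S.OvValF hπ), IsIntegral (Algebra.adjoin L {D.xF}) f →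
      IsIntegral (Algebra.adjoin k {D.xκ π}) (S.resF hπ ⟨f, hf⟩))
    (hint2 : ∀ (f : D.F) (hf : f ∈ S.OvValF hπ), IsIntegral (Algebra.adjoin L {(D.xF)⁻¹}) f →
      IsIntegral (Algebra.adjoin k {(D.xκ π)⁻¹}) (S.resF hπ ⟨f, hf⟩))
    (hdeg : finrank k⟮D.xκ π⟯ (D.κ π) ≤ finrank L⟮D.xF⟯ D.F)
    (hgenus : genusFF L D.F ≤ genusFF k (D.κ π))
    (hcart : ∀ V : Submodule L D.F, FiniteDimensional L V → ∀ Λ : Submodule A D.F,
      (∀ f, f ∈ Λ ↔ f ∈ V ∧ f ∈ S.OvValF hπ) → Λ.FG)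
    {m : ℕ} (hm : IsUnit ((m : ℕ) : A)) :
    ∀ z : F', z ≠ 0 → (∀ P : Place L F', (m : ℤ) ∣ P.ord z) →
      RedRel A π F' (z : LaurentSeries L) 1 →
      ∃ (c : L) (w : F'), z = algebraMap L F' c * w ^ m := by
  subst hF'
  intro z hz hdiv hred
  obtain ⟨hzO, hzr⟩ := hred.mem_Ov_and_redV
  exact S.exists_const_mul_pow_of_resF_eq_one hπ hrk hne hxF hxκ hint1 hint2 hdeg hgenus hcart
    hm hz hdiv hzO (Subtype.ext hzr)

end C0

/-! ### (Hnorm) -/

include S in
/-- **(Hnorm)** for any intermediate field `F'` equal to `D.F`, in the shape of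
`Kummer.GaussNormalisable`. -/
theorem gaussNormalisable_of_eq (F' : IntermediateField L (LaurentSeries L)) (hF' : F' = D.F) :
    ∀ u : F', u ≠ 0 → ∃ c : L, c ≠ 0 ∧ ∃ ū : LaurentSeries k, ū ≠ 0 ∧
      RedRel A π F' (((algebraMap L F' c * u : F')) : LaurentSeries L) ū := by
  subst hF'
  intro u hu
  have hu0 : (u : LaurentSeries L) ≠ 0 := fun h => hu (Subtype.ext h)
  obtain ⟨c, hc, a, b, ha, hb, hra, hrb, hab⟩ := S.exists_integral_ratio u.2 hu0
  refine ⟨c, hc, redA A π a / redA A π b, div_ne_zero hra hrb,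
    ⟨a, b, ha, hb, hrb, ?_, div_mul_cancel₀ _ hrb⟩⟩
  have h1 : (((algebraMap L D.F c * u : D.F)) : LaurentSeries L)
      = HahnSeries.C c * (u : LaurentSeries L) := by
    show ((algebraMap L D.F c : D.F) : LaurentSeries L) * (u : LaurentSeries L) = _
    rw [IntGen.coe_algebraMap_F D]
  show _ * embA A b = embA A a
  rw [h1]
  exact hab

end SpanData

/-! ### the base data for a valuation subring over a rational prime -/

section Prime

variable [Algebra ℚ L] {ℓ : ℕ}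

/-- a valuation subring over `ℓ` is not a field -/
theorem exists_ne_zero_of_liesOverPrime (hℓ : ℓ.Prime) (hA : A.LiesOverPrime ℓ) :
    ∃ ϖ ∈ IsLocalRing.maximalIdeal A, ϖ ≠ 0 := by
  have : CharZero L := algebraRat.charZero L
  refine ⟨⟨(ℓ : L), ?_⟩, ?_, ?_⟩
  · exact (A.valuation_le_one_iff _).mp (le_of_lt ((A.mem_nonunits_iff).mp hA))
  · rw [A.valuation_lt_one_iff]
    exact (A.mem_nonunits_iff).mp hA
  · intro h
    have := congrArg Subtype.val h
    simp only [ZeroMemClass.coe_zero, Nat.cast_eq_zero] at this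
    exact hℓ.ne_zero this

/-- a natural number prime to `ℓ` is a unit of a valuation subring over `ℓ` -/
theorem isUnit_natCast_of_not_dvd (hℓ : ℓ.Prime) (hA : A.LiesOverPrime ℓ) {m : ℕ}
    (hm : ¬ ℓ ∣ m) : IsUnit ((m : ℕ) : A) := by
  have hv : A.valuation ((m : ℤ) : L) = 1 :=
    valuation_intCast_eq_one A hℓ hA (by exact_mod_cast hm)
  have hv' : A.valuation (((m : ℕ) : A) : L) = 1 := by
    simpa using hv
  exact (A.valuation_eq_one_iff _).mpr hv'

end Prime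

namespace SpanData

variable {J : Type*} [Fintype J] [Nonempty J] (S : SpanData π D J)

/-- **(C0)** over a rational prime `ℓ ∤ m`: `kummerRedInj_of_eq` with the base data (`rank_one`,
nontriviality, `m` a unit) discharged for `L / ℚ` algebraic and `A` over `ℓ`. -/
theorem kummerRedInj_of_liesOverPrime [Algebra ℚ L] [Algebra.IsAlgebraic ℚ L] [IsAlgClosed L]
    [IsAlgClosed k] {ℓ : ℕ} (hℓ : ℓ.Prime) (hA : A.LiesOverPrime ℓ)
    (F' : IntermediateField L (LaurentSeries L)) (hF' : F' = D.F)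
    (hπ : Function.Surjective π)
    (hxF : Transcendental L D.xF) (hxκ : Transcendental k (D.xκ π))
    [FiniteDimensional L⟮D.xF⟯ D.F] [FiniteDimensional k⟮D.xκ π⟯ (D.κ π)]
    [Algebra.IsSeparable k⟮D.xκ π⟯ (D.κ π)]
    (hint1 : ∀ (f : D.F) (hf : f ∈ S.OvValF hπ), IsIntegral (Algebra.adjoin L {D.xF}) f →
      IsIntegral (Algebra.adjoin k {D.xκ π}) (S.resF hπ ⟨f, hf⟩))
    (hint2 : ∀ (f : D.F) (hf : f ∈ S.OvValF hπ), IsIntegral (Algebra.adjoin L {(D.xF)⁻¹}) f →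
      IsIntegral (Algebra.adjoin k {(D.xκ π)⁻¹}) (S.resF hπ ⟨f, hf⟩))
    (hdeg : finrank k⟮D.xκ π⟯ (D.κ π) ≤ finrank L⟮D.xF⟯ D.F)
    (hgenus : genusFF L D.F ≤ genusFF k (D.κ π))
    (hcart : ∀ V : Submodule L D.F, FiniteDimensional L V → ∀ Λ : Submodule A D.F,
      (∀ f, f ∈ Λ ↔ f ∈ V ∧ f ∈ S.OvValF hπ) → Λ.FG)
    {m : ℕ} (hm : ¬ ℓ ∣ m) :
    ∀ z : F', z ≠ 0 → (∀ P : Place L F', (m : ℤ) ∣ P.ord z) →
      RedRel A π F' (z : LaurentSeries L) 1 →
      ∃ (c : L) (w : F'), z = algebraMap L F' c * w ^ m :=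
  haveI : CharZero L := algebraRat.charZero L
  S.kummerRedInj_of_eq F' hF' hπ (rank_one_of_isAlgebraic A hℓ hA)
    (exists_ne_zero_of_liesOverPrime hℓ hA) hxF hxκ hint1 hint2 hdeg hgenus hcart
    (isUnit_natCast_of_not_dvd hℓ hA hm)

end SpanData

end Fermat.Agent.S48x.Red1
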