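import Mathlib
import Fermat.Agent.S48x.Red1.C0GenFullG3
import Fermat.Agent.S48x.Red1.CartesianGen

/-!
# P-S48, layer (c): (C0) from `D.Full π`, with (G3) and (G4) discharged

`Full.kummerRedInj_of_sep_genus` : (C0) in the shape of `Kummer.KummerRedInj` for the integrally
generated field `D.F`, from `h : D.Full π`, separability of `κ / k(x̄)` ((R6)) and the genus
inequality ((R8)).  (G3) is `Red1/GaussDataInst`, (G4) is `Red1/CartesianGen` (helper15).
-/

set_option autoImplicit false
set_option linter.unusedSectionVars false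
set_option linter.style.haveILetI false

noncomputable section

namespace Fermat.Agent.S48x.Red1

open Polynomial IntermediateField Module AlgebraicCurve
open Fermat.Agent.Gateway.Red Fermat.Agent.Gateway.GoodRed Fermat.Agent.Gateway.Kummer

variable {L : Type*} [Field L] {A : ValuationSubring L} {k : Type*} [Field k] {π : A →+* k}
  {ι : Type*} {D : IntGen A ι}

namespace IntGen

set_option synthInstance.maxHeartbeats 400000 in
/-- **(G4)** for `h.OvVal`: cartesian lattices. -/
theorem Full.fg_inf_OvVal (h : D.Full π) (hπ : Function.Surjective π)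
    (V : Submodule L D.F) (hV : FiniteDimensional L V) (Λ : Submodule A D.F)
    (hΛ : ∀ f, f ∈ Λ ↔ f ∈ V ∧ f ∈ h.OvVal hπ) : Λ.FG :=
  haveI := h.nonempty_fin
  haveI := hV
  h.spanData.fg_inf_OvValF hπ V Λ hΛ

set_option synthInstance.maxHeartbeats 400000 in
/-- **(C0)** from `D.Full π`, separability of the residue extension and the genus inequality. -/
theorem Full.kummerRedInj_of_sep_genus [Algebra ℚ L] [Algebra.IsAlgebraic ℚ L] [IsAlgClosed L]
    [IsAlgClosed k] (h : D.Full π) (hπ : Function.Surjective π)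
    {ℓ : ℕ} (hℓ : ℓ.Prime) (hA : A.LiesOverPrime ℓ)
    (F' : IntermediateField L (LaurentSeries L)) (hF' : F' = D.F)
    (hsep : Algebra.IsSeparable k⟮D.xκ π⟯ (D.κ π))
    (hgenus : genusFF L D.F ≤ genusFF k (D.κ π))
    {m : ℕ} (hm : ¬ ℓ ∣ m) :
    ∀ z : F', z ≠ 0 → (∀ P : Place L F', (m : ℤ) ∣ P.ord z) →
      RedRel A π F' (z : LaurentSeries L) 1 →
      ∃ (c : L) (w : F'), z = algebraMap L F' c * w ^ m :=
  h.kummerRedInj_of_cart hπ hℓ hA F' hF' hsep hgenus (h.fg_inf_OvVal hπ) hm

end IntGen

end Fermat.Agent.S48x.Red1
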