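import Fermat.Agent.S48x.Red1.CuspFamilyGen
import Fermat.Agent.S48x.Red1.MonomialSpan

/-!
# P-S48, layer (c), (R7): the cusp embeddings of an integrally generated field with full residue
degree

Specialisation of `Red1/CuspFamilyGen` to `D : IntGen A ι` under `h : D.Full π` (helper12):
`ResOnto` comes from (R3) `GaussGen` (`h.spanData`), the IGUSA family is the monomial basis of (R2)
(`h.exponents`), and `[κ : k(x̄)] = [F : L(x)]` is `h.finrank_κ`.  What remains as hypotheses: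

* `he` : the generators are integral over `L[x]`;
* `hcard` : there are `[F : L(x)]` cusp embeddings `F → L((z))` over `x`;
* `g, hg, hunit` : every cusp embedding maps the generators to `A`-integral series, with unit
  differences when distinct;
* for the count of poles: `ξ.order = -M`, `ζ : Aˣ` a primitive `M`-th root of unity with
  `twist ζ ξ = ξ` whose reduction is still primitive.

Results: `Full.resOnto`, `Full.persists_cuspEmb` (Q4)+(Q3), `Full.redCuspEmb` with
`Full.redCuspEmb_bijective`, `Full.redCuspEmb_rot`, and `Full.card_poles_le`.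
-/

set_option autoImplicit false
set_option linter.unusedSectionVars false
set_option linter.style.haveILetI false

noncomputable section

namespace Fermat.Agent.S48x.Red1

open Polynomial IntermediateField AlgebraicCurve
open Fermat.Agent.Gateway.Red Fermat.Agent.Gateway.GoodRed

variable {L : Type*} [Field L] {A : ValuationSubring L} {k : Type*} [Field k] {π : A →+* k}
  {ι : Type*} {D : IntGen A ι}

namespace IntGen

/-! ### monomials -/

theorem monoF_eq_prod (μ : ι →₀ ℕ) : D.monoF μ = μ.prod fun i m => D.eF i ^ m := by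
  apply Subtype.ext
  rw [coe_monoF, embA_mono]
  show _ = D.F.val (μ.prod fun i m => D.eF i ^ m)
  rw [map_finsuppProd]
  refine Finsupp.prod_congr fun i _ => ?_
  rw [map_pow]
  rfl

theorem isIntegral_monoF {R : Type*} [CommRing R] [Algebra R D.F]
    (he : ∀ i, IsIntegral R (D.eF i)) (μ : ι →₀ ℕ) : IsIntegral R (D.monoF μ) := by
  rw [monoF_eq_prod]
  exact IsIntegral.prod _ fun i _ => (he i).pow _

theorem map_monoF_mem_intLS (s : D.F →+* LaurentSeries L) (hs : ∀ i, s (D.eF i) ∈ intLS A)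
    (μ : ι →₀ ℕ) : s (D.monoF μ) ∈ intLS A := by
  rw [monoF_eq_prod, map_finsuppProd]
  refine Subring.prod_mem _ fun i _ => ?_
  show s (D.eF i ^ μ i) ∈ intLS A
  rw [map_pow]
  exact Subring.pow_mem _ (hs i) _

/-! ### (R3) ⇒ `ResOnto` -/

/-- the Gauss reduction maps `Ov A π D.F` onto `D.κ π`. -/
theorem Full.resOnto (h : D.Full π) (hπ : Function.Surjective π) :
    ResOnto A π D.F (D.κ π) :=
  have := h.nonempty_fin
  ⟨fun f => h.spanData.redV_mem_κ hπ f, fun y => redV_surjective_κ (D := D) hπ y.2⟩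

/-! ### persistence -/

/-- **(Q4) + (Q3) for all cusp embeddings of `D.F`.** -/
theorem Full.persists_cuspEmb [Fintype ι] [Infinite k] (h : D.Full π)
    (hπ : Function.Surjective π) [Algebra.IsSeparable L⟮D.xF⟯ D.F]
    (he : ∀ i, IsIntegral (Algebra.adjoin L {D.xF}) (D.eF i))
    (hcard : Nat.card (CuspEmb D.F D.xF) = Module.finrank L⟮D.xF⟯ D.F)
    (g : CuspEmb D.F D.xF → ι → LaurentSeries A)
    (hg : ∀ s i, s.1 (D.eF i) = embA A (g s i))
    (hunit : ∀ s s' i, g s i ≠ g s' i → IsUnit (g s i - g s' i)) :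
    (∀ s : CuspEmb D.F D.xF, PersistsGen A π D.F s.1) ∧
    (∀ f : D.F, IsIntegral (Algebra.adjoin L {D.xF}) f → f ∈ Ov A π D.F →
      ∀ s : CuspEmb D.F D.xF, s.1 f ∈ intLS A) := by
  haveI := h.finiteDimensional_F
  refine Red1.persists_cuspEmb π hπ D.xF D.ξ (GaussRing.isUnit_of_isUnit_leadingCoeff A D.hlc)
    D.hord rfl hcard D.eF he D.cuspEmb_ext g hg hunit
    (κ' := Fin (Module.finrank L⟮D.xF⟯ D.F)) (Fintype.card_fin _)
    (fun j => D.monoF (h.exponents j)) (fun j => isIntegral_monoF he _)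
    (fun j s => map_monoF_mem_intLS s.1 (fun i => ⟨g s i, (hg s i).symm⟩) _)
    (fun j => D.mono (h.exponents j)) (fun j => rfl) ?_
  intro b hb
  refine h.indepMod_exponents b ?_
  rw [← hb]
  refine Finset.sum_congr rfl fun j _ => ?_
  rw [aeval_eq_pev_field]

/-! ### the reduction of cusp embeddings -/

/-- the reduction `CuspEmb D.F D.xF → CuspEmb (D.κ π) (D.xκ π)`. -/
def Full.redCuspEmb (h : D.Full π) (hπ : Function.Surjective π)
    (hP : ∀ s : CuspEmb D.F D.xF, PersistsGen A π D.F s.1) :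
    CuspEmb D.F D.xF → CuspEmb (D.κ π) (D.xκ π) :=
  Red1.redCuspEmb (h.resOnto hπ) hπ (x := D.xF) (xb := D.xκ π) (ξ := D.ξ) rfl rfl hP

theorem Full.redCuspEmb_res (h : D.Full π) (hπ : Function.Surjective π)
    (hP : ∀ s : CuspEmb D.F D.xF, PersistsGen A π D.F s.1) (s : CuspEmb D.F D.xF)
    (f : Ov A π D.F) :
    (h.redCuspEmb hπ hP s).1 ((h.resOnto hπ).res f) =
      gaussRed A π ⟨s.1 f, (hP s).mem f f.2⟩ :=
  Red1.redCuspEmb_res _ hπ rfl rfl hP s f

theorem Full.redCuspEmb_eF (h : D.Full π) (hπ : Function.Surjective π)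
    (hP : ∀ s : CuspEmb D.F D.xF, PersistsGen A π D.F s.1) (s : CuspEmb D.F D.xF) (i : ι)
    {a : LaurentSeries A} (ha : s.1 (D.eF i) = embA A a) :
    (h.redCuspEmb hπ hP s).1 (D.eκ π i) = redA A π a := by
  have h1 := Red1.redCuspEmb_of_eq_embA (h.resOnto hπ) hπ (x := D.xF) (xb := D.xκ π)
    (ξ := D.ξ) rfl rfl hP s ⟨D.eF i, mem_Ov_of_eq_embA (a := D.e i) rfl⟩ ha
  have h2 : (h.resOnto hπ).res ⟨D.eF i, mem_Ov_of_eq_embA (a := D.e i) rfl⟩ = D.eκ π i :=
    Subtype.ext ((h.resOnto hπ).res_of_eq_embA _ (a := D.e i) rfl)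
  rw [h2] at h1
  exact h1

theorem Full.redCuspEmb_incl (h : D.Full π) (hπ : Function.Surjective π)
    (hP : ∀ s : CuspEmb D.F D.xF, PersistsGen A π D.F s.1) :
    h.redCuspEmb hπ hP (CuspEmb.incl D.F D.xF) = CuspEmb.incl (D.κ π) (D.xκ π) :=
  Red1.redCuspEmb_incl _ hπ rfl rfl hP

theorem Full.redCuspEmb_rot (h : D.Full π) (hπ : Function.Surjective π)
    (hP : ∀ s : CuspEmb D.F D.xF, PersistsGen A π D.F s.1) (ζ : Aˣ)
    (hζ : Fermat.Agent.S28.twist ζ D.ξ = D.ξ) (s : CuspEmb D.F D.xF) :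
    h.redCuspEmb hπ hP
        (CuspEmb.rot (Units.map (A.subtype : A →* L) ζ)
          (twist_coe_x_eq (x := D.xF) (ξ := D.ξ) rfl hζ) s)
      = CuspEmb.rot (Units.map (π : A →* k) ζ)
          (twist_coe_xb_eq (π := π) (xb := D.xκ π) (ξ := D.ξ) rfl hζ)
          (h.redCuspEmb hπ hP s) :=
  Red1.redCuspEmb_rot _ hπ rfl rfl hP ζ hζ s

theorem Full.redCuspEmb_bijective (h : D.Full π) (hπ : Function.Surjective π)
    (hP : ∀ s : CuspEmb D.F D.xF, PersistsGen A π D.F s.1)
    (hcard : Nat.card (CuspEmb D.F D.xF) = Module.finrank L⟮D.xF⟯ D.F)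
    (g : CuspEmb D.F D.xF → ι → LaurentSeries A)
    (hg : ∀ s i, s.1 (D.eF i) = embA A (g s i))
    (hunit : ∀ s s' i, g s i ≠ g s' i → IsUnit (g s i - g s' i)) :
    Function.Bijective (h.redCuspEmb hπ hP) := by
  haveI := h.finiteDimensional_F
  haveI := h.finiteDimensional_κ
  exact Red1.redCuspEmb_bijective _ hπ rfl rfl hP D.eF D.cuspEmb_ext g hg hunit hcard
    h.finrank_κ.le

/-! ### the poles of `x̄` -/

/-- **(R7) for an integrally generated field with full residue degree**: `x̄` has at most as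
many poles in `κ` as `x` has in `F`. -/
theorem Full.card_poles_le [Fintype ι] [Infinite k] (h : D.Full π)
    (hπ : Function.Surjective π) [Algebra.IsSeparable L⟮D.xF⟯ D.F]
    (he : ∀ i, IsIntegral (Algebra.adjoin L {D.xF}) (D.eF i))
    (hcard : Nat.card (CuspEmb D.F D.xF) = Module.finrank L⟮D.xF⟯ D.F)
    (g : CuspEmb D.F D.xF → ι → LaurentSeries A)
    (hg : ∀ s i, s.1 (D.eF i) = embA A (g s i))
    (hunit : ∀ s s' i, g s i ≠ g s' i → IsUnit (g s i - g s' i))
    {M : ℕ} [NeZero M] (hξM : D.ξ.order = -(M : ℤ))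
    (ζ : Aˣ) (hζ : IsPrimitiveRoot ζ M)
    (hζk : IsPrimitiveRoot (Units.map (π : A →* k) ζ) M)
    (hζξ : Fermat.Agent.S28.twist ζ D.ξ = D.ξ) :
    Nat.card {P : Place k (D.κ π) // P.ord (D.xκ π) < 0} ≤
      Nat.card {P : Place L D.F // P.ord D.xF < 0} := by
  haveI := h.finiteDimensional_F
  haveI := h.finiteDimensional_κ
  obtain ⟨hP, -⟩ := h.persists_cuspEmb hπ he hcard g hg hunit
  exact card_poles_le_gen (h.resOnto hπ) hπ (x := D.xF) (xb := D.xκ π) (ξ := D.ξ) rfl rfl hP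
    D.eF D.cuspEmb_ext g hg hunit hcard h.finrank_κ.le hξM D.hlc ζ hζ hζk hζξ

end IntGen

end Fermat.Agent.S48x.Red1
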