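import Fermat.Agent.Gateway.GoodRed.RedFamilyAbstract
import Fermat.Agent.Gateway.GoodRed.CuspAdapter
import Fermat.Agent.Gateway.GoodRed.GaussBar
import Fermat.Agent.Gateway.GoodRed.GaussRing
import Fermat.Agent.Gateway.GoodRed.PolePlaces
import Fermat.Agent.Gateway.GoodRed.Instantiate.CuspPlaces
import Fermat.Agent.S48x.Red1.Setting

/-!
# P-S48, layer (c), (R7): cusp embeddings of an integrally generated field and their reduction

Generic clone of `Gateway/GoodRed/{RedHom,RedFamily,RedEmb}` (helper12).  Setting: `A` a valuation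
subring of `L`, `π : A →+* k`, `F` an intermediate field of `L((z)) / L`, `κ` an intermediate field
of `k((z)) / k`, and the hypothesis `ResOnto A π F κ` (output of (R3) `Red1/GaussGen`): the Gauss
reduction `redV` maps `Ov A π F = F ∩ gaussRing` onto `κ`.

* `PersistsGen`, `redHomGen : κ →+* k((z))`: the reduction of a ring hom `s : F →+* L((z))` which
  maps `Ov` into the Gauss ring compatibly with the reductions; `redHomGen_res`,
  `redHomGen_of_eq_embA`, `redHomGen_algebraMap`, `redHomGen_twist`, `redHomGen_coeff_eq_zero`,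
  `persistsGen_incl`, `redHomGen_incl`.
* `family_persists_gen`: the family form of cusp persistence (wrapper of
  `GoodRed.cusp_family_persistence` with `K := L⟮x⟯`).
* `CuspEmb F x`: the ring homs `F →+* L((z))` which are the identity on the constants and on `x`;
  `CuspEmb.incl`, `CuspEmb.rot`, `finite_cuspEmb`, `card_cuspEmb_le`.
* `redCuspEmb : CuspEmb F x → CuspEmb κ x̄` with `redCuspEmb_res`, `redCuspEmb_incl`,
  `redCuspEmb_rot`, `redCuspEmb_injective`, `redCuspEmb_bijective`.
-/

set_option autoImplicit false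
set_option linter.unusedSectionVars false
set_option linter.style.haveILetI false

noncomputable section

namespace Fermat.Agent.S48x.Red1

open Polynomial IntermediateField Fermat.Agent.Gateway.Red Fermat.Agent.Gateway.GoodRed

/-! ### (A) the reduction of a persisting ring hom -/

section RedHomGen

variable {L : Type*} [Field L] (A : ValuationSubring L) {k : Type*} [Field k] (π : A →+* k)
  (F : IntermediateField L (LaurentSeries L)) (κ : IntermediateField k (LaurentSeries k))

/-- **(R3) output, as a hypothesis**: the Gauss reduction maps `Ov A π F` onto `κ`. -/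
structure ResOnto : Prop where
  mem : ∀ f : Ov A π F, redV A π F f ∈ κ
  surj : ∀ y : κ, ∃ f : Ov A π F, redV A π F f = (y : LaurentSeries k)

/-- a ring hom `s : F → L((z))` *persists* to the residue fields if it maps `Ov` into the Gauss
ring and the kernel of the reduction into the kernel of the reduction. -/
structure PersistsGen (s : F →+* LaurentSeries L) : Prop where
  mem : ∀ f : F, f ∈ Ov A π F → s f ∈ gaussRing A π
  red_eq_zero : ∀ (f : F) (hf : f ∈ Ov A π F),
    redV A π F ⟨f, hf⟩ = 0 → gaussRed A π ⟨s f, mem f hf⟩ = 0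

variable {A π F κ}

/-- the residue map `Ov → κ`. -/
def ResOnto.res (R : ResOnto A π F κ) : Ov A π F →+* κ :=
  (redV A π F).codRestrict κ R.mem

theorem ResOnto.coe_res (R : ResOnto A π F κ) (f : Ov A π F) :
    ((R.res f : κ) : LaurentSeries k) = redV A π F f := rfl

theorem ResOnto.res_surjective (R : ResOnto A π F κ) : Function.Surjective R.res := by
  intro y
  obtain ⟨f, hf⟩ := R.surj y
  exact ⟨f, Subtype.ext hf⟩

theorem ResOnto.res_of_eq_embA (R : ResOnto A π F κ) (f : Ov A π F) {a : LaurentSeries A}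
    (h : ((f : F) : LaurentSeries L) = embA A a) :
    ((R.res f : κ) : LaurentSeries k) = redA A π a := by
  rw [R.coe_res, redV_of_eq_embA A π F f h]

/-- the ring hom `Ov → k((z))`, `f ↦ gaussRed (s f)`. -/
def PersistsGen.pre {s : F →+* LaurentSeries L} (hs : PersistsGen A π F s) :
    Ov A π F →+* LaurentSeries k :=
  (gaussRed A π).comp
    ((s.comp (Ov A π F).subtype).codRestrict (gaussRing A π) fun f => hs.mem f f.2)

theorem PersistsGen.pre_apply {s : F →+* LaurentSeries L} (hs : PersistsGen A π F s)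
    (f : Ov A π F) : hs.pre f = gaussRed A π ⟨s f, hs.mem f f.2⟩ := rfl

/-- **the reduction** `s̄ : κ → k((z))` of a persisting ring hom `s : F → L((z))`. -/
def redHomGen (R : ResOnto A π F κ) {s : F →+* LaurentSeries L} (hs : PersistsGen A π F s) :
    κ →+* LaurentSeries k :=
  RingHom.liftOfSurjective R.res R.res_surjective
    ⟨hs.pre, by
      intro f hf
      rw [RingHom.mem_ker] at hf ⊢
      rw [PersistsGen.pre_apply]
      refine hs.red_eq_zero f f.2 ?_
      have := congrArg Subtype.val hf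
      rwa [R.coe_res] at this⟩

/-- the defining property of `redHomGen`. -/
theorem redHomGen_res (R : ResOnto A π F κ) {s : F →+* LaurentSeries L}
    (hs : PersistsGen A π F s) (f : Ov A π F) :
    redHomGen R hs (R.res f) = gaussRed A π ⟨s f, hs.mem f f.2⟩ :=
  RingHom.liftOfSurjective_comp_apply R.res _ _ f

theorem redHomGen_of_eq_embA (R : ResOnto A π F κ) {s : F →+* LaurentSeries L}
    (hs : PersistsGen A π F s) (f : Ov A π F) {g : LaurentSeries A} (hg : s f = embA A g) :
    redHomGen R hs (R.res f) = redA A π g := by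
  rw [redHomGen_res]
  exact gaussRed_of_eq_embA A π _ hg

theorem redHomGen_congr (R : ResOnto A π F κ) {s s' : F →+* LaurentSeries L} (h : s = s')
    (hs : PersistsGen A π F s) (hs' : PersistsGen A π F s') :
    redHomGen R hs = redHomGen R hs' := by
  subst h
  rfl

/-! #### constants -/

theorem coe_algebraMap_eq_C (F : IntermediateField L (LaurentSeries L)) (c : L) :
    ((algebraMap L F c : F) : LaurentSeries L) = HahnSeries.C c := by
  show algebraMap L (LaurentSeries L) c = HahnSeries.C c
  rw [Fermat.Agent.S28.C_eq_algebraMap_laurent]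

theorem algebraMap_mem_Ov_of_mem (a : A) : algebraMap L F (a : L) ∈ Ov A π F := by
  rw [mem_Ov_iff, coe_algebraMap_eq_C, ← embA_C]
  exact embA_mem_gaussRing A π _

theorem res_algebraMap (R : ResOnto A π F κ) (a : A) :
    R.res ⟨algebraMap L F (a : L), algebraMap_mem_Ov_of_mem a⟩ = algebraMap k κ (π a) := by
  apply Subtype.ext
  rw [R.res_of_eq_embA _ (a := HahnSeries.C a) (by rw [embA_C]; exact coe_algebraMap_eq_C F _),
    redA_C, coe_algebraMap_eq_C]

theorem redHomGen_algebraMap (R : ResOnto A π F κ) (hπ : Function.Surjective π)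
    {s : F →+* LaurentSeries L} (hs : PersistsGen A π F s)
    (hsL : ∀ c : L, s (algebraMap L F c) = HahnSeries.C c) (c : k) :
    redHomGen R hs (algebraMap k κ c) = HahnSeries.C c := by
  obtain ⟨a, rfl⟩ := hπ c
  rw [← res_algebraMap R a, redHomGen_of_eq_embA R hs _ (g := HahnSeries.C a), redA_C]
  rw [embA_C]
  exact hsL _

/-! #### twists -/

theorem PersistsGen.twist {s s' : F →+* LaurentSeries L} (hs : PersistsGen A π F s) (ζ : Aˣ)
    (h : ∀ f, s' f = Fermat.Agent.S28.twist (Units.map (A.subtype : A →* L) ζ) (s f)) :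
    PersistsGen A π F s' where
  mem f hf := by
    rw [h]
    exact GaussRing.twist_mem_gaussRing A π ζ (hs.mem f hf)
  red_eq_zero f hf h0 := by
    have h1 := GaussRing.gaussRed_twist A π ζ (hs.mem f hf)
    rw [hs.red_eq_zero f hf h0, map_zero] at h1
    rw [← h1]
    congr 2
    exact h f

theorem redHomGen_twist (R : ResOnto A π F κ) {s s' : F →+* LaurentSeries L}
    (hs : PersistsGen A π F s) (hs' : PersistsGen A π F s') (ζ : Aˣ)
    (h : ∀ f, s' f = Fermat.Agent.S28.twist (Units.map (A.subtype : A →* L) ζ) (s f)) (y : κ) :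
    redHomGen R hs' y
      = Fermat.Agent.S28.twist (Units.map (π : A →* k) ζ) (redHomGen R hs y) := by
  obtain ⟨f, rfl⟩ := R.res_surjective y
  rw [redHomGen_res, redHomGen_res, ← GaussRing.gaussRed_twist A π ζ (hs.mem f f.2)]
  congr 2
  exact h f

/-! #### the inclusion -/

variable (A π F) in
/-- the inclusion `F ⊆ L((z))` persists. -/
theorem persistsGen_incl : PersistsGen A π F (algebraMap F (LaurentSeries L)) where
  mem _ hf := hf
  red_eq_zero _ _ h0 := h0

theorem redHomGen_incl (R : ResOnto A π F κ)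
    (hs : PersistsGen A π F (algebraMap F (LaurentSeries L))) (y : κ) :
    redHomGen R hs y = (y : LaurentSeries k) := by
  obtain ⟨f, rfl⟩ := R.res_surjective y
  rw [redHomGen_res, R.coe_res, redV_apply]
  rfl

/-! #### coefficients -/

theorem redHomGen_coeff_eq_zero (R : ResOnto A π F κ) {s : F →+* LaurentSeries L}
    (hs : PersistsGen A π F s) (f : Ov A π F) (hint : s f ∈ intLS A) {n : ℤ}
    (hn : (s f).coeff n = 0) : (redHomGen R hs (R.res f)).coeff n = 0 := by
  obtain ⟨g, hg⟩ := hint
  rw [redHomGen_of_eq_embA R hs f hg.symm, redA_coeff]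
  rw [← hg, embA_coeff] at hn
  have : g.coeff n = 0 := Subtype.ext hn
  rw [this, map_zero]

end RedHomGen

/-! ### (B) cusp persistence in family form, for `K = L⟮x⟯ ⊆ F ⊆ L((z))` -/

section Family

variable {L : Type*} [Field L] {A : ValuationSubring L} {k : Type*} [Field k] (π : A →+* k)
  (F : IntermediateField L (LaurentSeries L))

theorem gaussRed_congr_gen {y y' : LaurentSeries L} (h : y = y') (hy : y ∈ gaussRing A π)
    (hy' : y' ∈ gaussRing A π) : gaussRed A π ⟨y, hy⟩ = gaussRed A π ⟨y', hy'⟩ := by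
  subst h
  rfl

theorem isUnit_of_pi_ne_zero (hπ : Function.Surjective π) {a : A} (ha : π a ≠ 0) : IsUnit a := by
  have hmax : (RingHom.ker π).IsMaximal := RingHom.ker_isMaximal_of_surjective π hπ
  have hker : RingHom.ker π = IsLocalRing.maximalIdeal A := IsLocalRing.eq_maximalIdeal hmax
  by_contra hu
  have : a ∈ IsLocalRing.maximalIdeal A := (IsLocalRing.mem_maximalIdeal a).mpr hu
  rw [← hker, RingHom.mem_ker] at this
  exact ha this

variable {F}

/-- an element of `F` whose expansion has a pole is transcendental over `L`. -/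
theorem transcendental_of_coe_order_neg {x : F} (hx : ((x : F) : LaurentSeries L).order < 0) :
    Transcendental L x := by
  have h1 : Transcendental L ((x : F) : LaurentSeries L) :=
    Fermat.Agent.S28.transcendental_of_order_neg hx
  exact (transcendental_algebraMap_iff (algebraMap F (LaurentSeries L)).injective).mp h1

/-- a ring hom `F → L((z))` which is the identity on the constants commutes with `aeval`. -/
theorem map_aeval_of_const (s : F →+* LaurentSeries L)
    (hsL : ∀ c : L, s (algebraMap L F c) = HahnSeries.C c) (x : F) (P : L[X]) :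
    s (aeval x P) = aeval (s x) P := by
  have hc : ∀ c : L, s (algebraMap L F c) = algebraMap L (LaurentSeries L) c := fun c => by
    rw [hsL, Fermat.Agent.S28.C_eq_algebraMap_laurent]
  let τ : F →ₐ[L] LaurentSeries L := { s with commutes' := hc }
  exact (Polynomial.aeval_algHom_apply τ x P).symm

/-- **(S5), abstract family form over `L⟮x⟯ ⊆ F`.** A family `σ i : F →+* L((z))` of
`[F : L(x)]` ring homs which are the identity on the constants and on `x = embA ξ`, which contains
the inclusion, and is separated by `L[x]`-integral elements `y d` with `A`-integral expansions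
having unit differences; an IGUSA family `m μ` (`[F : L(x)]` elements integral over `L[x]`, with
`A`-integral expansions, whose reductions are `k[x̄]`-linearly independent): every member persists
(Q4), and the elements of `Ov` integral over `L[x]` have `A`-integral expansions (Q3). -/
theorem family_persists_gen [Infinite k] (hπ : Function.Surjective π)
    (x : F) [FiniteDimensional L⟮x⟯ F] [Algebra.IsSeparable L⟮x⟯ F]
    (ξ : LaurentSeries A) (hξ : IsUnit ξ) (hξo : ξ.order < 0)
    {ι' : Type*} [Fintype ι'] (σ : ι' → F →+* LaurentSeries L)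
    (hσL : ∀ i (c : L), σ i (algebraMap L F c) = HahnSeries.C c)
    (hσx : ∀ i, σ i x = embA A ξ)
    (hcard : Fintype.card ι' = Module.finrank L⟮x⟯ F)
    {ι : Type*} [Fintype ι] (y : ι → F) (hy : ∀ d, IsIntegral (Algebra.adjoin L {x}) (y d))
    (g : ι' → ι → LaurentSeries A) (hg : ∀ i d, σ i (y d) = embA A (g i d))
    (hsep : ∀ i i', i ≠ i' → ∃ d, g i d ≠ g i' d)
    (hunit : ∀ i i' d, g i d ≠ g i' d → IsUnit (g i d - g i' d))
    {κ' : Type*} [Fintype κ'] (hκ : Fintype.card κ' = Module.finrank L⟮x⟯ F)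
    (m : κ' → F) (hm : ∀ μ, IsIntegral (Algebra.adjoin L {x}) (m μ))
    (hmσ : ∀ μ i, σ i (m μ) ∈ intLS A)
    (i₀ : ι') (hi₀ : σ i₀ = algebraMap F (LaurentSeries L))
    (g₀ : κ' → LaurentSeries A) (hg₀ : ∀ μ, ((m μ : F) : LaurentSeries L) = embA A (g₀ μ))
    (hind : ∀ b : κ' → k[X],
      ∑ μ, aeval (redA A π ξ) (b μ) * redA A π (g₀ μ) = 0 → ∀ μ, b μ = 0) :
    (∀ i, PersistsGen A π F (σ i)) ∧
    (∀ f : F, IsIntegral (Algebra.adjoin L {x}) f → f ∈ Ov A π F → ∀ i, σ i f ∈ intLS A) := by
  classical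
  have hxL : ((x : F) : LaurentSeries L) = embA A ξ := by
    have := hσx i₀
    rwa [hi₀] at this
  have hxtr : Transcendental L x := by
    apply transcendental_of_coe_order_neg
    rw [hxL, embA_order]
    exact hξo
  letI := adjoinPolyAlgebra (L := L) x
  letI := polyAlgebra (L := L) x
  haveI := isFractionRing_poly x hxtr
  haveI := isScalarTower_poly (L := L) x
  have hπu : ∀ a : A, π a ≠ 0 → IsUnit a := fun a ha => isUnit_of_pi_ne_zero π hπ ha
  have hσ : ∀ i (P : L[X]), σ i (algebraMap L[X] F P) = aeval (embA A ξ) P := by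
    intro i P
    rw [polyAlgebra_algebraMap_apply, map_aeval_of_const (σ i) (hσL i), hσx]
  obtain ⟨h1, h2, h3⟩ := cusp_family_persistence (K := L⟮x⟯) (F := F) π hπ hπu ξ hξ hξo σ hσ
    hcard y (fun d => (isIntegral_poly_iff x _).mpr (hy d)) g hg hsep hunit hκ m
    (fun μ => (isIntegral_poly_iff x _).mpr (hm μ)) hmσ i₀ g₀
    (fun μ => by rw [hi₀]; exact hg₀ μ) hind
  have h0 : ∀ f : F, f ∈ Ov A π F → σ i₀ f ∈ gaussRing A π := by
    intro f hf
    rw [hi₀]
    exact hf
  refine ⟨fun i => ⟨fun f hf => h1 f (h0 f hf) i, fun f hf hred => ?_⟩,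
    fun f hf hfO i => h3 f ((isIntegral_poly_iff x f).mpr hf) (h0 f hfO) i⟩
  refine h2 f (h0 f hf) ?_ i _
  rw [← hred, redV_apply]
  exact gaussRed_congr_gen π (by rw [hi₀]; rfl) _ _

end Family

/-! ### (C) cusp embeddings -/

section CuspEmb

variable {K : Type*} [Field K] (F : IntermediateField K (LaurentSeries K)) (x : F)

/-- a cusp embedding of `(F, x)`: a ring hom `F → K((z))` which is the identity on the constants
and on `x`. -/
def IsCuspEmb (s : F →+* LaurentSeries K) : Prop :=
  (∀ c : K, s (algebraMap K F c) = HahnSeries.C c) ∧ s x = ((x : F) : LaurentSeries K)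

/-- the type of cusp embeddings of `(F, x)`. -/
def CuspEmb : Type _ := {s : F →+* LaurentSeries K // IsCuspEmb F x s}

/-- the inclusion `F ⊆ K((z))` as a cusp embedding. -/
def CuspEmb.incl : CuspEmb F x :=
  ⟨algebraMap F (LaurentSeries K), fun c => coe_algebraMap_eq_C F c, rfl⟩

variable {F x}

theorem CuspEmb.map_algebraMap (s : CuspEmb F x) (c : K) :
    s.1 (algebraMap K F c) = HahnSeries.C c := s.2.1 c

theorem CuspEmb.map_x (s : CuspEmb F x) : s.1 x = ((x : F) : LaurentSeries K) := s.2.2

theorem cuspEmb_val_injective : Function.Injective (fun s : CuspEmb F x => s.1) :=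
  Subtype.val_injective

theorem CuspEmb.incl_apply (f : F) : (CuspEmb.incl F x).1 f = (f : LaurentSeries K) := rfl

/-- twisting a cusp embedding by `z ↦ ζ z`, for `ζ` fixing `x`. -/
def twistCuspEmb (ζ : Kˣ) (hζ : Fermat.Agent.S28.twist ζ ((x : F) : LaurentSeries K) = x)
    (s : CuspEmb F x) : CuspEmb F x :=
  ⟨(Fermat.Agent.S28.twist ζ).comp s.1, fun c => by
    show Fermat.Agent.S28.twist ζ (s.1 (algebraMap K F c)) = _
    rw [s.2.1, Fermat.Agent.S28.twist_C], by
    show Fermat.Agent.S28.twist ζ (s.1 x) = _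
    rw [s.2.2, hζ]⟩

theorem twistCuspEmb_apply (ζ : Kˣ)
    (hζ : Fermat.Agent.S28.twist ζ ((x : F) : LaurentSeries K) = x) (s : CuspEmb F x) (f : F) :
    (twistCuspEmb ζ hζ s).1 f = Fermat.Agent.S28.twist ζ (s.1 f) := rfl

theorem twist_inv_eq_self (ζ : Kˣ) {y : LaurentSeries K}
    (h : Fermat.Agent.S28.twist ζ y = y) : Fermat.Agent.S28.twist ζ⁻¹ y = y := by
  conv_lhs => rw [← h]
  rw [Fermat.Agent.S28.twist_twist, inv_mul_cancel, Fermat.Agent.S28.twist_one]

/-- the permutation of the cusp embeddings given by `z ↦ ζ z`. -/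
def CuspEmb.rot (ζ : Kˣ) (hζ : Fermat.Agent.S28.twist ζ ((x : F) : LaurentSeries K) = x) :
    Equiv.Perm (CuspEmb F x) where
  toFun := twistCuspEmb ζ hζ
  invFun := twistCuspEmb ζ⁻¹ (twist_inv_eq_self ζ hζ)
  left_inv s := by
    apply Subtype.ext
    refine RingHom.ext fun f => ?_
    rw [twistCuspEmb_apply, twistCuspEmb_apply, Fermat.Agent.S28.twist_twist, inv_mul_cancel,
      Fermat.Agent.S28.twist_one]
  right_inv s := by
    apply Subtype.ext
    refine RingHom.ext fun f => ?_
    rw [twistCuspEmb_apply, twistCuspEmb_apply, Fermat.Agent.S28.twist_twist, mul_inv_cancel,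
      Fermat.Agent.S28.twist_one]

theorem CuspEmb.rot_apply (ζ : Kˣ)
    (hζ : Fermat.Agent.S28.twist ζ ((x : F) : LaurentSeries K) = x) (s : CuspEmb F x) (f : F) :
    (CuspEmb.rot ζ hζ s).1 f = Fermat.Agent.S28.twist ζ (s.1 f) := rfl

/-- a cusp embedding restricts to the inclusion on `K⟮x⟯`. -/
theorem cuspEmb_apply_of_mem_adjoin (s : CuspEmb F x) {f : F} (hf : f ∈ K⟮x⟯) :
    s.1 f = ((f : F) : LaurentSeries K) := by
  let E : IntermediateField K F :=
    Subfield.toIntermediateField (RingHom.eqLocusField s.1 (algebraMap F (LaurentSeries K)))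
      (fun c => by
        show s.1 (algebraMap K F c) = ((algebraMap K F c : F) : LaurentSeries K)
        rw [s.2.1, coe_algebraMap_eq_C])
  have hle : K⟮x⟯ ≤ E := by
    rw [IntermediateField.adjoin_simple_le_iff]
    exact s.2.2
  exact hle hf

theorem cuspEmb_comp_algebraMap (s : CuspEmb F x) :
    s.1.comp (algebraMap K⟮x⟯ F) =
      (algebraMap F (LaurentSeries K)).comp (algebraMap K⟮x⟯ F) :=
  RingHom.ext fun r => cuspEmb_apply_of_mem_adjoin s r.2

set_option synthInstance.maxHeartbeats 200000 in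
/-- **there are at most `[F : K(x)]` cusp embeddings.** -/
theorem finite_cuspEmb_and_card_le [FiniteDimensional K⟮x⟯ F] :
    Finite (CuspEmb F x) ∧ Nat.card (CuspEmb F x) ≤ Module.finrank K⟮x⟯ F := by
  let τ : K⟮x⟯ →+* LaurentSeries K :=
    (algebraMap F (LaurentSeries K)).comp (algebraMap K⟮x⟯ F)
  letI := τ.toAlgebra
  let φ : CuspEmb F x → (F →ₐ[K⟮x⟯] LaurentSeries K) := fun s =>
    { s.1 with commutes' := fun r => DFunLike.congr_fun (cuspEmb_comp_algebraMap s) r }
  have hφ : Function.Injective φ := by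
    intro s s' h
    apply Subtype.ext
    refine RingHom.ext fun f => ?_
    exact DFunLike.congr_fun h f
  haveI : Finite (F →ₐ[K⟮x⟯] LaurentSeries K) := inferInstance
  exact ⟨Finite.of_injective φ hφ,
    (Nat.card_le_card_of_injective φ hφ).trans (card_algHom_le_finrank K⟮x⟯ F (LaurentSeries K))⟩

theorem finite_cuspEmb [FiniteDimensional K⟮x⟯ F] : Finite (CuspEmb F x) :=
  finite_cuspEmb_and_card_le.1

theorem card_cuspEmb_le [FiniteDimensional K⟮x⟯ F] :
    Nat.card (CuspEmb F x) ≤ Module.finrank K⟮x⟯ F :=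
  finite_cuspEmb_and_card_le.2

end CuspEmb

/-! ### (C') the reduction of cusp embeddings -/

section RedCuspEmb

variable {L : Type*} [Field L] {A : ValuationSubring L} {k : Type*} [Field k] {π : A →+* k}
  {F : IntermediateField L (LaurentSeries L)} {κ : IntermediateField k (LaurentSeries k)}

theorem mem_Ov_of_eq_embA {f : F} {a : LaurentSeries A}
    (h : ((f : F) : LaurentSeries L) = embA A a) : f ∈ Ov A π F := by
  rw [mem_Ov_iff, h]
  exact embA_mem_gaussRing A π a

variable (R : ResOnto A π F κ) (hπ : Function.Surjective π)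
  {x : F} {xb : κ} {ξ : LaurentSeries A}
  (hx : ((x : F) : LaurentSeries L) = embA A ξ)
  (hxb : ((xb : κ) : LaurentSeries k) = redA A π ξ)
  (hP : ∀ s : CuspEmb F x, PersistsGen A π F s.1)

include hxb in
theorem res_x : R.res ⟨x, mem_Ov_of_eq_embA hx⟩ = xb :=
  Subtype.ext (by rw [R.res_of_eq_embA _ hx, hxb])

/-- **the reduction of a cusp embedding** of `(F, x)` to a cusp embedding of `(κ, x̄)`. -/
def redCuspEmb (s : CuspEmb F x) : CuspEmb κ xb :=
  ⟨redHomGen R (hP s), fun c => redHomGen_algebraMap R hπ (hP s) s.2.1 c, by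
    have h := redHomGen_of_eq_embA R (hP s) ⟨x, mem_Ov_of_eq_embA hx⟩ (g := ξ) (s.2.2.trans hx)
    rw [res_x R hx hxb] at h
    rw [h, hxb]⟩

theorem redCuspEmb_val (s : CuspEmb F x) :
    (redCuspEmb R hπ hx hxb hP s).1 = redHomGen R (hP s) := rfl

/-- **compatibility**: `s̄ (res f) = gaussRed (s f)`. -/
theorem redCuspEmb_res (s : CuspEmb F x) (f : Ov A π F) :
    (redCuspEmb R hπ hx hxb hP s).1 (R.res f) = gaussRed A π ⟨s.1 f, (hP s).mem f f.2⟩ :=
  redHomGen_res R _ f

theorem redCuspEmb_of_eq_embA (s : CuspEmb F x) (f : Ov A π F) {g : LaurentSeries A}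
    (hg : s.1 f = embA A g) :
    (redCuspEmb R hπ hx hxb hP s).1 (R.res f) = redA A π g :=
  redHomGen_of_eq_embA R _ f hg

/-- the inclusion reduces to the inclusion. -/
theorem redCuspEmb_incl :
    redCuspEmb R hπ hx hxb hP (CuspEmb.incl F x) = CuspEmb.incl κ xb := by
  apply Subtype.ext
  refine RingHom.ext fun y => ?_
  rw [redCuspEmb_val]
  exact redHomGen_incl R _ y

include hx in
theorem twist_coe_x_eq {ζ : Aˣ} (hζ : Fermat.Agent.S28.twist ζ ξ = ξ) :
    Fermat.Agent.S28.twist (Units.map (A.subtype : A →* L) ζ) ((x : F) : LaurentSeries L) = x := by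
  rw [hx, ← GaussRing.embA_twist, hζ]

include hxb in
theorem twist_coe_xb_eq {ζ : Aˣ} (hζ : Fermat.Agent.S28.twist ζ ξ = ξ) :
    Fermat.Agent.S28.twist (Units.map (π : A →* k) ζ) ((xb : κ) : LaurentSeries k) = xb := by
  rw [hxb, ← GaussRing.redA_twist, hζ]

/-- the reduction commutes with the twists fixing `ξ`. -/
theorem redCuspEmb_rot (ζ : Aˣ) (hζ : Fermat.Agent.S28.twist ζ ξ = ξ) (s : CuspEmb F x) :
    redCuspEmb R hπ hx hxb hP
        (CuspEmb.rot (Units.map (A.subtype : A →* L) ζ) (twist_coe_x_eq hx hζ) s)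
      = CuspEmb.rot (Units.map (π : A →* k) ζ) (twist_coe_xb_eq hxb hζ)
          (redCuspEmb R hπ hx hxb hP s) := by
  apply Subtype.ext
  refine RingHom.ext fun y => ?_
  rw [CuspEmb.rot_apply, redCuspEmb_val, redCuspEmb_val]
  exact redHomGen_twist R _ _ ζ (fun f => rfl) y

/-- (Q5) pole orders do not grow under reduction. -/
theorem redCuspEmb_coeff_eq_zero (s : CuspEmb F x) (f : Ov A π F) (hint : s.1 f ∈ intLS A)
    {n : ℤ} (hn : (s.1 f).coeff n = 0) :
    ((redCuspEmb R hπ hx hxb hP s).1 (R.res f)).coeff n = 0 :=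
  redHomGen_coeff_eq_zero R _ f hint hn

/-- **the reduction of cusp embeddings is injective**, if the cusp embeddings are determined by
their values on a family `e i` on which all of them take `A`-integral values with unit
differences. -/
theorem redCuspEmb_injective {ι : Type*} (e : ι → F)
    (hgen : ∀ s s' : CuspEmb F x, (∀ i, s.1 (e i) = s'.1 (e i)) → s = s')
    (g : CuspEmb F x → ι → LaurentSeries A) (hg : ∀ s i, s.1 (e i) = embA A (g s i))
    (hunit : ∀ s s' i, g s i ≠ g s' i → IsUnit (g s i - g s' i)) :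
    Function.Injective (redCuspEmb R hπ hx hxb hP) := by
  intro s s' h
  apply hgen
  intro i
  have heO : e i ∈ Ov A π F :=
    mem_Ov_of_eq_embA (a := g (CuspEmb.incl F x) i) (hg (CuspEmb.incl F x) i)
  have e1 := redCuspEmb_of_eq_embA R hπ hx hxb hP s ⟨e i, heO⟩ (hg s i)
  have e2 := redCuspEmb_of_eq_embA R hπ hx hxb hP s' ⟨e i, heO⟩ (hg s' i)
  rw [h] at e1
  by_cases hne : g s i = g s' i
  · rw [hg, hg, hne]
  · exfalso
    have hu := (hunit s s' i hne).map (redA A π)
    rw [map_sub, ← e1, ← e2, sub_self] at hu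
    exact not_isUnit_zero hu

/-- **the reduction of cusp embeddings is bijective**, if moreover there are `[F : L(x)]` cusp
embeddings over `L` and `[κ : k(x̄)] ≤ [F : L(x)]`. -/
theorem redCuspEmb_bijective [FiniteDimensional L⟮x⟯ F] [FiniteDimensional k⟮xb⟯ κ]
    {ι : Type*} (e : ι → F)
    (hgen : ∀ s s' : CuspEmb F x, (∀ i, s.1 (e i) = s'.1 (e i)) → s = s')
    (g : CuspEmb F x → ι → LaurentSeries A) (hg : ∀ s i, s.1 (e i) = embA A (g s i))
    (hunit : ∀ s s' i, g s i ≠ g s' i → IsUnit (g s i - g s' i))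
    (hcard : Nat.card (CuspEmb F x) = Module.finrank L⟮x⟯ F)
    (hdeg : Module.finrank k⟮xb⟯ κ ≤ Module.finrank L⟮x⟯ F) :
    Function.Bijective (redCuspEmb R hπ hx hxb hP) := by
  haveI : Finite (CuspEmb κ xb) := finite_cuspEmb
  refine (redCuspEmb_injective R hπ hx hxb hP e hgen g hg hunit).bijective_of_nat_card_le ?_
  rw [hcard]
  exact card_cuspEmb_le.trans hdeg

end RedCuspEmb

/-! ### (B') all cusp embeddings persist -/

section PersistsAll

variable {L : Type*} [Field L] {A : ValuationSubring L} {k : Type*} [Field k] (π : A →+* k)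
  {F : IntermediateField L (LaurentSeries L)}

/-- a ring hom with `A`-integral values on a family has `A`-integral values on the subring
generated by the family. -/
theorem mem_intLS_of_mem_closure (s : F →+* LaurentSeries L) {ι : Type*} {e : ι → F}
    (h : ∀ i, s (e i) ∈ intLS A) {f : F} (hf : f ∈ Subring.closure (Set.range e)) :
    s f ∈ intLS A := by
  have hle : Subring.closure (Set.range e) ≤ (intLS A).comap s := by
    rw [Subring.closure_le]
    rintro _ ⟨i, rfl⟩
    exact h i
  exact hle hf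

/-- **(Q4) + (Q3) for the family of all cusp embeddings.** If there are `[F : L(x)]` cusp
embeddings, determined by their values on `L[x]`-integral elements `e i` on which all of them take
`A`-integral values with unit differences, and if there is an IGUSA family `m μ`, then every cusp
embedding persists, and the elements of `Ov` integral over `L[x]` have `A`-integral expansions at
all cusps. -/
theorem persists_cuspEmb [Infinite k] (hπ : Function.Surjective π)
    (x : F) [FiniteDimensional L⟮x⟯ F] [Algebra.IsSeparable L⟮x⟯ F]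
    (ξ : LaurentSeries A) (hξ : IsUnit ξ) (hξo : ξ.order < 0)
    (hx : ((x : F) : LaurentSeries L) = embA A ξ)
    (hcard : Nat.card (CuspEmb F x) = Module.finrank L⟮x⟯ F)
    {ι : Type*} [Fintype ι] (e : ι → F) (he : ∀ i, IsIntegral (Algebra.adjoin L {x}) (e i))
    (hgen : ∀ s s' : CuspEmb F x, (∀ i, s.1 (e i) = s'.1 (e i)) → s = s')
    (g : CuspEmb F x → ι → LaurentSeries A) (hg : ∀ s i, s.1 (e i) = embA A (g s i))
    (hunit : ∀ s s' i, g s i ≠ g s' i → IsUnit (g s i - g s' i))
    {κ' : Type*} [Fintype κ'] (hκ : Fintype.card κ' = Module.finrank L⟮x⟯ F)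
    (m : κ' → F) (hm : ∀ μ, IsIntegral (Algebra.adjoin L {x}) (m μ))
    (hmσ : ∀ μ (s : CuspEmb F x), s.1 (m μ) ∈ intLS A)
    (g₀ : κ' → LaurentSeries A) (hg₀ : ∀ μ, ((m μ : F) : LaurentSeries L) = embA A (g₀ μ))
    (hind : ∀ b : κ' → k[X],
      ∑ μ, aeval (redA A π ξ) (b μ) * redA A π (g₀ μ) = 0 → ∀ μ, b μ = 0) :
    (∀ s : CuspEmb F x, PersistsGen A π F s.1) ∧
    (∀ f : F, IsIntegral (Algebra.adjoin L {x}) f → f ∈ Ov A π F →
      ∀ s : CuspEmb F x, s.1 f ∈ intLS A) := by
  classical
  haveI : Finite (CuspEmb F x) := finite_cuspEmb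
  letI := Fintype.ofFinite (CuspEmb F x)
  have hsep : ∀ s s' : CuspEmb F x, s ≠ s' → ∃ i, g s i ≠ g s' i := by
    intro s s' hne
    by_contra hcon
    simp only [not_exists, not_not] at hcon
    exact hne (hgen s s' fun i => by rw [hg, hg, hcon i])
  exact family_persists_gen π hπ x ξ hξ hξo (fun s : CuspEmb F x => s.1) (fun s => s.2.1)
    (fun s => s.2.2.trans hx) (by rw [← Nat.card_eq_fintype_card]; exact hcard) e he g hg hsep
    hunit hκ m hm hmσ (CuspEmb.incl F x) rfl g₀ hg₀ hind

end PersistsAll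

/-! ### (D) the poles of `x̄` -/

section Poles

open AlgebraicCurve Fermat.Agent.Gateway.GoodRed.PlacesAtInfinity
  Fermat.Agent.Gateway.GoodRed.CuspPlaces

variable {L : Type*} [Field L] {A : ValuationSubring L} {k : Type*} [Field k] {π : A →+* k}
  {F : IntermediateField L (LaurentSeries L)} {κ : IntermediateField k (LaurentSeries k)}

/-- **the places of `F` over `x = ∞` are the twist orbits of the cusp embeddings**, when there are
`[F : K(x)]` of them (`x` of order `-M`, fixed by the twist by a primitive `M`-th root of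
unity). -/
theorem exists_polePlaces_cuspEmb {K : Type*} [Field K]
    {E : IntermediateField K (LaurentSeries K)} (x : E) [FiniteDimensional K⟮x⟯ E]
    {M : ℕ} [NeZero M] (hxM : ((x : E) : LaurentSeries K).order = -(M : ℤ))
    (ζ : Kˣ) (hζ : IsPrimitiveRoot ζ M)
    (hζx : Fermat.Agent.S28.twist ζ ((x : E) : LaurentSeries K) = x)
    (hcard : Module.finrank K⟮x⟯ E ≤ Nat.card (CuspEmb E x)) :
    ∃ pl : CuspEmb E x → Place K E,
      IsPolePlaces (fun s : CuspEmb E x => s.1) (CuspEmb.rot ζ hζx) M x pl := by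
  classical
  haveI : Finite (CuspEmb E x) := finite_cuspEmb
  letI := Fintype.ofFinite (CuspEmb E x)
  obtain ⟨pl, hpl, -⟩ := exists_polePlaces (fun s : CuspEmb E x => s.1) (CuspEmb.rot ζ hζx)
    (fun s c => s.2.1 c) (fun s f => CuspEmb.rot_apply ζ hζx s f) hζ cuspEmb_val_injective x
    ((x : E) : LaurentSeries K) (fun s => s.2.2) hxM
    (by rw [← Nat.card_eq_fintype_card]; exact hcard)
  exact ⟨pl, hpl⟩

/-- **(R7), the deliverable**: `x̄` has at most as many poles in `κ` as `x` has in `F`. -/
theorem card_poles_le_gen (R : ResOnto A π F κ) (hπ : Function.Surjective π)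
    {x : F} {xb : κ} {ξ : LaurentSeries A}
    (hx : ((x : F) : LaurentSeries L) = embA A ξ)
    (hxb : ((xb : κ) : LaurentSeries k) = redA A π ξ)
    (hP : ∀ s : CuspEmb F x, PersistsGen A π F s.1)
    [FiniteDimensional L⟮x⟯ F] [FiniteDimensional k⟮xb⟯ κ]
    {ι : Type*} (e : ι → F)
    (hgen : ∀ s s' : CuspEmb F x, (∀ i, s.1 (e i) = s'.1 (e i)) → s = s')
    (g : CuspEmb F x → ι → LaurentSeries A) (hg : ∀ s i, s.1 (e i) = embA A (g s i))
    (hunit : ∀ s s' i, g s i ≠ g s' i → IsUnit (g s i - g s' i))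
    (hcard : Nat.card (CuspEmb F x) = Module.finrank L⟮x⟯ F)
    (hdeg : Module.finrank k⟮xb⟯ κ ≤ Module.finrank L⟮x⟯ F)
    {M : ℕ} [NeZero M] (hξM : ξ.order = -(M : ℤ)) (hlc : IsUnit ξ.leadingCoeff)
    (ζ : Aˣ) (hζ : IsPrimitiveRoot ζ M) (hζk : IsPrimitiveRoot (Units.map (π : A →* k) ζ) M)
    (hζξ : Fermat.Agent.S28.twist ζ ξ = ξ) :
    Nat.card {P : Place k κ // P.ord xb < 0} ≤ Nat.card {P : Place L F // P.ord x < 0} := by
  classical
  have hbij := redCuspEmb_bijective R hπ hx hxb hP e hgen g hg hunit hcard hdeg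
  haveI : Finite (CuspEmb F x) := finite_cuspEmb
  have hζL : IsPrimitiveRoot (Units.map (A.subtype : A →* L) ζ) M :=
    hζ.map_of_injective (Units.map_injective A.subtype_injective)
  have hcardk : Nat.card (CuspEmb κ xb) = Nat.card (CuspEmb F x) :=
    (Nat.card_congr (Equiv.ofBijective _ hbij)).symm
  obtain ⟨plL, hplL⟩ := exists_polePlaces_cuspEmb x (by rw [hx, embA_order, hξM]) _ hζL
    (twist_coe_x_eq hx hζξ) hcard.ge
  obtain ⟨plk, hplk⟩ := exists_polePlaces_cuspEmb xb
    (by rw [hxb, GaussRing.redA_order_of_isUnit_leadingCoeff A π hlc, hξM]) _ hζk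
    (twist_coe_xb_eq hxb hζξ) (by rw [hcardk, hcard]; exact hdeg)
  exact card_poles_le_of_surjective _ _ M x plL hplL _ _ M xb plk hplk
    (redCuspEmb R hπ hx hxb hP) hbij.2 (fun s => redCuspEmb_rot R hπ hx hxb hP ζ hζξ s)

end Poles

/-! ### The `IntGen` wrapper -/

section IntGenWrapper

open AlgebraicCurve

variable {L : Type*} [Field L] {A : ValuationSubring L} {k : Type*} [Field k] (π : A →+* k)
  {ι : Type*} (D : IntGen A ι)

/-- the cusp embeddings of `D.F` are determined by their values on the generators. -/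
theorem IntGen.cuspEmb_ext (s s' : CuspEmb D.F D.xF) (h : ∀ i, s.1 (D.eF i) = s'.1 (D.eF i)) :
    s = s' := by
  apply Subtype.ext
  have hc : ∀ (t : CuspEmb D.F D.xF) (c : L),
      t.1 (algebraMap L D.F c) = algebraMap L (LaurentSeries L) c := fun t c => by
    rw [t.2.1, Fermat.Agent.S28.C_eq_algebraMap_laurent]
  let φ₁ : D.F →ₐ[L] LaurentSeries L := { s.1 with commutes' := hc s }
  let φ₂ : D.F →ₐ[L] LaurentSeries L := { s'.1 with commutes' := hc s' }
  have hφ : φ₁ = φ₂ := by
    apply IntermediateField.adjoin_algHom_ext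
    rintro y hy
    rcases hy with rfl | ⟨i, rfl⟩
    · exact s.2.2.trans s'.2.2.symm
    · exact h i
  refine RingHom.ext fun f => ?_
  exact DFunLike.congr_fun hφ f

end IntGenWrapper

end Fermat.Agent.S48x.Red1
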