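import Fermat.Agent.S48x.Red1.CuspFamilyFull

/-!
# P-S48, layer (c), (R7'): cusp persistence from full residue degree, without unit differences

`Red1/CuspFamilyFull.Full.card_poles_le` asks for `hunit` (two distinct values of the cusp
embeddings on a generator differ by a unit of `A((z))`) and `he` (the generators are integral over
`L[x]`).  For the ratio generators of the `Γ(M)` / `Γ₁(M)` model `hunit` is FALSE at some primes
`p ∤ M` (numerically: `M = 5`, `p = 11, 31`; `M = 11`, `p = 2, 307`), so it cannot be discharged.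

This file removes both hypotheses (helper2).  Under `h : D.Full π` the monomial basis `b_j` of
(R2) is an orthonormal basis for the Gauss norm: every `f ∈ Ov` is
`c · (∑ P_j(x) b_j) / Q(x)` with `c ∈ A`, `P_j, Q ∈ A[X]`, `Q̄ ≠ 0`, and `red f = 0 ↔ π c = 0`
(`GaussAbstract.exists_normal_form`).  Hence ANY ring hom `s : F → L((z))` which is the identity
on `L` and on `x` and maps the generators into the Gauss ring *persists*:

* `SpanData.persistsGen`, `IntGen.Full.persistsGen`, `IntGen.Full.persists_cuspEmb_of_mem`.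

The injectivity of the reduction of cusp embeddings only needs that the cusp embeddings are
separated by the REDUCTIONS of their values on the generators (rigidity over the residue field):

* `redCuspEmb_injective_of_red`, `redCuspEmb_bijective_of_red`, `card_poles_le_gen_of_red`;
* `IntGen.Full.card_poles_le_of_red` : the deliverable of (R7) in the shape of `hpoles` of
  `GenusLE1Setting`, from `hcard`, `g`, `hg`, the reduced separation `hsep`, and `ζ` only.
-/

set_option autoImplicit false
set_option linter.unusedSectionVars false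
set_option linter.style.haveILetI false

noncomputable section

namespace Fermat.Agent.S48x.Red1

open Polynomial IntermediateField AlgebraicCurve
open Fermat.Agent.Gateway.Red Fermat.Agent.Gateway.GoodRed

variable {L : Type*} [Field L] {A : ValuationSubring L} {k : Type*} [Field k] {π : A →+* k}
  {ι : Type*} {D : IntGen A ι}

/-! ### polynomials in `x` are fixed by every ring hom fixing `L` and `x` -/

namespace IntGen

/-- `P(x)` as an element of `F`, for `P ∈ A[X]`. -/
def pevF (D : IntGen A ι) (P : A[X]) : D.F :=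
  ⟨embA A (pev D.ξ P), by rw [embA_pev]; exact D.pev_x_mem_F _⟩

@[simp] theorem coe_pevF (P : A[X]) :
    ((D.pevF P : D.F) : LaurentSeries L) = embA A (pev D.ξ P) := rfl

theorem pevF_eq_aeval (P : A[X]) : D.pevF P = aeval D.xF (P.map A.subtype) := by
  apply Subtype.ext
  have h := Polynomial.aeval_algHom_apply D.F.val D.xF (P.map A.subtype)
  rw [coe_pevF, embA_pev, ← aeval_eq_pev_field]
  exact h

theorem map_pevF (s : D.F →+* LaurentSeries L)
    (hsL : ∀ c : L, s (algebraMap L D.F c) = HahnSeries.C c)
    (hsx : s D.xF = embA A D.ξ) (P : A[X]) : s (D.pevF P) = embA A (pev D.ξ P) := by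
  rw [pevF_eq_aeval, map_aeval_of_const s hsL, hsx, aeval_eq_pev_field, embA_pev]

end IntGen

/-! ### persistence from an orthonormal spanning family -/

namespace SpanData

variable {J : Type*} [Fintype J] [Nonempty J] (S : SpanData π D J)

/-- **Persistence without unit differences.** A ring hom `s : F → L((z))` which is the identity
on the constants and on `x`, and maps the members of the spanning family `b_j` into the Gauss
ring, maps `Ov` into the Gauss ring and the kernel of the reduction into the kernel of the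
reduction. -/
theorem persistsGen (hπ : Function.Surjective π) (s : D.F →+* LaurentSeries L)
    (hsL : ∀ c : L, s (algebraMap L D.F c) = HahnSeries.C c)
    (hsx : s D.xF = embA A D.ξ)
    (hsb : ∀ j, s ⟨embA A (S.b j), S.mem_F j⟩ ∈ gaussRing A π) :
    PersistsGen A π D.F s := by
  classical
  have hπu : ∀ a : A, π a ≠ 0 → IsUnit a := fun a ha => isUnit_of_map_ne_zero' hπ ha
  have key : ∀ (f : D.F) (hf : f ∈ Ov A π D.F), ∃ hmem : s f ∈ gaussRing A π,
      (redV A π D.F ⟨f, hf⟩ = 0 → gaussRed A π ⟨s f, hmem⟩ = 0) := by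
    intro f hf
    by_cases hf0 : f = 0
    · subst hf0
      have h0 : s 0 ∈ gaussRing A π := by rw [map_zero]; exact zero_mem _
      refine ⟨h0, fun _ => ?_⟩
      have : (⟨s 0, h0⟩ : gaussRing A π) = 0 := Subtype.ext (map_zero s)
      rw [this, map_zero]
    have hfL : ((f : D.F) : LaurentSeries L) ≠ 0 := fun h => hf0 (Subtype.ext h)
    obtain ⟨Q, hQ, P, hrel⟩ := S.span f f.2
    obtain ⟨c, P', Q', hc, hPπ, hQπ, hnf⟩ := exists_normal_form S.indep hfL hQ hrel
    set a : LaurentSeries A := ∑ j, pev D.ξ (P' j) * S.b j with ha_def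
    set d : LaurentSeries A := pev D.ξ Q' with hd_def
    have ha : redA A π a ≠ 0 := S.indep.redA_sum_ne_zero hPπ
    have hd : redA A π d ≠ 0 := S.indep.redA_pev_ne_zero hQπ
    have ha0 : embA A a ≠ 0 := by
      intro h0
      rw [embA_eq_zero_iff] at h0
      exact ha (by rw [h0, map_zero])
    have hd0 : embA A d ≠ 0 := by
      intro h0
      rw [embA_eq_zero_iff] at h0
      exact hd (by rw [h0, map_zero])
    -- the inverses of `a`, `d` lie in the Gauss ring
    have hainv : (embA A a)⁻¹ ∈ gaussRing A π :=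
      inv_mem_gaussRing A π (embA_mem_gaussRing A π a) (by rw [gaussRed_embA]; exact ha)
    have hdinv : (embA A d)⁻¹ ∈ gaussRing A π :=
      inv_mem_gaussRing A π (embA_mem_gaussRing A π d) (by rw [gaussRed_embA]; exact hd)
    -- the constant lies in `A`
    have hCc : (HahnSeries.C c : LaurentSeries L) ∈ gaussRing A π := by
      have : (HahnSeries.C c : LaurentSeries L)
          = ((f : D.F) : LaurentSeries L) * embA A d * (embA A a)⁻¹ := by
        rw [hnf, mul_assoc, mul_inv_cancel₀ ha0, mul_one]
      rw [this]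
      exact mul_mem (mul_mem hf (embA_mem_gaussRing A π d)) hainv
    have hcA : c ∈ A := (hahnC_mem_gaussRing_iff A π hπu c).mp hCc
    -- `red f = 0 → π c = 0`
    have hred : redV A π D.F ⟨f, hf⟩ = 0 → π ⟨c, hcA⟩ = 0 := by
      intro h0
      have hspec := redV_spec A π D.F ⟨f, hf⟩ (a := HahnSeries.C ⟨c, hcA⟩ * a) (b := d) hd
        (by rw [map_mul, embA_C]; exact hnf)
      rw [h0, zero_mul, map_mul, redA_C] at hspec
      rcases mul_eq_zero.mp hspec.symm with h1 | h1
      · exact (map_eq_zero_iff _ HahnSeries.C_injective).mp h1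
      · exact absurd h1 ha
    -- the relation in `F`
    have hrelF : f * D.pevF Q'
        = algebraMap L D.F c * ∑ j, D.pevF (P' j) * ⟨embA A (S.b j), S.mem_F j⟩ := by
      apply Subtype.ext
      have h1 : ((f * D.pevF Q' : D.F) : LaurentSeries L)
          = ((f : D.F) : LaurentSeries L) * embA A d := rfl
      have h2 : ((algebraMap L D.F c * ∑ j, D.pevF (P' j) * ⟨embA A (S.b j), S.mem_F j⟩ : D.F) :
          LaurentSeries L) = HahnSeries.C c * embA A a := by
        have h3 : ((algebraMap L D.F c * ∑ j, D.pevF (P' j) * ⟨embA A (S.b j), S.mem_F j⟩ : D.F) :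
            LaurentSeries L) = ((algebraMap L D.F c : D.F) : LaurentSeries L)
              * D.F.val (∑ j, D.pevF (P' j) * ⟨embA A (S.b j), S.mem_F j⟩) := rfl
        rw [h3, IntGen.coe_algebraMap_F D, map_sum, ha_def, map_sum]
        congr 1
        refine Finset.sum_congr rfl fun j _ => ?_
        rw [map_mul, map_mul]
        rfl
      rw [h1, h2, hnf]
    -- apply `s`
    set t : LaurentSeries L := ∑ j, embA A (pev D.ξ (P' j)) * s ⟨embA A (S.b j), S.mem_F j⟩
      with ht_def
    have ht : t ∈ gaussRing A π :=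
      sum_mem fun j _ => mul_mem (embA_mem_gaussRing A π _) (hsb j)
    have hsrel : s f * embA A d = HahnSeries.C c * t := by
      have h1 := congrArg s hrelF
      rw [map_mul, map_mul, hsL, map_sum, IntGen.map_pevF s hsL hsx] at h1
      rw [h1, ht_def]
      congr 1
      refine Finset.sum_congr rfl fun j _ => ?_
      rw [map_mul, IntGen.map_pevF s hsL hsx]
    have hsf : s f = HahnSeries.C c * t * (embA A d)⁻¹ := by
      rw [← hsrel, mul_assoc, mul_inv_cancel₀ hd0, mul_one]
    have hmem : s f ∈ gaussRing A π := by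
      rw [hsf]
      exact mul_mem (mul_mem hCc ht) hdinv
    refine ⟨hmem, fun h0 => ?_⟩
    have hsplit : (⟨s f, hmem⟩ : gaussRing A π)
        = ⟨HahnSeries.C c, hCc⟩ * ⟨t, ht⟩ * ⟨(embA A d)⁻¹, hdinv⟩ := Subtype.ext hsf
    have hC0 : gaussRed A π ⟨HahnSeries.C c, hCc⟩ = 0 := by
      have := gaussRed_hahnC A π ⟨c, hcA⟩ hCc
      rw [this, hred h0, map_zero]
    rw [hsplit, map_mul, map_mul, hC0, zero_mul, zero_mul]
  exact ⟨fun f hf => (key f hf).1, fun f hf h0 => (key f hf).2 h0⟩

end SpanData

/-! ### the `IntGen` form -/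

namespace IntGen

theorem map_monoF_mem_gaussRing (s : D.F →+* LaurentSeries L)
    (hs : ∀ i, s (D.eF i) ∈ gaussRing A π) (μ : ι →₀ ℕ) : s (D.monoF μ) ∈ gaussRing A π := by
  rw [monoF_eq_prod, map_finsuppProd]
  refine Subring.prod_mem _ fun i _ => ?_
  show s (D.eF i ^ μ i) ∈ gaussRing A π
  rw [map_pow]
  exact Subring.pow_mem _ (hs i) _

/-- **Persistence under `Full`**: a ring hom `F → L((z))` which is the identity on `L` and on `x`
and maps the generators into the Gauss ring persists. -/
theorem Full.persistsGen (h : D.Full π) (hπ : Function.Surjective π)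
    (s : D.F →+* LaurentSeries L)
    (hsL : ∀ c : L, s (algebraMap L D.F c) = HahnSeries.C c)
    (hsx : s D.xF = embA A D.ξ)
    (hse : ∀ i, s (D.eF i) ∈ gaussRing A π) :
    PersistsGen A π D.F s :=
  have := h.nonempty_fin
  h.spanData.persistsGen hπ s hsL hsx fun j =>
    map_monoF_mem_gaussRing s hse (h.exponents j)

/-- all cusp embeddings persist, as soon as they map the generators into the Gauss ring. -/
theorem Full.persists_cuspEmb_of_mem (h : D.Full π) (hπ : Function.Surjective π)
    (hse : ∀ (s : CuspEmb D.F D.xF) (i : ι), s.1 (D.eF i) ∈ gaussRing A π)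
    (s : CuspEmb D.F D.xF) : PersistsGen A π D.F s.1 :=
  h.persistsGen hπ s.1 s.2.1 s.2.2 (hse s)

/-- all cusp embeddings persist, as soon as their values on the generators are `A`-integral. -/
theorem Full.persists_cuspEmb_of_embA (h : D.Full π) (hπ : Function.Surjective π)
    (g : CuspEmb D.F D.xF → ι → LaurentSeries A)
    (hg : ∀ s i, s.1 (D.eF i) = embA A (g s i))
    (s : CuspEmb D.F D.xF) : PersistsGen A π D.F s.1 :=
  h.persists_cuspEmb_of_mem hπ (fun s i => by rw [hg]; exact embA_mem_gaussRing A π _) s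

end IntGen

/-! ### injectivity of the reduction from reduced separation -/

section RedSep

variable {F : IntermediateField L (LaurentSeries L)} {κ : IntermediateField k (LaurentSeries k)}
  (R : ResOnto A π F κ) (hπ : Function.Surjective π)
  {x : F} {xb : κ} {ξ : LaurentSeries A}
  (hx : ((x : F) : LaurentSeries L) = embA A ξ)
  (hxb : ((xb : κ) : LaurentSeries k) = redA A π ξ)
  (hP : ∀ s : CuspEmb F x, PersistsGen A π F s.1)

/-- the reduction of a cusp embedding on (the residue of) an element with `A`-integral value. -/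
theorem redCuspEmb_apply_of_embA {ι' : Type*} (e : ι' → F)
    (g : CuspEmb F x → ι' → LaurentSeries A) (hg : ∀ s i, s.1 (e i) = embA A (g s i))
    (s : CuspEmb F x) (i : ι') :
    (redCuspEmb R hπ hx hxb hP s).1
        (R.res ⟨e i, mem_Ov_of_eq_embA (a := g (CuspEmb.incl F x) i) (hg (CuspEmb.incl F x) i)⟩)
      = redA A π (g s i) :=
  redCuspEmb_of_eq_embA R hπ hx hxb hP s _ (hg s i)

/-- **the reduction of cusp embeddings is injective**, if the cusp embeddings are separated by the
reductions of their (`A`-integral) values on a family `e i`. -/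
theorem redCuspEmb_injective_of_red {ι' : Type*} (e : ι' → F)
    (g : CuspEmb F x → ι' → LaurentSeries A) (hg : ∀ s i, s.1 (e i) = embA A (g s i))
    (hsep : ∀ s s' : CuspEmb F x, (∀ i, redA A π (g s i) = redA A π (g s' i)) → s = s') :
    Function.Injective (redCuspEmb R hπ hx hxb hP) := by
  intro s s' h
  apply hsep
  intro i
  rw [← redCuspEmb_apply_of_embA R hπ hx hxb hP e g hg s i,
    ← redCuspEmb_apply_of_embA R hπ hx hxb hP e g hg s' i, h]

/-- the reduction of cusp embeddings is bijective, if moreover there are `[F : L(x)]` cusp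
embeddings over `L` and `[κ : k(x̄)] ≤ [F : L(x)]`. -/
theorem redCuspEmb_bijective_of_red [FiniteDimensional L⟮x⟯ F] [FiniteDimensional k⟮xb⟯ κ]
    {ι' : Type*} (e : ι' → F)
    (g : CuspEmb F x → ι' → LaurentSeries A) (hg : ∀ s i, s.1 (e i) = embA A (g s i))
    (hsep : ∀ s s' : CuspEmb F x, (∀ i, redA A π (g s i) = redA A π (g s' i)) → s = s')
    (hcard : Nat.card (CuspEmb F x) = Module.finrank L⟮x⟯ F)
    (hdeg : Module.finrank k⟮xb⟯ κ ≤ Module.finrank L⟮x⟯ F) :
    Function.Bijective (redCuspEmb R hπ hx hxb hP) := by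
  haveI : Finite (CuspEmb κ xb) := finite_cuspEmb
  refine (redCuspEmb_injective_of_red R hπ hx hxb hP e g hg hsep).bijective_of_nat_card_le ?_
  rw [hcard]
  exact card_cuspEmb_le.trans hdeg

open Fermat.Agent.Gateway.GoodRed.PlacesAtInfinity Fermat.Agent.Gateway.GoodRed.CuspPlaces in
include R hπ hx hxb hP in
/-- **(R7) with reduced separation**: `x̄` has at most as many poles in `κ` as `x` has in `F`. -/
theorem card_poles_le_gen_of_red
    [FiniteDimensional L⟮x⟯ F] [FiniteDimensional k⟮xb⟯ κ]
    {ι' : Type*} (e : ι' → F)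
    (g : CuspEmb F x → ι' → LaurentSeries A) (hg : ∀ s i, s.1 (e i) = embA A (g s i))
    (hsep : ∀ s s' : CuspEmb F x, (∀ i, redA A π (g s i) = redA A π (g s' i)) → s = s')
    (hcard : Nat.card (CuspEmb F x) = Module.finrank L⟮x⟯ F)
    (hdeg : Module.finrank k⟮xb⟯ κ ≤ Module.finrank L⟮x⟯ F)
    {M : ℕ} [NeZero M] (hξM : ξ.order = -(M : ℤ)) (hlc : IsUnit ξ.leadingCoeff)
    (ζ : Aˣ) (hζ : IsPrimitiveRoot ζ M) (hζk : IsPrimitiveRoot (Units.map (π : A →* k) ζ) M)
    (hζξ : Fermat.Agent.S28.twist ζ ξ = ξ) :
    Nat.card {P : Place k κ // P.ord xb < 0} ≤ Nat.card {P : Place L F // P.ord x < 0} := by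
  classical
  have hbij := redCuspEmb_bijective_of_red R hπ hx hxb hP e g hg hsep hcard hdeg
  haveI : Finite (CuspEmb F x) := finite_cuspEmb
  have hζL : IsPrimitiveRoot (Units.map (A.subtype : A →* L) ζ) M :=
    hζ.map_of_injective (Units.map_injective A.subtype_injective)
  have hcardk : Nat.card (CuspEmb κ xb) = Nat.card (CuspEmb F x) :=
    (Nat.card_congr (Equiv.ofBijective _ hbij)).symm
  obtain ⟨plL, hplL⟩ := exists_polePlaces_cuspEmb x (by rw [hx, embA_order, hξM]) _ hζL
    (twist_coe_x_eq hx hζξ) hcard.ge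
  obtain ⟨plk, hplk⟩ := exists_polePlaces_cuspEmb xb
    (by rw [hxb, GaussRing.redA_order_of_isUnit_leadingCoeff A π hlc, hξM]) _ hζk
    (twist_coe_xb_eq hxb hζξ) (by rw [hcardk, hcard]; exact hdeg)
  exact card_poles_le_of_surjective _ _ M x plL hplL _ _ M xb plk hplk
    (redCuspEmb R hπ hx hxb hP) hbij.2 (fun s => redCuspEmb_rot R hπ hx hxb hP ζ hζξ s)

end RedSep

/-! ### the deliverable -/

namespace IntGen

/-- **(R7) for an integrally generated field with full residue degree, without `he` and
`hunit`**: if there are `[F : L(x)]` cusp embeddings, all of them with `A`-integral values on the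
generators, and separated by the reductions of these values, then `x̄` has at most as many poles in
`κ` as `x` has in `F`. -/
theorem Full.card_poles_le_of_red (h : D.Full π) (hπ : Function.Surjective π)
    (hcard : Nat.card (CuspEmb D.F D.xF) = Module.finrank L⟮D.xF⟯ D.F)
    (g : CuspEmb D.F D.xF → ι → LaurentSeries A)
    (hg : ∀ s i, s.1 (D.eF i) = embA A (g s i))
    (hsep : ∀ s s' : CuspEmb D.F D.xF,
      (∀ i, redA A π (g s i) = redA A π (g s' i)) → s = s')
    {M : ℕ} [NeZero M] (hξM : D.ξ.order = -(M : ℤ))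
    (ζ : Aˣ) (hζ : IsPrimitiveRoot ζ M)
    (hζk : IsPrimitiveRoot (Units.map (π : A →* k) ζ) M)
    (hζξ : Fermat.Agent.S28.twist ζ D.ξ = D.ξ) :
    Nat.card {P : Place k (D.κ π) // P.ord (D.xκ π) < 0} ≤
      Nat.card {P : Place L D.F // P.ord D.xF < 0} := by
  haveI := h.finiteDimensional_F
  haveI := h.finiteDimensional_κ
  exact card_poles_le_gen_of_red (h.resOnto hπ) hπ (x := D.xF) (xb := D.xκ π) (ξ := D.ξ) rfl rfl
    (h.persists_cuspEmb_of_embA hπ g hg) D.eF g hg hsep hcard h.finrank_κ.le hξM D.hlc ζ hζ hζk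
    hζξ

/-- the reduction of cusp embeddings is bijective (same hypotheses). -/
theorem Full.redCuspEmb_bijective_of_red (h : D.Full π) (hπ : Function.Surjective π)
    (hcard : Nat.card (CuspEmb D.F D.xF) = Module.finrank L⟮D.xF⟯ D.F)
    (g : CuspEmb D.F D.xF → ι → LaurentSeries A)
    (hg : ∀ s i, s.1 (D.eF i) = embA A (g s i))
    (hsep : ∀ s s' : CuspEmb D.F D.xF,
      (∀ i, redA A π (g s i) = redA A π (g s' i)) → s = s') :
    Function.Bijective (h.redCuspEmb hπ (h.persists_cuspEmb_of_embA hπ g hg)) := by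
  haveI := h.finiteDimensional_F
  haveI := h.finiteDimensional_κ
  exact Red1.redCuspEmb_bijective_of_red (h.resOnto hπ) hπ rfl rfl _ D.eF g hg hsep hcard
    h.finrank_κ.le


/-- **(R7) from an explicit family of cusp embeddings** (the form used by the instances: `T` = the
cosets `G / H`).  A family `σ t` of `[F : L(x)]` cusp embeddings with `A`-integral values
`g t i` on the generators, separated by the reductions of these values. -/
theorem Full.card_poles_le_of_family (h : D.Full π) (hπ : Function.Surjective π)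
    {T : Type*} [Fintype T] (σ : T → CuspEmb D.F D.xF)
    (hcardT : Fintype.card T = Module.finrank L⟮D.xF⟯ D.F)
    (g : T → ι → LaurentSeries A)
    (hg : ∀ t i, (σ t).1 (D.eF i) = embA A (g t i))
    (hsep : ∀ t t' : T, (∀ i, redA A π (g t i) = redA A π (g t' i)) → t = t')
    {M : ℕ} [NeZero M] (hξM : D.ξ.order = -(M : ℤ))
    (ζ : Aˣ) (hζ : IsPrimitiveRoot ζ M)
    (hζk : IsPrimitiveRoot (Units.map (π : A →* k) ζ) M)
    (hζξ : Fermat.Agent.S28.twist ζ D.ξ = D.ξ) :
    Nat.card {P : Place k (D.κ π) // P.ord (D.xκ π) < 0} ≤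
      Nat.card {P : Place L D.F // P.ord D.xF < 0} := by
  classical
  haveI := h.finiteDimensional_F
  haveI : Finite (CuspEmb D.F D.xF) := finite_cuspEmb
  have hinj : Function.Injective σ := by
    intro t t' htt
    apply hsep
    intro i
    have h1 : embA A (g t i) = embA A (g t' i) := by rw [← hg, ← hg, htt]
    rw [embA_injective A h1]
  have hbij : Function.Bijective σ := by
    refine hinj.bijective_of_nat_card_le ?_
    rw [Nat.card_eq_fintype_card (α := T), hcardT]
    exact card_cuspEmb_le
  let eqv : T ≃ CuspEmb D.F D.xF := Equiv.ofBijective σ hbij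
  have hcard : Nat.card (CuspEmb D.F D.xF) = Module.finrank L⟮D.xF⟯ D.F := by
    rw [← Nat.card_congr eqv, Nat.card_eq_fintype_card (α := T), hcardT]
  refine h.card_poles_le_of_red hπ hcard (fun s i => g (eqv.symm s) i) (fun s i => ?_)
    (fun s s' hss => ?_) hξM ζ hζ hζk hζξ
  · have := hg (eqv.symm s) i
    rwa [show σ (eqv.symm s) = s from eqv.apply_symm_apply s] at this
  · have := hsep (eqv.symm s) (eqv.symm s') hss
    exact eqv.symm.injective this

end IntGen

end Fermat.Agent.S48x.Red1
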