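import Fermat.Agent.S48x.Red1.Setting
import Fermat.Agent.S48x.Red1.FixedFull

/-!
# P-S48, layer (c): `Full` for the fixed fields of a full level datum

`D : IntGen A ι` (the full level field, `D.F / L(x)` Galois with group `G` via `ψ`, residue field
`D.κ π / k(x̄)` with the reduced faithful action `φ` of `G` and `[κ : k(x̄)] ≤ |G|`) and
`D' : IntGen A ι'` with the same base coordinate, `D'.F ⊆ D.F` the fixed field of `H ≤ G`, reduced
generators of `D'` inside `D.κ π` with pointwise stabiliser exactly `H`.  Then `D'.Full π`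
(`full_of_fixed`), in fact with equality `[D'.F : L(x)] = [G : H] = [D'.κ : k(x̄)]`.

The case `H = ⊥`, `D' = D` recovers `D.Full π`; the case of interest is `D'.F = gamma1FieldL`.
Tools: `finrank_eq_relfinrank_lift` (degrees of intermediate fields of `LaurentSeries L` computed
by `IntermediateField.relfinrank` inside the ambient field).
-/

set_option autoImplicit false
set_option linter.unusedSectionVars false

open Module IntermediateField

namespace Fermat.Agent.S48x.Red1.FullFixedInst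

open Fermat.Agent.S48x.Red1 Fermat.Agent.Gateway.Red Fermat.Agent.Gateway.GoodRed

section Rel

variable {F Ω : Type*} [Field F] [Field Ω] [Algebra F Ω]

/-- the degree of an intermediate field `E` of `Ω / F` over a subfield `K' ⊆ E`, computed inside
`Ω`. -/
theorem finrank_eq_relfinrank_lift (E : IntermediateField F Ω) (K' : IntermediateField F E) :
    finrank K' E = relfinrank (lift K') E := by
  have h1 := IntermediateField.finrank_comap (A := lift K') (E.val)
  have h2 : (lift K').comap E.val = K' := by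
    unfold lift
    exact IntermediateField.comap_map E.val K'
  rw [h2, IntermediateField.fieldRange_val] at h1
  exact h1

theorem finrank_adjoin_simple_eq_relfinrank (E : IntermediateField F Ω) (x : E) :
    finrank F⟮x⟯ E = relfinrank F⟮(x : Ω)⟯ E := by
  rw [finrank_eq_relfinrank_lift, lift_adjoin_simple]

/-- the degree of `E` over an intermediate field `T` of `E / K₁`, computed inside `Ω`. -/
theorem finrank_eq_relfinrank_lift_restrictScalars (E : IntermediateField F Ω)
    (K₁ : IntermediateField F E) (T : IntermediateField K₁ E) :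
    finrank T E = relfinrank (lift (T.restrictScalars F)) E := by
  rw [← finrank_eq_relfinrank_lift]
  rfl

end Rel

variable {L : Type*} [Field L] {A : ValuationSubring L} {k : Type*} [Field k] (π : A →+* k)
  {ι ι' : Type*} (D : IntGen A ι) (D' : IntGen A ι')

/-- the generic half: `[D'.F : L(x)] = [G : H]`. -/
theorem finrank_F_eq_index (hξ : D'.ξ = D.ξ) (hF : ∀ j, D'.eL j ∈ D.F)
    {G : Type*} [Group G] [Finite G] [FiniteDimensional L⟮D.xF⟯ D.F]
    (ψ : G →* Gal(D.F/L⟮D.xF⟯)) (hψ : Function.Injective ψ)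
    (hcardF : finrank L⟮D.xF⟯ D.F ≤ Nat.card G) (H : Subgroup G)
    (hfix : ∀ f : D.F, (f : LaurentSeries L) ∈ D'.F ↔ ∀ h ∈ H, ψ h f = f) :
    finrank L⟮D'.xF⟯ D'.F = H.index := by
  have hx : D'.x = D.x := by unfold IntGen.x; rw [hξ]
  have hle : D'.F ≤ D.F := by
    unfold IntGen.F
    rw [IntermediateField.adjoin_le_iff]
    rintro y (rfl | ⟨j, rfl⟩)
    · rw [hx]; exact D.x_mem
    · exact hF j
  set Kx : IntermediateField L (LaurentSeries L) := L⟮D.x⟯ with hKx
  have hKx' : Kx ≤ D'.F := by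
    rw [hKx, IntermediateField.adjoin_simple_le_iff, ← hx]
    exact D'.x_mem
  have ha : finrank L⟮D.xF⟯ D.F = relfinrank Kx D.F :=
    finrank_adjoin_simple_eq_relfinrank D.F D.xF
  have hb : finrank L⟮D'.xF⟯ D'.F = relfinrank Kx D'.F := by
    rw [finrank_adjoin_simple_eq_relfinrank D'.F D'.xF, hKx, ← hx]
    rfl
  -- the fixed field
  set T : IntermediateField L⟮D.xF⟯ D.F := IntermediateField.fixedField (H.map ψ) with hT
  have hc : lift (T.restrictScalars L) = D'.F := by
    ext y
    constructor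
    · rintro ⟨f, hf, rfl⟩
      refine (hfix f).mpr fun h hh => ?_
      exact (IntermediateField.mem_fixedField_iff _ f).mp hf (ψ h) ⟨h, hh, rfl⟩
    · intro hy
      refine ⟨⟨y, hle hy⟩, ?_, rfl⟩
      change (⟨y, hle hy⟩ : D.F) ∈ T
      rw [hT, IntermediateField.mem_fixedField_iff]
      rintro σ ⟨h, hh, rfl⟩
      exact (hfix ⟨y, hle hy⟩).mp hy h hh
  have hd : relfinrank D'.F D.F = Nat.card H := by
    rw [← hc, ← finrank_eq_relfinrank_lift_restrictScalars, hT,
      IntermediateField.finrank_fixedField_eq_card]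
    exact Nat.card_congr (H.equivMapOfInjective ψ hψ).toEquiv.symm
  have he : relfinrank Kx D'.F * relfinrank D'.F D.F = relfinrank Kx D.F :=
    relfinrank_mul_relfinrank hKx' hle
  have hG := (FixedFull.card_eq_finrank_of_card_le ψ hψ hcardF).1
  have h4 : H.index * Nat.card H = Nat.card G := H.index_mul_card
  have hpos : 0 < Nat.card H := Nat.card_pos
  rw [hb]
  apply Nat.eq_of_mul_eq_mul_right hpos
  rw [← hd, he, ← ha, ← hG, hd, h4]

/-- the residue half: `[D'.κ : k(x̄)] = [G : H]`. -/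
theorem finrank_κ_eq_index (hξ : D'.ξ = D.ξ) (hκ : ∀ j, D'.ebar π j ∈ D.κ π)
    {G : Type*} [Group G] [Finite G] [FiniteDimensional k⟮D.xκ π⟯ (D.κ π)]
    (φ : G →* Gal(D.κ π/k⟮D.xκ π⟯)) (hφ : Function.Injective φ)
    (hcardκ : finrank k⟮D.xκ π⟯ (D.κ π) ≤ Nat.card G) (H : Subgroup G)
    (hstab : ∀ g : G, g ∈ H ↔
      ∀ j, φ g ⟨D'.ebar π j, hκ j⟩ = (⟨D'.ebar π j, hκ j⟩ : D.κ π)) :
    finrank k⟮D'.xκ π⟯ (D'.κ π) = H.index := by
  have hx : D'.xbar π = D.xbar π := by unfold IntGen.xbar; rw [hξ]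
  have hle : D'.κ π ≤ D.κ π := by
    unfold IntGen.κ
    rw [IntermediateField.adjoin_le_iff]
    rintro y (rfl | ⟨j, rfl⟩)
    · rw [hx]; exact D.xbar_mem π
    · exact hκ j
  set Kx : IntermediateField k (LaurentSeries k) := k⟮D.xbar π⟯ with hKx
  have hKx' : Kx ≤ D'.κ π := by
    rw [hKx, IntermediateField.adjoin_simple_le_iff, ← hx]
    exact D'.xbar_mem π
  have ha : finrank k⟮D.xκ π⟯ (D.κ π) = relfinrank Kx (D.κ π) :=
    finrank_adjoin_simple_eq_relfinrank (D.κ π) (D.xκ π)
  have hb : finrank k⟮D'.xκ π⟯ (D'.κ π) = relfinrank Kx (D'.κ π) := by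
    rw [finrank_adjoin_simple_eq_relfinrank (D'.κ π) (D'.xκ π), hKx, ← hx]
    rfl
  -- the field generated by the reduced generators
  set S : Set (D.κ π) := Set.range fun j => (⟨D'.ebar π j, hκ j⟩ : D.κ π) with hS
  set T : IntermediateField k⟮D.xκ π⟯ (D.κ π) := IntermediateField.adjoin k⟮D.xκ π⟯ S with hT
  have hTidx : finrank k⟮D.xκ π⟯ T = H.index :=
    FixedFull.finrank_adjoin_eq_index φ hφ hcardκ S H fun g => by
      rw [hstab g]
      constructor
      · rintro h _ ⟨j, rfl⟩
        exact h j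
      · intro h j
        exact h _ ⟨j, rfl⟩
  have hc : lift (T.restrictScalars k) = D'.κ π := by
    rw [hT, IntermediateField.adjoin_adjoin_left, IntermediateField.lift_adjoin]
    unfold IntGen.κ
    congr 1
    ext y
    simp only [Set.image_union, Set.image_singleton, Set.mem_union, Set.mem_singleton_iff,
      Set.mem_image, Set.mem_insert_iff, Set.mem_range]
    constructor
    · rintro (rfl | ⟨s, ⟨j, rfl⟩, rfl⟩)
      · left; exact hx.symm
      · right; exact ⟨j, rfl⟩
    · rintro (rfl | ⟨j, rfl⟩)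
      · left; exact hx
      · right; exact ⟨_, ⟨j, rfl⟩, rfl⟩
  have hd : relfinrank (D'.κ π) (D.κ π) = finrank T (D.κ π) := by
    rw [← hc, ← finrank_eq_relfinrank_lift_restrictScalars]
  have he : relfinrank Kx (D'.κ π) * relfinrank (D'.κ π) (D.κ π) = relfinrank Kx (D.κ π) :=
    relfinrank_mul_relfinrank hKx' hle
  have htower : finrank k⟮D.xκ π⟯ T * finrank T (D.κ π) = finrank k⟮D.xκ π⟯ (D.κ π) :=
    finrank_mul_finrank _ _ _
  have hpos : 0 < finrank T (D.κ π) := finrank_pos
  rw [hb]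
  apply Nat.eq_of_mul_eq_mul_right hpos
  rw [← hd, he, ← ha, hd, ← htower, hTidx]

/-- **`Full` for the fixed field of `H`.** -/
theorem full_of_fixed (hξ : D'.ξ = D.ξ) (hF : ∀ j, D'.eL j ∈ D.F)
    (hκ : ∀ j, D'.ebar π j ∈ D.κ π)
    {G : Type*} [Group G] [Finite G] [FiniteDimensional L⟮D.xF⟯ D.F]
    [FiniteDimensional k⟮D.xκ π⟯ (D.κ π)]
    (ψ : G →* Gal(D.F/L⟮D.xF⟯)) (hψ : Function.Injective ψ)
    (hcardF : finrank L⟮D.xF⟯ D.F ≤ Nat.card G)
    (φ : G →* Gal(D.κ π/k⟮D.xκ π⟯)) (hφ : Function.Injective φ)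
    (hcardκ : finrank k⟮D.xκ π⟯ (D.κ π) ≤ Nat.card G) (H : Subgroup G)
    (hfix : ∀ f : D.F, (f : LaurentSeries L) ∈ D'.F ↔ ∀ h ∈ H, ψ h f = f)
    (hstab : ∀ g : G, g ∈ H ↔
      ∀ j, φ g ⟨D'.ebar π j, hκ j⟩ = (⟨D'.ebar π j, hκ j⟩ : D.κ π)) :
    D'.Full π := by
  have h1 := finrank_F_eq_index D D' hξ hF ψ hψ hcardF H hfix
  have h2 := finrank_κ_eq_index π D D' hξ hκ φ hφ hcardκ H hstab
  have hidx : 0 < H.index := Nat.pos_of_ne_zero H.index_ne_zero_of_finite
  refine ⟨Module.finite_of_finrank_pos (by rw [h1]; exact hidx), ?_⟩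
  rw [h1, h2]

end Fermat.Agent.S48x.Red1.FullFixedInst
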