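import Fermat.Agent.S48x.Red1.CuspPolesGroup
import Fermat.Agent.S48x.Red1.FullFixedInst
import Fermat.Agent.S48x.Red1.Shortcuts
import Fermat.Agent.Gateway.GoodRed.GaussRing

/-!
# P-S48, layer (c): the pole count for the fixed fields of a full level datum

Setting of `Red1/FullFixedInst.full_of_fixed`: `D : IntGen A ι` (full level field, `D.F / L(x)`
Galois with group `G` via `ψ`, residue field `D.κ π / k(x̄)` with the reduced faithful action `φ`),
`D' : IntGen A ι'` with the same base coordinate, `D'.F ⊆ D.F` the fixed field of `H ≤ G`, the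
reduced generators of `D'` inside `D.κ π` with pointwise stabiliser exactly `H`.
Everything lives in the `z`-variable: `ξ` has order `-M`, and an element `u : G` acts on both
sides as the twist `z ↦ ζ z`.

`card_poles_le_of_fixed` : `#{poles of x̄ in D'.κ π} ≤ #{poles of x in D'.F}`.

This is the instance of `Red1/CuspPolesGroup.card_poles_le_of_families` with
`σ g = incl ∘ ψ g |_{D'.F}`, `τ g = incl ∘ φ g |_{D'.κ}`, `u g = u * g`: no persistence of cusp
embeddings, no unit differences, no integrality of generators is needed.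
-/

set_option autoImplicit false
set_option linter.unusedSectionVars false

noncomputable section

namespace Fermat.Agent.S48x.Red1.CuspPolesFixed

open Module IntermediateField AlgebraicCurve
open Fermat.Agent.S48x.Red1 Fermat.Agent.Gateway.Red Fermat.Agent.Gateway.GoodRed
open scoped Fermat.Agent.S48x.Red1.Shortcuts

variable {L : Type*} [Field L] {A : ValuationSubring L} {k : Type*} [Field k] (π : A →+* k)
  {ι ι' : Type*} (D : IntGen A ι) (D' : IntGen A ι')

theorem x_eq (hξ : D'.ξ = D.ξ) : D'.x = D.x := by unfold IntGen.x; rw [hξ]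

theorem xbar_eq (hξ : D'.ξ = D.ξ) : D'.xbar π = D.xbar π := by unfold IntGen.xbar; rw [hξ]

theorem F_le (hξ : D'.ξ = D.ξ) (hF : ∀ j, D'.eL j ∈ D.F) : D'.F ≤ D.F := by
  unfold IntGen.F
  rw [IntermediateField.adjoin_le_iff]
  rintro y (rfl | ⟨j, rfl⟩)
  · rw [x_eq D D' hξ]; exact D.x_mem
  · exact hF j

theorem κ_le (hξ : D'.ξ = D.ξ) (hκ : ∀ j, D'.ebar π j ∈ D.κ π) : D'.κ π ≤ D.κ π := by
  unfold IntGen.κ
  rw [IntermediateField.adjoin_le_iff]
  rintro y (rfl | ⟨j, rfl⟩)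
  · rw [xbar_eq π D D' hξ]; exact D.xbar_mem π
  · exact hκ j

/-! ### restrictions of automorphisms as cusp embeddings -/

section Emb

variable {K : Type*} [Field K] {E E' : IntermediateField K (LaurentSeries K)} (hle : E' ≤ E)
  {x : E} {x' : E'} (hx : ((x' : E') : LaurentSeries K) = ((x : E) : LaurentSeries K))

theorem gal_apply_algebraMap (e : Gal(E/K⟮x⟯)) (c : K) :
    e (algebraMap K E c) = algebraMap K E c := by
  rw [IsScalarTower.algebraMap_apply K K⟮x⟯ E c, e.commutes]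

theorem gal_apply_x (e : Gal(E/K⟮x⟯)) : e x = x := by
  have h := e.commutes (AdjoinSimple.gen K x)
  rwa [AdjoinSimple.algebraMap_gen] at h

/-- the restriction to `E'` of an automorphism of `E / K(x)`, as a cusp embedding of `E'`. -/
def restrictEmb (e : Gal(E/K⟮x⟯)) : CuspEmb E' x' :=
  ⟨(algebraMap E (LaurentSeries K)).comp
      ((e : E →+* E).comp (IntermediateField.inclusion hle).toRingHom), by
    refine ⟨fun c => ?_, ?_⟩
    · show ((e (IntermediateField.inclusion hle (algebraMap K E' c)) : E) : LaurentSeries K) = _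
      rw [AlgHom.commutes, gal_apply_algebraMap, coe_algebraMap_eq_C]
    · show ((e (IntermediateField.inclusion hle x') : E) : LaurentSeries K) = _
      have h1 : IntermediateField.inclusion hle x' = x := Subtype.ext hx
      rw [h1, gal_apply_x, hx]⟩

theorem restrictEmb_apply (e : Gal(E/K⟮x⟯)) (f : E') :
    (restrictEmb hle hx e).1 f = ((e (IntermediateField.inclusion hle f) : E) : LaurentSeries K) :=
  rfl

theorem restrictEmb_eq_iff (e e' : Gal(E/K⟮x⟯)) :
    restrictEmb hle hx e = restrictEmb hle hx e' ↔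
      ∀ f : E, (f : LaurentSeries K) ∈ E' → e f = e' f := by
  constructor
  · intro h f hf
    have h1 := congrArg (fun s : CuspEmb E' x' => s.1 ⟨(f : LaurentSeries K), hf⟩) h
    simp only [restrictEmb_apply] at h1
    have h2 : IntermediateField.inclusion hle ⟨(f : LaurentSeries K), hf⟩ = f := Subtype.ext rfl
    rw [h2] at h1
    exact Subtype.ext h1
  · intro h
    apply Subtype.ext
    refine RingHom.ext fun f => ?_
    show ((e (IntermediateField.inclusion hle f) : E) : LaurentSeries K)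
      = ((e' (IntermediateField.inclusion hle f) : E) : LaurentSeries K)
    rw [h _ f.2]

theorem restrictEmb_mul_of_twist (ζ : Kˣ)
    (hζ : Fermat.Agent.S28.twist ζ ((x' : E') : LaurentSeries K) = x')
    (u e : Gal(E/K⟮x⟯))
    (hu : ∀ f : E, ((u f : E) : LaurentSeries K) = Fermat.Agent.S28.twist ζ (f : LaurentSeries K)) :
    restrictEmb hle hx (u * e) = CuspEmb.rot ζ hζ (restrictEmb hle hx e) := by
  apply Subtype.ext
  refine RingHom.ext fun f => ?_
  rw [CuspEmb.rot_apply, restrictEmb_apply, restrictEmb_apply, AlgEquiv.mul_apply]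
  exact hu _

end Emb

/-! ### the Galois bookkeeping -/

section Galois

variable {G : Type*} [Group G]

theorem inv_apply_apply {E K' : Type*} [Field K'] [Field E] [Algebra K' E]
    (χ : G →* Gal(E/K')) (g : G) (f : E) : χ g⁻¹ (χ g f) = f := by
  have h : χ g⁻¹ (χ g f) = (χ g⁻¹ * χ g) f := rfl
  rw [h, ← map_mul, inv_mul_cancel, map_one]
  rfl

/-- generic side: if `ψ g` and `ψ g'` agree on `D'.F` (the fixed field of `H`), then
`g'⁻¹ g ∈ H`. -/
theorem mem_of_agree_on_F [FiniteDimensional L⟮D.xF⟯ D.F]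
    (ψ : G →* Gal(D.F/L⟮D.xF⟯)) (hψ : Function.Injective ψ) (H : Subgroup G)
    (hfix : ∀ f : D.F, (f : LaurentSeries L) ∈ D'.F ↔ ∀ h ∈ H, ψ h f = f) {g g' : G}
    (h : ∀ f : D.F, (f : LaurentSeries L) ∈ D'.F → ψ g f = ψ g' f) : g'⁻¹ * g ∈ H := by
  have hT : ψ (g'⁻¹ * g) ∈ IntermediateField.fixingSubgroup
      (IntermediateField.fixedField (H.map ψ)) := by
    rw [IntermediateField.mem_fixingSubgroup_iff]
    intro f hf
    have hf' : (f : LaurentSeries L) ∈ D'.F :=
      (hfix f).mpr fun h' hh => (IntermediateField.mem_fixedField_iff _ f).mp hf (ψ h')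
        ⟨h', hh, rfl⟩
    rw [map_mul, AlgEquiv.mul_apply, h f hf', inv_apply_apply]
  rw [IntermediateField.fixingSubgroup_fixedField] at hT
  obtain ⟨h', hh, he⟩ := hT
  rw [← hψ he]
  exact hh

/-- residue side: if `φ g` and `φ g'` agree on the reduced generators of `D'`, then
`g'⁻¹ g ∈ H`. -/
theorem mem_of_agree_on_ebar (hκ : ∀ j, D'.ebar π j ∈ D.κ π)
    (φ : G →* Gal(D.κ π/k⟮D.xκ π⟯)) (H : Subgroup G)
    (hstab : ∀ g : G, g ∈ H ↔
      ∀ j, φ g ⟨D'.ebar π j, hκ j⟩ = (⟨D'.ebar π j, hκ j⟩ : D.κ π)) {g g' : G}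
    (h : ∀ j, φ g ⟨D'.ebar π j, hκ j⟩ = φ g' ⟨D'.ebar π j, hκ j⟩) : g'⁻¹ * g ∈ H := by
  rw [hstab]
  intro j
  rw [map_mul, AlgEquiv.mul_apply, h j, inv_apply_apply]

/-- residue side: `H` fixes `D'.κ π` pointwise. -/
theorem apply_eq_of_mem_κ (hξ : D'.ξ = D.ξ) (hκ : ∀ j, D'.ebar π j ∈ D.κ π)
    (φ : G →* Gal(D.κ π/k⟮D.xκ π⟯)) (H : Subgroup G)
    (hstab : ∀ g : G, g ∈ H ↔
      ∀ j, φ g ⟨D'.ebar π j, hκ j⟩ = (⟨D'.ebar π j, hκ j⟩ : D.κ π)) {h : G} (hh : h ∈ H)
    (y : D.κ π) (hy : (y : LaurentSeries k) ∈ D'.κ π) : φ h y = y := by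
  set T : IntermediateField k⟮D.xκ π⟯ (D.κ π) := IntermediateField.fixedField (H.map φ) with hT
  have hle : D'.κ π ≤ IntermediateField.lift (T.restrictScalars k) := by
    show IntermediateField.adjoin k (insert (D'.xbar π) (Set.range (D'.ebar π))) ≤ _
    rw [IntermediateField.adjoin_le_iff]
    rintro z (rfl | ⟨j, rfl⟩)
    · have e : D'.xbar π = ((D.xκ π : D.κ π) : LaurentSeries k) := xbar_eq π D D' hξ
      rw [e, SetLike.mem_coe, IntermediateField.mem_lift]
      show D.xκ π ∈ T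
      have h1 := T.algebraMap_mem (AdjoinSimple.gen k (D.xκ π))
      rwa [AdjoinSimple.algebraMap_gen] at h1
    · have e : D'.ebar π j = (((⟨D'.ebar π j, hκ j⟩ : D.κ π)) : LaurentSeries k) := rfl
      rw [e, SetLike.mem_coe, IntermediateField.mem_lift]
      show (⟨D'.ebar π j, hκ j⟩ : D.κ π) ∈ T
      rw [hT, IntermediateField.mem_fixedField_iff]
      rintro σ ⟨h', hh', rfl⟩
      exact (hstab h').mp hh' j
  have h1 := hle hy
  have h2 : y ∈ T.restrictScalars k := (IntermediateField.mem_lift y).mp h1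
  have h3 : y ∈ T := h2
  rw [hT, IntermediateField.mem_fixedField_iff] at h3
  exact h3 (φ h) ⟨h, hh, rfl⟩

end Galois

/-! ### the pole count -/

section Main

variable {G : Type*} [Group G]

/-- a family indexed by `G` whose equal members lie in one left coset of `H` has at least
`[G : H]` distinct members. -/
theorem index_le_card_range [Finite G] (H : Subgroup G) {X : Type*} (ρ : G → X)
    (hρ : ∀ g g' : G, ρ g = ρ g' → g'⁻¹ * g ∈ H) : H.index ≤ Nat.card (Set.range ρ) := by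
  have hfin : Finite (Set.range ρ) := (Set.finite_range ρ).to_subtype
  show Nat.card (G ⧸ H) ≤ _
  refine Nat.card_le_card_of_injective
    (fun q : G ⧸ H => (⟨ρ q.out, q.out, rfl⟩ : Set.range ρ)) ?_
  intro q q' hqq
  have h3 : ρ q.out = ρ q'.out := congrArg Subtype.val hqq
  have h4 : ((q'.out : G) : G ⧸ H) = ((q.out : G) : G ⧸ H) :=
    QuotientGroup.eq.mpr (hρ _ _ h3)
  rw [QuotientGroup.out_eq', QuotientGroup.out_eq'] at h4
  exact h4.symm

/-- **The pole inequality for the fixed field of `H`** (instance of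
`card_poles_le_of_families`), in the hypothesis shape of `FullFixedInst.full_of_fixed`, with the
twist data in the `z`-variable as explicit hypotheses. -/
theorem card_poles_le_of_fixed (hξ : D'.ξ = D.ξ) (hF : ∀ j, D'.eL j ∈ D.F)
    (hκ : ∀ j, D'.ebar π j ∈ D.κ π)
    [Finite G] [FiniteDimensional L⟮D.xF⟯ D.F] [FiniteDimensional k⟮D.xκ π⟯ (D.κ π)]
    (ψ : G →* Gal(D.F/L⟮D.xF⟯)) (hψ : Function.Injective ψ)
    (hcardF : finrank L⟮D.xF⟯ D.F ≤ Nat.card G)
    (φ : G →* Gal(D.κ π/k⟮D.xκ π⟯)) (hφ : Function.Injective φ)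
    (hcardκ : finrank k⟮D.xκ π⟯ (D.κ π) ≤ Nat.card G) (H : Subgroup G)
    (hfix : ∀ f : D.F, (f : LaurentSeries L) ∈ D'.F ↔ ∀ h ∈ H, ψ h f = f)
    (hstab : ∀ g : G, g ∈ H ↔
      ∀ j, φ g ⟨D'.ebar π j, hκ j⟩ = (⟨D'.ebar π j, hκ j⟩ : D.κ π))
    {M : ℕ} [NeZero M] (hxM : D.x.order = -(M : ℤ)) (hxbM : (D.xbar π).order = -(M : ℤ))
    (ζL : Lˣ) (hζL : IsPrimitiveRoot ζL M)
    (hζLx : Fermat.Agent.S28.twist ζL D.x = D.x)
    (ζk : kˣ) (hζk : IsPrimitiveRoot ζk M)
    (hζkx : Fermat.Agent.S28.twist ζk (D.xbar π) = D.xbar π)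
    (u₀ : G)
    (huF : ∀ f : D.F, ((ψ u₀ f : D.F) : LaurentSeries L) =
      Fermat.Agent.S28.twist ζL (f : LaurentSeries L))
    (huκ : ∀ y : D.κ π, ((φ u₀ y : D.κ π) : LaurentSeries k) =
      Fermat.Agent.S28.twist ζk (y : LaurentSeries k)) :
    Nat.card {P : Place k (D'.κ π) // P.ord (D'.xκ π) < 0} ≤
      Nat.card {P : Place L D'.F // P.ord D'.xF < 0} := by
  classical
  have hxe : D'.x = D.x := x_eq D D' hξ
  have hxbe : D'.xbar π = D.xbar π := xbar_eq π D D' hξ
  have hleF : D'.F ≤ D.F := F_le D D' hξ hF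
  have hleκ : D'.κ π ≤ D.κ π := κ_le π D D' hξ hκ
  have hxF : ((D'.xF : D'.F) : LaurentSeries L) = ((D.xF : D.F) : LaurentSeries L) := hxe
  have hxκ : ((D'.xκ π : D'.κ π) : LaurentSeries k) = ((D.xκ π : D.κ π) : LaurentSeries k) :=
    hxbe
  have h1 := FullFixedInst.finrank_F_eq_index D D' hξ hF ψ hψ hcardF H hfix
  have h2 := FullFixedInst.finrank_κ_eq_index π D D' hξ hκ φ hφ hcardκ H hstab
  have hidx : 0 < H.index := Nat.pos_of_ne_zero H.index_ne_zero_of_finite
  have hfdF : FiniteDimensional L⟮D'.xF⟯ D'.F :=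
    FiniteDimensional.of_finrank_pos (by rw [h1]; exact hidx)
  have hfdκ : FiniteDimensional k⟮D'.xκ π⟯ (D'.κ π) :=
    FiniteDimensional.of_finrank_pos (by rw [h2]; exact hidx)
  have hζLx' : Fermat.Agent.S28.twist ζL ((D'.xF : D'.F) : LaurentSeries L) = D'.xF := by
    show Fermat.Agent.S28.twist ζL D'.x = D'.x
    rw [hxe]; exact hζLx
  have hζkx' : Fermat.Agent.S28.twist ζk ((D'.xκ π : D'.κ π) : LaurentSeries k) = D'.xκ π := by
    show Fermat.Agent.S28.twist ζk (D'.xbar π) = D'.xbar π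
    rw [hxbe]; exact hζkx
  -- the two families
  set σ : G → CuspEmb D'.F D'.xF := fun g => restrictEmb hleF hxF (ψ g) with hσ
  set τ : G → CuspEmb (D'.κ π) (D'.xκ π) := fun g => restrictEmb hleκ hxκ (φ g) with hτ
  -- equal restrictions force the same coset
  have hσH : ∀ g g' : G, σ g = σ g' → g'⁻¹ * g ∈ H := fun g g' h =>
    mem_of_agree_on_F D D' ψ hψ H hfix ((restrictEmb_eq_iff hleF hxF (ψ g) (ψ g')).mp h)
  have hτH : ∀ g g' : G, τ g = τ g' → g'⁻¹ * g ∈ H := fun g g' h =>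
    mem_of_agree_on_ebar π D D' hκ φ H hstab fun j =>
      (restrictEmb_eq_iff hleκ hxκ (φ g) (φ g')).mp h ⟨D'.ebar π j, hκ j⟩ (D'.ebar_mem π j)
  refine card_poles_le_of_families (D'.xF) (D'.xκ π) (M := M) ?_ ?_ ζL hζL hζLx' ζk hζk hζkx'
    σ τ ?_ ?_ (fun g => u₀ * g) ?_ ?_ ?_
  · show D'.x.order = _
    rw [hxe]; exact hxM
  · show (D'.xbar π).order = _
    rw [hxbe]; exact hxbM
  · rw [h1]; exact index_le_card_range H σ hσH
  · rw [h2]; exact index_le_card_range H τ hτH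
  · intro g
    show restrictEmb hleF hxF (ψ (u₀ * g)) = _
    rw [map_mul]
    exact restrictEmb_mul_of_twist hleF hxF ζL hζLx' (ψ u₀) (ψ g) huF
  · intro g
    show restrictEmb hleκ hxκ (φ (u₀ * g)) = _
    rw [map_mul]
    exact restrictEmb_mul_of_twist hleκ hxκ ζk hζkx' (φ u₀) (φ g) huκ
  · intro g g' h
    have hh : g'⁻¹ * g ∈ H := hσH g g' h
    refine (restrictEmb_eq_iff hleκ hxκ (φ g) (φ g')).mpr fun y hy => ?_
    have h5 : φ g y = φ g' (φ (g'⁻¹ * g) y) := by
      rw [← AlgEquiv.mul_apply, ← map_mul, mul_inv_cancel_left]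
    rw [h5, apply_eq_of_mem_κ π D D' hξ hκ φ H hstab hh y hy]

/-- the same with one root of unity `ζ : Aˣ` whose images in `L` and in `k` are both primitive
`M`-th roots of unity (`M = -ord ξ`), fixing `ξ` under the twist. -/
theorem card_poles_le_of_fixed_unit (hξ : D'.ξ = D.ξ) (hF : ∀ j, D'.eL j ∈ D.F)
    (hκ : ∀ j, D'.ebar π j ∈ D.κ π)
    [Finite G] [FiniteDimensional L⟮D.xF⟯ D.F] [FiniteDimensional k⟮D.xκ π⟯ (D.κ π)]
    (ψ : G →* Gal(D.F/L⟮D.xF⟯)) (hψ : Function.Injective ψ)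
    (hcardF : finrank L⟮D.xF⟯ D.F ≤ Nat.card G)
    (φ : G →* Gal(D.κ π/k⟮D.xκ π⟯)) (hφ : Function.Injective φ)
    (hcardκ : finrank k⟮D.xκ π⟯ (D.κ π) ≤ Nat.card G) (H : Subgroup G)
    (hfix : ∀ f : D.F, (f : LaurentSeries L) ∈ D'.F ↔ ∀ h ∈ H, ψ h f = f)
    (hstab : ∀ g : G, g ∈ H ↔
      ∀ j, φ g ⟨D'.ebar π j, hκ j⟩ = (⟨D'.ebar π j, hκ j⟩ : D.κ π))
    {M : ℕ} [NeZero M] (hξM : D.ξ.order = -(M : ℤ)) (ζ : Aˣ)
    (hζL : IsPrimitiveRoot (Units.map (A.subtype : A →* L) ζ) M)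
    (hζk : IsPrimitiveRoot (Units.map (π : A →* k) ζ) M)
    (hζξ : Fermat.Agent.S28.twist ζ D.ξ = D.ξ)
    (u₀ : G)
    (huF : ∀ f : D.F, ((ψ u₀ f : D.F) : LaurentSeries L) =
      Fermat.Agent.S28.twist (Units.map (A.subtype : A →* L) ζ) (f : LaurentSeries L))
    (huκ : ∀ y : D.κ π, ((φ u₀ y : D.κ π) : LaurentSeries k) =
      Fermat.Agent.S28.twist (Units.map (π : A →* k) ζ) (y : LaurentSeries k)) :
    Nat.card {P : Place k (D'.κ π) // P.ord (D'.xκ π) < 0} ≤
      Nat.card {P : Place L D'.F // P.ord D'.xF < 0} := by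
  refine card_poles_le_of_fixed π D D' hξ hF hκ ψ hψ hcardF φ hφ hcardκ H hfix hstab (M := M)
    ?_ ?_ _ hζL ?_ _ hζk ?_ u₀ huF huκ
  · show (embA A D.ξ).order = _
    rw [GaussRing.order_embA]; exact hξM
  · show (redA A π D.ξ).order = _
    rw [GaussRing.redA_order_of_isUnit_leadingCoeff A π D.hlc]; exact hξM
  · show Fermat.Agent.S28.twist _ (embA A D.ξ) = embA A D.ξ
    rw [← GaussRing.embA_twist, hζξ]
  · show Fermat.Agent.S28.twist _ (redA A π D.ξ) = redA A π D.ξ
    rw [← GaussRing.redA_twist, hζξ]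

end Main

end Fermat.Agent.S48x.Red1.CuspPolesFixed
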