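import Fermat.Agent.S48x.Red1.CuspFamilyGen

/-!
# P-S48, layer (c), (R7), group form: the poles of `x̄` from two families of cusp embeddings

`Red1/CuspFamilyGen.card_poles_le_gen` obtains the reduction map of cusp embeddings from analytic
persistence (`cusp_family_persistence`), which needs unit differences of the conjugates of the
generators.  When the cusp embeddings on both sides are indexed by one set `G` (in the
application: `σ g = incl ∘ g`, `τ g = incl ∘ ḡ` for a finite group `G` acting on `F` and, through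
the decomposition group argument `Red1/DecompGroup`, on `κ`), no persistence is needed:

* `card_poles_le_of_families` : if `σ : G → CuspEmb F x` and `τ : G → CuspEmb κ x̄` are full
  (`[F : L(x)] ≤ #range σ`, `[κ : k(x̄)] ≤ #range τ`), compatible with the twists through one map
  `u : G → G`, and `σ g = σ g' → τ g = τ g'`, then `#{poles of x̄} ≤ #{poles of x}`.
* `CuspEmb.ofAlgEquiv` : the cusp embedding `incl ∘ e` of an automorphism `e` fixing `x`;
  `CuspEmb.ofAlgEquiv_rot`.
-/

set_option autoImplicit false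
set_option linter.unusedSectionVars false
set_option linter.style.haveILetI false

noncomputable section

namespace Fermat.Agent.S48x.Red1

open IntermediateField AlgebraicCurve Module
open Fermat.Agent.Gateway.GoodRed.PlacesAtInfinity Fermat.Agent.Gateway.GoodRed.CuspPlaces

section Aut

variable {K : Type*} [Field K] {F : IntermediateField K (LaurentSeries K)} {x : F}

/-- the cusp embedding `incl ∘ e` of a `K`-automorphism `e` of `F` fixing `x`. -/
def CuspEmb.ofAlgEquiv (e : F ≃ₐ[K] F) (he : e x = x) : CuspEmb F x :=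
  ⟨(algebraMap F (LaurentSeries K)).comp (e : F →+* F), fun c => by
    show ((e (algebraMap K F c) : F) : LaurentSeries K) = _
    rw [e.commutes, coe_algebraMap_eq_C], by
    show ((e x : F) : LaurentSeries K) = _
    rw [he]⟩

theorem CuspEmb.ofAlgEquiv_apply (e : F ≃ₐ[K] F) (he : e x = x) (f : F) :
    (CuspEmb.ofAlgEquiv e he).1 f = ((e f : F) : LaurentSeries K) := rfl

theorem CuspEmb.ofAlgEquiv_injective {e e' : F ≃ₐ[K] F} {he : e x = x} {he' : e' x = x}
    (h : CuspEmb.ofAlgEquiv e he = CuspEmb.ofAlgEquiv e' he') : e = e' := by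
  refine AlgEquiv.ext fun f => Subtype.ext ?_
  have := congrArg (fun s : CuspEmb F x => s.1 f) h
  exact this

/-- if `u` acts on `F` as the twist `z ↦ ζ z`, then `incl ∘ (u ∘ e)` is the twist of
`incl ∘ e`. -/
theorem CuspEmb.ofAlgEquiv_rot (ζ : Kˣ)
    (hζ : Fermat.Agent.S28.twist ζ ((x : F) : LaurentSeries K) = x)
    (u : F ≃ₐ[K] F) (hu : ∀ f : F, ((u f : F) : LaurentSeries K) =
      Fermat.Agent.S28.twist ζ (f : LaurentSeries K))
    (e : F ≃ₐ[K] F) (he : e x = x) (hue : (e.trans u) x = x) :
    CuspEmb.ofAlgEquiv (e.trans u) hue = CuspEmb.rot ζ hζ (CuspEmb.ofAlgEquiv e he) := by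
  apply Subtype.ext
  refine RingHom.ext fun f => ?_
  rw [CuspEmb.rot_apply, CuspEmb.ofAlgEquiv_apply, CuspEmb.ofAlgEquiv_apply]
  exact hu (e f)

end Aut

section Families

variable {L : Type*} [Field L] {k : Type*} [Field k]
  {F : IntermediateField L (LaurentSeries L)} {κ : IntermediateField k (LaurentSeries k)}

/-- a family of cusp embeddings with at least `[F : K(x)]` members contains all of them. -/
theorem surjective_of_finrank_le_card_range {K : Type*} [Field K]
    {E : IntermediateField K (LaurentSeries K)} {x : E} [FiniteDimensional K⟮x⟯ E]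
    {G : Type*} (σ : G → CuspEmb E x)
    (h : finrank K⟮x⟯ E ≤ Nat.card (Set.range σ)) :
    Function.Surjective σ ∧ finrank K⟮x⟯ E ≤ Nat.card (CuspEmb E x) := by
  haveI : Finite (CuspEmb E x) := finite_cuspEmb
  have hinj : Function.Injective (Subtype.val : Set.range σ → CuspEmb E x) :=
    Subtype.val_injective
  have hle : Nat.card (CuspEmb E x) ≤ Nat.card (Set.range σ) := card_cuspEmb_le.trans h
  have hbij := hinj.bijective_of_nat_card_le hle
  refine ⟨fun s => ?_, h.trans (Nat.card_le_card_of_injective _ hinj)⟩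
  obtain ⟨⟨_, g, rfl⟩, rfl⟩ := hbij.2 s
  exact ⟨g, rfl⟩

/-- **(R7), group form.** -/
theorem card_poles_le_of_families {G : Type*}
    (x : F) (xb : κ) [FiniteDimensional L⟮x⟯ F] [FiniteDimensional k⟮xb⟯ κ]
    {M : ℕ} [NeZero M]
    (hxM : ((x : F) : LaurentSeries L).order = -(M : ℤ))
    (hxbM : ((xb : κ) : LaurentSeries k).order = -(M : ℤ))
    (ζL : Lˣ) (hζL : IsPrimitiveRoot ζL M)
    (hζLx : Fermat.Agent.S28.twist ζL ((x : F) : LaurentSeries L) = x)
    (ζk : kˣ) (hζk : IsPrimitiveRoot ζk M)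
    (hζkx : Fermat.Agent.S28.twist ζk ((xb : κ) : LaurentSeries k) = xb)
    (σ : G → CuspEmb F x) (τ : G → CuspEmb κ xb)
    (hcardF : finrank L⟮x⟯ F ≤ Nat.card (Set.range σ))
    (hcardκ : finrank k⟮xb⟯ κ ≤ Nat.card (Set.range τ))
    (u : G → G)
    (hσu : ∀ g, σ (u g) = CuspEmb.rot ζL hζLx (σ g))
    (hτu : ∀ g, τ (u g) = CuspEmb.rot ζk hζkx (τ g))
    (hwd : ∀ g g', σ g = σ g' → τ g = τ g') :
    Nat.card {P : Place k κ // P.ord xb < 0} ≤ Nat.card {P : Place L F // P.ord x < 0} := by
  classical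
  obtain ⟨hσs, hcF⟩ := surjective_of_finrank_le_card_range σ hcardF
  obtain ⟨hτs, hcκ⟩ := surjective_of_finrank_le_card_range τ hcardκ
  haveI : Finite (CuspEmb F x) := finite_cuspEmb
  choose pre hpre using hσs
  let red : CuspEmb F x → CuspEmb κ xb := fun s => τ (pre s)
  have hred : ∀ g, red (σ g) = τ g := fun g => hwd _ _ (hpre (σ g))
  have hsurj : Function.Surjective red := by
    intro t
    obtain ⟨g, rfl⟩ := hτs t
    exact ⟨σ g, hred g⟩
  have hrot : ∀ s, red (CuspEmb.rot ζL hζLx s) = CuspEmb.rot ζk hζkx (red s) := by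
    intro s
    obtain ⟨g, rfl⟩ : ∃ g, σ g = s := ⟨pre s, hpre s⟩
    rw [← hσu, hred, hred, hτu]
  obtain ⟨plL, hplL⟩ := exists_polePlaces_cuspEmb x hxM ζL hζL hζLx hcF
  obtain ⟨plk, hplk⟩ := exists_polePlaces_cuspEmb xb hxbM ζk hζk hζkx hcκ
  exact card_poles_le_of_surjective _ _ M x plL hplL _ _ M xb plk hplk red hsurj hrot

end Families

end Fermat.Agent.S48x.Red1
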