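import Mathlib

/-!
# P-S48, layer (c): the decomposition group argument ("Igusa for the full level field"), abstract

A finite group `G` acts on a commutative ring `R` with invariants `R₀`; `P` is a prime of `R`.
Suppose

* `u • P = P` for some `u : G` (a "transvection": `z ↦ ζ z` preserves the Gauss norm);
* a subgroup `B` (the "Borel") normalises `⟨u⟩`;
* every `g • P` is `b • P` for some `b ∈ B` (all `g • P` lie over one prime of `R^B`: the
  landed Igusa theorem for the `Γ₀`-field);
* the normal closure of `u` is `G` (`SL₂(ℤ/M)` is generated by transvections).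

Then `G` fixes `P` (`smul_eq_of_decomposition`), `P` is the only prime of `R` over `P ∩ R₀`
(`eq_of_under_eq`), and if moreover `G` acts faithfully on `R ⧸ P`, then
`|G| ≤ [Frac (R ⧸ P) : Frac (R₀ ⧸ p)]` (`card_le_finrank`).
-/

set_option autoImplicit false
set_option linter.unusedSectionVars false

open Pointwise

namespace Fermat.Agent.S48x.Red1

section Group

variable {G : Type*} [Group G]

/-- If `G = B · D` (as sets), `u ∈ D`, and `B` normalises `⟨u⟩`, then `D` contains all the
conjugates of `u`. -/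
theorem conj_mem_of_decomposition (D B : Subgroup G) (u : G) (hu : u ∈ D)
    (hBu : ∀ b ∈ B, b * u * b⁻¹ ∈ Subgroup.zpowers u)
    (hDB : ∀ g : G, ∃ d ∈ D, ∃ b ∈ B, g = d * b) (g : G) : g * u * g⁻¹ ∈ D := by
  obtain ⟨d, hd, b, hb, rfl⟩ := hDB g
  have h1 : b * u * b⁻¹ ∈ D := by
    obtain ⟨k, hk⟩ := Subgroup.mem_zpowers_iff.mp (hBu b hb)
    rw [← hk]
    exact D.zpow_mem hu k
  have h2 : d * b * u * (d * b)⁻¹ = d * (b * u * b⁻¹) * d⁻¹ := by group
  rw [h2]
  exact D.mul_mem (D.mul_mem hd h1) (D.inv_mem hd)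

/-- If `G = D · B`, `u ∈ D`, `B` normalises `⟨u⟩` and the normal closure of `u` is `G`, then
`D = G`. -/
theorem eq_top_of_decomposition (D B : Subgroup G) (u : G) (hu : u ∈ D)
    (hBu : ∀ b ∈ B, b * u * b⁻¹ ∈ Subgroup.zpowers u)
    (hDB : ∀ g : G, ∃ d ∈ D, ∃ b ∈ B, g = d * b)
    (hnc : Subgroup.normalClosure {u} = ⊤) : D = ⊤ := by
  rw [eq_top_iff, ← hnc, Subgroup.normalClosure, Subgroup.closure_le]
  intro x hx
  obtain ⟨y, hy, hconj⟩ := Group.mem_conjugatesOfSet_iff.mp hx
  rw [Set.mem_singleton_iff] at hy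
  subst hy
  obtain ⟨g, rfl⟩ := isConj_iff.mp hconj
  exact conj_mem_of_decomposition D B y hu hBu hDB g

end Group

section Ring

variable {G R₀ R : Type*} [Group G] [Finite G] [CommRing R₀] [CommRing R] [Algebra R₀ R]
  [MulSemiringAction G R] [SMulCommClass G R₀ R] [Algebra.IsInvariant R₀ R G]

/-- the hypothesis "every `g • P` is `b • P` with `b ∈ B`" from: all the `g • P` lie over the same
prime of a ring of `B`-invariants `RB`. -/
theorem exists_mem_smul_eq_of_under_eq (P : Ideal R) [P.IsPrime] (B : Subgroup G)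
    (RB : Type*) [CommRing RB] [Algebra RB R] [SMulCommClass B RB R] [Algebra.IsInvariant RB R B]
    (h : ∀ g : G, (g • P).under RB = P.under RB) (g : G) : ∃ b ∈ B, g • P = b • P := by
  have : (g • P).IsPrime := Ideal.IsPrime.smul g
  obtain ⟨b, hb⟩ := Algebra.IsInvariant.exists_smul_of_under_eq RB R B P (g • P) (h g).symm
  exact ⟨b, b.2, hb⟩

/-- **the decomposition group argument**: under the four hypotheses, `G` fixes the prime `P`. -/
theorem smul_eq_of_decomposition (P : Ideal R) [P.IsPrime] (B : Subgroup G) (u : G)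
    (hu : u • P = P) (hBu : ∀ b ∈ B, b * u * b⁻¹ ∈ Subgroup.zpowers u)
    (hB : ∀ g : G, ∃ b ∈ B, g • P = b • P)
    (hnc : Subgroup.normalClosure {u} = ⊤) (g : G) : g • P = P := by
  have hD : MulAction.stabilizer G P = ⊤ := by
    refine eq_top_of_decomposition (MulAction.stabilizer G P) B u
      (MulAction.mem_stabilizer_iff.mpr hu) hBu (fun g => ?_) hnc
    -- `g⁻¹ • P = b • P`, so `b⁻¹ g⁻¹ ∈ D`, `g = (g b) b⁻¹` with `g b ∈ D`
    obtain ⟨b, hb, hgb⟩ := hB g⁻¹
    refine ⟨g * b, ?_, b⁻¹, B.inv_mem hb, by group⟩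
    rw [MulAction.mem_stabilizer_iff, mul_smul, ← hgb, smul_inv_smul]
  have : g ∈ MulAction.stabilizer G P := hD ▸ Subgroup.mem_top g
  exact MulAction.mem_stabilizer_iff.mp this

/-- `P` is then the unique prime of `R` over `P ∩ R₀`. -/
theorem eq_of_under_eq (P : Ideal R) [P.IsPrime] (hP : ∀ g : G, g • P = P)
    (Q : Ideal R) [Q.IsPrime] (hQ : Q.under R₀ = P.under R₀) : Q = P := by
  obtain ⟨g, hg⟩ := Algebra.IsInvariant.exists_smul_of_under_eq R₀ R G P Q hQ.symm
  rw [hg, hP g]

variable (p : Ideal R₀) (P : Ideal R) [P.IsPrime] [P.LiesOver p]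
  (K L : Type*) [Field K] [Field L] [Algebra (R₀ ⧸ p) K] [Algebra (R ⧸ P) L]
  [Algebra (R₀ ⧸ p) L] [IsScalarTower (R₀ ⧸ p) (R ⧸ P) L] [Algebra K L]
  [IsScalarTower (R₀ ⧸ p) K L] [IsFractionRing (R₀ ⧸ p) K] [IsFractionRing (R ⧸ P) L]
  [FiniteDimensional K L]

include p in
omit [Finite G] [Algebra.IsInvariant R₀ R G] [FiniteDimensional K L] in
/-- if `G` fixes `P` and acts faithfully on `R ⧸ P`, then `G` embeds into `Gal(L/K)`. -/
theorem exists_injective_hom (hP : ∀ g : G, g • P = P)
    (hfaith : ∀ g : G, (∀ r : R, g • r - r ∈ P) → g = 1) :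
    ∃ φ : G →* Gal(L/K), Function.Injective φ ∧
      ∀ (g : G) (r : R), φ g (algebraMap (R ⧸ P) L (Ideal.Quotient.mk P r)) =
        algebraMap (R ⧸ P) L (Ideal.Quotient.mk P (g • r)) := by
  have htop : MulAction.stabilizer G P = ⊤ := by
    rw [eq_top_iff]
    intro g _
    exact MulAction.mem_stabilizer_iff.mpr (hP g)
  let e : G →* MulAction.stabilizer G P :=
    { toFun := fun g => ⟨g, htop ▸ Subgroup.mem_top g⟩
      map_one' := rfl
      map_mul' := fun _ _ => rfl }
  refine ⟨(IsFractionRing.stabilizerHom G p P K L).comp e, ?_, fun g r => ?_⟩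
  · rw [injective_iff_map_eq_one]
    intro g hg
    have h1 : e g ∈ (IsFractionRing.stabilizerHom G p P K L).ker := hg
    rw [IsFractionRing.ker_stabilizerHom] at h1
    refine hfaith g fun r => ?_
    have h2 := h1 r
    rwa [MulAction.subgroup_smul_def] at h2
  · exact IsFractionRing.stabilizerHom_apply_apply_mk G p P K L (e g) r

include p in
omit [Algebra.IsInvariant R₀ R G] in
/-- **full residue degree**: if `G` fixes `P` and acts faithfully on `R ⧸ P`, then
`|G| ≤ [L : K]`. -/
theorem card_le_finrank (hP : ∀ g : G, g • P = P)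
    (hfaith : ∀ g : G, (∀ r : R, g • r - r ∈ P) → g = 1) :
    Nat.card G ≤ Module.finrank K L := by
  obtain ⟨φ, hφ, -⟩ := exists_injective_hom p P K L hP hfaith
  calc Nat.card G ≤ Nat.card Gal(L/K) := Nat.card_le_card_of_injective φ hφ
    _ = Fintype.card Gal(L/K) := Nat.card_eq_fintype_card
    _ ≤ Module.finrank K L := AlgEquiv.card_le

end Ring

end Fermat.Agent.S48x.Red1
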