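/-
P-S48, layer (c), (R6)/(R9): the `dist` hypothesis ("only `± 1` fixes all the reduced generators")
of the Igusa theorem for an integrally generated field with a group action, for every integral
generating datum whose generators contain the ratio generators (helper68).

Input: (RIG) over the residue field (`Model/RigidityFinal`, through `Red1/FaithfulRig`).
-/
import Mathlib
import Fermat.Agent.S48x.Red1.FaithfulRig
import Fermat.Agent.S48x.Red1.ModelIntGen

set_option autoImplicit false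
set_option linter.unusedSectionVars false

noncomputable section

namespace Fermat.Agent.S48x.Red1.DistRatio

open Fermat.Agent.S48x.Model Fermat.Agent.S48x.Model.Rigidity
open Fermat.Agent.Gateway.Red Fermat.Agent.Gateway.GoodRed
open Fermat.Agent.S48x.Red1.ModelInt

variable {L : Type*} [Field L] {A : ValuationSubring L} {k : Type*} [Field k] {π : A →+* k}
variable {M : ℕ} [NeZero M]

/-- the quadruple `(v g, w g, v' g, w' g)` as an index. -/
def quadAct (g h : Matrix (Fin 2) (Fin 2) (ZMod M)) (hgh : g * h = 1) (q : Quad M) : Quad M :=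
  ⟨(vecAct g q.1.1, vecAct g q.1.2.1, vecAct g q.1.2.2.1, vecAct g q.1.2.2.2),
    fun h0 => q.2.1 (vecAct_injective hgh (h0.trans (vecAct_zero _).symm)),
    fun h0 => q.2.2.1 (vecAct_injective hgh (h0.trans (vecAct_zero _).symm)),
    fun h0 => q.2.2.2.1 (vecAct_injective hgh (h0.trans (vecAct_zero _).symm)),
    fun h0 => q.2.2.2.2 (vecAct_injective hgh (h0.trans (vecAct_zero _).symm))⟩

/-- **`dist`, matrix form**: if `act g` permutes the ratio generators through the matrix `m`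
(`act g (ratio v w v' w') = ratio (v m) (w m) (v' m) (w' m)`) and `act g` fixes the reductions of
all generators, then `m = ± 1`. -/
theorem mat_eq_one_or_neg_one_of_ebar {ι : Type*} (D : IntGen A ι) (hM : 5 ≤ M)
    (hπ : Function.Surjective π) {ζ : A} (hζ : IsPrimitiveRoot ζ M) (hMk : ((M : ℕ) : k) ≠ 0)
    (qidx : Quad M → ι)
    (hq : ∀ q : Quad M, D.e (qidx q) = ratioA M ζ q.1.1 q.1.2.1 q.1.2.2.1 q.1.2.2.2)
    (σ : D.F ≃ₐ[L] D.F) (m h : Matrix (Fin 2) (Fin 2) (ZMod M)) (hmh : m * h = 1)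
    (hhm : h * m = 1)
    (hact : ∀ q : Quad M, ((σ (D.eF (qidx q)) : D.F) : LaurentSeries L) =
      ratio M ((ζ : A) : L) (vecAct m q.1.1) (vecAct m q.1.2.1) (vecAct m q.1.2.2.1)
        (vecAct m q.1.2.2.2))
    (hfix : ∀ i i' : ι, σ (D.eF i) = D.eF i' → D.ebar π i' = D.ebar π i) :
    m = 1 ∨ m = -1 := by
  have hζk : IsPrimitiveRoot (π ζ) M := isPrimitiveRoot_pi A π hπ hζ hMk
  have hebar : ∀ q : Quad M, D.ebar π (qidx q) =
      ratio M (π ζ) q.1.1 q.1.2.1 q.1.2.2.1 q.1.2.2.2 := fun q => by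
    rw [IntGen.ebar, hq, redA_ratioA hπ hζ hMk _ _ q.2.2.2.1 q.2.2.2.2]
  have heL : ∀ q : Quad M, ((D.eF (qidx q) : D.F) : LaurentSeries L) =
      ratio M ((ζ : A) : L) q.1.1 q.1.2.1 q.1.2.2.1 q.1.2.2.2 := fun q => by
    rw [IntGen.coe_eF, hq, embA_ratioA hπ hζ hMk _ _ q.2.2.2.1 q.2.2.2.2]
  refine eq_one_or_neg_one_of_fixesRatios' hζk hM hmh hhm ?_
  intro v w v' w' hv hw hv' hw'
  set q : Quad M := ⟨(v, w, v', w'), hv, hw, hv', hw'⟩ with hqdef
  have h1 : σ (D.eF (qidx q)) = D.eF (qidx (quadAct m h hmh q)) := by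
    apply Subtype.ext
    rw [hact q, heL]
    rfl
  have h2 := hfix _ _ h1
  rw [hebar, hebar] at h2
  exact h2

/-- **`dist`** in the shape of `IntGen.full_of_decomposition_range`. -/
theorem dist_range {ι : Type*} (D : IntGen A ι) (hM : 5 ≤ M)
    (hπ : Function.Surjective π) {ζ : A} (hζ : IsPrimitiveRoot ζ M) (hMk : ((M : ℕ) : k) ≠ 0)
    (qidx : Quad M → ι)
    (hq : ∀ q : Quad M, D.e (qidx q) = ratioA M ζ q.1.1 q.1.2.1 q.1.2.2.1 q.1.2.2.2)
    {Γ₀ : Type*} [Group Γ₀] (act : Γ₀ →* (D.F ≃ₐ[L] D.F))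
    (mat : Γ₀ → Matrix (Fin 2) (Fin 2) (ZMod M))
    (hmat : ∀ g : Γ₀, ∃ h : Matrix (Fin 2) (Fin 2) (ZMod M), mat g * h = 1 ∧ h * mat g = 1)
    (hact : ∀ (g : Γ₀) (q : Quad M), ((act g (D.eF (qidx q)) : D.F) : LaurentSeries L) =
      ratio M ((ζ : A) : L) (vecAct (mat g) q.1.1) (vecAct (mat g) q.1.2.1)
        (vecAct (mat g) q.1.2.2.1) (vecAct (mat g) q.1.2.2.2))
    (hker : ∀ g : Γ₀, mat g = 1 ∨ mat g = -1 → act g = 1) :
    ∀ g : Γ₀, (∀ i i' : ι, act g (D.eF i) = D.eF i' → D.ebar π i' = D.ebar π i) → act g = 1 := by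
  intro g hg
  obtain ⟨h, hgh, hhg⟩ := hmat g
  exact hker g (mat_eq_one_or_neg_one_of_ebar D hM hπ hζ hMk qidx hq (act g) (mat g) h hgh hhg
    (hact g) hg)

/-- **`dist`** in the shape of `IntGen.full_of_decomposition` (the group acts on the index set). -/
theorem dist_index {ι : Type*} (D : IntGen A ι) (hM : 5 ≤ M)
    (hπ : Function.Surjective π) {ζ : A} (hζ : IsPrimitiveRoot ζ M) (hMk : ((M : ℕ) : k) ≠ 0)
    (qidx : Quad M → ι)
    (hq : ∀ q : Quad M, D.e (qidx q) = ratioA M ζ q.1.1 q.1.2.1 q.1.2.2.1 q.1.2.2.2)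
    {G : Type*} [Group G] [MulAction G ι] (act : G →* (D.F ≃ₐ[L] D.F))
    (act_e : ∀ (g : G) (i : ι), act g (D.eF i) = D.eF (g • i))
    (mat : G → Matrix (Fin 2) (Fin 2) (ZMod M))
    (hmat : ∀ g : G, ∃ h : Matrix (Fin 2) (Fin 2) (ZMod M), mat g * h = 1 ∧ h * mat g = 1)
    (hact : ∀ (g : G) (q : Quad M), ((act g (D.eF (qidx q)) : D.F) : LaurentSeries L) =
      ratio M ((ζ : A) : L) (vecAct (mat g) q.1.1) (vecAct (mat g) q.1.2.1)
        (vecAct (mat g) q.1.2.2.1) (vecAct (mat g) q.1.2.2.2))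
    (hinj : ∀ g : G, mat g = 1 ∨ mat g = -1 → g = 1) :
    ∀ g : G, (∀ i : ι, D.ebar π (g • i) = D.ebar π i) → g = 1 := by
  intro g hg
  obtain ⟨h, hgh, hhg⟩ := hmat g
  refine hinj g (mat_eq_one_or_neg_one_of_ebar D hM hπ hζ hMk qidx hq (act g) (mat g) h hgh hhg
    (hact g) fun i i' hii' => ?_)
  have h1 : D.eF (g • i) = D.eF i' := (act_e g i).symm.trans hii'
  have h2 : D.ebar π (g • i) = D.ebar π i' := by
    have h3 := congrArg (fun f : D.F => (f : LaurentSeries L)) h1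
    simp only [IntGen.coe_eF] at h3
    rw [IntGen.ebar, IntGen.ebar, embA_injective A h3]
  rw [← h2, hg i]

end Fermat.Agent.S48x.Red1.DistRatio
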