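import Fermat.Agent.S48x.Red1.CuspPolesFixed
import Fermat.Agent.S48x.Red1.VarChange
import Fermat.Agent.S48x.Red1.MonomialSpan

/-!
# P-S48, layer (c), (R9): the generic composition "full level datum ⇒ fixed field datum"

`D : IntGen A ι` a full level datum with `D.Full π` (Igusa, `Red1/IgusaFull`), a finite group `G`
acting faithfully on `D.F / L(x)` (via `ψ`) and on `D.κ π / k(x̄)` (via `φ`), `H ≤ G`, and a second
datum whose field is the fixed field of `H` and whose reduced generators have pointwise stabiliser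
`H`.  This file composes `FullFixedInst.full_of_fixed`, `CuspPolesFixed.card_poles_le_of_fixed`
and the change of variable `VarChange` (`z ↦ z^M₀`), and removes the redundant hypotheses:

* `redA_mem_κ_of_full`, `ebar_mem_of_eL_mem` : under `D.Full π` the reductions of `A`-integral
  series of `D.F` lie in `D.κ π`; so `hκ` follows from `hF`;
* `finrank_κ_le_card` : `hcardκ` follows from `hcardF`;
* `full_and_poles_of_fixed` : `D'.Full π` and the pole inequality for `D'` (`z`-variable);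
* `full_and_poles_of_fixed_scale` : the same conclusions for `D₀`, where `D' = D₀.scale M₀`
  (`q`-variable).
-/

set_option autoImplicit false
set_option linter.unusedSectionVars false

noncomputable section

namespace Fermat.Agent.S48x.Red1.FixedCompose

open Module IntermediateField AlgebraicCurve
open Fermat.Agent.S48x.Red1 Fermat.Agent.Gateway.Red Fermat.Agent.Gateway.GoodRed
open scoped Fermat.Agent.S48x.Red1.Shortcuts

variable {L : Type*} [Field L] {A : ValuationSubring L} {k : Type*} [Field k] (π : A →+* k)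
  {ι ι' : Type*} (D : IntGen A ι) (D' : IntGen A ι')

/-- under `Full`, the reduction of an `A`-integral series of `F` lies in `κ`. -/
theorem redA_mem_κ_of_full (hfull : D.Full π) (hπ : Function.Surjective π)
    (a : LaurentSeries A) (ha : embA A a ∈ D.F) : redA A π a ∈ D.κ π := by
  have hne := hfull.nonempty_fin
  have hmem : (⟨embA A a, ha⟩ : D.F) ∈ Ov A π D.F := embA_mem_gaussRing A π a
  have h1 := hfull.spanData.redV_mem_κ hπ ⟨_, hmem⟩
  rwa [redV_of_eq_embA A π D.F _ rfl] at h1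

/-- `hκ` of `full_of_fixed` follows from `hF` when `D` is full. -/
theorem ebar_mem_of_eL_mem (hfull : D.Full π) (hπ : Function.Surjective π)
    (hF : ∀ j, D'.eL j ∈ D.F) (j : ι') : D'.ebar π j ∈ D.κ π :=
  redA_mem_κ_of_full π D hfull hπ (D'.e j) (hF j)

/-- `hcardκ` of `full_of_fixed` follows from `hcardF` when `D` is full. -/
theorem finrank_κ_le_card (hfull : D.Full π) {n : ℕ} (hcardF : finrank L⟮D.xF⟯ D.F ≤ n) :
    finrank k⟮D.xκ π⟯ (D.κ π) ≤ n := by
  rw [hfull.finrank_κ]; exact hcardF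

section Main

variable {G : Type*} [Group G] [Finite G]

/-- **`Full` and the pole inequality for the fixed field datum** (`z`-variable). -/
theorem full_and_poles_of_fixed (hπ : Function.Surjective π) (hfull : D.Full π)
    (hξ : D'.ξ = D.ξ) (hF : ∀ j, D'.eL j ∈ D.F)
    (ψ : G →* Gal(D.F/L⟮D.xF⟯)) (hψ : Function.Injective ψ)
    (hcardF : finrank L⟮D.xF⟯ D.F ≤ Nat.card G)
    (φ : G →* Gal(D.κ π/k⟮D.xκ π⟯)) (hφ : Function.Injective φ)
    (H : Subgroup G)
    (hfix : ∀ f : D.F, (f : LaurentSeries L) ∈ D'.F ↔ ∀ h ∈ H, ψ h f = f)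
    (hstab : ∀ g : G, g ∈ H ↔ ∀ (j : ι') (hj : D'.ebar π j ∈ D.κ π),
      φ g ⟨D'.ebar π j, hj⟩ = (⟨D'.ebar π j, hj⟩ : D.κ π))
    {M : ℕ} [NeZero M] (hxM : D.x.order = -(M : ℤ)) (hxbM : (D.xbar π).order = -(M : ℤ))
    (ζL : Lˣ) (hζL : IsPrimitiveRoot ζL M)
    (hζLx : Fermat.Agent.S28.twist ζL D.x = D.x)
    (ζk : kˣ) (hζk : IsPrimitiveRoot ζk M)
    (hζkx : Fermat.Agent.S28.twist ζk (D.xbar π) = D.xbar π)
    (u₀ : G)
    (huF : ∀ f : D.F, ((ψ u₀ f : D.F) : LaurentSeries L) =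
      Fermat.Agent.S28.twist ζL (f : LaurentSeries L))
    (huκ : ∀ y : D.κ π, ((φ u₀ y : D.κ π) : LaurentSeries k) =
      Fermat.Agent.S28.twist ζk (y : LaurentSeries k)) :
    D'.Full π ∧
      Nat.card {P : Place k (D'.κ π) // P.ord (D'.xκ π) < 0} ≤
        Nat.card {P : Place L D'.F // P.ord D'.xF < 0} := by
  have hfdF : FiniteDimensional L⟮D.xF⟯ D.F := hfull.1
  have hfdκ : FiniteDimensional k⟮D.xκ π⟯ (D.κ π) := hfull.finiteDimensional_κ
  have hκ : ∀ j, D'.ebar π j ∈ D.κ π := ebar_mem_of_eL_mem π D D' hfull hπ hF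
  have hcardκ : finrank k⟮D.xκ π⟯ (D.κ π) ≤ Nat.card G := finrank_κ_le_card π D hfull hcardF
  have hstab' : ∀ g : G, g ∈ H ↔
      ∀ j, φ g ⟨D'.ebar π j, hκ j⟩ = (⟨D'.ebar π j, hκ j⟩ : D.κ π) := fun g =>
    (hstab g).trans ⟨fun h j => h j (hκ j), fun h j _ => h j⟩
  exact ⟨FullFixedInst.full_of_fixed π D D' hξ hF hκ ψ hψ hcardF φ hφ hcardκ H hfix hstab',
    CuspPolesFixed.card_poles_le_of_fixed π D D' hξ hF hκ ψ hψ hcardF φ hφ hcardκ H hfix hstab'
      hxM hxbM ζL hζL hζLx ζk hζk hζkx u₀ huF huκ⟩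

/-- **`Full` and the pole inequality in the variable `q`**: the fixed field datum is
`D₀.scale M₀` (the datum `D₀` in the variable `z`, `q = z^M₀`). -/
theorem full_and_poles_of_fixed_scale (hπ : Function.Surjective π) (hfull : D.Full π)
    (D₀ : IntGen A ι') (M₀ : ℕ) [NeZero M₀]
    (hξ : (D₀.scale M₀).ξ = D.ξ) (hF : ∀ j, (D₀.scale M₀).eL j ∈ D.F)
    (ψ : G →* Gal(D.F/L⟮D.xF⟯)) (hψ : Function.Injective ψ)
    (hcardF : finrank L⟮D.xF⟯ D.F ≤ Nat.card G)
    (φ : G →* Gal(D.κ π/k⟮D.xκ π⟯)) (hφ : Function.Injective φ)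
    (H : Subgroup G)
    (hfix : ∀ f : D.F, (f : LaurentSeries L) ∈ (D₀.scale M₀).F ↔ ∀ h ∈ H, ψ h f = f)
    (hstab : ∀ g : G, g ∈ H ↔ ∀ (j : ι') (hj : (D₀.scale M₀).ebar π j ∈ D.κ π),
      φ g ⟨(D₀.scale M₀).ebar π j, hj⟩ = (⟨(D₀.scale M₀).ebar π j, hj⟩ : D.κ π))
    {M : ℕ} [NeZero M] (hxM : D.x.order = -(M : ℤ)) (hxbM : (D.xbar π).order = -(M : ℤ))
    (ζL : Lˣ) (hζL : IsPrimitiveRoot ζL M)
    (hζLx : Fermat.Agent.S28.twist ζL D.x = D.x)
    (ζk : kˣ) (hζk : IsPrimitiveRoot ζk M)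
    (hζkx : Fermat.Agent.S28.twist ζk (D.xbar π) = D.xbar π)
    (u₀ : G)
    (huF : ∀ f : D.F, ((ψ u₀ f : D.F) : LaurentSeries L) =
      Fermat.Agent.S28.twist ζL (f : LaurentSeries L))
    (huκ : ∀ y : D.κ π, ((φ u₀ y : D.κ π) : LaurentSeries k) =
      Fermat.Agent.S28.twist ζk (y : LaurentSeries k)) :
    D₀.Full π ∧
      Nat.card {P : Place k (D₀.κ π) // P.ord (D₀.xκ π) < 0} ≤
        Nat.card {P : Place L D₀.F // P.ord D₀.xF < 0} := by
  obtain ⟨h1, h2⟩ := full_and_poles_of_fixed π D (D₀.scale M₀) hπ hfull hξ hF ψ hψ hcardF φ hφ H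
    hfix hstab hxM hxbM ζL hζL hζLx ζk hζk hζkx u₀ huF huκ
  refine ⟨IntGen.Full.of_scale M₀ h1, ?_⟩
  rwa [IntGen.card_poles_scale_F D₀ M₀, IntGen.card_poles_scale_κ π D₀ M₀] at h2

end Main

end Fermat.Agent.S48x.Red1.FixedCompose
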