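/-
P-S48, layer (c), (R9): adapter between the analytic (M-c) (`Ana/FixedFields.borelSeries`, helper19)
and the field `hB` of `IntGen.FullLevelData` (helper68).

* `borelSeries_eq_map` : `borelSeries L M` is the image of the `Γ₀(M)`-field `ConjFamily.Fk L M`
  under `q ↦ z^M`;
* `hB_fullLevel_of_borelSeries` : the field `hB` from `borelSeries L M ≤ F'` and
  "every `B`-invariant element of `F'` lies in `borelSeries L M`".
-/
import Mathlib
import Fermat.Agent.S48x.Red1.FullLevelInputs
import Fermat.Agent.S48x.Ana.FixedFields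

set_option autoImplicit false
set_option linter.unusedSectionVars false

noncomputable section

namespace Fermat.Agent.S48x.Red1.FullLevelBorel

open ModularCurve Fermat.Agent.Gateway.Red Fermat.Agent.Gateway.GoodRed
open Fermat.Agent.S48x.Ana.FixedFields

section Map

variable {L : Type} [Field L] {M : ℕ} [NeZero M]

/-- `borelSeries L M` is the `q ↦ z^M` image of the `Γ₀(M)`-field. -/
theorem borelSeries_eq_map :
    borelSeries L M = (ConjFamily.Fk L M).map (qExpandAlgHomC L M) := by
  rw [borelSeries, ConjFamily.Fk, modularFunctionFieldFullC, IntermediateField.adjoin_map]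
  congr 1
  ext y
  constructor
  · rintro ⟨d, hd0, hd, rfl⟩
    have := hd0
    refine ⟨qExpand L d (jqModC L), ⟨d, hd0, hd, rfl⟩, ?_⟩
    show qExpandAlgHomC L M (qExpand L d (jqModC L)) = _
    have : NeZero (M * d) := ⟨Nat.mul_ne_zero (NeZero.ne M) (NeZero.ne d)⟩
    have : NeZero (d * M) := ⟨Nat.mul_ne_zero (NeZero.ne d) (NeZero.ne M)⟩
    rw [qExpandAlgHomC_apply, qExpand_qExpand]
    exact qExpand_congr (mul_comm M d) _
  · rintro ⟨_, ⟨d, hd0, hd, rfl⟩, rfl⟩
    have := hd0
    refine ⟨d, hd0, hd, ?_⟩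
    show qExpandAlgHomC L M (qExpand L d (jqModC L)) = _
    have : NeZero (M * d) := ⟨Nat.mul_ne_zero (NeZero.ne M) (NeZero.ne d)⟩
    have : NeZero (d * M) := ⟨Nat.mul_ne_zero (NeZero.ne d) (NeZero.ne M)⟩
    rw [qExpandAlgHomC_apply, qExpand_qExpand]
    exact qExpand_congr (mul_comm M d) _

theorem exists_Fk_of_mem_borelSeries {f : LaurentSeries L} (hf : f ∈ borelSeries L M) :
    ∃ y : ConjFamily.Fk L M, f = qExpand L M (y : LaurentSeries L) := by
  rw [borelSeries_eq_map] at hf
  obtain ⟨y, hy, rfl⟩ := hf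
  exact ⟨⟨y, hy⟩, rfl⟩

theorem qExpand_mem_borelSeries (y : ConjFamily.Fk L M) :
    qExpand L M (y : LaurentSeries L) ∈ borelSeries L M := by
  rw [borelSeries_eq_map]
  exact ⟨y, y.2, rfl⟩

end Map

section HB

variable {L : Type} [Field L] [Algebra ℚ L] [IsAlgClosed L] (A : ValuationSubring L)
  {k : Type} [Field k] (π : A →+* k) (N : ℕ)
  [IsAlgClosed k] (ℓ : ℕ) [Fact ℓ.Prime] [CharP k ℓ] [NeZero N]
  (hπ : Function.Surjective π) (hℓN : ¬ ℓ ∣ N)

include hπ hℓN in
/-- **the field `hB` of `FullLevelData`** from the analytic (M-c) in `borelSeries` form. -/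
theorem hB_fullLevel_of_borelSeries (F' : IntermediateField L (LaurentSeries L))
    (hle : borelSeries L N ≤ F')
    {G₀ : Type*} [Group G₀] (act : G₀ →* (F' ≃ₐ[L] F'))
    (act_x : ∀ (g : G₀) (x' : F'), (x' : LaurentSeries L) = qExpand L N (jqModC L) →
      ((act g x' : F') : LaurentSeries L) = qExpand L N (jqModC L))
    (B : Subgroup G₀)
    (hfixB : ∀ f : F', (∀ b ∈ B, act b f = f) → (f : LaurentSeries L) ∈ borelSeries L N) :
    ∀ f : F', (∀ g, ((act g f : F') : LaurentSeries L) ∈ gaussRing A π) →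
      (∀ b ∈ B, act b f = f) →
      ∀ (g : G₀) (h1 : (f : LaurentSeries L) ∈ gaussRing A π)
        (h2 : ((act g f : F') : LaurentSeries L) ∈ gaussRing A π),
        (gaussRed A π ⟨_, h2⟩ = 0 ↔ gaussRed A π ⟨_, h1⟩ = 0) :=
  FullLevelInputs.hB_fullLevel A π N ℓ hπ hℓN F'
    (fun y => hle (qExpand_mem_borelSeries y)) act act_x B
    (fun f hf => exists_Fk_of_mem_borelSeries (hfixB f hf))

end HB

section DistInv

open Fermat.Agent.S48x.Red1.ModelInt
open scoped MatrixGroups

variable {L : Type*} [Field L] {A : ValuationSubring L} {k : Type*} [Field k] {π : A →+* k}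
variable {M : ℕ} [NeZero M]

/-- the field `dist` of `FullLevelData` for the convention `perm g := ModelInt.perm g⁻¹`. -/
theorem dist_ratioIntGen_inv (hM : 5 ≤ M) (hπ : Function.Surjective π) {ζ : A}
    (hζ : IsPrimitiveRoot ζ M) (hMk : ((M : ℕ) : k) ≠ 0)
    {H : Type*} [Monoid H] (act : SL(2, ZMod M) →* H) (hneg : act (-1) = 1) :
    ∀ g : SL(2, ZMod M),
      (∀ i : QuadIdx M,
        (ratioIntGen A M ζ).ebar π (perm g⁻¹ i) = (ratioIntGen A M ζ).ebar π i) →
      act g = 1 := by
  intro g hg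
  have h1 := FullLevelInputs.dist_ratioIntGen hM hπ hζ hMk act hneg g⁻¹ hg
  calc act g = act g * act g⁻¹ := by rw [h1, mul_one]
    _ = 1 := by rw [← map_mul, mul_inv_cancel, map_one]

end DistInv

end Fermat.Agent.S48x.Red1.FullLevelBorel
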