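import Mathlib
import Fermat.Agent.S48x.Red1.FixedFull
import Fermat.Agent.S48x.Red1.FullFixedInst
import Fermat.Agent.S48x.Red1.ModelRatioGen
import Fermat.Agent.S48x.Red1.VarChange
import Fermat.Agent.S48x.Model.StabH1
import Fermat.Agent.S48x.Model.Identities
import Fermat.Agent.S48x.Red1.IgusaFull
import Fermat.Agent.S48x.Red1.IgusaLevel
import Fermat.Agent.S48x.Red1.MonomialSpan
import Fermat.Agent.S48x.Red1.Shortcuts

/-!
# P-S48, layer (c), (R9): the hypotheses `hfix`, `hstab` of `FullFixedInst.full_of_fixed` for `Γ₁`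

`D : IntGen A ι` is the full level datum (in the application `ModelInt.ratioIntGen A M ζ`), with
`D.F / L(x)` Galois with group `G` through `ψ` and the residue field `D.κ π / k(x̄)` with the reduced
faithful action `φ` of `G`.  `D' := (ModelInt.gamma1IntGen A M ζ).scale M` is the `Γ₁(M)`-datum in
the variable `z = q^(1/M)`.

* Part 1 (pure Galois theory): for ANY datum `D'` inside `D`, the subfield `D'.F` is the fixed field
  of the pointwise stabiliser `stab ψ S` of its generators (`coe_mem_F_iff_fixed`).  So `hfix` of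
  `full_of_fixed` holds for `H := stab ψ S` without any degree computation.
* Part 2 (the model): if `g ∈ G` acts on the ratio generators through an invertible matrix `mat g`
  (`ψ g (R(v,w,v',w')) = R(v m, w m, v' m, w' m)`, in coercion form, on both sides) and the elements
  with lower row `(0, ±1)` fix the `j(z^(dM))`, then the stabiliser of the `Γ₁`-generators is
  `{g | mat g` has lower row `(0, ±1)}` in characteristic zero AND over the residue field
  (`Model/StabH1`, valid over any field with a primitive `M`-th root of unity, `8 ≤ M`).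
  Hence `hstab`, and `gamma1_full : (gamma1IntGen A M ζ).Full π`.
-/

set_option autoImplicit false
set_option linter.unusedSectionVars false
set_option linter.style.haveILetI false

noncomputable section

open Module IntermediateField

namespace Fermat.Agent.S48x.Red1.Gamma1FixStab

open Fermat.Agent.S48x.Red1 Fermat.Agent.Gateway.Red Fermat.Agent.Gateway.GoodRed
open Fermat.Agent.S48x.Model Fermat.Agent.S48x.Model.Rigidity ModularCurve
open scoped Fermat.Agent.S48x.Red1.Shortcuts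

/-! ### Part 1: pure Galois theory -/

section Galois

variable {K₀ F : Type*} [Field K₀] [Field F] [Algebra K₀ F]
  {G : Type*} [Group G] (ψ : G →* Gal(F/K₀))

/-- the pointwise stabiliser in `G` of a subset of `F`. -/
def stab (S : Set F) : Subgroup G where
  carrier := {g | ∀ s ∈ S, ψ g s = s}
  one_mem' := fun s _ => by rw [map_one]; rfl
  mul_mem' := fun {a b} ha hb s hs => by
    rw [map_mul, AlgEquiv.mul_apply, hb s hs, ha s hs]
  inv_mem' := fun {a} ha s hs => by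
    have h1 : ψ a⁻¹ (ψ a s) = s := by
      rw [← AlgEquiv.mul_apply, ← map_mul, inv_mul_cancel, map_one]; rfl
    rw [ha s hs] at h1
    exact h1

theorem mem_stab {S : Set F} {g : G} : g ∈ stab ψ S ↔ ∀ s ∈ S, ψ g s = s := Iff.rfl

/-- an automorphism fixing `S` pointwise fixes `K₀(S)` pointwise. -/
theorem apply_eq_of_mem_adjoin {S : Set F} (σ : Gal(F/K₀)) (hσ : ∀ s ∈ S, σ s = s) {f : F}
    (hf : f ∈ IntermediateField.adjoin K₀ S) : σ f = f := by
  induction hf using IntermediateField.adjoin_induction with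
  | mem x hx => exact hσ x hx
  | algebraMap c => exact σ.commutes c
  | add x y _ _ hx hy => rw [map_add, hx, hy]
  | inv x _ hx => rw [map_inv₀, hx]
  | mul x y _ _ hx hy => rw [map_mul, hx, hy]

variable [FiniteDimensional K₀ F] [Finite G]

/-- **Galois correspondence, generator form**: `K₀(S)` is the fixed field of the pointwise
stabiliser of `S`. -/
theorem mem_adjoin_iff_fixed (hψ : Function.Injective ψ) (hcard : finrank K₀ F ≤ Nat.card G)
    (S : Set F) (f : F) :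
    f ∈ IntermediateField.adjoin K₀ S ↔ ∀ h ∈ stab ψ S, ψ h f = f := by
  haveI : IsGalois K₀ F := FixedFull.isGalois_of_card_le ψ hψ hcard
  have hbij := FixedFull.bijective_of_card_le ψ hψ hcard
  constructor
  · intro hf h hh
    exact apply_eq_of_mem_adjoin (ψ h) hh hf
  · intro hf
    rw [← IsGalois.fixedField_fixingSubgroup (IntermediateField.adjoin K₀ S),
      IntermediateField.mem_fixedField_iff]
    intro σ hσ
    obtain ⟨g, rfl⟩ := hbij.2 σ
    refine hf g fun s hs => ?_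
    exact (IntermediateField.mem_fixingSubgroup_iff _ _).mp hσ s
      (IntermediateField.subset_adjoin K₀ S hs)

end Galois

/-! ### Part 1': `hfix` for an arbitrary sub-datum -/

section Sub

variable {L : Type*} [Field L] {A : ValuationSubring L} {k : Type*} [Field k] (π : A →+* k)
  {ι ι' : Type*} (D : IntGen A ι) (D' : IntGen A ι')

/-- the generators of `D'` as elements of `D.F`. -/
def genF (hF : ∀ j, D'.eL j ∈ D.F) : Set D.F := Set.range fun j => (⟨D'.eL j, hF j⟩ : D.F)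

/-- the reduced generators of `D'` as elements of `D.κ π`. -/
def genκ (hκ : ∀ j, D'.ebar π j ∈ D.κ π) : Set (D.κ π) :=
  Set.range fun j => (⟨D'.ebar π j, hκ j⟩ : D.κ π)

/-- `D'.F` is the field generated over `L(x)` by the generators of `D'`, inside `D.F`. -/
theorem lift_adjoin_genF (hξ : D'.ξ = D.ξ) (hF : ∀ j, D'.eL j ∈ D.F) :
    IntermediateField.lift
      ((IntermediateField.adjoin L⟮D.xF⟯ (genF D D' hF)).restrictScalars L) = D'.F := by
  have hx : D'.x = D.x := by unfold IntGen.x; rw [hξ]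
  rw [IntermediateField.adjoin_adjoin_left, IntermediateField.lift_adjoin]
  have hF'def : D'.F = IntermediateField.adjoin L (insert D'.x (Set.range D'.eL)) := rfl
  apply le_antisymm
  · rw [IntermediateField.adjoin_le_iff]
    rintro _ ⟨s, hs, rfl⟩
    rcases hs with hs | ⟨j, rfl⟩
    · have hs' : s = D.xF := hs
      rw [hs']
      show D.x ∈ D'.F
      rw [← hx]
      exact D'.x_mem
    · exact D'.eL_mem j
  · rw [hF'def, IntermediateField.adjoin_le_iff]
    rintro y (rfl | ⟨j, rfl⟩)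
    · exact IntermediateField.subset_adjoin L _ ⟨D.xF, Or.inl rfl, hx.symm⟩
    · exact IntermediateField.subset_adjoin L _ ⟨⟨D'.eL j, hF j⟩, Or.inr ⟨j, rfl⟩, rfl⟩

theorem coe_mem_F_iff_mem_adjoin (hξ : D'.ξ = D.ξ) (hF : ∀ j, D'.eL j ∈ D.F) (f : D.F) :
    (f : LaurentSeries L) ∈ D'.F ↔ f ∈ IntermediateField.adjoin L⟮D.xF⟯ (genF D D' hF) := by
  rw [← lift_adjoin_genF D D' hξ hF, IntermediateField.mem_lift,
    IntermediateField.mem_restrictScalars]

/-- **`hfix` of `FullFixedInst.full_of_fixed`**, for `H` the pointwise stabiliser of the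
generators of `D'`. -/
theorem coe_mem_F_iff_fixed (hξ : D'.ξ = D.ξ) (hF : ∀ j, D'.eL j ∈ D.F)
    {G : Type*} [Group G] [Finite G] [FiniteDimensional L⟮D.xF⟯ D.F]
    (ψ : G →* Gal(D.F/L⟮D.xF⟯)) (hψ : Function.Injective ψ)
    (hcardF : finrank L⟮D.xF⟯ D.F ≤ Nat.card G) (f : D.F) :
    (f : LaurentSeries L) ∈ D'.F ↔ ∀ h ∈ stab ψ (genF D D' hF), ψ h f = f := by
  rw [coe_mem_F_iff_mem_adjoin D D' hξ hF]
  exact mem_adjoin_iff_fixed ψ hψ hcardF _ f

/-- **`Full` for a sub-datum whose generic and residual stabilisers agree.** -/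
theorem full_of_stab_eq (hξ : D'.ξ = D.ξ) (hF : ∀ j, D'.eL j ∈ D.F)
    (hκ : ∀ j, D'.ebar π j ∈ D.κ π)
    {G : Type*} [Group G] [Finite G] [FiniteDimensional L⟮D.xF⟯ D.F]
    [FiniteDimensional k⟮D.xκ π⟯ (D.κ π)]
    (ψ : G →* Gal(D.F/L⟮D.xF⟯)) (hψ : Function.Injective ψ)
    (hcardF : finrank L⟮D.xF⟯ D.F ≤ Nat.card G)
    (φ : G →* Gal(D.κ π/k⟮D.xκ π⟯)) (hφ : Function.Injective φ)
    (hcardκ : finrank k⟮D.xκ π⟯ (D.κ π) ≤ Nat.card G)
    (hstab : ∀ g : G, g ∈ stab ψ (genF D D' hF) ↔ g ∈ stab φ (genκ π D D' hκ)) :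
    D'.Full π := by
  refine FullFixedInst.full_of_fixed π D D' hξ hF hκ ψ hψ hcardF φ hφ hcardκ
    (stab ψ (genF D D' hF)) (coe_mem_F_iff_fixed D D' hξ hF ψ hψ hcardF) fun g => ?_
  rw [hstab g, mem_stab]
  constructor
  · intro h j
    exact h _ ⟨j, rfl⟩
  · rintro h _ ⟨j, rfl⟩
    exact h j

end Sub


/-! ### Part 2: the model -/

section Model

variable {M : ℕ} [NeZero M]

/-- lower row `(0, ± 1)`. -/
def LowerRow (m : Matrix (Fin 2) (Fin 2) (ZMod M)) : Prop :=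
  m 1 0 = 0 ∧ (m 1 1 = 1 ∨ m 1 1 = -1)

theorem not_good_vecAct (m : Matrix (Fin 2) (Fin 2) (ZMod M)) {v w : Vec M} (hv : v ≠ 0)
    (hw : w ≠ 0) (h : ¬ Good v w) : ¬ Good (vecAct m v) (vecAct m w) := by
  have h1 : v = w ∨ v = -w := by
    by_contra hcon
    push Not at hcon
    exact h ⟨hv, hw, hcon.1, hcon.2⟩
  rintro ⟨-, -, h3, h4⟩
  rcases h1 with rfl | rfl
  · exact h3 rfl
  · exact h4 (vecAct_neg m w)

theorem zeroVec_ne_zero {b : ZMod M} (hb : b ≠ 0) : ((0, b) : Vec M) ≠ 0 := fun h =>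
  hb (congrArg Prod.snd h)

/-- **The abstract stabiliser computation** (over any field `R` with a primitive `M`-th root of
unity `ζ`).  `σ` is a ring endomorphism of a subfield `E ⊆ R((z))` which acts on the ratio
generators with good denominators through the invertible matrix `m`.  Then `σ` fixes all the
`ratio (0,b) (0,c) (0,b') (0,c')` lying in `E` iff `m` has lower row `(0, ± 1)`. -/
theorem fixes_ratio0_iff_lowerRow {R : Type*} [Field R] {ζ : R} (hM : 8 ≤ M)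
    (hζ : IsPrimitiveRoot ζ M) (E : IntermediateField R (LaurentSeries R)) (σ : E →+* E)
    (m h : Matrix (Fin 2) (Fin 2) (ZMod M)) (hmh : m * h = 1)
    (hE : ∀ b c b' c' : ZMod M, b ≠ 0 → c ≠ 0 → b' ≠ 0 → c' ≠ 0 →
      ratio M ζ ((0, b) : Vec M) (0, c) (0, b') (0, c') ∈ E)
    (hσ : ∀ v w v' w' : Vec M, v ≠ 0 → w ≠ 0 → Good v' w' → ∀ f : E,
      (f : LaurentSeries R) = ratio M ζ v w v' w' →
        ((σ f : E) : LaurentSeries R) =
          ratio M ζ (vecAct m v) (vecAct m w) (vecAct m v') (vecAct m w')) :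
    (∀ (b c b' c' : ZMod M) (hb : b ≠ 0) (hc : c ≠ 0) (hb' : b' ≠ 0) (hc' : c' ≠ 0),
      σ ⟨_, hE b c b' c' hb hc hb' hc'⟩ = ⟨_, hE b c b' c' hb hc hb' hc'⟩) ↔ LowerRow m := by
  have hζM : ζ ^ M = 1 := hζ.pow_eq_one
  constructor
  · intro hfix
    refine SL.lowerRow_of_fixesRatios0 hM hζ hmh ?_
    intro b c b' c' hb hc hb' hc'
    by_cases hg : Good ((0, b') : Vec M) (0, c')
    · have h1 := hσ (0, b) (0, c) (0, b') (0, c') (zeroVec_ne_zero hb) (zeroVec_ne_zero hc) hg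
        ⟨_, hE b c b' c' hb hc hb' hc'⟩ rfl
      rw [hfix b c b' c' hb hc hb' hc'] at h1
      exact h1.symm
    · have hv' : vecAct m ((0, b') : Vec M) ≠ 0 := fun h0 =>
        zeroVec_ne_zero hb' (vecAct_injective hmh (h0.trans (vecAct_zero m).symm))
      have hw' : vecAct m ((0, c') : Vec M) ≠ 0 := fun h0 =>
        zeroVec_ne_zero hc' (vecAct_injective hmh (h0.trans (vecAct_zero m).symm))
      rw [ModelInt.ratio_eq_zero_of_not_good' hζM _ _ (zeroVec_ne_zero hb') (zeroVec_ne_zero hc')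
        hg, ModelInt.ratio_eq_zero_of_not_good' hζM _ _ hv' hw'
        (not_good_vecAct m (zeroVec_ne_zero hb') (zeroVec_ne_zero hc') hg)]
  · rintro ⟨h10, h11⟩ b c b' c' hb hc hb' hc'
    apply Subtype.ext
    by_cases hg : Good ((0, b') : Vec M) (0, c')
    · rw [hσ (0, b) (0, c) (0, b') (0, c') (zeroVec_ne_zero hb) (zeroVec_ne_zero hc) hg
        ⟨_, hE b c b' c' hb hc hb' hc'⟩ rfl]
      exact SL.fixesRatios0_of_lowerRow hζM h10 h11 b c b' c' hb hc hb' hc'
    · have h0 : (⟨_, hE b c b' c' hb hc hb' hc'⟩ : E) = 0 := Subtype.ext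
        (ModelInt.ratio_eq_zero_of_not_good' hζM _ _ (zeroVec_ne_zero hb') (zeroVec_ne_zero hc')
          hg)
      rw [h0, map_zero]

end Model


/-! ### Part 3: the `Γ₁`-datum inside a full level datum -/

section Gamma1

open ModelInt

variable {L : Type*} [Field L] {A : ValuationSubring L} {k : Type*} [Field k] {π : A →+* k}
  {M : ℕ} [NeZero M]

theorem scale_gamma1_ξ (ζ : A) : ((gamma1IntGen A M ζ).scale M).ξ = jA A M := by
  show qExpand A M (jA A 1) = jA A M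
  unfold jA
  rw [qExpand_one_apply]

theorem scale_gamma1_eL_inr (hπ : Function.Surjective π) {ζ : A} (hζ : IsPrimitiveRoot ζ M)
    (hMk : ((M : ℕ) : k) ≠ 0) (q : Quad1 M) :
    ((gamma1IntGen A M ζ).scale M).eL (Sum.inr q) =
      ratio M ((ζ : A) : L) ((0, q.1.1) : Vec M) (0, q.1.2.1) (0, q.1.2.2.1) (0, q.1.2.2.2) := by
  rw [IntGen.scale_eL, gamma1IntGen_eL_inr hπ hζ hMk, Identities.qExpand_ratio1]

theorem scale_gamma1_ebar_inr (hπ : Function.Surjective π) {ζ : A} (hζ : IsPrimitiveRoot ζ M)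
    (hMk : ((M : ℕ) : k) ≠ 0) (q : Quad1 M) :
    ((gamma1IntGen A M ζ).scale M).ebar π (Sum.inr q) =
      ratio M (π ζ) ((0, q.1.1) : Vec M) (0, q.1.2.1) (0, q.1.2.2.1) (0, q.1.2.2.2) := by
  rw [IntGen.scale_ebar, gamma1IntGen_ebar_inr hπ hζ hMk, Identities.qExpand_ratio1]

theorem scale_gamma1_eL_inl (ζ : A) (d : (M.divisors : Type)) :
    ((gamma1IntGen A M ζ).scale M).eL (Sum.inl d) =
      haveI := neZero_of_mem_divisors M d.2; qExpand L (d.1 * M) (jqModC L) := by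
  haveI := neZero_of_mem_divisors M d.2
  rw [IntGen.scale_eL, gamma1IntGen_eL_inl, qExpand_qExpand]
  exact qExpand_congr (Nat.mul_comm _ _) _

theorem scale_gamma1_ebar_inl (ζ : A) (d : (M.divisors : Type)) :
    ((gamma1IntGen A M ζ).scale M).ebar π (Sum.inl d) =
      haveI := neZero_of_mem_divisors M d.2; qExpand k (d.1 * M) (jqModC k) := by
  haveI := neZero_of_mem_divisors M d.2
  rw [IntGen.scale_ebar, gamma1IntGen_ebar_inl, qExpand_qExpand]
  exact qExpand_congr (Nat.mul_comm _ _) _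

variable {ι : Type*} (D : IntGen A ι)

/-- **The generic stabiliser of the `Γ₁`-generators** is `{g | mat g` has lower row `(0, ± 1)}`. -/
theorem mem_stab_genF_iff (hπ : Function.Surjective π) {ζ : A} (hζ : IsPrimitiveRoot ζ M)
    (hMk : ((M : ℕ) : k) ≠ 0) (hM : 8 ≤ M)
    (hF : ∀ j, ((gamma1IntGen A M ζ).scale M).eL j ∈ D.F)
    {G : Type*} [Group G] (ψ : G →* Gal(D.F/L⟮D.xF⟯)) (g : G)
    (m h : Matrix (Fin 2) (Fin 2) (ZMod M)) (hmh : m * h = 1)
    (hψR : ∀ v w v' w' : Vec M, v ≠ 0 → w ≠ 0 → Good v' w' → ∀ f : D.F,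
      (f : LaurentSeries L) = ratio M ((ζ : A) : L) v w v' w' →
        ((ψ g f : D.F) : LaurentSeries L) =
          ratio M ((ζ : A) : L) (vecAct m v) (vecAct m w) (vecAct m v') (vecAct m w'))
    (hψj : LowerRow m → ∀ (d : ℕ) [NeZero d], d ∣ M → ∀ f : D.F,
      (f : LaurentSeries L) = qExpand L (d * M) (jqModC L) → ψ g f = f) :
    g ∈ stab ψ (genF D ((gamma1IntGen A M ζ).scale M) hF) ↔ LowerRow m := by
  have hζL : IsPrimitiveRoot ((ζ : A) : L) M := isPrimitiveRoot_coe A hζ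
  have hE : ∀ b c b' c' : ZMod M, b ≠ 0 → c ≠ 0 → b' ≠ 0 → c' ≠ 0 →
      ratio M ((ζ : A) : L) ((0, b) : Vec M) (0, c) (0, b') (0, c') ∈ D.F := by
    intro b c b' c' hb hc hb' hc'
    have := hF (Sum.inr ⟨(b, c, b', c'), hb, hc, hb', hc'⟩)
    rw [scale_gamma1_eL_inr hπ hζ hMk] at this
    exact this
  have key := fixes_ratio0_iff_lowerRow hM hζL D.F
    ((ψ g : D.F ≃ₐ[L⟮D.xF⟯] D.F) : D.F →+* D.F) m h hmh hE hψR
  rw [← key, mem_stab]
  constructor
  · intro hg b c b' c' hb hc hb' hc'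
    have e : (⟨((gamma1IntGen A M ζ).scale M).eL (Sum.inr ⟨(b, c, b', c'), hb, hc, hb', hc'⟩),
        hF _⟩ : D.F) = ⟨_, hE b c b' c' hb hc hb' hc'⟩ :=
      Subtype.ext (scale_gamma1_eL_inr hπ hζ hMk _)
    have h1 : ψ g (⟨((gamma1IntGen A M ζ).scale M).eL
        (Sum.inr ⟨(b, c, b', c'), hb, hc, hb', hc'⟩), hF _⟩ : D.F) =
        ⟨_, hF (Sum.inr ⟨(b, c, b', c'), hb, hc, hb', hc'⟩)⟩ :=
      hg _ ⟨Sum.inr ⟨(b, c, b', c'), hb, hc, hb', hc'⟩, rfl⟩
    rw [e] at h1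
    exact h1
  · rintro hfix _ ⟨j, rfl⟩
    rcases j with d | q
    · haveI := neZero_of_mem_divisors M d.2
      exact hψj (key.mp hfix) d.1 (Nat.dvd_of_mem_divisors d.2) _ (scale_gamma1_eL_inl ζ d)
    · obtain ⟨⟨b, c, b', c'⟩, hb, hc, hb', hc'⟩ := q
      have e : (⟨((gamma1IntGen A M ζ).scale M).eL (Sum.inr ⟨(b, c, b', c'), hb, hc, hb', hc'⟩),
          hF _⟩ : D.F) = ⟨_, hE b c b' c' hb hc hb' hc'⟩ :=
        Subtype.ext (scale_gamma1_eL_inr hπ hζ hMk _)
      have hgoal : ψ g (⟨((gamma1IntGen A M ζ).scale M).eL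
          (Sum.inr ⟨(b, c, b', c'), hb, hc, hb', hc'⟩), hF _⟩ : D.F) =
          ⟨_, hF (Sum.inr ⟨(b, c, b', c'), hb, hc, hb', hc'⟩)⟩ := by
        rw [e]
        exact hfix b c b' c' hb hc hb' hc'
      exact hgoal

/-- **The residual stabiliser of the `Γ₁`-generators** is the same set. -/
theorem mem_stab_genκ_iff (hπ : Function.Surjective π) {ζ : A} (hζ : IsPrimitiveRoot ζ M)
    (hMk : ((M : ℕ) : k) ≠ 0) (hM : 8 ≤ M)
    (hκ : ∀ j, ((gamma1IntGen A M ζ).scale M).ebar π j ∈ D.κ π)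
    {G : Type*} [Group G] (φ : G →* Gal(D.κ π/k⟮D.xκ π⟯)) (g : G)
    (m h : Matrix (Fin 2) (Fin 2) (ZMod M)) (hmh : m * h = 1)
    (hφR : ∀ v w v' w' : Vec M, v ≠ 0 → w ≠ 0 → Good v' w' → ∀ y : D.κ π,
      (y : LaurentSeries k) = ratio M (π ζ) v w v' w' →
        ((φ g y : D.κ π) : LaurentSeries k) =
          ratio M (π ζ) (vecAct m v) (vecAct m w) (vecAct m v') (vecAct m w'))
    (hφj : LowerRow m → ∀ (d : ℕ) [NeZero d], d ∣ M → ∀ y : D.κ π,
      (y : LaurentSeries k) = qExpand k (d * M) (jqModC k) → φ g y = y) :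
    g ∈ stab φ (genκ π D ((gamma1IntGen A M ζ).scale M) hκ) ↔ LowerRow m := by
  have hζk : IsPrimitiveRoot (π ζ) M := isPrimitiveRoot_pi A π hπ hζ hMk
  have hE : ∀ b c b' c' : ZMod M, b ≠ 0 → c ≠ 0 → b' ≠ 0 → c' ≠ 0 →
      ratio M (π ζ) ((0, b) : Vec M) (0, c) (0, b') (0, c') ∈ D.κ π := by
    intro b c b' c' hb hc hb' hc'
    have := hκ (Sum.inr ⟨(b, c, b', c'), hb, hc, hb', hc'⟩)
    rw [scale_gamma1_ebar_inr hπ hζ hMk] at this
    exact this
  have key := fixes_ratio0_iff_lowerRow hM hζk (D.κ π)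
    ((φ g : D.κ π ≃ₐ[k⟮D.xκ π⟯] D.κ π) : D.κ π →+* D.κ π) m h hmh hE hφR
  rw [← key, mem_stab]
  constructor
  · intro hg b c b' c' hb hc hb' hc'
    have e : (⟨((gamma1IntGen A M ζ).scale M).ebar π
        (Sum.inr ⟨(b, c, b', c'), hb, hc, hb', hc'⟩), hκ _⟩ : D.κ π) =
        ⟨_, hE b c b' c' hb hc hb' hc'⟩ :=
      Subtype.ext (scale_gamma1_ebar_inr hπ hζ hMk _)
    have h1 : φ g (⟨((gamma1IntGen A M ζ).scale M).ebar π
        (Sum.inr ⟨(b, c, b', c'), hb, hc, hb', hc'⟩), hκ _⟩ : D.κ π) =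
        ⟨_, hκ (Sum.inr ⟨(b, c, b', c'), hb, hc, hb', hc'⟩)⟩ :=
      hg _ ⟨Sum.inr ⟨(b, c, b', c'), hb, hc, hb', hc'⟩, rfl⟩
    rw [e] at h1
    exact h1
  · rintro hfix _ ⟨j, rfl⟩
    rcases j with d | q
    · haveI := neZero_of_mem_divisors M d.2
      exact hφj (key.mp hfix) d.1 (Nat.dvd_of_mem_divisors d.2) _ (scale_gamma1_ebar_inl ζ d)
    · obtain ⟨⟨b, c, b', c'⟩, hb, hc, hb', hc'⟩ := q
      have e : (⟨((gamma1IntGen A M ζ).scale M).ebar π
          (Sum.inr ⟨(b, c, b', c'), hb, hc, hb', hc'⟩), hκ _⟩ : D.κ π) =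
          ⟨_, hE b c b' c' hb hc hb' hc'⟩ :=
        Subtype.ext (scale_gamma1_ebar_inr hπ hζ hMk _)
      have hgoal : φ g (⟨((gamma1IntGen A M ζ).scale M).ebar π
          (Sum.inr ⟨(b, c, b', c'), hb, hc, hb', hc'⟩), hκ _⟩ : D.κ π) =
          ⟨_, hκ (Sum.inr ⟨(b, c, b', c'), hb, hc, hb', hc'⟩)⟩ := by
        rw [e]
        exact hfix b c b' c' hb hc hb' hc'
      exact hgoal

/-- **`Full` for the `Γ₁(M)`-datum** from a full level datum `D` with Galois group `G` acting on the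
ratio generators through matrices, on the generic and on the residual side. -/
theorem gamma1_full (hπ : Function.Surjective π) {ζ : A} (hζ : IsPrimitiveRoot ζ M)
    (hMk : ((M : ℕ) : k) ≠ 0) (hM : 8 ≤ M) (hξ : D.ξ = jA A M)
    (hF : ∀ j, ((gamma1IntGen A M ζ).scale M).eL j ∈ D.F)
    (hκ : ∀ j, ((gamma1IntGen A M ζ).scale M).ebar π j ∈ D.κ π)
    {G : Type*} [Group G] [Finite G] [FiniteDimensional L⟮D.xF⟯ D.F]
    [FiniteDimensional k⟮D.xκ π⟯ (D.κ π)]
    (ψ : G →* Gal(D.F/L⟮D.xF⟯)) (hψ : Function.Injective ψ)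
    (hcardF : finrank L⟮D.xF⟯ D.F ≤ Nat.card G)
    (φ : G →* Gal(D.κ π/k⟮D.xκ π⟯)) (hφ : Function.Injective φ)
    (hcardκ : finrank k⟮D.xκ π⟯ (D.κ π) ≤ Nat.card G)
    (mat : G → Matrix (Fin 2) (Fin 2) (ZMod M))
    (hmat : ∀ g, ∃ h : Matrix (Fin 2) (Fin 2) (ZMod M), mat g * h = 1)
    (hψR : ∀ (g : G) (v w v' w' : Vec M), v ≠ 0 → w ≠ 0 → Good v' w' → ∀ f : D.F,
      (f : LaurentSeries L) = ratio M ((ζ : A) : L) v w v' w' →
        ((ψ g f : D.F) : LaurentSeries L) =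
          ratio M ((ζ : A) : L) (vecAct (mat g) v) (vecAct (mat g) w) (vecAct (mat g) v')
            (vecAct (mat g) w'))
    (hψj : ∀ g : G, LowerRow (mat g) → ∀ (d : ℕ) [NeZero d], d ∣ M → ∀ f : D.F,
      (f : LaurentSeries L) = qExpand L (d * M) (jqModC L) → ψ g f = f)
    (hφR : ∀ (g : G) (v w v' w' : Vec M), v ≠ 0 → w ≠ 0 → Good v' w' → ∀ y : D.κ π,
      (y : LaurentSeries k) = ratio M (π ζ) v w v' w' →
        ((φ g y : D.κ π) : LaurentSeries k) =
          ratio M (π ζ) (vecAct (mat g) v) (vecAct (mat g) w) (vecAct (mat g) v')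
            (vecAct (mat g) w'))
    (hφj : ∀ g : G, LowerRow (mat g) → ∀ (d : ℕ) [NeZero d], d ∣ M → ∀ y : D.κ π,
      (y : LaurentSeries k) = qExpand k (d * M) (jqModC k) → φ g y = y) :
    (gamma1IntGen A M ζ).Full π := by
  have hξ' : ((gamma1IntGen A M ζ).scale M).ξ = D.ξ := by rw [scale_gamma1_ξ, hξ]
  refine IntGen.Full.of_scale M ?_
  refine full_of_stab_eq π D ((gamma1IntGen A M ζ).scale M) hξ' hF hκ ψ hψ hcardF φ hφ hcardκ
    fun g => ?_
  obtain ⟨h, hmh⟩ := hmat g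
  rw [mem_stab_genF_iff D hπ hζ hMk hM hF ψ g (mat g) h hmh (hψR g) (hψj g),
    mem_stab_genκ_iff D hπ hζ hMk hM hκ φ g (mat g) h hmh (hφR g) (hφj g)]

theorem ratio_mem_ratioIntGen_F (hπ : Function.Surjective π) {ζ : A} (hζ : IsPrimitiveRoot ζ M)
    (hMk : ((M : ℕ) : k) ≠ 0) {v w v' w' : Vec M} (hv : v ≠ 0) (hw : w ≠ 0) (hv' : v' ≠ 0)
    (hw' : w' ≠ 0) : ratio M ((ζ : A) : L) v w v' w' ∈ (ratioIntGen A M ζ).F := by
  by_cases hg : Good v' w'
  · rw [← ratioIntGen_eL hπ hζ hMk ⟨(v, w, v', w'), hv, hw, hg⟩]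
    exact IntGen.eL_mem _ _
  · rw [ratio_eq_zero_of_not_good' (isPrimitiveRoot_coe A hζ).pow_eq_one v w hv' hw' hg]
    exact zero_mem _

theorem ratio_mem_ratioIntGen_κ (hπ : Function.Surjective π) {ζ : A} (hζ : IsPrimitiveRoot ζ M)
    (hMk : ((M : ℕ) : k) ≠ 0) {v w v' w' : Vec M} (hv : v ≠ 0) (hw : w ≠ 0) (hv' : v' ≠ 0)
    (hw' : w' ≠ 0) : ratio M (π ζ) v w v' w' ∈ (ratioIntGen A M ζ).κ π := by
  by_cases hg : Good v' w'
  · rw [← ratioIntGen_ebar hπ hζ hMk ⟨(v, w, v', w'), hv, hw, hg⟩]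
    exact IntGen.ebar_mem _ _ _
  · rw [ratio_eq_zero_of_not_good' (isPrimitiveRoot_pi A π hπ hζ hMk).pow_eq_one v w hv' hw' hg]
    exact zero_mem _

end Gamma1



end Fermat.Agent.S48x.Red1.Gamma1FixStab
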