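import Mathlib
import Fermat.Agent.S48x.Red1.Gamma1FixStab
import Fermat.Agent.S48x.Red1.IgusaOv
import Fermat.Agent.S48x.Red1.SepLevel
import Fermat.Agent.S48x.Red1.SL2Gen

/-!
# P-S48, layer (c), (R9): the final composition for `X₁(M)`

Input: the full level datum `I₀ : (ratioIntGen A M ζ).FullLevelData π SL(2, ZMod M)` of the
analytic layer (A4) (`Ana/FullLevelInst`), with `I₀.perm g = ModelInt.perm g⁻¹`, the membership
`j(z^(dM)) ∈ F'` and the invariance of `j(z^(dM))` under the upper triangular matrices.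

Output, for the `Γ₁(M)`-datum `gamma1IntGen A M ζ` (variable `q`):

* `full_and_poles_of_igusaData`, `full_and_poles_of_fullLevelData`, `full_and_poles_of_sl2` :
  `Full π` and the inequality `#poles_κ(x̄) ≤ #poles_F(x)` (`Red1/IgusaOv` + `Red1/Gamma1FixStab`);
* `isSeparable_of_sl2` : separability of the residue extension (`Red1/SepLevel`);

The genus inequality and the two deliverables of layer (c) are in `Red1/Gamma1ComposeGenus.lean`.
-/

set_option autoImplicit false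
set_option linter.unusedSectionVars false
set_option linter.style.haveILetI false

noncomputable section

open Module IntermediateField AlgebraicCurve

namespace Fermat.Agent.S48x.Red1.Gamma1Compose

open Fermat.Agent.S48x.Red1 Fermat.Agent.Gateway.Red Fermat.Agent.Gateway.GoodRed
open Fermat.Agent.S48x.Model Fermat.Agent.S48x.Model.Rigidity ModularCurve
open Fermat.Agent.S48x.Red1.ModelInt Fermat.Agent.S48x.Red1.Gamma1FixStab
open scoped Fermat.Agent.S48x.Red1.Shortcuts MatrixGroups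

/-! ### Part A: `Full` and the pole inequality from the Igusa datum of the ratio field -/

section Igusa

variable {L : Type*} [Field L] {A : ValuationSubring L} {k : Type*} [Field k] {π : A →+* k}
  {M : ℕ} [NeZero M]

/-- `hF`: the generators of the scaled `Γ₁`-datum lie in the field of the ratio datum. -/
theorem scale_gamma1_eL_mem (hπ : Function.Surjective π) {ζ : A} (hζ : IsPrimitiveRoot ζ M)
    (hMk : ((M : ℕ) : k) ≠ 0)
    (hjF : ∀ (d : ℕ) [NeZero d], d ∣ M →
      qExpand L (d * M) (jqModC L) ∈ (ratioIntGen A M ζ).F) (j : G1Idx M) :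
    ((gamma1IntGen A M ζ).scale M).eL j ∈ (ratioIntGen A M ζ).F := by
  rcases j with d | q
  · haveI := neZero_of_mem_divisors M d.2
    rw [scale_gamma1_eL_inl]
    exact hjF d.1 (Nat.dvd_of_mem_divisors d.2)
  · rw [scale_gamma1_eL_inr hπ hζ hMk]
    exact ratio_mem_ratioIntGen_F hπ hζ hMk (zeroVec_ne_zero q.2.1) (zeroVec_ne_zero q.2.2.1)
      (zeroVec_ne_zero q.2.2.2.1) (zeroVec_ne_zero q.2.2.2.2)

/-- **`Full` and the pole inequality for the `Γ₁(M)`-datum from the Igusa datum of the ratio-only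
full level datum.**  Only the characteristic zero facts `hjF` (`j(z^(dM)) ∈ F`) and `hj`
(`j(z^(dM))` is fixed by the elements with lower row `(0, ± 1)`) are needed about `j(z^(dM))`. -/
theorem full_and_poles_of_igusaData (hπ : Function.Surjective π) {ζ : A}
    (hζ : IsPrimitiveRoot ζ M) (hMk : ((M : ℕ) : k) ≠ 0) (hM : 8 ≤ M)
    {G : Type*} [Group G] [Finite G] (I : (ratioIntGen A M ζ).IgusaData π G)
    (mat : G → Matrix (Fin 2) (Fin 2) (ZMod M))
    (hmat : ∀ g, ∃ h : Matrix (Fin 2) (Fin 2) (ZMod M), mat g * h = 1)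
    (hperm : ∀ (g : G) (q : QuadIdx M), (I.perm g q).1 =
      (vecAct (mat g) q.1.1, vecAct (mat g) q.1.2.1, vecAct (mat g) q.1.2.2.1,
        vecAct (mat g) q.1.2.2.2))
    (hjF : ∀ (d : ℕ) [NeZero d], d ∣ M →
      qExpand L (d * M) (jqModC L) ∈ (ratioIntGen A M ζ).F)
    (hj : ∀ g : G, LowerRow (mat g) → ∀ (d : ℕ) [NeZero d], d ∣ M →
      ∀ f : (ratioIntGen A M ζ).F,
        (f : LaurentSeries L) = qExpand L (d * M) (jqModC L) → I.act g f = f)
    (hζL : IsPrimitiveRoot (Units.map (A.subtype : A →* L) I.ζ) M)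
    (hζk : IsPrimitiveRoot (Units.map (π : A →* k) I.ζ) M) :
    (gamma1IntGen A M ζ).Full π ∧
      Nat.card {P : Place k ((gamma1IntGen A M ζ).κ π) //
        P.ord ((gamma1IntGen A M ζ).xκ π) < 0} ≤
      Nat.card {P : Place L (gamma1IntGen A M ζ).F // P.ord (gamma1IntGen A M ζ).xF < 0} := by
  haveI := I.finiteDimensional_F
  have hF : ∀ j, ((gamma1IntGen A M ζ).scale M).eL j ∈ (ratioIntGen A M ζ).F :=
    scale_gamma1_eL_mem hπ hζ hMk hjF
  have hξ' : ((gamma1IntGen A M ζ).scale M).ξ = (ratioIntGen A M ζ).ξ := scale_gamma1_ξ ζ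
  have hζk' : IsPrimitiveRoot (π ζ) M := isPrimitiveRoot_pi A π hπ hζ hMk
  have hζu : I.ζ ^ M = 1 := by
    have h1 := hζL.pow_eq_one
    rw [← map_pow] at h1
    exact Units.map_injective (f := (A.subtype : A →* L)) Subtype.coe_injective
      (h1.trans (map_one _).symm)
  -- the action on the ratio generators, generic side
  have hψR : ∀ (g : G) (v w v' w' : Vec M), v ≠ 0 → w ≠ 0 → Good v' w' → ∀ f : (ratioIntGen A M ζ).F,
      (f : LaurentSeries L) = ratio M ((ζ : A) : L) v w v' w' →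
        ((I.ψ g f : (ratioIntGen A M ζ).F) : LaurentSeries L) =
          ratio M ((ζ : A) : L) (vecAct (mat g) v) (vecAct (mat g) w) (vecAct (mat g) v')
            (vecAct (mat g) w') := by
    intro g v w v' w' hv hw hg f hf
    have e : f = (ratioIntGen A M ζ).eF ⟨(v, w, v', w'), hv, hw, hg⟩ :=
      Subtype.ext (hf.trans (ratioIntGen_coe_eF hπ hζ hMk ⟨(v, w, v', w'), hv, hw, hg⟩).symm)
    rw [e, I.ψ_apply, I.act_e, ratioIntGen_coe_eF hπ hζ hMk, hperm g]
  have hψj : ∀ g : G, LowerRow (mat g) → ∀ (d : ℕ) [NeZero d], d ∣ M → ∀ f : (ratioIntGen A M ζ).F,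
      (f : LaurentSeries L) = qExpand L (d * M) (jqModC L) → I.ψ g f = f := by
    intro g hlow d _ hd f hf
    rw [I.ψ_apply]
    exact hj g hlow d hd f hf
  -- the action on the ratio generators, residual side
  have hφR : ∀ (g : G) (v w v' w' : Vec M), v ≠ 0 → w ≠ 0 → Good v' w' → ∀ y : (ratioIntGen A M ζ).κ π,
      (y : LaurentSeries k) = ratio M (π ζ) v w v' w' →
        ((I.φ hπ g y : (ratioIntGen A M ζ).κ π) : LaurentSeries k) =
          ratio M (π ζ) (vecAct (mat g) v) (vecAct (mat g) w) (vecAct (mat g) v')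
            (vecAct (mat g) w') := by
    intro g v w v' w' hv hw hg y hy
    have e : y = (ratioIntGen A M ζ).eκ π ⟨(v, w, v', w'), hv, hw, hg⟩ :=
      Subtype.ext (hy.trans (ratioIntGen_coe_eκ hπ hζ hMk ⟨(v, w, v', w'), hv, hw, hg⟩).symm)
    rw [e, I.φ_eκ hπ, ratioIntGen_coe_eκ hπ hζ hMk, hperm g]
  have hE : ∀ b c b' c' : ZMod M, b ≠ 0 → c ≠ 0 → b' ≠ 0 → c' ≠ 0 →
      ratio M (π ζ) ((0, b) : Vec M) (0, c) (0, b') (0, c') ∈ (ratioIntGen A M ζ).κ π :=
    fun b c b' c' hb hc hb' hc' => ratio_mem_ratioIntGen_κ hπ hζ hMk (zeroVec_ne_zero hb)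
      (zeroVec_ne_zero hc) (zeroVec_ne_zero hb') (zeroVec_ne_zero hc')
  refine IgusaOv.full_and_poles_of_fixed_scale' I hπ (gamma1IntGen A M ζ) M hξ' hF
    (stab I.ψ (genF (ratioIntGen A M ζ) ((gamma1IntGen A M ζ).scale M) hF)) (fun f => ?_)
    (Set.range Sum.inr) (fun g hg => ?_) (order_jA A M) hζL hζk
    (Fermat.Agent.S28.twist_qExpand_of_pow_eq_one I.ζ M hζu (jqModC A))
  · -- `hfix`
    exact coe_mem_F_iff_fixed (ratioIntGen A M ζ) ((gamma1IntGen A M ζ).scale M) hξ' hF I.ψ I.ψ_injective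
      I.finrank_F_le f
  · -- `hstab`, direction `←`, on the ratio generators
    obtain ⟨h, hmh⟩ := hmat g
    rw [mem_stab_genF_iff (ratioIntGen A M ζ) hπ hζ hMk hM hF I.ψ g (mat g) h hmh (hψR g) (hψj g)]
    refine (fixes_ratio0_iff_lowerRow hM hζk' ((ratioIntGen A M ζ).κ π)
      ((I.φ hπ g : (ratioIntGen A M ζ).κ π ≃ₐ[k⟮(ratioIntGen A M ζ).xκ π⟯] (ratioIntGen A M ζ).κ π) : (ratioIntGen A M ζ).κ π →+* (ratioIntGen A M ζ).κ π) (mat g) h hmh hE
      (hφR g)).mp ?_
    intro b c b' c' hb hc hb' hc'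
    have hmem : ((gamma1IntGen A M ζ).scale M).ebar π
        (Sum.inr ⟨(b, c, b', c'), hb, hc, hb', hc'⟩) ∈ (ratioIntGen A M ζ).κ π := by
      rw [scale_gamma1_ebar_inr hπ hζ hMk]
      exact hE b c b' c' hb hc hb' hc'
    have h1 := hg (Sum.inr ⟨(b, c, b', c'), hb, hc, hb', hc'⟩) ⟨_, rfl⟩ hmem
    have e : (⟨((gamma1IntGen A M ζ).scale M).ebar π
        (Sum.inr ⟨(b, c, b', c'), hb, hc, hb', hc'⟩), hmem⟩ : (ratioIntGen A M ζ).κ π) =
        ⟨_, hE b c b' c' hb hc hb' hc'⟩ :=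
      Subtype.ext (scale_gamma1_ebar_inr hπ hζ hMk _)
    rw [e] at h1
    exact h1

end Igusa


/-! ### Part B: the same from `FullLevelData` (the target of the analytic layer (A4)) -/

section Level

variable {L : Type*} [Field L] {A : ValuationSubring L} {k : Type*} [Field k] {π : A →+* k}
  {M : ℕ} [NeZero M]

/-- **`Full` and the pole inequality for the `Γ₁(M)`-datum from the full level datum of the
ratio-only field** (generic group `G₀` acting through the matrices `mat₀ g`). -/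
theorem full_and_poles_of_fullLevelData (hπ : Function.Surjective π) {ζ : A}
    (hζ : IsPrimitiveRoot ζ M) (hMk : ((M : ℕ) : k) ≠ 0) (hM : 8 ≤ M)
    {G₀ : Type*} [Group G₀] [Finite G₀] (I₀ : (ratioIntGen A M ζ).FullLevelData π G₀)
    (mat₀ : G₀ → Matrix (Fin 2) (Fin 2) (ZMod M))
    (hmat₀ : ∀ g, ∃ h : Matrix (Fin 2) (Fin 2) (ZMod M), mat₀ g * h = 1)
    (hperm₀ : ∀ (g : G₀) (q : QuadIdx M), (I₀.perm g q).1 =
      (vecAct (mat₀ g) q.1.1, vecAct (mat₀ g) q.1.2.1, vecAct (mat₀ g) q.1.2.2.1,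
        vecAct (mat₀ g) q.1.2.2.2))
    (hjF : ∀ (d : ℕ) [NeZero d], d ∣ M → qExpand L (d * M) (jqModC L) ∈ I₀.F')
    (hj₀ : ∀ g : G₀, LowerRow (mat₀ g) → ∀ (d : ℕ) [NeZero d], d ∣ M → ∀ f : I₀.F',
      (f : LaurentSeries L) = qExpand L (d * M) (jqModC L) → I₀.act g f = f)
    (hζu : IsPrimitiveRoot ((I₀.ζ : Aˣ) : A) M) :
    (gamma1IntGen A M ζ).Full π ∧
      Nat.card {P : Place k ((gamma1IntGen A M ζ).κ π) //
        P.ord ((gamma1IntGen A M ζ).xκ π) < 0} ≤
      Nat.card {P : Place L (gamma1IntGen A M ζ).F // P.ord (gamma1IntGen A M ζ).xF < 0} := by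
  obtain ⟨F', hF', act, perm, act_x, act_e, fixed, B, u, ζu, hu, hBu, hnc, hB, dist⟩ := I₀
  subst hF'
  dsimp only at hperm₀ hjF hj₀ hζu
  haveI : Finite act.range := IntGen.FullLevelData.finite_range_act act
  have act_x' : ∀ g, act g (ratioIntGen A M ζ).xF = (ratioIntGen A M ζ).xF :=
    fun g => Subtype.ext (act_x g (ratioIntGen A M ζ).xF rfl)
  have act_e' : ∀ g i, act g ((ratioIntGen A M ζ).eF i) = (ratioIntGen A M ζ).eF (perm g i) :=
    fun g i => Subtype.ext (act_e g i ((ratioIntGen A M ζ).eF i) rfl)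
  have fixed' : ∀ f : (ratioIntGen A M ζ).F, (∀ g, act g f = f) →
      f ∈ L⟮(ratioIntGen A M ζ).xF⟯ :=
    fun f hf => (ratioIntGen A M ζ).mem_adjoin_xF_of_coe (fixed f hf)
  have hB' : ∀ f : (ratioIntGen A M ζ).F, (∀ g, act g f ∈ Ov A π (ratioIntGen A M ζ).F) →
      (∀ b ∈ B, act b f = f) →
      ∀ (g : G₀) (h1 : f ∈ Ov A π (ratioIntGen A M ζ).F)
        (h2 : act g f ∈ Ov A π (ratioIntGen A M ζ).F),
        (redV A π (ratioIntGen A M ζ).F ⟨_, h2⟩ = 0 ↔
          redV A π (ratioIntGen A M ζ).F ⟨_, h1⟩ = 0) :=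
    fun f hf hb g h1 h2 => hB f hf hb g h1 h2
  have hspec : ∀ σ : act.range, act (Classical.choose σ.2) = σ := fun σ =>
    Classical.choose_spec σ.2
  have hζL : IsPrimitiveRoot (Units.map (A.subtype : A →* L) ζu) M := by
    rw [← IsPrimitiveRoot.coe_units_iff]
    exact hζu.map_of_injective (f := A.subtype) Subtype.coe_injective
  have hζk : IsPrimitiveRoot (Units.map (π : A →* k) ζu) M := by
    rw [← IsPrimitiveRoot.coe_units_iff]
    exact isPrimitiveRoot_pi A π hπ hζu hMk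
  refine full_and_poles_of_igusaData hπ hζ hMk hM
    (IntGen.FullLevelData.igusaDataAux act perm act_x' act_e' fixed' B u ζu hu hBu hnc hB' dist)
    (fun σ => mat₀ (Classical.choose σ.2))
    (fun σ => hmat₀ _) (fun σ q => hperm₀ (Classical.choose σ.2) q) hjF ?_ hζL hζk
  intro σ hlow d _ hd f hf
  have h1 : act (Classical.choose σ.2) f = f := hj₀ (Classical.choose σ.2) hlow d hd f hf
  rw [hspec σ] at h1
  exact h1

end Level


/-! ### Part C: `G₀ = SL(2, ZMod M)` acting by `perm g = ModelInt.perm g⁻¹` -/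

section SL2

variable {L : Type*} [Field L] {A : ValuationSubring L} {k : Type*} [Field k] {π : A →+* k}
  {M : ℕ} [NeZero M]

theorem sl2_one_zero_inv (g : SL(2, ZMod M)) :
    ((g⁻¹ : SL(2, ZMod M)) : Matrix (Fin 2) (Fin 2) (ZMod M)) 1 0 = -(g 1 0) := by
  rw [Matrix.SpecialLinearGroup.coe_inv, Matrix.adjugate_fin_two]
  rfl

/-- an element whose inverse has lower row `(0, ± 1)` is upper triangular. -/
theorem one_zero_eq_zero_of_lowerRow_inv {g : SL(2, ZMod M)}
    (h : LowerRow ((g⁻¹ : SL(2, ZMod M)) : Matrix (Fin 2) (Fin 2) (ZMod M))) : g 1 0 = 0 := by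
  have h1 := h.1
  rw [sl2_one_zero_inv, neg_eq_zero] at h1
  exact h1

/-- the named inputs of the composition which the analytic layer must provide about the full
level datum (besides the datum itself). -/
structure Inputs {ζ : A} (I₀ : (ratioIntGen A M ζ).FullLevelData π SL(2, ZMod M)) : Prop where
  /-- the group permutes the quadruples by right multiplication with `g⁻¹`. -/
  hperm : ∀ (g : SL(2, ZMod M)) (q : QuadIdx M), I₀.perm g q = ModelInt.perm g⁻¹ q
  /-- `j(z^(dM)) ∈ F'`. -/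
  hjF : ∀ (d : ℕ) [NeZero d], d ∣ M → qExpand L (d * M) (jqModC L) ∈ I₀.F'
  /-- the upper triangular matrices fix `j(z^(dM))`. -/
  hjB : ∀ g : SL(2, ZMod M), g 1 0 = 0 → ∀ (d : ℕ) [NeZero d], d ∣ M → ∀ f : I₀.F',
    (f : LaurentSeries L) = qExpand L (d * M) (jqModC L) → I₀.act g f = f
  /-- the root of unity of the twist is primitive. -/
  hζu : IsPrimitiveRoot ((I₀.ζ : Aˣ) : A) M

variable {ζ : A} {I₀ : (ratioIntGen A M ζ).FullLevelData π SL(2, ZMod M)}

/-- **`Full` and the pole inequality for the `Γ₁(M)`-datum**, from the full level datum with group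
`SL(2, ZMod M)`. -/
theorem full_and_poles_of_sl2 (hπ : Function.Surjective π) (hζ : IsPrimitiveRoot ζ M)
    (hMk : ((M : ℕ) : k) ≠ 0) (hM : 8 ≤ M) (H : Inputs I₀) :
    (gamma1IntGen A M ζ).Full π ∧
      Nat.card {P : Place k ((gamma1IntGen A M ζ).κ π) //
        P.ord ((gamma1IntGen A M ζ).xκ π) < 0} ≤
      Nat.card {P : Place L (gamma1IntGen A M ζ).F // P.ord (gamma1IntGen A M ζ).xF < 0} := by
  refine full_and_poles_of_fullLevelData hπ hζ hMk hM I₀
    (fun g => ((g⁻¹ : SL(2, ZMod M)) : Matrix (Fin 2) (Fin 2) (ZMod M)))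
    (fun g => ⟨_, sl_mul_inv g⁻¹⟩) (fun g q => ?_) H.hjF (fun g hlow => ?_) H.hζu
  · rw [H.hperm g q, perm_val]
  · exact H.hjB g (one_zero_eq_zero_of_lowerRow_inv hlow)

theorem full_of_sl2 (hπ : Function.Surjective π) (hζ : IsPrimitiveRoot ζ M)
    (hMk : ((M : ℕ) : k) ≠ 0) (hM : 8 ≤ M) (H : Inputs I₀) : (gamma1IntGen A M ζ).Full π :=
  (full_and_poles_of_sl2 hπ hζ hMk hM H).1

/-- **`hsep`**: the residue extension of the `Γ₁(M)`-datum is separable. -/
theorem isSeparable_of_sl2 (hπ : Function.Surjective π) (hζ : IsPrimitiveRoot ζ M)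
    (hMk : ((M : ℕ) : k) ≠ 0) (H : Inputs I₀) :
    Algebra.IsSeparable k⟮(gamma1IntGen A M ζ).xκ π⟯ ((gamma1IntGen A M ζ).κ π) := by
  have hfull : (ratioIntGen A M ζ).Full π := I₀.full hπ
  have hF : ∀ j, ((gamma1IntGen A M ζ).scale M).eL j ∈ (ratioIntGen A M ζ).F :=
    scale_gamma1_eL_mem hπ hζ hMk (fun d _ hd => I₀.hF' ▸ H.hjF d hd)
  have hξ' : ((gamma1IntGen A M ζ).scale M).ξ = (ratioIntGen A M ζ).ξ := scale_gamma1_ξ ζ
  have hle : ((gamma1IntGen A M ζ).scale M).κ π ≤ (ratioIntGen A M ζ).κ π :=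
    CuspPolesFixed.κ_le π _ _ hξ'
      (FixedCompose.ebar_mem_of_eL_mem π _ _ hfull hπ hF)
  haveI := I₀.isSeparable_κ_sub hπ ((gamma1IntGen A M ζ).scale M) hξ' hle
  exact IntGen.isSeparable_κ_of_scale (gamma1IntGen A M ζ) M

end SL2


end Fermat.Agent.S48x.Red1.Gamma1Compose
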