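import Mathlib
import Fermat.Agent.S48x.Red1.Gamma1Compose
import Fermat.Agent.S48x.Red1.Gamma1Genus
import Fermat.Agent.S48x.Red1.Gamma1Assemble

/-!
# P-S48, layer (c), (R9): genus inequality and the two deliverables for `X₁(M)`

On top of `Red1/Gamma1Compose.lean` (`Full`, pole inequality, separability from the full level
datum `I₀` and `H : Inputs I₀`):

* `genusFF_le_of_sl2` : the genus inequality (`Red1/Gamma1Genus`);
* `gaussNormalisable_of_sl2`, `kummerRedInj_of_sl2` : the two deliverables of layer (c),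
  `Kummer1.GaussNormalisable (gamma1Field M) A` and `Kummer1.KummerRedInj (gamma1Field M) A m`
  (`Red1/Gamma1Assemble`);
* `exists_algHom_map_primitiveRoot` : an embedding `L → ℂ` sending a given primitive `M`-th root
  of unity to a given one.
-/

set_option autoImplicit false
set_option linter.unusedSectionVars false
set_option linter.style.haveILetI false

noncomputable section

open Module IntermediateField AlgebraicCurve

namespace Fermat.Agent.S48x.Red1.Gamma1ComposeGenus

open Fermat.Agent.S48x.Red1 Fermat.Agent.Gateway.Red Fermat.Agent.Gateway.GoodRed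
open Fermat.Agent.S48x.Model Fermat.Agent.S48x.Model.Rigidity ModularCurve
open Fermat.Agent.S48x.Red1.ModelInt Fermat.Agent.S48x.Red1.Gamma1Compose
open scoped Fermat.Agent.S48x.Red1.Shortcuts MatrixGroups

/-- an embedding of an algebraic extension `L` of `ℚ` into `ℂ` which sends a given primitive
`M`-th root of unity to a given primitive `M`-th root of unity. -/
theorem exists_algHom_map_primitiveRoot {L : Type*} [Field L] [Algebra ℚ L]
    [Algebra.IsAlgebraic ℚ L] {M : ℕ} [NeZero M] {ζ : L} (hζ : IsPrimitiveRoot ζ M)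
    {z : ℂ} (hz : IsPrimitiveRoot z M) : ∃ ι : L →ₐ[ℚ] ℂ, ι ζ = z := by
  have : CharZero L := algebraRat.charZero L
  have hpos : 0 < M := NeZero.pos M
  have hmin : minpoly ℚ ζ = Polynomial.cyclotomic M ℚ := by
    rw [← Polynomial.map_cyclotomic_int, Polynomial.cyclotomic_eq_minpoly hζ hpos]
    exact minpoly.isIntegrallyClosed_eq_field_fractions' ℚ (hζ.isIntegral hpos)
  refine IntermediateField.exists_algHom_of_splits_of_aeval (F := ℚ) (E := L) (K := ℂ)
    (fun s => ⟨Algebra.IsIntegral.isIntegral s, IsAlgClosed.splits _⟩) ?_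
  rw [hmin, Polynomial.aeval_def, Polynomial.eval₂_eq_eval_map, Polynomial.map_cyclotomic]
  exact Polynomial.isRoot_cyclotomic_iff.mpr hz

/-! ### Part D: genus and the two deliverables -/

section Final

variable {L : Type} [Field L] [Algebra ℚ L] [IsAlgClosed L] [CharZero L]
  {A : ValuationSubring L} {k : Type} [Field k] [IsAlgClosed k] {π : A →+* k}
  {M : ℕ} [NeZero M] {ζ : A} {I₀ : (ratioIntGen A M ζ).FullLevelData π SL(2, ZMod M)}

/-- **`hgenus`**: `g(F) ≤ g(κ)` for the `Γ₁(M)`-datum. -/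
theorem genusFF_le_of_sl2 (ι : L →+* ℂ) (hπ : Function.Surjective π)
    (hζ : IsPrimitiveRoot ζ M) (hMk : ((M : ℕ) : k) ≠ 0) (hM : 8 ≤ M) (h49 : 4 ∣ M ∨ 9 ∣ M)
    (H : Inputs I₀) :
    genusFF L (gamma1IntGen A M ζ).F ≤ genusFF k ((gamma1IntGen A M ζ).κ π) := by
  obtain ⟨hfull, hpoles⟩ := full_and_poles_of_sl2 hπ hζ hMk hM H
  haveI := hfull.finiteDimensional_κ
  haveI := isSeparable_of_sl2 hπ hζ hMk H
  exact Gamma1Genus.genusFF_le_gamma1IntGen ι hM hπ hζ hMk h49 hfull hpoles

end Final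

section Deliver

open IsLocalRing

variable {L : Type} [Field L] [Algebra ℚ L] [IsAlgClosed L] [Algebra.IsAlgebraic ℚ L]
  (A : ValuationSubring L) {M : ℕ} [NeZero M] {ζ : A}
  {I₀ : (ratioIntGen A M ζ).FullLevelData (residue A) SL(2, ZMod M)}

/-- **(Hnorm)** for the function field of `X₁(M)`. -/
theorem gaussNormalisable_of_sl2 {p : ℕ} (hp : p.Prime) (hA : A.LiesOverPrime p)
    (hpM : ¬ p ∣ M) (hζ : IsPrimitiveRoot ζ M) (hM : 8 ≤ M) (H : Inputs I₀) :
    Kummer1.GaussNormalisable (gamma1Field M) A :=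
  Gamma1Assemble.gaussNormalisable_of_full A hp hA hpM hζ
    (full_of_sl2 residue_surjective hζ (Gamma1Assemble.natCast_ne_zero_residue A hp hA hpM) hM H)

/-- **(C0)** for the function field of `X₁(M)`. -/
theorem kummerRedInj_of_sl2 {p : ℕ} (hp : p.Prime) (hA : A.LiesOverPrime p)
    (hpM : ¬ p ∣ M) (hζ : IsPrimitiveRoot ζ M) (hM : 8 ≤ M) (h49 : 4 ∣ M ∨ 9 ∣ M)
    (H : Inputs I₀) {m : ℕ} (hm : ¬ p ∣ m) :
    Kummer1.KummerRedInj (gamma1Field M) A m := by
  haveI : CharZero L := algebraRat.charZero L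
  haveI := Fermat.Agent.Gateway.ES.isAlgClosed_residueField A
  have hMk := Gamma1Assemble.natCast_ne_zero_residue A hp hA hpM (M := M)
  let ι : L →+* ℂ := ((IsAlgClosed.lift : L →ₐ[ℚ] ℂ) : L →+* ℂ)
  exact Gamma1Assemble.kummerRedInj_of_full A hp hA hpM hζ
    (full_of_sl2 residue_surjective hζ hMk hM H)
    (isSeparable_of_sl2 residue_surjective hζ hMk H)
    (genusFF_le_of_sl2 ι residue_surjective hζ hMk hM h49 H) hm

end Deliver

end Fermat.Agent.S48x.Red1.Gamma1ComposeGenus
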