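import Mathlib
import Fermat.Agent.S48x.Red1.Gamma1FixStab

/-!
# P-S48, layer (c), (R9): `Full` for the `Γ₁(M)`-datum from `IgusaData` / `FullLevelData`

Parts 4 and 5 of `Red1/Gamma1FixStab`: the instantiation of `Gamma1FixStab.gamma1_full` against
`IntGen.IgusaData` and `IntGen.FullLevelData` for the ratio-only full level datum
`ModelInt.ratioIntGen A M ζ`.
-/

set_option autoImplicit false
set_option linter.unusedSectionVars false
set_option linter.style.haveILetI false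

noncomputable section

open Module IntermediateField

namespace Fermat.Agent.S48x.Red1.Gamma1FixStab

open Fermat.Agent.S48x.Red1 Fermat.Agent.Gateway.Red Fermat.Agent.Gateway.GoodRed
open Fermat.Agent.S48x.Model Fermat.Agent.S48x.Model.Rigidity ModularCurve
open scoped Fermat.Agent.S48x.Red1.Shortcuts

/-! ### Part 4: instantiation against `IgusaData` for the ratio-only full level datum -/

section Igusa

open ModelInt

variable {L : Type*} [Field L] {A : ValuationSubring L} {k : Type*} [Field k] {π : A →+* k}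
  {M : ℕ} [NeZero M]

/-- **`Full` for the `Γ₁(M)`-datum from the Igusa datum of the ratio-only full level datum.**
Besides `I`, the inputs are: the matrices `mat g` through which `I.perm g` acts on quadruples, the
membership `j(z^(dM)) ∈ F` (char. 0: `F = fullField`), the Gauss-integrality of the conjugates of
`j(z^(dM))` (`Red1/BorelBridge`), and the invariance of `j(z^(dM))` under the elements with lower
row `(0, ± 1)` (they lie in the Borel subgroup). -/
theorem gamma1_full_of_igusaData (hπ : Function.Surjective π) {ζ : A}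
    (hζ : IsPrimitiveRoot ζ M) (hMk : ((M : ℕ) : k) ≠ 0) (hM : 8 ≤ M)
    {G : Type*} [Group G] [Finite G] (I : (ratioIntGen A M ζ).IgusaData π G)
    (mat : G → Matrix (Fin 2) (Fin 2) (ZMod M))
    (hmat : ∀ g, ∃ h : Matrix (Fin 2) (Fin 2) (ZMod M), mat g * h = 1)
    (hperm : ∀ (g : G) (q : QuadIdx M), (I.perm g q).1 =
      (vecAct (mat g) q.1.1, vecAct (mat g) q.1.2.1, vecAct (mat g) q.1.2.2.1,
        vecAct (mat g) q.1.2.2.2))
    (hjF : ∀ (d : ℕ) [NeZero d], d ∣ M →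
      qExpand L (d * M) (jqModC L) ∈ (ratioIntGen A M ζ).F)
    (hjO : ∀ (g : G) (d : ℕ) [NeZero d], d ∣ M → ∀ f : (ratioIntGen A M ζ).F,
      (f : LaurentSeries L) = qExpand L (d * M) (jqModC L) →
        ((I.act g f : (ratioIntGen A M ζ).F) : LaurentSeries L) ∈ gaussRing A π)
    (hj : ∀ g : G, LowerRow (mat g) → ∀ (d : ℕ) [NeZero d], d ∣ M →
      ∀ f : (ratioIntGen A M ζ).F,
        (f : LaurentSeries L) = qExpand L (d * M) (jqModC L) → I.act g f = f) :
    (gamma1IntGen A M ζ).Full π := by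
  have hfull : (ratioIntGen A M ζ).Full π := I.full hπ
  haveI := hfull.nonempty_fin
  haveI := I.finiteDimensional_F
  haveI := I.finiteDimensional_κ hπ
  have hcardκ : finrank k⟮(ratioIntGen A M ζ).xκ π⟯ ((ratioIntGen A M ζ).κ π) ≤ Nat.card G := ((ratioIntGen A M ζ).finrank_κ_le π).trans I.finrank_F_le
  -- reductions of Gauss-integral elements of `F` lie in `κ`
  have hredκ : ∀ (f : (ratioIntGen A M ζ).F) (h : f ∈ Ov A π (ratioIntGen A M ζ).F), redV A π (ratioIntGen A M ζ).F ⟨f, h⟩ ∈ (ratioIntGen A M ζ).κ π :=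
    fun f h => hfull.spanData.redV_mem_κ hπ ⟨f, h⟩
  -- the elements `j(z^(dM))` of `F` and their reductions
  have hjred : ∀ (d : ℕ) [NeZero d] (f : (ratioIntGen A M ζ).F) (h : f ∈ Ov A π (ratioIntGen A M ζ).F),
      (f : LaurentSeries L) = qExpand L (d * M) (jqModC L) →
        redV A π (ratioIntGen A M ζ).F ⟨f, h⟩ = qExpand k (d * M) (jqModC k) := by
    intro d _ f h hf
    rw [redV_of_eq_embA A π (ratioIntGen A M ζ).F ⟨f, h⟩ (a := jA A (d * M)) (by rw [embA_jA]; exact hf), redA_jA]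
  have hjOv : ∀ (d : ℕ) [NeZero d] (f : (ratioIntGen A M ζ).F),
      (f : LaurentSeries L) = qExpand L (d * M) (jqModC L) → f ∈ Ov A π (ratioIntGen A M ζ).F := by
    intro d _ f hf
    rw [mem_Ov_iff, hf, ← embA_jA A (d * M)]
    exact embA_mem_gaussRing A π _
  have hF : ∀ j, ((gamma1IntGen A M ζ).scale M).eL j ∈ (ratioIntGen A M ζ).F := by
    rintro (d | q)
    · haveI := neZero_of_mem_divisors M d.2
      rw [scale_gamma1_eL_inl]
      exact hjF d.1 (Nat.dvd_of_mem_divisors d.2)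
    · rw [scale_gamma1_eL_inr hπ hζ hMk]
      exact ratio_mem_ratioIntGen_F hπ hζ hMk (zeroVec_ne_zero q.2.1) (zeroVec_ne_zero q.2.2.1)
        (zeroVec_ne_zero q.2.2.2.1) (zeroVec_ne_zero q.2.2.2.2)
  have hκ : ∀ j, ((gamma1IntGen A M ζ).scale M).ebar π j ∈ (ratioIntGen A M ζ).κ π := by
    rintro (d | q)
    · haveI := neZero_of_mem_divisors M d.2
      rw [scale_gamma1_ebar_inl]
      have hd := Nat.dvd_of_mem_divisors d.2
      have hO := hjOv d.1 ⟨_, hjF d.1 hd⟩ rfl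
      rw [← hjred d.1 ⟨_, hjF d.1 hd⟩ hO rfl]
      exact hredκ _ hO
    · rw [scale_gamma1_ebar_inr hπ hζ hMk]
      exact ratio_mem_ratioIntGen_κ hπ hζ hMk (zeroVec_ne_zero q.2.1) (zeroVec_ne_zero q.2.2.1)
        (zeroVec_ne_zero q.2.2.2.1) (zeroVec_ne_zero q.2.2.2.2)
  refine gamma1_full (ratioIntGen A M ζ) hπ hζ hMk hM (ratioIntGen_ξ ζ) hF hκ I.ψ I.ψ_injective I.finrank_F_le (I.φ hπ)
    (I.φ_injective hπ) hcardκ mat hmat ?_ ?_ ?_ ?_
  · -- hψR
    intro g v w v' w' hv hw hg f hf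
    have e : f = (ratioIntGen A M ζ).eF ⟨(v, w, v', w'), hv, hw, hg⟩ :=
      Subtype.ext (hf.trans (ratioIntGen_coe_eF hπ hζ hMk ⟨(v, w, v', w'), hv, hw, hg⟩).symm)
    have hp := hperm g ⟨(v, w, v', w'), hv, hw, hg⟩
    have h1 : (I.perm g ⟨(v, w, v', w'), hv, hw, hg⟩).1.1 = vecAct (mat g) v :=
      congrArg (fun t => t.1) hp
    have h2 : (I.perm g ⟨(v, w, v', w'), hv, hw, hg⟩).1.2.1 = vecAct (mat g) w :=
      congrArg (fun t => t.2.1) hp
    have h3 : (I.perm g ⟨(v, w, v', w'), hv, hw, hg⟩).1.2.2.1 = vecAct (mat g) v' :=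
      congrArg (fun t => t.2.2.1) hp
    have h4 : (I.perm g ⟨(v, w, v', w'), hv, hw, hg⟩).1.2.2.2 = vecAct (mat g) w' :=
      congrArg (fun t => t.2.2.2) hp
    rw [e, I.ψ_apply, I.act_e,
      ratioIntGen_coe_eF hπ hζ hMk (I.perm g ⟨(v, w, v', w'), hv, hw, hg⟩), h1, h2, h3, h4]
  · -- hψj
    intro g hlow d _ hd f hf
    rw [I.ψ_apply]
    exact hj g hlow d hd f hf
  · -- hφR
    intro g v w v' w' hv hw hg y hy
    have e : y = (ratioIntGen A M ζ).eκ π ⟨(v, w, v', w'), hv, hw, hg⟩ :=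
      Subtype.ext (hy.trans (ratioIntGen_coe_eκ hπ hζ hMk ⟨(v, w, v', w'), hv, hw, hg⟩).symm)
    have hp := hperm g ⟨(v, w, v', w'), hv, hw, hg⟩
    have h1 : (I.perm g ⟨(v, w, v', w'), hv, hw, hg⟩).1.1 = vecAct (mat g) v :=
      congrArg (fun t => t.1) hp
    have h2 : (I.perm g ⟨(v, w, v', w'), hv, hw, hg⟩).1.2.1 = vecAct (mat g) w :=
      congrArg (fun t => t.2.1) hp
    have h3 : (I.perm g ⟨(v, w, v', w'), hv, hw, hg⟩).1.2.2.1 = vecAct (mat g) v' :=
      congrArg (fun t => t.2.2.1) hp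
    have h4 : (I.perm g ⟨(v, w, v', w'), hv, hw, hg⟩).1.2.2.2 = vecAct (mat g) w' :=
      congrArg (fun t => t.2.2.2) hp
    rw [e, I.φ_eκ hπ,
      ratioIntGen_coe_eκ hπ hζ hMk (I.perm g ⟨(v, w, v', w'), hv, hw, hg⟩), h1, h2, h3, h4]
  · -- hφj
    intro g hlow d _ hd y hy
    set f : (ratioIntGen A M ζ).F := ⟨qExpand L (d * M) (jqModC L), hjF d hd⟩ with hf
    have hfR : f ∈ (ratioIntGen A M ζ).igR π I.act := by
      rw [IntGen.mem_igR_iff]
      intro g'
      rw [IntGen.mem_Sκ_iff]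
      have h1 : I.act g' f ∈ Ov A π (ratioIntGen A M ζ).F := (mem_Ov_iff A π (ratioIntGen A M ζ).F).mpr (hjO g' d hd f rfl)
      exact ⟨h1, hredκ _ h1⟩
    have hy' : y = (ratioIntGen A M ζ).igρ π I.act ⟨f, hfR⟩ := by
      apply Subtype.ext
      rw [IntGen.coe_igρ, hy]
      exact (hjred d f _ rfl).symm
    apply Subtype.ext
    rw [hy', I.φ_redV hπ g hfR, IntGen.coe_igρ]
    exact congrArg (redV A π (ratioIntGen A M ζ).F) (Subtype.ext (hj g hlow d hd f rfl))

end Igusa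


/-! ### Part 5: the same against `FullLevelData` (the target of the analytic layer (A4)) -/

section Level

open ModelInt

variable {L : Type*} [Field L] {A : ValuationSubring L} {k : Type*} [Field k] {π : A →+* k}
  {M : ℕ} [NeZero M]

/-- **`Full` for the `Γ₁(M)`-datum from the full level datum of the ratio-only field.**
`mat₀ g` is the matrix through which `g` permutes the quadruples (for the model:
`G₀ = SL(2, ZMod M)`, `perm g = ModelInt.perm g⁻¹`, `mat₀ g = (g⁻¹ : SL(2, ZMod M)).1`). -/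
theorem gamma1_full_of_fullLevelData (hπ : Function.Surjective π) {ζ : A}
    (hζ : IsPrimitiveRoot ζ M) (hMk : ((M : ℕ) : k) ≠ 0) (hM : 8 ≤ M)
    {G₀ : Type*} [Group G₀] [Finite G₀] (I₀ : (ratioIntGen A M ζ).FullLevelData π G₀)
    (mat₀ : G₀ → Matrix (Fin 2) (Fin 2) (ZMod M))
    (hmat₀ : ∀ g, ∃ h : Matrix (Fin 2) (Fin 2) (ZMod M), mat₀ g * h = 1)
    (hperm₀ : ∀ (g : G₀) (q : QuadIdx M), (I₀.perm g q).1 =
      (vecAct (mat₀ g) q.1.1, vecAct (mat₀ g) q.1.2.1, vecAct (mat₀ g) q.1.2.2.1,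
        vecAct (mat₀ g) q.1.2.2.2))
    (hjF : ∀ (d : ℕ) [NeZero d], d ∣ M → qExpand L (d * M) (jqModC L) ∈ I₀.F')
    (hjO₀ : ∀ (g : G₀) (d : ℕ) [NeZero d], d ∣ M → ∀ f : I₀.F',
      (f : LaurentSeries L) = qExpand L (d * M) (jqModC L) →
        ((I₀.act g f : I₀.F') : LaurentSeries L) ∈ gaussRing A π)
    (hj₀ : ∀ g : G₀, LowerRow (mat₀ g) → ∀ (d : ℕ) [NeZero d], d ∣ M → ∀ f : I₀.F',
      (f : LaurentSeries L) = qExpand L (d * M) (jqModC L) → I₀.act g f = f) :
    (gamma1IntGen A M ζ).Full π := by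
  obtain ⟨F', hF', act, perm, act_x, act_e, fixed, B, u, ζu, hu, hBu, hnc, hB, dist⟩ := I₀
  subst hF'
  haveI : Finite act.range := IntGen.FullLevelData.finite_range_act act
  have act_x' : ∀ g, act g (ratioIntGen A M ζ).xF = (ratioIntGen A M ζ).xF := fun g => Subtype.ext (act_x g (ratioIntGen A M ζ).xF rfl)
  have act_e' : ∀ g i, act g ((ratioIntGen A M ζ).eF i) = (ratioIntGen A M ζ).eF (perm g i) :=
    fun g i => Subtype.ext (act_e g i ((ratioIntGen A M ζ).eF i) rfl)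
  have fixed' : ∀ f : (ratioIntGen A M ζ).F, (∀ g, act g f = f) → f ∈ L⟮(ratioIntGen A M ζ).xF⟯ :=
    fun f hf => (ratioIntGen A M ζ).mem_adjoin_xF_of_coe (fixed f hf)
  have hB' : ∀ f : (ratioIntGen A M ζ).F, (∀ g, act g f ∈ Ov A π (ratioIntGen A M ζ).F) → (∀ b ∈ B, act b f = f) →
      ∀ (g : G₀) (h1 : f ∈ Ov A π (ratioIntGen A M ζ).F) (h2 : act g f ∈ Ov A π (ratioIntGen A M ζ).F),
        (redV A π (ratioIntGen A M ζ).F ⟨_, h2⟩ = 0 ↔ redV A π (ratioIntGen A M ζ).F ⟨_, h1⟩ = 0) :=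
    fun f hf hb g h1 h2 => hB f hf hb g h1 h2
  let I := IntGen.FullLevelData.igusaDataAux act perm act_x' act_e' fixed' B u ζu hu hBu hnc hB'
    dist
  have hspec : ∀ σ : act.range, act (Classical.choose σ.2) = σ := fun σ =>
    Classical.choose_spec σ.2
  refine gamma1_full_of_igusaData hπ hζ hMk hM I (fun σ => mat₀ (Classical.choose σ.2))
    (fun σ => hmat₀ _) (fun σ q => hperm₀ (Classical.choose σ.2) q) hjF ?_ ?_
  · intro σ d _ hd f hf
    have h1 : ((act (Classical.choose σ.2) f : (ratioIntGen A M ζ).F) : LaurentSeries L) ∈ gaussRing A π :=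
      hjO₀ (Classical.choose σ.2) d hd f hf
    rw [hspec σ] at h1
    exact h1
  · intro σ hlow d _ hd f hf
    have h1 : act (Classical.choose σ.2) f = f := hj₀ (Classical.choose σ.2) hlow d hd f hf
    rw [hspec σ] at h1
    exact h1

end Level

end Fermat.Agent.S48x.Red1.Gamma1FixStab
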