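import Fermat.Agent.S48x.Red1.FixedCompose
import Fermat.Agent.S48x.Red1.IgusaFull

/-!
# P-S48, layer (c), (R9): `Full` and the pole inequality for fixed fields, from `IgusaData`

For `I : D.IgusaData π G` (the data of Igusa's theorem for the full level datum `D`,
`Red1/IgusaFull.lean`) all the inputs `ψ, φ, u₀, ζ` of `FullFixedInst.full_of_fixed` and of
`CuspPolesFixed.card_poles_le_of_fixed` are exported by `I`:

* `φ_u_twist` : the residue action of the transvection `I.u` is the twist by the reduced root of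
  unity (`huκ`);
* `full_and_poles_of_fixed` / `full_and_poles_of_fixed_scale` : `Full` and the pole inequality for
  a datum `D'` (resp. `D₀`, `D' = D₀.scale M₀`) whose field is the fixed field of `H ≤ G` and
  whose reduced generators have pointwise stabiliser `H`.
-/

set_option autoImplicit false
set_option linter.unusedSectionVars false

noncomputable section

namespace Fermat.Agent.S48x.Red1.IgusaFixed

open Module IntermediateField AlgebraicCurve
open Fermat.Agent.S48x.Red1 Fermat.Agent.Gateway.Red Fermat.Agent.Gateway.GoodRed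
open scoped Fermat.Agent.S48x.Red1.Shortcuts

variable {L : Type*} [Field L] {A : ValuationSubring L} {k : Type*} [Field k] {π : A →+* k}
  {ι ι' : Type*} {D : IntGen A ι} {G : Type*} [Group G] (I : D.IgusaData π G)
  [Finite ι] [Finite G] (hπ : Function.Surjective π)

/-- the residue action of the transvection is the twist by the reduced root of unity. -/
theorem φ_u_twist (y : D.κ π) :
    ((I.φ hπ I.u y : D.κ π) : LaurentSeries k) =
      Fermat.Agent.S28.twist (Units.map (π : A →* k) I.ζ) (y : LaurentSeries k) := by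
  obtain ⟨r, rfl⟩ := I.igρ_surjective hπ y
  rw [I.φ_igρ hπ I.u r]
  exact D.coe_igρ_smul_of_twist π I.act I.u I.ζ I.hu r

/-- the characteristic zero action of the transvection is the twist by the root of unity. -/
theorem ψ_u_twist (f : D.F) :
    ((I.ψ I.u f : D.F) : LaurentSeries L) =
      Fermat.Agent.S28.twist (Units.map (A.subtype : A →* L) I.ζ) (f : LaurentSeries L) :=
  I.hu f

/-- **`Full` and the pole inequality for the fixed field datum** (`z`-variable), from
`IgusaData`. -/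
theorem full_and_poles_of_fixed (D' : IntGen A ι')
    (hξ : D'.ξ = D.ξ) (hF : ∀ j, D'.eL j ∈ D.F) (H : Subgroup G)
    (hfix : ∀ f : D.F, (f : LaurentSeries L) ∈ D'.F ↔ ∀ h ∈ H, I.act h f = f)
    (hstab : ∀ g : G, g ∈ H ↔ ∀ (j : ι') (hj : D'.ebar π j ∈ D.κ π),
      I.φ hπ g ⟨D'.ebar π j, hj⟩ = (⟨D'.ebar π j, hj⟩ : D.κ π))
    {M : ℕ} [NeZero M] (hξM : D.ξ.order = -(M : ℤ))
    (hζL : IsPrimitiveRoot (Units.map (A.subtype : A →* L) I.ζ) M)
    (hζk : IsPrimitiveRoot (Units.map (π : A →* k) I.ζ) M)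
    (hζξ : Fermat.Agent.S28.twist I.ζ D.ξ = D.ξ) :
    D'.Full π ∧
      Nat.card {P : Place k (D'.κ π) // P.ord (D'.xκ π) < 0} ≤
        Nat.card {P : Place L D'.F // P.ord D'.xF < 0} := by
  refine FixedCompose.full_and_poles_of_fixed π D D' hπ (I.full hπ) hξ hF I.ψ I.ψ_injective
    I.finrank_F_le (I.φ hπ) (I.φ_injective hπ) H hfix hstab (M := M) ?_ ?_ _ hζL ?_ _ hζk ?_
    I.u (ψ_u_twist I) (φ_u_twist I hπ)
  · show (embA A D.ξ).order = _
    rw [GaussRing.order_embA]; exact hξM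
  · show (redA A π D.ξ).order = _
    rw [GaussRing.redA_order_of_isUnit_leadingCoeff A π D.hlc]; exact hξM
  · show Fermat.Agent.S28.twist _ (embA A D.ξ) = embA A D.ξ
    rw [← GaussRing.embA_twist, hζξ]
  · show Fermat.Agent.S28.twist _ (redA A π D.ξ) = redA A π D.ξ
    rw [← GaussRing.redA_twist, hζξ]

/-- **`Full` and the pole inequality in the variable `q`**, from `IgusaData`: the fixed field
datum is `D₀.scale M₀`. -/
theorem full_and_poles_of_fixed_scale (D₀ : IntGen A ι') (M₀ : ℕ) [NeZero M₀]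
    (hξ : (D₀.scale M₀).ξ = D.ξ) (hF : ∀ j, (D₀.scale M₀).eL j ∈ D.F) (H : Subgroup G)
    (hfix : ∀ f : D.F, (f : LaurentSeries L) ∈ (D₀.scale M₀).F ↔ ∀ h ∈ H, I.act h f = f)
    (hstab : ∀ g : G, g ∈ H ↔ ∀ (j : ι') (hj : (D₀.scale M₀).ebar π j ∈ D.κ π),
      I.φ hπ g ⟨(D₀.scale M₀).ebar π j, hj⟩ = (⟨(D₀.scale M₀).ebar π j, hj⟩ : D.κ π))
    {M : ℕ} [NeZero M] (hξM : D.ξ.order = -(M : ℤ))
    (hζL : IsPrimitiveRoot (Units.map (A.subtype : A →* L) I.ζ) M)
    (hζk : IsPrimitiveRoot (Units.map (π : A →* k) I.ζ) M)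
    (hζξ : Fermat.Agent.S28.twist I.ζ D.ξ = D.ξ) :
    D₀.Full π ∧
      Nat.card {P : Place k (D₀.κ π) // P.ord (D₀.xκ π) < 0} ≤
        Nat.card {P : Place L D₀.F // P.ord D₀.xF < 0} := by
  obtain ⟨h1, h2⟩ := full_and_poles_of_fixed I hπ (D₀.scale M₀) hξ hF H hfix hstab hξM hζL hζk
    hζξ
  refine ⟨IntGen.Full.of_scale M₀ h1, ?_⟩
  rwa [IntGen.card_poles_scale_F D₀ M₀, IntGen.card_poles_scale_κ π D₀ M₀] at h2

end Fermat.Agent.S48x.Red1.IgusaFixed
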