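import Mathlib
import Fermat.Agent.S48x.Red1.IgusaFull

/-!
# P-S48, layer (c), (R6'): Igusa for an integrally generated field, kernel-tolerant form

`Red1/IgusaFull.full_of_decomposition` asks for a *finite* group `G` acting *faithfully* (its
hypothesis `dist` concludes `g = 1`) and permuting the generators through an action on the index
set.  The analytic layer delivers an action `act : SL(2, ℤ) →* (F ≃ₐ[L] F)` of an infinite group
with kernel `± Γ(M)`.  This file gives the variants needed for the instantiation: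

* `full_of_decomposition_of_mem` : finite faithful `G`, but the generators only need to have all
  their conjugates in `Sκ` (Gauss-integral with reduction in `κ`); no action on the index set;
* `full_of_decomposition_range` : an arbitrary group `Γ₀` acting through a homomorphism with
  *finite range*; faithfulness is only asked in the form `... → act g = 1`;
* `full_of_decomposition_perm` : the same with `hperm : ∀ g i, ∃ i', act g (e_i) = e_i'`.
-/

set_option autoImplicit false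
set_option linter.unusedSectionVars false

noncomputable section

namespace Fermat.Agent.S48x.Red1

open IntermediateField Fermat.Agent.Gateway.Red Fermat.Agent.Gateway.GoodRed
open Fermat.Agent.Gateway.GoodRed.GaussRing
open scoped Fermat.Agent.S48x.Red1.Shortcuts

namespace IntGen

variable {L : Type*} [Field L] {A : ValuationSubring L} {k : Type*} [Field k] (π : A →+* k)
  {ι : Type*} (D : IntGen A ι)
  {G : Type*} [Group G] (act : G →* (D.F ≃ₐ[L] D.F))

/-! ### generators all of whose conjugates lie in `Sκ` -/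

theorem eF_mem_igR_of_mem (hS : ∀ g i, act g (D.eF i) ∈ D.Sκ π) (i : ι) :
    D.eF i ∈ D.igR π act :=
  (D.mem_igR_iff π act).mpr fun g => hS g i

theorem igρ_eF_of_mem (i : ι) (h : D.eF i ∈ D.igR π act) :
    D.igρ π act ⟨D.eF i, h⟩ = D.eκ π i := by
  apply Subtype.ext
  rw [coe_igρ]
  exact redV_of_eq_embA A π D.F _ (a := D.e i) rfl

theorem finiteDimensional_κ_of_mem [Finite ι] [Finite G] (hπ : Function.Surjective π)
    (hS : ∀ g i, act g (D.eF i) ∈ D.Sκ π)
    (fixed : ∀ f : D.F, (∀ g, act g f = f) → f ∈ L⟮D.xF⟯) :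
    FiniteDimensional k⟮D.xκ π⟯ (D.κ π) := by
  have h1 : FiniteDimensional k⟮D.xκ π⟯
      (IntermediateField.adjoin k⟮D.xκ π⟯ (Set.range (D.eκ π))) := by
    apply IntermediateField.finiteDimensional_adjoin
    rintro _ ⟨i, rfl⟩
    rw [← D.igρ_eF_of_mem π act i (D.eF_mem_igR_of_mem π act hS i)]
    exact D.isIntegral_igρ π act hπ fixed _
  rw [D.adjoin_eκ_eq_top π] at h1
  exact LinearEquiv.finiteDimensional
    (IntermediateField.topEquiv (F := k⟮D.xκ π⟯) (E := D.κ π)).toLinearEquiv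

theorem igρ_surjective_of_mem [Finite ι] [Finite G] (hπ : Function.Surjective π)
    (act_x : ∀ g, act g D.xF = D.xF)
    (hS : ∀ g i, act g (D.eF i) ∈ D.Sκ π)
    (fixed : ∀ f : D.F, (∀ g, act g f = f) → f ∈ L⟮D.xF⟯) :
    Function.Surjective (D.igρ π act) := by
  have hfd := D.finiteDimensional_κ_of_mem π act hπ hS fixed
  have halg : Algebra.IsAlgebraic k⟮D.xκ π⟯ (D.κ π) := Algebra.IsAlgebraic.of_finite _ _
  let T : Subalgebra k⟮D.xκ π⟯ (D.κ π) :=
    { (D.igρ π act).range with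
      algebraMap_mem' := fun c => by
        obtain ⟨r, -, hr⟩ := D.exists_invariant_igρ_eq π act hπ act_x c
        exact ⟨r, hr⟩ }
  have hT : IsField T := Subalgebra.isField_of_algebraic T
  have h1 : IntermediateField.adjoin k⟮D.xκ π⟯ (Set.range (D.eκ π)) ≤ T.toIntermediateField' hT := by
    rw [IntermediateField.adjoin_le_iff]
    rintro _ ⟨i, rfl⟩
    exact ⟨⟨D.eF i, D.eF_mem_igR_of_mem π act hS i⟩, D.igρ_eF_of_mem π act i _⟩
  rw [D.adjoin_eκ_eq_top π] at h1
  intro y
  exact h1 (IntermediateField.mem_top (x := y))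

/-- **Igusa, finite faithful group, generators with conjugates in `Sκ`.**  The hypothesis `dist`
says: an element `g` such that every `act g (e_i)` (which is Gauss-integral by `hS`) has the same
reduction as `e_i` is trivial. -/
theorem full_of_decomposition_of_mem [Finite ι] [Finite G] (hπ : Function.Surjective π)
    (act_x : ∀ g, act g D.xF = D.xF)
    (hS : ∀ g i, act g (D.eF i) ∈ D.Sκ π)
    (fixed : ∀ f : D.F, (∀ g, act g f = f) → f ∈ L⟮D.xF⟯)
    (B : Subgroup G) (u : G) (ζ : Aˣ)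
    (hu : ∀ f : D.F, ((act u f : D.F) : LaurentSeries L) =
      Fermat.Agent.S28.twist (Units.map (A.subtype : A →* L) ζ) (f : LaurentSeries L))
    (hBu : ∀ b ∈ B, b * u * b⁻¹ ∈ Subgroup.zpowers u)
    (hnc : Subgroup.normalClosure {u} = ⊤)
    (hB : ∀ f : D.F, (∀ g, act g f ∈ Ov A π D.F) → (∀ b ∈ B, act b f = f) →
      ∀ (g : G) (h1 : f ∈ Ov A π D.F) (h2 : act g f ∈ Ov A π D.F),
        (redV A π D.F ⟨_, h2⟩ = 0 ↔ redV A π D.F ⟨_, h1⟩ = 0))
    (dist : ∀ g : G, (∀ i, ∃ h : act g (D.eF i) ∈ Ov A π D.F,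
      redV A π D.F ⟨_, h⟩ = D.ebar π i) → g = 1) :
    D.Full π := by
  obtain ⟨hfd, hle⟩ := D.finrank_F_le_card act fixed
  refine ⟨hfd, hle.trans ?_⟩
  have hfdκ := D.finiteDimensional_κ_of_mem π act hπ hS fixed
  have hzero : ∀ r : D.igR π act, D.igρ π act r = 0 ↔
      redV A π D.F ⟨r, D.mem_Ov_of_mem_igR π act r.2⟩ = 0 := fun r => by
    rw [← coe_igρ, ← ZeroMemClass.coe_eq_zero]
  refine card_le_finrank_of_decomposition (K := k⟮D.xκ π⟯) (D.igρ π act)
    (D.igρ_surjective_of_mem π act hπ act_x hS fixed) B u (fun r => ?_) hBu (fun r hr g => ?_) hnc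
    (D.exists_invariant_igρ_eq π act hπ act_x) (fun g hg => dist g fun i => ?_)
  · rw [← ZeroMemClass.coe_eq_zero, ← ZeroMemClass.coe_eq_zero (x := D.igρ π act r),
      D.coe_igρ_smul_of_twist π act u ζ hu r, Fermat.Agent.S28.twist_eq_zero_iff]
  · rw [hzero, hzero]
    refine hB r (fun g => D.mem_Ov_of_mem_igR π act (D.act_mem_igR π act r.2 g))
      (fun b hb => ?_) g _ _
    exact (D.coe_smul_igR π act b r).symm.trans (congrArg Subtype.val (hr b hb))
  · have hi := D.eF_mem_igR_of_mem π act hS i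
    have h1 := hg ⟨D.eF i, hi⟩
    rw [D.igρ_eF_of_mem π act i hi] at h1
    have h2 := congrArg Subtype.val h1
    rw [coe_igρ] at h2
    exact ⟨D.mem_Ov_of_mem_igR π act (D.act_mem_igR π act hi g), h2⟩

/-! ### an arbitrary group acting through a finite quotient -/

variable {Γ₀ : Type*} [Group Γ₀] (actΓ : Γ₀ →* (D.F ≃ₐ[L] D.F))

/-- **Igusa, kernel-tolerant form.**  `Γ₀` is any group acting on `F` through a homomorphism with
finite range (e.g. `SL(2, ℤ)` acting through `SL₂(ℤ/M)/± 1`). -/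
theorem full_of_decomposition_range [Finite ι] (hfin : Finite actΓ.range)
    (hπ : Function.Surjective π)
    (act_x : ∀ g, actΓ g D.xF = D.xF)
    (hS : ∀ g i, actΓ g (D.eF i) ∈ D.Sκ π)
    (fixed : ∀ f : D.F, (∀ g, actΓ g f = f) → f ∈ L⟮D.xF⟯)
    (B : Subgroup Γ₀) (u : Γ₀) (ζ : Aˣ)
    (hu : ∀ f : D.F, ((actΓ u f : D.F) : LaurentSeries L) =
      Fermat.Agent.S28.twist (Units.map (A.subtype : A →* L) ζ) (f : LaurentSeries L))
    (hBu : ∀ b ∈ B, b * u * b⁻¹ ∈ Subgroup.zpowers u)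
    (hnc : Subgroup.normalClosure {u} = ⊤)
    (hB : ∀ f : D.F, (∀ g, actΓ g f ∈ Ov A π D.F) → (∀ b ∈ B, actΓ b f = f) →
      ∀ (g : Γ₀) (h1 : f ∈ Ov A π D.F) (h2 : actΓ g f ∈ Ov A π D.F),
        (redV A π D.F ⟨_, h2⟩ = 0 ↔ redV A π D.F ⟨_, h1⟩ = 0))
    (dist : ∀ g : Γ₀, (∀ i, ∃ h : actΓ g (D.eF i) ∈ Ov A π D.F,
      redV A π D.F ⟨_, h⟩ = D.ebar π i) → actΓ g = 1) :
    D.Full π := by
  have hsurj : Function.Surjective actΓ.rangeRestrict := actΓ.rangeRestrict_surjective
  have hval : ∀ g : Γ₀, ((actΓ.rangeRestrict g : actΓ.range) : D.F ≃ₐ[L] D.F) = actΓ g :=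
    fun g => rfl
  refine D.full_of_decomposition_of_mem π actΓ.range.subtype hπ ?_ ?_ ?_ (B.map actΓ.rangeRestrict)
    (actΓ.rangeRestrict u) ζ ?_ ?_ ?_ ?_ ?_
  · intro σ
    obtain ⟨g, rfl⟩ := hsurj σ
    exact act_x g
  · intro σ i
    obtain ⟨g, rfl⟩ := hsurj σ
    exact hS g i
  · intro f hf
    exact fixed f fun g => hf (actΓ.rangeRestrict g)
  · exact hu
  · rintro _ ⟨b, hb, rfl⟩
    have h1 := Subgroup.mem_map_of_mem actΓ.rangeRestrict (hBu b hb)
    rw [MonoidHom.map_zpowers] at h1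
    rwa [map_mul, map_mul, map_inv] at h1
  · have h1 := Subgroup.map_normalClosure {u} actΓ.rangeRestrict hsurj
    rw [hnc, Set.image_singleton] at h1
    rw [← h1]
    exact Subgroup.map_top_of_surjective _ hsurj
  · intro f hO hBf σ h1 h2
    obtain ⟨g, rfl⟩ := hsurj σ
    refine hB f (fun g' => hO (actΓ.rangeRestrict g')) (fun b hb => ?_) g h1 h2
    exact hBf (actΓ.rangeRestrict b) (Subgroup.mem_map_of_mem _ hb)
  · intro σ hσ
    obtain ⟨g, rfl⟩ := hsurj σ
    exact Subtype.ext (dist g hσ)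

/-- **Igusa, kernel-tolerant form, permuted generators.** -/
theorem full_of_decomposition_perm [Finite ι] (hfin : Finite actΓ.range)
    (hπ : Function.Surjective π)
    (act_x : ∀ g, actΓ g D.xF = D.xF)
    (hperm : ∀ g i, ∃ i', actΓ g (D.eF i) = D.eF i')
    (fixed : ∀ f : D.F, (∀ g, actΓ g f = f) → f ∈ L⟮D.xF⟯)
    (B : Subgroup Γ₀) (u : Γ₀) (ζ : Aˣ)
    (hu : ∀ f : D.F, ((actΓ u f : D.F) : LaurentSeries L) =
      Fermat.Agent.S28.twist (Units.map (A.subtype : A →* L) ζ) (f : LaurentSeries L))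
    (hBu : ∀ b ∈ B, b * u * b⁻¹ ∈ Subgroup.zpowers u)
    (hnc : Subgroup.normalClosure {u} = ⊤)
    (hB : ∀ f : D.F, (∀ g, actΓ g f ∈ Ov A π D.F) → (∀ b ∈ B, actΓ b f = f) →
      ∀ (g : Γ₀) (h1 : f ∈ Ov A π D.F) (h2 : actΓ g f ∈ Ov A π D.F),
        (redV A π D.F ⟨_, h2⟩ = 0 ↔ redV A π D.F ⟨_, h1⟩ = 0))
    (dist : ∀ g : Γ₀, (∀ i i', actΓ g (D.eF i) = D.eF i' → D.ebar π i' = D.ebar π i) →
      actΓ g = 1) :
    D.Full π := by
  refine D.full_of_decomposition_range π actΓ hfin hπ act_x (fun g i => ?_) fixed B u ζ hu hBu hnc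
    hB (fun g hg => dist g fun i i' hi => ?_)
  · obtain ⟨i', hi'⟩ := hperm g i
    rw [hi']
    exact D.eF_mem_Sκ π i'
  · obtain ⟨h, hred⟩ := hg i
    rw [← hred]
    have e : (⟨actΓ g (D.eF i), h⟩ : Ov A π D.F) =
        ⟨D.eF i', embA_mem_gaussRing A π (D.e i')⟩ := Subtype.ext hi
    rw [e]
    exact (redV_of_eq_embA A π D.F _ (a := D.e i') rfl).symm

end IntGen

end Fermat.Agent.S48x.Red1
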