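/-
P-S48, layer (c), (R6): the inputs (hu) and (hfaith) of
`Red1/ResGalois.card_le_finrank_of_decomposition` in its elementwise `ρ`-shape (helper68).

Abstract setting, agnostic of how the ring `R` is built:

* `G` acts on a commutative ring `R`;
* `ι : R →+* LaurentSeries L` with values in the Gauss ring (`R ⊆ F ∩ gaussRing`);
* `ρ : R →+* E` the reduction, `j : E →+* LaurentSeries k` injective (e.g. the inclusion of the
  residue field `D.κ π`), with `j (ρ r) = gaussRed (ι r)`.

Then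

* `gaussRed_ratio` : the ratios `ratio M ζ v w v' w'` (`v', w' ≠ 0`) are Gauss-integral with
  reduction `ratio M (π ζ) v w v' w'`;
* `hu_of_twist` : if `u` acts as the twist `z ↦ ζ z`, then `ρ (u • r) = 0 ↔ ρ r = 0`;
* `hfaith_of_ratio` : if `G` permutes the ratio elements through `mat`, then an element acting
  trivially on the residue ring has `mat g = ± 1`, hence is `1` if `mat` is injective modulo `± 1`
  ((RIG) over the residue field, `Model/RigidityFinal` + `Red1/FaithfulRig`).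
-/
import Mathlib
import Fermat.Agent.S48x.Red1.FaithfulRig
import Fermat.Agent.S48x.Red1.ModelIntGen

set_option autoImplicit false
set_option linter.unusedSectionVars false

noncomputable section

namespace Fermat.Agent.S48x.Red1.IgusaInputs

open Fermat.Agent.S48x.Model Fermat.Agent.S48x.Model.Rigidity
open Fermat.Agent.Gateway.Red Fermat.Agent.Gateway.GoodRed Fermat.Agent.S28
open Fermat.Agent.S48x.Red1.ModelInt

variable {L : Type*} [Field L] (A : ValuationSubring L) {k : Type*} [Field k] (π : A →+* k)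
variable {M : ℕ} [NeZero M]

/-- the ratio generators are Gauss-integral (`v', w' ≠ 0`). -/
theorem ratio_mem_gaussRing (hπ : Function.Surjective π) {ζ : A} (hζ : IsPrimitiveRoot ζ M)
    (hMk : ((M : ℕ) : k) ≠ 0) (v w : Vec M) {v' w' : Vec M} (hv' : v' ≠ 0) (hw' : w' ≠ 0) :
    ratio M ((ζ : A) : L) v w v' w' ∈ gaussRing A π := by
  rw [← embA_ratioA hπ hζ hMk v w hv' hw']
  exact embA_mem_gaussRing A π _

/-- the reduction of a ratio generator is the ratio generator for the reduced root of unity. -/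
theorem gaussRed_ratio (hπ : Function.Surjective π) {ζ : A} (hζ : IsPrimitiveRoot ζ M)
    (hMk : ((M : ℕ) : k) ≠ 0) (v w : Vec M) {v' w' : Vec M} (hv' : v' ≠ 0) (hw' : w' ≠ 0)
    (h : ratio M ((ζ : A) : L) v w v' w' ∈ gaussRing A π) :
    gaussRed A π ⟨ratio M ((ζ : A) : L) v w v' w', h⟩ = ratio M (π ζ) v w v' w' := by
  rw [gaussRed_of_eq_embA A π _ (embA_ratioA hπ hζ hMk v w hv' hw').symm,
    redA_ratioA hπ hζ hMk v w hv' hw']

section Abstract

variable {G R E : Type*} [Group G] [CommRing R] [MulSemiringAction G R] [CommRing E]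
variable (ι : R →+* LaurentSeries L) (hι : ∀ r, ι r ∈ gaussRing A π)
variable (ρ : R →+* E) (j : E →+* LaurentSeries k) (hj : Function.Injective j)
variable (hρ : ∀ r, j (ρ r) = gaussRed A π ⟨ι r, hι r⟩)

include hj hρ in
/-- **(hu)**: an element acting as the twist `z ↦ ζ z` preserves the kernel of the reduction. -/
theorem hu_of_twist (u : G) (ζ : Aˣ)
    (hu : ∀ r, ι (u • r) = twist (Units.map (A.subtype : A →* L) ζ) (ι r)) (r : R) :
    ρ (u • r) = 0 ↔ ρ r = 0 := by
  have h1 : j (ρ (u • r)) = twist (Units.map (π : A →* k) ζ) (j (ρ r)) := by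
    rw [hρ, hρ, ← GaussRing.gaussRed_twist A π ζ (hι r)]
    congr 1
    exact Subtype.ext (hu r)
  rw [← map_eq_zero_iff j hj, ← map_eq_zero_iff j hj (x := ρ r), h1, twist_eq_zero_iff]

include hj hρ in
/-- **(hfaith), matrix form**: an element acting trivially on the residue ring has
`mat g = ± 1`. -/
theorem mat_eq_one_or_neg_one_of_rho (hM : 5 ≤ M) (hπ : Function.Surjective π) {ζ : A}
    (hζ : IsPrimitiveRoot ζ M) (hMk : ((M : ℕ) : k) ≠ 0)
    (mat : G → Matrix (Fin 2) (Fin 2) (ZMod M))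
    (rA : Vec M → Vec M → Vec M → Vec M → R)
    (hrA : ∀ v w v' w' : Vec M, v ≠ 0 → w ≠ 0 → Good v' w' →
      ι (rA v w v' w') = ratio M ((ζ : A) : L) v w v' w')
    (hact : ∀ (g : G) (v w v' w' : Vec M), v ≠ 0 → w ≠ 0 → Good v' w' →
      g • rA v w v' w' =
        rA (vecAct (mat g) v) (vecAct (mat g) w) (vecAct (mat g) v') (vecAct (mat g) w'))
    (g : G) (h : Matrix (Fin 2) (Fin 2) (ZMod M)) (hgh : mat g * h = 1) (hhg : h * mat g = 1)
    (hg : ∀ r : R, ρ (g • r) = ρ r) : mat g = 1 ∨ mat g = -1 := by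
  refine FaithfulRig.mat_eq_one_or_neg_one (isPrimitiveRoot_pi A π hπ hζ hMk) hM
    (RingHom.ker ρ) (j.comp ρ) (fun r hr => ?_) mat rA (fun v w v' w' hv hw hvw' => ?_) hact
    g h hgh hhg (fun r => ?_)
  · rw [RingHom.mem_ker] at hr
    rw [RingHom.comp_apply, hr, map_zero]
  · rw [RingHom.comp_apply, hρ]
    have e : (⟨ι (rA v w v' w'), hι _⟩ : gaussRing A π) =
        ⟨ratio M ((ζ : A) : L) v w v' w',
          ratio_mem_gaussRing A π hπ hζ hMk v w hvw'.1 hvw'.2.1⟩ :=
      Subtype.ext (hrA v w v' w' hv hw hvw')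
    rw [e, gaussRed_ratio A π hπ hζ hMk v w hvw'.1 hvw'.2.1]
  · rw [RingHom.mem_ker, map_sub, hg r, sub_self]

include hj hρ in
/-- **(hfaith)** in the shape of `Red1/ResGalois.card_le_finrank_of_decomposition`. -/
theorem hfaith_of_ratio (hM : 5 ≤ M) (hπ : Function.Surjective π) {ζ : A}
    (hζ : IsPrimitiveRoot ζ M) (hMk : ((M : ℕ) : k) ≠ 0)
    (mat : G → Matrix (Fin 2) (Fin 2) (ZMod M))
    (hmat : ∀ g : G, ∃ h : Matrix (Fin 2) (Fin 2) (ZMod M), mat g * h = 1 ∧ h * mat g = 1)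
    (hinj : ∀ g : G, mat g = 1 ∨ mat g = -1 → g = 1)
    (rA : Vec M → Vec M → Vec M → Vec M → R)
    (hrA : ∀ v w v' w' : Vec M, v ≠ 0 → w ≠ 0 → Good v' w' →
      ι (rA v w v' w') = ratio M ((ζ : A) : L) v w v' w')
    (hact : ∀ (g : G) (v w v' w' : Vec M), v ≠ 0 → w ≠ 0 → Good v' w' →
      g • rA v w v' w' =
        rA (vecAct (mat g) v) (vecAct (mat g) w) (vecAct (mat g) v') (vecAct (mat g) w')) :
    ∀ g : G, (∀ r : R, ρ (g • r) = ρ r) → g = 1 := by
  intro g hg
  obtain ⟨h, hgh, hhg⟩ := hmat g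
  exact hinj g (mat_eq_one_or_neg_one_of_rho A π ι hι ρ j hj hρ hM hπ hζ hMk mat rA hrA hact
    g h hgh hhg hg)

end Abstract

end Fermat.Agent.S48x.Red1.IgusaInputs
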