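import Fermat.Agent.S48x.G1.KummerInst
import Fermat.Agent.S48x.Red1.Gamma1Final

/-!
# P-S48, layer (c) → G1: the reduction inputs of the Jacobian side of `X₁(M)` (helper89)

`redInputs1 : G1.JSide.RedInputs M` for `8 ≤ M`, `4 ∣ M ∨ 9 ∣ M`: at every prime `q ∤ M`, every
valuation subring `A` of `ℚ̄` over `q` and every primitive `M`-th root of unity `ζ ∈ A`, the
integral model `gamma1IntGen A M ζ` of the function field of `X₁(M)` has full residue degree
((R6) Igusa), separable residue extension and satisfies the genus inequality ((R8)).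
Wrapper of `Red1/Gamma1Final.gamma1_redFacts` (helper15) at `L := ℚ̄`.
-/

set_option autoImplicit false

noncomputable section

namespace Fermat.Agent.S48x.Red1.RedInputsInst

open Fermat.Agent.S48x.Red1

/-- **The outputs of layer (c) for `X₁(M)`**, in the shape consumed by `G1/KummerInst`. -/
theorem redInputs1 {M : ℕ} [NeZero M] (h49 : 4 ∣ M ∨ 9 ∣ M) (hM : 8 ≤ M) :
    Fermat.Agent.S48x.G1.JSide.RedInputs M := by
  haveI : Algebra.IsAlgebraic ℚ (AlgebraicClosure ℚ) := AlgebraicClosure.isAlgebraic ℚ
  exact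
    { full := fun _ hq hqM A hA _ hζ => (Gamma1Final.gamma1_redFacts A hq hA hqM hM hζ).1
      hsep := fun _ hq hqM A hA _ hζ => (Gamma1Final.gamma1_redFacts A hq hA hqM hM hζ).2.1
      hgenus := fun _ hq hqM A hA _ hζ =>
        (Gamma1Final.gamma1_redFacts A hq hA hqM hM hζ).2.2 h49 }

end Fermat.Agent.S48x.Red1.RedInputsInst
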