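import Mathlib
import Fermat.Agent.S48x.Red1.DecompGroup

/-!
# P-S48, layer (c): the residue Galois group, abstract form

`G` a finite group acting on a commutative ring `R`; `ρ : R →+* E` a surjection onto a field
(the reduction map), `K ⊆ E` a subfield which is the image of the `G`-invariants.

* `exists_mem_smul_eq_of_fixed` : the hypothesis (hB) of the decomposition group argument from its
  elementwise form on `B`-fixed elements.
* `card_le_finrank_of_ker_stable` : if `G` stabilises `ker ρ` and acts faithfully on `E = R / ker ρ`,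
  then `|G| ≤ [E : K]`.
* `card_le_finrank_of_decomposition` : the same conclusion from the four hypotheses of the
  decomposition group argument (`Red1/DecompGroup.lean`).
-/

set_option autoImplicit false
set_option linter.unusedSectionVars false

open Pointwise

namespace Fermat.Agent.S48x.Red1

section Fixed

variable {G R : Type*} [Group G] [Finite G] [CommRing R] [MulSemiringAction G R]

/-- (hB) of the decomposition group argument from its elementwise form: if for every `B`-fixed
`r : R` and every `g : G`, `g • r ∈ P ↔ r ∈ P`, then every `g • P` is `b • P` with `b ∈ B`. -/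
theorem exists_mem_smul_eq_of_fixed (P : Ideal R) [P.IsPrime] (B : Subgroup G)
    (h : ∀ (g : G) (r : R), (∀ b ∈ B, b • r = r) → (g • r ∈ P ↔ r ∈ P)) (g : G) :
    ∃ b ∈ B, g • P = b • P := by
  have : Algebra.IsInvariant (FixedPoints.subring R B) R B :=
    ⟨fun r hr => ⟨⟨r, fun b => hr b⟩, rfl⟩⟩
  refine exists_mem_smul_eq_of_under_eq P B (FixedPoints.subring R B) (fun g => ?_) g
  ext r
  have hr : ∀ b ∈ B, b • (r : R) = r := fun b hb => r.2 ⟨b, hb⟩
  rw [Ideal.under_def, Ideal.under_def, Ideal.mem_comap, Ideal.mem_comap]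
  change (r : R) ∈ g • P ↔ (r : R) ∈ P
  rw [Ideal.mem_pointwise_smul_iff_inv_smul_mem]
  exact h g⁻¹ r hr

end Fixed

section Residue

variable {G R K E : Type*} [Group G] [Finite G] [CommRing R] [MulSemiringAction G R]
  [Field K] [Field E] [Algebra K E] [FiniteDimensional K E]

/-- the automorphism of `E = R / ker ρ` induced by `g : G` when `G` stabilises `ker ρ`. -/
noncomputable def resHom (ρ : R →+* E) (hρ : Function.Surjective ρ)
    (hker : ∀ (g : G) (r : R), ρ r = 0 → ρ (g • r) = 0) (g : G) : E →+* E :=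
  ρ.liftOfSurjective hρ ⟨ρ.comp (MulSemiringAction.toRingHom G R g), fun r hr => by
    rw [RingHom.mem_ker] at hr ⊢
    exact hker g r hr⟩

theorem resHom_apply (ρ : R →+* E) (hρ : Function.Surjective ρ)
    (hker : ∀ (g : G) (r : R), ρ r = 0 → ρ (g • r) = 0) (g : G) (r : R) :
    resHom ρ hρ hker g (ρ r) = ρ (g • r) := by
  rw [resHom]
  exact RingHom.liftOfRightInverse_comp_apply _ _ _ _ r

/-- **the residue Galois group**: if `G` stabilises `ker ρ`, the image of the invariants is `K`
and `G` acts faithfully on `E = R / ker ρ`, then `|G| ≤ [E : K]`. -/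
theorem card_le_finrank_of_ker_stable (ρ : R →+* E) (hρ : Function.Surjective ρ)
    (hker : ∀ (g : G) (r : R), ρ r = 0 → ρ (g • r) = 0)
    (hK : ∀ c : K, ∃ r : R, (∀ g : G, g • r = r) ∧ ρ r = algebraMap K E c)
    (hfaith : ∀ g : G, (∀ r : R, ρ (g • r) = ρ r) → g = 1) :
    Nat.card G ≤ Module.finrank K E := by
  let ψ : G → (E →ₐ[K] E) := fun g =>
    { resHom ρ hρ hker g with
      commutes' := fun c => by
        obtain ⟨r, hr, hrc⟩ := hK c
        change resHom ρ hρ hker g (algebraMap K E c) = algebraMap K E c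
        rw [← hrc, resHom_apply, hr g] }
  have hψ : ∀ g r, ψ g (ρ r) = ρ (g • r) := fun g r => resHom_apply ρ hρ hker g r
  have hinj : Function.Injective ψ := by
    intro g h hgh
    have h1 : g * h⁻¹ = 1 := by
      refine hfaith _ fun r => ?_
      have h2 : ψ g (ρ (h⁻¹ • r)) = ψ h (ρ (h⁻¹ • r)) := by rw [hgh]
      rw [hψ, hψ, smul_inv_smul, ← mul_smul] at h2
      exact h2
    exact mul_inv_eq_one.mp h1
  calc Nat.card G ≤ Nat.card (E →ₐ[K] E) := Nat.card_le_card_of_injective ψ hinj
    _ = Fintype.card (E →ₐ[K] E) := Nat.card_eq_fintype_card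
    _ ≤ Module.finrank K E := AlgHom.card_le

omit [Field K] [Algebra K E] [FiniteDimensional K E] in
/-- **the decomposition group argument for the kernel of a reduction map**: under the four
hypotheses (`u` the transvection, `B` the Borel subgroup), `G` stabilises `ker ρ`. -/
theorem ker_stable_of_decomposition (ρ : R →+* E)
    (B : Subgroup G) (u : G)
    (hu : ∀ r : R, ρ (u • r) = 0 ↔ ρ r = 0)
    (hBu : ∀ b ∈ B, b * u * b⁻¹ ∈ Subgroup.zpowers u)
    (hB : ∀ r : R, (∀ b ∈ B, b • r = r) → ∀ g : G, (ρ (g • r) = 0 ↔ ρ r = 0))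
    (hnc : Subgroup.normalClosure {u} = ⊤) (g : G) (r : R) (hr : ρ r = 0) : ρ (g • r) = 0 := by
  have : (RingHom.ker ρ).IsPrime := RingHom.ker_isPrime ρ
  have hmem : ∀ (g : G) (r : R), r ∈ g • RingHom.ker ρ ↔ ρ (g⁻¹ • r) = 0 := fun g r => by
    rw [Ideal.mem_pointwise_smul_iff_inv_smul_mem, RingHom.mem_ker]
  have huP : u • RingHom.ker ρ = RingHom.ker ρ := by
    ext r
    rw [hmem, RingHom.mem_ker]
    have := hu (u⁻¹ • r)
    rw [smul_inv_smul] at this
    exact this.symm
  have hBP : ∀ g : G, ∃ b ∈ B, g • RingHom.ker ρ = b • RingHom.ker ρ :=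
    exists_mem_smul_eq_of_fixed (RingHom.ker ρ) B fun g r hr => by
      rw [RingHom.mem_ker, RingHom.mem_ker]
      exact hB r hr g
  have hP := smul_eq_of_decomposition (RingHom.ker ρ) B u huP hBu hBP hnc
  have h1 : g • r ∈ g • RingHom.ker ρ := by
    rw [hmem, inv_smul_smul]
    exact hr
  rw [hP g] at h1
  exact h1

/-- **Igusa, abstract form**: the decomposition group argument followed by the residue Galois
group. `u` is the transvection, `B` the Borel subgroup. -/
theorem card_le_finrank_of_decomposition (ρ : R →+* E) (hρ : Function.Surjective ρ)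
    (B : Subgroup G) (u : G)
    (hu : ∀ r : R, ρ (u • r) = 0 ↔ ρ r = 0)
    (hBu : ∀ b ∈ B, b * u * b⁻¹ ∈ Subgroup.zpowers u)
    (hB : ∀ r : R, (∀ b ∈ B, b • r = r) → ∀ g : G, (ρ (g • r) = 0 ↔ ρ r = 0))
    (hnc : Subgroup.normalClosure {u} = ⊤)
    (hK : ∀ c : K, ∃ r : R, (∀ g : G, g • r = r) ∧ ρ r = algebraMap K E c)
    (hfaith : ∀ g : G, (∀ r : R, ρ (g • r) = ρ r) → g = 1) :
    Nat.card G ≤ Module.finrank K E :=
  card_le_finrank_of_ker_stable ρ hρ (ker_stable_of_decomposition ρ B u hu hBu hB hnc) hK hfaith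

end Residue

end Fermat.Agent.S48x.Red1
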