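import Mathlib
import Fermat.Agent.S48x.Red1.FullFixedInst
import Fermat.Agent.S48x.Red1.VarChange

/-!
# P-S48, layer (c): separability of the residue extensions

In the setting of `Red1/FullFixedInst.full_of_fixed` (`D` the full level datum with the reduced
faithful action `φ : G →* Gal(D.κ π / k(x̄))`, `[κ : k(x̄)] ≤ |G|`; `D'` a datum with the same base
coordinate and `D'.κ π ⊆ D.κ π`):

* `isGalois_κ`, `isSeparable_κ` : `D.κ π / k(x̄)` is Galois, hence separable;
* `isSeparable_κ_of_le` : a subdatum of a datum with separable residue extension has separable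
  residue extension;
* `isSeparable_κ_of_fixed` : both combined (the shape needed by `Red1/C0GenFull` and
  `Red1/GenusLE1Setting` for `D' =` the `Γ₁`-datum);
* `isSeparable_κ_scale`, `isSeparable_κ_of_scale` : separability is insensitive to the change of
  variable `q = z^M` of `Red1/VarChange`; same for `F` (`isSeparable_F_scale`,
  `isSeparable_F_of_scale`), and `isSeparable_F_of_le`.

Generic tool: `isSeparable_adjoin_of_algHom` (pull back separability over `K(x)` along an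
embedding of fields over `K`).
-/

set_option autoImplicit false
set_option linter.unusedSectionVars false

open Module IntermediateField Polynomial

noncomputable section

namespace Fermat.Agent.S48x.Red1.SepFixed

open Fermat.Agent.S48x.Red1 Fermat.Agent.Gateway.Red Fermat.Agent.Gateway.GoodRed

section Generic

variable {K E E' : Type*} [Field K] [Field E] [Field E'] [Algebra K E] [Algebra K E']

/-- **Pull back of separability over a simple transcendental (or any) base**: if `φ : E' → E` is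
a `K`-embedding with `φ x' = x` and `E / K(x)` is separable, then `E' / K(x')` is separable. -/
theorem isSeparable_adjoin_of_algHom (φ : E' →ₐ[K] E) (x' : E') (x : E) (hx : φ x' = x)
    [Algebra.IsSeparable K⟮x⟯ E] : Algebra.IsSeparable K⟮x'⟯ E' := by
  subst hx
  have hmapeq : (K⟮x'⟯).map φ = K⟮φ x'⟯ := by
    rw [IntermediateField.adjoin_map, Set.image_singleton]
  have hmem : ∀ r : K⟮x'⟯, φ (r : E') ∈ K⟮φ x'⟯ := fun r => by
    rw [← hmapeq]
    exact ⟨r, r.2, rfl⟩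
  let b : K⟮x'⟯ →+* K⟮φ x'⟯ :=
    ((φ : E' →+* E).comp (algebraMap K⟮x'⟯ E')).codRestrict K⟮φ x'⟯ hmem
  have hb : ∀ r : K⟮x'⟯, ((b r : K⟮φ x'⟯) : E) = φ (r : E') := fun r => rfl
  have hbsurj : Function.Surjective b := by
    rintro ⟨s, hs⟩
    rw [← hmapeq] at hs
    obtain ⟨r, hr, rfl⟩ := hs
    exact ⟨⟨r, hr⟩, Subtype.ext rfl⟩
  have hcomp : (φ : E' →+* E).comp (algebraMap K⟮x'⟯ E') = (algebraMap K⟮φ x'⟯ E).comp b := by
    ext r
    rfl
  refine ⟨fun y => ?_⟩
  have hsep : (minpoly K⟮φ x'⟯ (φ y)).Separable := Algebra.IsSeparable.isSeparable K⟮φ x'⟯ (φ y)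
  obtain ⟨P', hP'⟩ := Polynomial.map_surjective b hbsurj (minpoly K⟮φ x'⟯ (φ y))
  have hP'sep : P'.Separable := by
    rw [← Polynomial.separable_map b, hP']
    exact hsep
  have h0 : Polynomial.aeval y P' = 0 := by
    apply (φ : E' →+* E).injective
    rw [map_zero, Polynomial.aeval_def, Polynomial.hom_eval₂, hcomp, ← Polynomial.eval₂_map, hP',
      ← Polynomial.aeval_def]
    exact minpoly.aeval K⟮φ x'⟯ (φ y)
  exact hP'sep.of_dvd (minpoly.dvd K⟮x'⟯ y h0)

/-- separability over `K(x)` is transported by `K`-isomorphisms. -/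
theorem isSeparable_adjoin_of_algEquiv (e : E ≃ₐ[K] E') (x : E) (x' : E') (hx : e x = x')
    [Algebra.IsSeparable K⟮x⟯ E] : Algebra.IsSeparable K⟮x'⟯ E' :=
  isSeparable_adjoin_of_algHom (e.symm : E' →ₐ[K] E) x' x (by
    rw [← hx]
    exact e.symm_apply_apply x)

end Generic

section Inter

variable {K Ω : Type*} [Field K] [Field Ω] [Algebra K Ω]

/-- for intermediate fields `E' ≤ E` of `Ω / K` and `x ∈ E'`: if `E / K(x)` is separable then so
is `E' / K(x)`. -/
theorem isSeparable_adjoin_of_le {E' E : IntermediateField K Ω} (hle : E' ≤ E) (x' : E') (x : E)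
    (hx : (x' : Ω) = x) [Algebra.IsSeparable K⟮x⟯ E] : Algebra.IsSeparable K⟮x'⟯ E' :=
  isSeparable_adjoin_of_algHom (IntermediateField.inclusion hle) x' x (Subtype.ext hx)

end Inter

variable {L : Type*} [Field L] {A : ValuationSubring L} {k : Type*} [Field k] (π : A →+* k)
  {ι ι' : Type*} (D : IntGen A ι) (D' : IntGen A ι')

/-! ### the full level datum: the residue extension is Galois -/

/-- `D.κ π / k(x̄)` is Galois as soon as a group of order `≥ [κ : k(x̄)]` acts faithfully. -/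
theorem isGalois_κ {G : Type*} [Group G] [Finite G] [FiniteDimensional k⟮D.xκ π⟯ (D.κ π)]
    (φ : G →* Gal(D.κ π/k⟮D.xκ π⟯)) (hφ : Function.Injective φ)
    (hcardκ : finrank k⟮D.xκ π⟯ (D.κ π) ≤ Nat.card G) : IsGalois k⟮D.xκ π⟯ (D.κ π) :=
  FixedFull.isGalois_of_card_le φ hφ hcardκ

theorem isSeparable_κ {G : Type*} [Group G] [Finite G] [FiniteDimensional k⟮D.xκ π⟯ (D.κ π)]
    (φ : G →* Gal(D.κ π/k⟮D.xκ π⟯)) (hφ : Function.Injective φ)
    (hcardκ : finrank k⟮D.xκ π⟯ (D.κ π) ≤ Nat.card G) :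
    Algebra.IsSeparable k⟮D.xκ π⟯ (D.κ π) :=
  have := isGalois_κ π D φ hφ hcardκ
  inferInstance

/-- the same on the generic fibre (any characteristic). -/
theorem isGalois_F {G : Type*} [Group G] [Finite G] [FiniteDimensional L⟮D.xF⟯ D.F]
    (ψ : G →* Gal(D.F/L⟮D.xF⟯)) (hψ : Function.Injective ψ)
    (hcardF : finrank L⟮D.xF⟯ D.F ≤ Nat.card G) : IsGalois L⟮D.xF⟯ D.F :=
  FixedFull.isGalois_of_card_le ψ hψ hcardF

/-! ### subdata -/

theorem κ_le_of_mem (hξ : D'.ξ = D.ξ) (hκ : ∀ j, D'.ebar π j ∈ D.κ π) : D'.κ π ≤ D.κ π := by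
  have hx : D'.xbar π = D.xbar π := by unfold IntGen.xbar; rw [hξ]
  unfold IntGen.κ
  rw [IntermediateField.adjoin_le_iff]
  rintro y (rfl | ⟨j, rfl⟩)
  · rw [hx]; exact D.xbar_mem π
  · exact hκ j

theorem F_le_of_mem (hξ : D'.ξ = D.ξ) (hF : ∀ j, D'.eL j ∈ D.F) : D'.F ≤ D.F := by
  have hx : D'.x = D.x := by unfold IntGen.x; rw [hξ]
  unfold IntGen.F
  rw [IntermediateField.adjoin_le_iff]
  rintro y (rfl | ⟨j, rfl⟩)
  · rw [hx]; exact D.x_mem
  · exact hF j

/-- a subdatum (same base coordinate, reduced generators inside `D.κ π`) of a datum with separable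
residue extension has separable residue extension. -/
theorem isSeparable_κ_of_le (hξ : D'.ξ = D.ξ) (hκ : ∀ j, D'.ebar π j ∈ D.κ π)
    [Algebra.IsSeparable k⟮D.xκ π⟯ (D.κ π)] : Algebra.IsSeparable k⟮D'.xκ π⟯ (D'.κ π) :=
  isSeparable_adjoin_of_le (κ_le_of_mem π D D' hξ hκ) (D'.xκ π) (D.xκ π) (by
    show D'.xbar π = D.xbar π
    unfold IntGen.xbar
    rw [hξ])

/-- the same on the generic fibre. -/
theorem isSeparable_F_of_le (hξ : D'.ξ = D.ξ) (hF : ∀ j, D'.eL j ∈ D.F)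
    [Algebra.IsSeparable L⟮D.xF⟯ D.F] : Algebra.IsSeparable L⟮D'.xF⟯ D'.F :=
  isSeparable_adjoin_of_le (F_le_of_mem D D' hξ hF) D'.xF D.xF (by
    show D'.x = D.x
    unfold IntGen.x
    rw [hξ])

/-- **separability of the residue extension of a fixed-field datum**, in the hypothesis shape of
`FullFixedInst.full_of_fixed`. -/
theorem isSeparable_κ_of_fixed (hξ : D'.ξ = D.ξ) (hκ : ∀ j, D'.ebar π j ∈ D.κ π)
    {G : Type*} [Group G] [Finite G] [FiniteDimensional k⟮D.xκ π⟯ (D.κ π)]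
    (φ : G →* Gal(D.κ π/k⟮D.xκ π⟯)) (hφ : Function.Injective φ)
    (hcardκ : finrank k⟮D.xκ π⟯ (D.κ π) ≤ Nat.card G) :
    Algebra.IsSeparable k⟮D'.xκ π⟯ (D'.κ π) :=
  have := isSeparable_κ π D φ hφ hcardκ
  isSeparable_κ_of_le π D D' hξ hκ

/-- finite-dimensionality passes to subdata. -/
theorem finiteDimensional_κ_of_le (hξ : D'.ξ = D.ξ) (hκ : ∀ j, D'.ebar π j ∈ D.κ π)
    [FiniteDimensional k⟮D.xκ π⟯ (D.κ π)] : FiniteDimensional k⟮D'.xκ π⟯ (D'.κ π) := by
  have hx : D'.xbar π = D.xbar π := by unfold IntGen.xbar; rw [hξ]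
  have hle := κ_le_of_mem π D D' hξ hκ
  have e1 : finrank k⟮D.xκ π⟯ (D.κ π) = relfinrank k⟮D.xbar π⟯ (D.κ π) :=
    FullFixedInst.finrank_adjoin_simple_eq_relfinrank (D.κ π) (D.xκ π)
  have h1 : relfinrank k⟮D.xbar π⟯ (D.κ π) ≠ 0 := by
    rw [← e1]
    exact (finrank_pos).ne'
  have hKx : k⟮D.xbar π⟯ ≤ D'.κ π := by
    rw [IntermediateField.adjoin_simple_le_iff, ← hx]
    exact D'.xbar_mem π
  have h2 : relfinrank k⟮D.xbar π⟯ (D'.κ π) ≠ 0 := by
    intro h0
    apply h1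
    rw [← IntermediateField.relfinrank_mul_relfinrank hKx hle, h0, zero_mul]
  have e2 : finrank k⟮D'.xκ π⟯ (D'.κ π) = relfinrank k⟮D'.xbar π⟯ (D'.κ π) :=
    FullFixedInst.finrank_adjoin_simple_eq_relfinrank (D'.κ π) (D'.xκ π)
  have h3 : finrank k⟮D'.xκ π⟯ (D'.κ π) ≠ 0 := by
    rw [e2, hx]
    exact h2
  exact Module.finite_of_finrank_pos (Nat.pos_of_ne_zero h3)

/-! ### change of variable `q = z^M` -/

variable (M : ℕ) [NeZero M]

theorem isSeparable_κ_scale [Algebra.IsSeparable k⟮D.xκ π⟯ (D.κ π)] :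
    Algebra.IsSeparable k⟮(D.scale M).xκ π⟯ ((D.scale M).κ π) :=
  isSeparable_adjoin_of_algEquiv (D.scaleEquivκ π M) (D.xκ π) ((D.scale M).xκ π)
    (IntGen.scaleEquivκ_xκ π D M)

theorem isSeparable_κ_of_scale [Algebra.IsSeparable k⟮(D.scale M).xκ π⟯ ((D.scale M).κ π)] :
    Algebra.IsSeparable k⟮D.xκ π⟯ (D.κ π) :=
  isSeparable_adjoin_of_algHom ((D.scaleEquivκ π M : D.κ π ≃ₐ[k] (D.scale M).κ π) :
    D.κ π →ₐ[k] (D.scale M).κ π) (D.xκ π) ((D.scale M).xκ π) (IntGen.scaleEquivκ_xκ π D M)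

theorem isSeparable_F_scale [Algebra.IsSeparable L⟮D.xF⟯ D.F] :
    Algebra.IsSeparable L⟮(D.scale M).xF⟯ (D.scale M).F :=
  isSeparable_adjoin_of_algEquiv (D.scaleEquivF M) D.xF (D.scale M).xF
    (IntGen.scaleEquivF_xF D M)

theorem isSeparable_F_of_scale [Algebra.IsSeparable L⟮(D.scale M).xF⟯ (D.scale M).F] :
    Algebra.IsSeparable L⟮D.xF⟯ D.F :=
  isSeparable_adjoin_of_algHom ((D.scaleEquivF M : D.F ≃ₐ[L] (D.scale M).F) :
    D.F →ₐ[L] (D.scale M).F) D.xF (D.scale M).xF (IntGen.scaleEquivF_xF D M)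

end Fermat.Agent.S48x.Red1.SepFixed
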